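/-
S14 (ExtVanishingCts): common definitions for the Kummer + Thaine route.
See notes/S14_route_helper494.md for the mathematics.  All declarations live in
`Fermat.Agent.S14`.
-/
import Mathlib
import Fermat.Statements.S14
import Fermat.Prelude.Def_ExtCitation_KummerBridge

set_option autoImplicit false

namespace Fermat.Agent.S14

open ExtCitation NumberField
open scoped nonZeroDivisors

/-- `ℚ̄`, the algebraic closure used by the frozen statement. -/
abbrev Qb : Type := AlgebraicClosure ℚ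

/-- `Gal(ℚ̄/ℚ)`. -/
abbrev GQ : Type := Qb ≃ₐ[ℚ] Qb

/-! The `ℚ`-algebra structure on `ℚ̄` found by instance search (`DivisionRing.toRatAlgebra`) is
only defeq, not syntactically equal, to `AlgebraicClosure.instAlgebra`; restate the instances. -/

instance instIsAlgebraicQb : Algebra.IsAlgebraic ℚ Qb := AlgebraicClosure.isAlgebraic ℚ

instance instIsAlgClosureQb : IsAlgClosure ℚ Qb := AlgebraicClosure.instIsAlgClosure ℚ

instance instIsIntegralQb : Algebra.IsIntegral ℚ Qb := Algebra.IsAlgebraic.isIntegral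

instance instIsGaloisQb : IsGalois ℚ Qb := IsAlgClosure.isGalois ℚ Qb

/-! ### The cocycle attached to an admissible extension -/

section cocycle

variable (p : ℕ) [Fact p.Prime]

/-- The properties of the function `b : G_ℚ → 𝔽_p` defined by
`σ • v₀ = χ(σ) • v₀ + b(σ) • c₀` for an admissible extension `0 → C → V → V/C → 0`. -/
structure IsExtCocycle (b : GQ → ZMod p) : Prop where
  map_mul : ∀ σ τ : GQ, b (σ * τ) = (cycloChar p τ : ZMod p) * b σ + b τ
  open_ker : ∃ N : Subgroup GQ, IsOpen (N : Set GQ) ∧ ∀ σ ∈ N, b σ = 0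
  unram : ∀ ℓ : ℕ, ℓ.Prime → ℓ ≠ p → ∀ A : ValuationSubring Qb, A.LiesOverPrime ℓ →
    ∀ σ ∈ A.inertiaSubgroupIn ℚ, b σ = 0
  split : ∀ A : ValuationSubring Qb, A.LiesOverPrime p →
    ∀ σ ∈ A.decompositionSubgroup ℚ, cycloChar p σ = 1 → b σ = 0

end cocycle

/-! ### The cyclotomic field inside `ℚ̄` -/

section cyclo

variable (p : ℕ) [Fact p.Prime]

theorem exists_zetaBar : ∃ ζ : Qb, IsPrimitiveRoot ζ p := by
  have : NeZero p := ⟨(Fact.out : p.Prime).ne_zero⟩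
  have : NeZero (p : Qb) := ⟨Nat.cast_ne_zero.mpr (NeZero.ne p)⟩
  exact HasEnoughRootsOfUnity.exists_primitiveRoot Qb p

/-- A fixed primitive `p`-th root of unity in `ℚ̄`. -/
noncomputable def zetaBar : Qb := (exists_zetaBar p).choose

theorem zetaBar_spec : IsPrimitiveRoot (zetaBar p) p := (exists_zetaBar p).choose_spec

/-- `K = ℚ(ζ_p)` as a subfield of `ℚ̄`. -/
noncomputable def Kp : IntermediateField ℚ Qb := IntermediateField.adjoin ℚ {zetaBar p}

/-- `ζ_p` as an element of `Kp p`. -/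
noncomputable def zetaK : Kp p :=
  ⟨zetaBar p, IntermediateField.mem_adjoin_simple_self ℚ (zetaBar p)⟩

theorem zetaK_spec : IsPrimitiveRoot (zetaK p) p :=
  IsPrimitiveRoot.coe_submonoidClass_iff.mp (zetaBar_spec p)

instance instIsCyclotomicExtensionKp : IsCyclotomicExtension {p} ℚ (Kp p) :=
  haveI : NeZero p := ⟨(Fact.out : p.Prime).ne_zero⟩
  IsPrimitiveRoot.intermediateField_adjoin_isCyclotomicExtension ℚ (zetaBar_spec p)

instance instNumberFieldKp : NumberField (Kp p) :=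
  haveI : NeZero p := ⟨(Fact.out : p.Prime).ne_zero⟩
  IsCyclotomicExtension.numberField {p} ℚ (Kp p)

end cyclo

/-! ### Arithmetic predicates on elements of a number field containing `ζ_p` -/

section arith

variable (p : ℕ) {K : Type*} [Field K] [NumberField K] (ζ : K)

/-- `A` is an `ω²`-eigenvector modulo `p`-th powers: `σ_k(A) ∈ A^(k²) · K^p`. -/
def EigenSq (A : K) : Prop :=
  ∀ (σ : K ≃ₐ[ℚ] K) (k : ℕ), σ ζ = ζ ^ k → ∃ c : K, σ A = A ^ (k ^ 2) * c ^ p

/-- `A` is a `p`-th power modulo `λ³`, `λ = ζ - 1`, after multiplication by a `p`-th power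
(elementary form: `A y^p - 1 = λ³ a / b` with `a, b` integral and `λ ∤ b`). -/
def LocalPow (A : K) : Prop :=
  ∃ y a b : K, y ≠ 0 ∧ IsIntegral ℤ a ∧ IsIntegral ℤ b ∧
    (¬ ∃ b' : K, IsIntegral ℤ b' ∧ b = (ζ - 1) * b') ∧
    (A * y ^ p - 1) * b = (ζ - 1) ^ 3 * a

/-- The hypotheses on the Kummer generator `A` of an everywhere unramified, `λ`-split cyclic
extension of degree `p` on which `Gal(K/ℚ)` acts through `ω⁻¹`. -/
structure IsSingular (A : K) : Prop where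
  ne_zero : A ≠ 0
  eigen : EigenSq p ζ A
  pow_ideal : ∃ I : FractionalIdeal (𝓞 K)⁰ K, FractionalIdeal.spanSingleton (𝓞 K)⁰ A = I ^ p
  localPow : LocalPow p ζ A

/-- The cyclotomic unit `η = ∏_{t=1}^{p-1} (1 + ζ^t)^{n_t}`, `n_t ≡ t⁻² mod p` (in `K`). -/
noncomputable def etaK : K :=
  ∏ t ∈ Finset.Ico 1 p, (1 + ζ ^ t) ^ (((t : ZMod p)⁻¹) ^ 2).val

end arith

section arith2

variable {p : ℕ} [Fact p.Prime] {K : Type*} [Field K] {ζ : K}

/-- `η` as an algebraic integer. -/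
noncomputable def etaInt (hζ : IsPrimitiveRoot ζ p) : 𝓞 K :=
  haveI : NeZero p := ⟨(Fact.out : p.Prime).ne_zero⟩
  ∏ t ∈ Finset.Ico 1 p, (1 + hζ.toInteger ^ t) ^ (((t : ZMod p)⁻¹) ^ 2).val

theorem coe_etaInt (hζ : IsPrimitiveRoot ζ p) : ((etaInt hζ : 𝓞 K) : K) = etaK p ζ := by
  have : NeZero p := ⟨(Fact.out : p.Prime).ne_zero⟩
  simp only [etaInt, etaK, map_prod, map_pow, map_add, map_one]
  rfl

/-- The exponent `m_σ ∈ {1, …, p-1}`, `m_σ ≡ χ(σ)⁻² mod p`, of `σ` in Thaine's element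
`ε₂ = ∑_σ m_σ σ ∈ ℤ[Gal(K/ℚ)]`. -/
noncomputable def expInvSq [NumberField K] (hζ : IsPrimitiveRoot ζ p) (σ : K ≃ₐ[ℚ] K) : ℕ :=
  haveI : NeZero p := ⟨(Fact.out : p.Prime).ne_zero⟩
  ((((hζ.autToPow ℚ σ)⁻¹ : (ZMod p)ˣ) : ZMod p) ^ 2).val

end arith2

/-! ### Kummer generators -/

section kummer

variable (p : ℕ) [Fact p.Prime]

/-- `α ∈ ℚ̄` is a Kummer generator for the cocycle `b`: `α^p ∈ K` and `σ α = ζ^{u b(σ)} α`
for all `σ ∈ G_K = ker χ` (`u` a fixed unit of `𝔽_p`). -/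
structure IsKummerGen (b : GQ → ZMod p) (α : Qb) : Prop where
  ne_zero : α ≠ 0
  pow_mem : α ^ p ∈ Kp p
  smul : ∃ u : (ZMod p)ˣ, ∀ σ : GQ, cycloChar p σ = 1 →
    σ α = zetaBar p ^ ((u : ZMod p) * b σ).val * α

end kummer

/-! ### Partial zeta functions (real variable) -/

section zeta

variable (F : Type*) [Field F] [NumberField F]

/-- `ζ(s, C) = ∑_{𝔞 ∈ C} N𝔞^{-s}` for an ideal class `C`, real `s`. -/
noncomputable def partialZeta (C : ClassGroup (𝓞 F)) (s : ℝ) : ℝ :=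
  ∑' I : {I : (Ideal (𝓞 F))⁰ // ClassGroup.mk0 I = C},
    (Ideal.absNorm ((I : (Ideal (𝓞 F))⁰) : Ideal (𝓞 F)) : ℝ) ^ (-s)

/-- `ζ_F(s) = ∑_{𝔞 ≠ 0} N𝔞^{-s}`, real `s`. -/
noncomputable def idealZeta (s : ℝ) : ℝ :=
  ∑' I : (Ideal (𝓞 F))⁰, (Ideal.absNorm (I : Ideal (𝓞 F)) : ℝ) ^ (-s)

end zeta

end Fermat.Agent.S14
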