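/-
S14 package W1 (helper8288): `exists_cocycle` for the helper494 skeleton
(`Fermat/Agent/S14/Skeleton.lean`), same statement.  Pure linear algebra / group theory.
Auxiliary declarations live in `Fermat.Agent.S14.W1H8288`.
-/
import Fermat.Agent.S14.Defs

set_option autoImplicit false

namespace Fermat.Agent.S14

open ExtCitation

namespace W1H8288

variable {p : ℕ} [Fact p.Prime] {V : Type} [AddCommGroup V] [Module (ZMod p) V]
  [DistribMulAction GQ V] [SMulCommClass GQ (ZMod p) V] {C : Submodule (ZMod p) V}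

omit [SMulCommClass GQ (ZMod p) V] in
/-- The frozen `cyclo_quot` field in terms of `cycloChar`. -/
theorem smul_sub_mem (h : IsAdmissibleExtensionCts p V C) (σ : GQ) (x : V) :
    σ • x - (cycloChar p σ : ZMod p) • x ∈ C := by
  rw [coe_cycloChar]
  exact h.cyclo_quot σ x

omit [SMulCommClass GQ (ZMod p) V] in
theorem finite_V (h : IsAdmissibleExtensionCts p V C) : Finite V := by
  apply Nat.finite_of_card_ne_zero
  rw [h.card_total]
  exact pow_ne_zero _ (Fact.out : p.Prime).ne_zero

omit [SMulCommClass GQ (ZMod p) V] in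
theorem finrank_V (h : IsAdmissibleExtensionCts p V C) : Module.finrank (ZMod p) V = 2 := by
  have := finite_V h
  have h1 := Module.natCard_eq_pow_finrank (K := ZMod p) (V := V)
  rw [h.card_total, Nat.card_zmod] at h1
  exact (Nat.pow_right_injective (Fact.out : p.Prime).two_le h1).symm

omit [SMulCommClass GQ (ZMod p) V] in
theorem finrank_C (h : IsAdmissibleExtensionCts p V C) : Module.finrank (ZMod p) C = 1 := by
  have := finite_V h
  have h1 := Module.natCard_eq_pow_finrank (K := ZMod p) (V := C)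
  rw [h.card_sub, Nat.card_zmod] at h1
  have h2 : p ^ 1 = p ^ Module.finrank (ZMod p) C := by rw [pow_one]; exact h1
  exact (Nat.pow_right_injective (Fact.out : p.Prime).two_le h2).symm

omit [SMulCommClass GQ (ZMod p) V] in
/-- There is a nonzero vector spanning `C`. -/
theorem exists_span_eq (h : IsAdmissibleExtensionCts p V C) :
    ∃ c₀ : V, c₀ ≠ 0 ∧ C = Submodule.span (ZMod p) {c₀} := by
  have := finite_V h
  obtain ⟨c, hc0, hc⟩ := finrank_eq_one_iff'.mp (finrank_C h)
  refine ⟨c, fun h0 => hc0 (Subtype.ext h0), ?_⟩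
  apply le_antisymm
  · intro x hx
    obtain ⟨a, ha⟩ := hc ⟨x, hx⟩
    rw [Submodule.mem_span_singleton]
    exact ⟨a, congrArg Subtype.val ha⟩
  · rw [Submodule.span_singleton_le_iff_mem]
    exact c.2

omit [SMulCommClass GQ (ZMod p) V] in
/-- There is a vector outside `C`. -/
theorem exists_notMem (h : IsAdmissibleExtensionCts p V C) : ∃ v₀ : V, v₀ ∉ C := by
  by_contra hcon
  push Not at hcon
  have htop : C = ⊤ := eq_top_iff.mpr fun x _ => hcon x
  have h1 := finrank_C h
  rw [htop, finrank_top, finrank_V h] at h1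
  exact absurd h1 (by norm_num)

end W1H8288

open W1H8288 in
/-- **W1** (pure group theory / linear algebra).  Pick `v₀ ∉ C`, `c₀` spanning `C` and define `b` by
`σ v₀ = χ(σ) v₀ + b(σ) c₀`.  If `b` vanishes on `ker χ`, a stable complement exists. -/
theorem exists_cocycle (p : ℕ) [Fact p.Prime] (V : Type) [AddCommGroup V] [Module (ZMod p) V]
    [DistribMulAction GQ V] [SMulCommClass GQ (ZMod p) V] (C : Submodule (ZMod p) V)
    (h : IsAdmissibleExtensionCts p V C) :
    ∃ b : GQ → ZMod p, IsExtCocycle p b ∧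
      ((∀ σ : GQ, cycloChar p σ = 1 → b σ = 0) → SplitsGlobally C) := by
  classical
  have := finite_V h
  obtain ⟨c₀, hc₀, hC⟩ := exists_span_eq h
  obtain ⟨v₀, hv₀⟩ := exists_notMem h
  have hc₀C : c₀ ∈ C := by rw [hC]; exact Submodule.mem_span_singleton_self c₀
  -- the defining property of `b`
  have hex : ∀ σ : GQ, ∃ a : ZMod p, a • c₀ = σ • v₀ - (cycloChar p σ : ZMod p) • v₀ := by
    intro σ
    have := smul_sub_mem h σ v₀
    rw [hC, Submodule.mem_span_singleton] at this
    exact this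
  choose b hb using hex
  have hinj : ∀ a a' : ZMod p, a • c₀ = a' • c₀ → a = a' := by
    intro a a' haa
    by_contra hne
    have : (a - a') • c₀ = 0 := by rw [sub_smul, haa, sub_self]
    rcases smul_eq_zero.mp this with h0 | h0
    · exact hne (sub_eq_zero.mp h0)
    · exact hc₀ h0
  have hσv₀ : ∀ σ : GQ, σ • v₀ = (cycloChar p σ : ZMod p) • v₀ + b σ • c₀ := by
    intro σ
    rw [hb σ]; abel
  have hσc₀ : ∀ σ : GQ, σ • c₀ = c₀ := fun σ => h.fixed_sub σ c₀ hc₀C
  -- if `σ` fixes `v₀` then `b σ = 0`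
  have hfix : ∀ σ : GQ, σ • v₀ = v₀ → b σ = 0 := by
    intro σ hσ
    have h1 : (1 - (cycloChar p σ : ZMod p)) • v₀ = b σ • c₀ := by
      rw [hb σ, hσ, sub_smul, one_smul]
    by_cases hχ : (cycloChar p σ : ZMod p) = 1
    · rw [hχ, sub_self, zero_smul] at h1
      rcases smul_eq_zero.mp h1.symm with h0 | h0
      · exact h0
      · exact absurd h0 hc₀
    · exfalso
      apply hv₀
      have hne : (1 - (cycloChar p σ : ZMod p)) ≠ 0 := sub_ne_zero.mpr (Ne.symm hχ)
      have : v₀ = (1 - (cycloChar p σ : ZMod p))⁻¹ • (b σ • c₀) := by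
        rw [← h1, smul_smul, inv_mul_cancel₀ hne, one_smul]
      rw [this]
      exact C.smul_mem _ (C.smul_mem _ hc₀C)
  have hmul : ∀ σ τ : GQ, b (σ * τ) = (cycloChar p τ : ZMod p) * b σ + b τ := by
    intro σ τ
    apply hinj
    have e1 : (σ * τ) • v₀ = σ • (τ • v₀) := mul_smul σ τ v₀
    have e2 : ((cycloChar p (σ * τ) : (ZMod p)ˣ) : ZMod p) =
        (cycloChar p σ : ZMod p) * (cycloChar p τ : ZMod p) := by
      rw [map_mul, Units.val_mul]
    rw [hb (σ * τ), e1, hσv₀ τ, smul_add, smul_comm σ (cycloChar p τ : ZMod p) v₀,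
      smul_comm σ (b τ) c₀, hσc₀, hσv₀ σ, e2]
    module
  refine ⟨b, ⟨hmul, ?_, ?_, ?_⟩, ?_⟩
  · -- open kernel
    refine ⟨{ carrier := {σ : GQ | ∀ v : V, σ • v = v}
              mul_mem' := ?_
              one_mem' := ?_
              inv_mem' := ?_ }, h.open_kernel, ?_⟩
    · intro σ τ hσ hτ v
      rw [mul_smul, hτ v, hσ v]
    · intro v
      exact one_smul _ v
    · intro σ hσ v
      rw [inv_smul_eq_iff, hσ v]
    · intro σ hσ
      exact hfix σ (hσ v₀)
  · intro ℓ hℓ hℓp A hA σ hσ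
    exact hfix σ (h.unramified_outside ℓ hℓ hℓp A hA σ hσ v₀)
  · intro A hA σ hσ hχ
    obtain ⟨C', hC', hcompl⟩ := h.locally_split A hA
    apply hfix
    have htop : v₀ ∈ C ⊔ C' := by rw [hcompl.sup_eq_top]; exact Submodule.mem_top
    obtain ⟨c, hc, v', hv', rfl⟩ := Submodule.mem_sup.mp htop
    have h1 : σ • v' - v' ∈ C := by
      have := smul_sub_mem h σ v'
      rwa [hχ, Units.val_one, one_smul] at this
    have h2 : σ • v' - v' ∈ C' := C'.sub_mem (hC' σ hσ v' hv') hv'
    have h3 : σ • v' - v' = 0 := by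
      have : σ • v' - v' ∈ C ⊓ C' := ⟨h1, h2⟩
      rwa [hcompl.inf_eq_bot, Submodule.mem_bot] at this
    rw [smul_add, h.fixed_sub σ c hc, sub_eq_zero.mp h3]
  · -- splitting
    intro hker
    -- key relation
    have hrel : ∀ σ σ₀ : GQ, ((cycloChar p σ₀ : ZMod p) - 1) * b σ =
        ((cycloChar p σ : ZMod p) - 1) * b σ₀ := by
      intro σ σ₀
      have hκ : b ((σ * σ₀) * (σ₀ * σ)⁻¹) = 0 := by
        apply hker
        simp only [map_mul, map_inv]
        rw [mul_comm (cycloChar p σ) (cycloChar p σ₀), mul_inv_cancel]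
      have h1 : b (σ * σ₀) = b (((σ * σ₀) * (σ₀ * σ)⁻¹) * (σ₀ * σ)) := by
        rw [inv_mul_cancel_right]
      rw [hmul ((σ * σ₀) * (σ₀ * σ)⁻¹) (σ₀ * σ), hκ, mul_zero, zero_add, hmul σ σ₀,
        hmul σ₀ σ] at h1
      linear_combination h1
    -- the shift `t`
    obtain ⟨t, ht⟩ : ∃ t : ZMod p, ∀ σ : GQ, b σ = ((cycloChar p σ : ZMod p) - 1) * t := by
      by_cases hall : ∀ σ : GQ, cycloChar p σ = 1
      · refine ⟨0, fun σ => ?_⟩
        rw [mul_zero]
        exact hker σ (hall σ)
      · push Not at hall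
        obtain ⟨σ₀, hσ₀⟩ := hall
        have hne : ((cycloChar p σ₀ : ZMod p) - 1) ≠ 0 := by
          intro h0
          apply hσ₀
          exact Units.ext (by rw [Units.val_one]; exact sub_eq_zero.mp h0)
        refine ⟨((cycloChar p σ₀ : ZMod p) - 1)⁻¹ * b σ₀, fun σ => ?_⟩
        have := hrel σ σ₀
        field_simp
        linear_combination this
    set v₁ : V := v₀ + t • c₀ with hv₁
    have hσv₁ : ∀ σ : GQ, σ • v₁ = (cycloChar p σ : ZMod p) • v₁ := by
      intro σ
      rw [hv₁, smul_add, smul_comm σ t c₀, hσc₀, hσv₀ σ, ht σ]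
      module
    have hv₁C : v₁ ∉ C := by
      intro hmem
      apply hv₀
      have : v₀ = v₁ - t • c₀ := by rw [hv₁]; abel
      rw [this]
      exact C.sub_mem hmem (C.smul_mem _ hc₀C)
    have hv₁0 : v₁ ≠ 0 := fun h0 => hv₁C (h0 ▸ C.zero_mem)
    refine ⟨Submodule.span (ZMod p) {v₁}, ?_, ?_⟩
    · intro σ x hx
      obtain ⟨a, rfl⟩ := Submodule.mem_span_singleton.mp hx
      rw [smul_comm σ a v₁, hσv₁ σ, smul_smul]
      exact Submodule.mem_span_singleton.mpr ⟨_, rfl⟩
    · have hdisj : C ⊓ Submodule.span (ZMod p) {v₁} = ⊥ := by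
        rw [eq_bot_iff]
        rintro x ⟨hxC, hx⟩
        obtain ⟨a, rfl⟩ := Submodule.mem_span_singleton.mp hx
        rw [Submodule.mem_bot]
        by_contra hne
        have ha : a ≠ 0 := fun h0 => hne (by rw [h0, zero_smul])
        apply hv₁C
        have : v₁ = a⁻¹ • (a • v₁) := by rw [smul_smul, inv_mul_cancel₀ ha, one_smul]
        rw [this]
        exact C.smul_mem _ hxC
      refine ⟨disjoint_iff.mpr hdisj, codisjoint_iff.mpr ?_⟩
      apply Submodule.eq_top_of_finrank_eq
      have hsum := Submodule.finrank_sup_add_finrank_inf_eq C (Submodule.span (ZMod p) {v₁})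
      rw [hdisj, finrank_bot, add_zero, finrank_C h, finrank_span_singleton hv₁0] at hsum
      rw [hsum, finrank_V h]

end Fermat.Agent.S14
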