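/-
S14, helper494 skeleton: common plumbing for the packages W2a/W2b/W2c
(`G_K = ker χ`, fixed field of `G_K` is `K = ℚ(ζ_p)`, lifting automorphisms of `K`).
helper5642.
-/
import Fermat.Agent.S14.Defs

set_option autoImplicit false

namespace Fermat.Agent.S14.H5642

open ExtCitation NumberField Fermat.Agent.S14

section W2Common

variable (p : ℕ) [Fact p.Prime]

/-- Powers of `ζ̄` only depend on the exponent modulo `p`. -/
theorem zetaBar_pow_eq_iff {a b : ℕ} : zetaBar p ^ a = zetaBar p ^ b ↔ a % p = b % p := by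
  have hz := zetaBar_spec p
  have hp0 : 0 < p := (Fact.out : p.Prime).pos
  have key : ∀ n : ℕ, zetaBar p ^ (n % p) = zetaBar p ^ n := by
    intro n
    have h := pow_mod_orderOf (zetaBar p) n
    rwa [← hz.eq_orderOf] at h
  have ha := key a
  have hb := key b
  constructor
  · intro h
    exact hz.pow_inj (Nat.mod_lt _ hp0) (Nat.mod_lt _ hp0) (by rw [ha, hb, h])
  · intro h
    rw [← ha, ← hb, h]

/-- The defining property of the mod `p` cyclotomic character on `ζ̄`. -/
theorem galQ_zetaBar (σ : GQ) :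
    σ (zetaBar p) = zetaBar p ^ ((cycloChar p σ : ZMod p)).val := by
  have : NeZero p := ⟨(Fact.out : p.Prime).ne_zero⟩
  have hz := zetaBar_spec p
  have hu : IsUnit (zetaBar p) := hz.isUnit (NeZero.ne p)
  have hmem : hu.unit ∈ rootsOfUnity p Qb := by
    rw [mem_rootsOfUnity]
    ext
    simp [hz.pow_eq_one]
  have := modularCyclotomicCharacter.spec Qb (card_rootsOfUnity_eq_self p)
    (σ : Qb ≃+* Qb) hmem
  simpa [cycloChar] using this

/-- If `σ ζ̄ = ζ̄ ^ k` then `χ(σ) = k` in `𝔽_p`. -/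
theorem cycloChar_eq_of_zetaBar_pow {σ : GQ} {k : ℕ} (h : σ (zetaBar p) = zetaBar p ^ k) :
    (cycloChar p σ : ZMod p) = (k : ZMod p) := by
  have : NeZero p := ⟨(Fact.out : p.Prime).ne_zero⟩
  have hz := zetaBar_spec p
  have h1 := galQ_zetaBar p σ
  rw [h] at h1
  have h2 : k % p = ((cycloChar p σ : ZMod p)).val % p := (zetaBar_pow_eq_iff p).mp h1
  rw [← ZMod.natCast_zmod_val (cycloChar p σ : ZMod p)]
  exact ((ZMod.natCast_eq_natCast_iff' _ _ _).mpr h2).symm

/-- `ζ̄ ^ a = ζ̄ ^ b` as soon as `a = b` in `𝔽_p`. -/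
theorem zetaBar_pow_eq_of_cast_eq {a b : ℕ} (h : (a : ZMod p) = (b : ZMod p)) :
    zetaBar p ^ a = zetaBar p ^ b := by
  have hz := zetaBar_spec p
  exact (zetaBar_pow_eq_iff p).mpr ((ZMod.natCast_eq_natCast_iff' _ _ _).mp h)

theorem cycloChar_eq_one_iff (σ : GQ) : cycloChar p σ = 1 ↔ σ (zetaBar p) = zetaBar p := by
  have : NeZero p := ⟨(Fact.out : p.Prime).ne_zero⟩
  have hp1 : 1 < p := (Fact.out : p.Prime).one_lt
  have : Fact (1 < p) := ⟨hp1⟩
  constructor
  · intro h
    have h1 := galQ_zetaBar p σ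
    rw [h1, h]
    simp [ZMod.val_one]
  · intro h
    have h2 := cycloChar_eq_of_zetaBar_pow p (σ := σ) (k := 1) (by simpa using h)
    ext
    simpa using h2

/-- `G_K = ker χ` is the fixing subgroup of `K = ℚ(ζ_p)`. -/
theorem mem_fixingSubgroup_Kp_iff (σ : GQ) :
    σ ∈ (Kp p).fixingSubgroup ↔ cycloChar p σ = 1 := by
  rw [cycloChar_eq_one_iff, IntermediateField.mem_fixingSubgroup_iff]
  constructor
  · intro h
    exact h _ (IntermediateField.mem_adjoin_simple_self ℚ (zetaBar p))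
  · intro h x hx
    have hle : Kp p ≤ IntermediateField.fixedField (MulAction.stabilizer GQ (zetaBar p)) := by
      rw [Kp, IntermediateField.adjoin_simple_le_iff, IntermediateField.mem_fixedField_iff]
      intro τ hτ
      exact MulAction.mem_stabilizer_iff.mp hτ
    exact (IntermediateField.mem_fixedField_iff _ _).mp (hle hx) σ
      (MulAction.mem_stabilizer_iff.mpr h)

/-- An element of `ℚ̄` fixed by `G_K = ker χ` lies in `K`. -/
theorem mem_Kp_of_fixed {x : Qb} (h : ∀ τ : GQ, cycloChar p τ = 1 → τ x = x) : x ∈ Kp p := by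
  rw [← InfiniteGalois.fixedField_fixingSubgroup (Kp p), IntermediateField.mem_fixedField_iff]
  intro τ hτ
  exact h τ ((mem_fixingSubgroup_Kp_iff p τ).mp hτ)

/-- Elements of `K` are fixed by `G_K`. -/
theorem fixed_of_mem_Kp {x : Qb} (hx : x ∈ Kp p) {τ : GQ} (hτ : cycloChar p τ = 1) : τ x = x :=
  (IntermediateField.mem_fixingSubgroup_iff _ _).mp ((mem_fixingSubgroup_Kp_iff p τ).mpr hτ) x hx

/-- Every automorphism of `K` lifts to `ℚ̄`. -/
theorem exists_galQ_lift (σ : Kp p ≃ₐ[ℚ] Kp p) :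
    ∃ σ' : GQ, ∀ x : Kp p, σ' (x : Qb) = (σ x : Qb) :=
  ⟨σ.liftNormal Qb, fun x => σ.liftNormal_commutes Qb x⟩

end W2Common

end Fermat.Agent.S14.H5642
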