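/-
S14, helper494 skeleton, package W2a: existence of a Kummer generator (Lagrange resolvent).
helper5642.
-/
import Fermat.Agent.S14.H5642W2Common

set_option autoImplicit false

namespace Fermat.Agent.S14

open ExtCitation NumberField

namespace H5642

variable {p : ℕ} [Fact p.Prime]

theorem cocycle_one {b : GQ → ZMod p} (hb : IsExtCocycle p b) : b 1 = 0 := by
  have h := hb.map_mul 1 1
  simp only [mul_one, _root_.map_one, Units.val_one, one_mul] at h
  linear_combination -h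

/-- `b` is additive on `G_K`. -/
theorem cocycle_mul {b : GQ → ZMod p} (hb : IsExtCocycle p b) (σ τ : GQ)
    (hτ : cycloChar p τ = 1) : b (σ * τ) = b σ + b τ := by
  rw [hb.map_mul, hτ, Units.val_one, one_mul]

theorem cocycle_inv {b : GQ → ZMod p} (hb : IsExtCocycle p b) (σ : GQ)
    (hσ : cycloChar p σ = 1) : b σ⁻¹ = - b σ := by
  have h := cocycle_mul hb σ⁻¹ σ hσ
  rw [inv_mul_cancel, cocycle_one hb] at h
  linear_combination -h

theorem cocycle_pow {b : GQ → ZMod p} (hb : IsExtCocycle p b) (σ : GQ)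
    (hσ : cycloChar p σ = 1) (n : ℕ) : b (σ ^ n) = n * b σ := by
  induction n with
  | zero => simp [cocycle_one hb]
  | succ n ih =>
    rw [pow_succ, cocycle_mul hb _ _ hσ, ih]
    push_cast
    ring

theorem cycloChar_pow_eq_one (σ : GQ) (hσ : cycloChar p σ = 1) (n : ℕ) :
    cycloChar p (σ ^ n) = 1 := by
  rw [map_pow, hσ, one_pow]

/-- The kernel of `b` on `G_K`, as a subgroup of `G_ℚ`. -/
def kerSubgroup {b : GQ → ZMod p} (hb : IsExtCocycle p b) : Subgroup GQ where
  carrier := {σ | cycloChar p σ = 1 ∧ b σ = 0}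
  mul_mem' := by
    rintro σ τ ⟨hσ, hbσ⟩ ⟨hτ, hbτ⟩
    refine ⟨by rw [map_mul, hσ, hτ, mul_one], ?_⟩
    rw [cocycle_mul hb σ τ hτ, hbσ, hbτ, add_zero]
  one_mem' := ⟨_root_.map_one _, cocycle_one hb⟩
  inv_mem' := by
    rintro σ ⟨hσ, hbσ⟩
    refine ⟨by rw [map_inv, hσ, inv_one], ?_⟩
    rw [cocycle_inv hb σ hσ, hbσ, neg_zero]

theorem mem_kerSubgroup {b : GQ → ZMod p} (hb : IsExtCocycle p b) (σ : GQ) :
    σ ∈ kerSubgroup hb ↔ cycloChar p σ = 1 ∧ b σ = 0 := Iff.rfl

theorem kerSubgroup_isOpen {b : GQ → ZMod p} (hb : IsExtCocycle p b) :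
    IsOpen ((kerSubgroup hb : Subgroup GQ) : Set GQ) := by
  obtain ⟨N, hNo, hN⟩ := hb.open_ker
  have h1 : IsOpen (((Kp p).fixingSubgroup ⊓ N : Subgroup GQ) : Set GQ) := by
    rw [Subgroup.coe_inf]
    exact ((Kp p).fixingSubgroup_isOpen).inter hNo
  refine Subgroup.isOpen_mono ?_ h1
  intro σ hσ
  exact ⟨(mem_fixingSubgroup_Kp_iff p σ).mp hσ.1, hN σ hσ.2⟩

/-- An automorphism fixing the fixed field of `ker b` lies in `ker b`. -/
theorem mem_kerSubgroup_of_fixes {b : GQ → ZMod p} (hb : IsExtCocycle p b) (σ : GQ)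
    (h : ∀ x ∈ IntermediateField.fixedField (kerSubgroup hb), σ x = x) :
    σ ∈ kerSubgroup hb := by
  have hcl : IsClosed ((kerSubgroup hb : Subgroup GQ) : Set GQ) :=
    Subgroup.isClosed_of_isOpen _ (kerSubgroup_isOpen hb)
  have := InfiniteGalois.fixingSubgroup_fixedField
    (⟨kerSubgroup hb, hcl⟩ : ClosedSubgroup GQ)
  have h2 : σ ∈ (IntermediateField.fixedField (kerSubgroup hb)).fixingSubgroup :=
    (IntermediateField.mem_fixingSubgroup_iff _ _).mpr h
  rw [this] at h2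
  exact h2

end H5642

open H5642

variable {p : ℕ} [Fact p.Prime]

/-- **W2a** Kummer generator (Lagrange resolvent for the cyclic extension cut out by `b|G_K`). -/
theorem exists_kummerGen {b : GQ → ZMod p} (hb : IsExtCocycle p b)
    (hne : ∃ σ : GQ, cycloChar p σ = 1 ∧ b σ ≠ 0) : ∃ α : Qb, IsKummerGen p b α := by
  have hp : p.Prime := Fact.out
  have : NeZero p := ⟨hp.ne_zero⟩
  have hz := zetaBar_spec p
  have hz0 : zetaBar p ≠ 0 := hz.ne_zero hp.ne_zero
  obtain ⟨σ₁, hσ₁, hbσ₁⟩ := hne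
  set H := kerSubgroup hb with hH
  set L := IntermediateField.fixedField H with hL
  -- the unit `u = (b σ₁)⁻¹`
  let u : (ZMod p)ˣ := (Units.mk0 (b σ₁) hbσ₁)⁻¹
  have hu : (u : ZMod p) * b σ₁ = 1 := by
    have : (u : ZMod p) = (b σ₁)⁻¹ := by simp [u]
    rw [this, inv_mul_cancel₀ hbσ₁]
  -- the key transport property
  have hshift : ∀ (τ : GQ), cycloChar p τ = 1 → ∀ (j : ℕ) (θ : Qb), θ ∈ L →
      τ ((σ₁ ^ j) θ) = (σ₁ ^ (j + ((u : ZMod p) * b τ).val)) θ := by
    intro τ hτ j θ hθ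
    set m := ((u : ZMod p) * b τ).val with hm
    have hmem : (σ₁ ^ (j + m))⁻¹ * τ * σ₁ ^ j ∈ H := by
      rw [hH, mem_kerSubgroup]
      have c1 : cycloChar p (σ₁ ^ j) = 1 := cycloChar_pow_eq_one σ₁ hσ₁ j
      have c2 : cycloChar p (σ₁ ^ (j + m)) = 1 := cycloChar_pow_eq_one σ₁ hσ₁ _
      refine ⟨by rw [map_mul, map_mul, map_inv, c1, c2, hτ]; simp, ?_⟩
      rw [cocycle_mul hb _ _ c1, cocycle_mul hb _ _ hτ, cocycle_inv hb _ c2,
        cocycle_pow hb σ₁ hσ₁, cocycle_pow hb σ₁ hσ₁]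
      have hm' : (m : ZMod p) = (u : ZMod p) * b τ := by
        rw [hm, ZMod.natCast_zmod_val]
      push_cast
      rw [hm']
      linear_combination (- b τ) * hu
    have h1 := (IntermediateField.mem_fixedField_iff _ _).mp hθ _ hmem
    have h2 : (σ₁ ^ (j + m)) (((σ₁ ^ (j + m))⁻¹ * τ * σ₁ ^ j) θ) = τ ((σ₁ ^ j) θ) := by
      simp only [AlgEquiv.mul_apply]
      exact (σ₁ ^ (j + m)).apply_symm_apply _
    rw [← h2, h1]
  -- `σ₁ ^ p` acts trivially on `L`
  have hperiod : ∀ (n : ℕ) (θ : Qb), θ ∈ L → (σ₁ ^ (n + p)) θ = (σ₁ ^ n) θ := by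
    intro n θ hθ
    have hmem : σ₁ ^ p ∈ H := by
      rw [hH, mem_kerSubgroup]
      refine ⟨cycloChar_pow_eq_one σ₁ hσ₁ p, ?_⟩
      rw [cocycle_pow hb σ₁ hσ₁]
      simp
    rw [pow_add, AlgEquiv.mul_apply, (IntermediateField.mem_fixedField_iff _ _).mp hθ _ hmem]
  -- the `p` characters `σ₁ ^ j` on `L` are pairwise distinct
  let f : ZMod p → (L →* Qb) := fun j =>
    (((σ₁ ^ j.val : GQ) : Qb →ₐ[ℚ] Qb).comp L.val : L →* Qb)
  have hf : ∀ (j : ZMod p) (θ : L), f j θ = (σ₁ ^ j.val) (θ : Qb) := fun j θ => rfl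
  have hinj : Function.Injective f := by
    intro j k hjk
    by_contra hne
    -- wlog j.val < k.val
    have key : ∀ j k : ZMod p, f j = f k → j.val < k.val → False := by
      intro j k hjk hlt
      have hmem : σ₁ ^ (k.val - j.val) ∈ H := by
        apply mem_kerSubgroup_of_fixes hb
        intro x hx
        have h1 := DFunLike.congr_fun hjk ⟨x, hx⟩
        rw [hf, hf] at h1
        have h2 : σ₁ ^ k.val = σ₁ ^ j.val * σ₁ ^ (k.val - j.val) := by
          rw [← pow_add, Nat.add_sub_cancel' hlt.le]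
        rw [h2, AlgEquiv.mul_apply] at h1
        exact ((σ₁ ^ j.val).injective h1).symm
      have h3 := ((mem_kerSubgroup hb _).mp hmem).2
      rw [cocycle_pow hb σ₁ hσ₁] at h3
      have h4 : ((k.val - j.val : ℕ) : ZMod p) = 0 := by
        rcases mul_eq_zero.mp h3 with h | h
        · exact h
        · exact absurd h hbσ₁
      have h5 : p ∣ k.val - j.val := (ZMod.natCast_eq_zero_iff _ _).mp h4
      have h6 : k.val - j.val < p := lt_of_le_of_lt (Nat.sub_le _ _) (ZMod.val_lt k)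
      have h7 : 0 < k.val - j.val := Nat.sub_pos_of_lt hlt
      exact absurd (Nat.le_of_dvd h7 h5) (not_le.mpr h6)
    rcases lt_trichotomy j.val k.val with h | h | h
    · exact key j k hjk h
    · exact hne (ZMod.val_injective p h)
    · exact key k j hjk.symm h
  have hli : LinearIndependent Qb (fun j : ZMod p => ((f j : L →* Qb) : L → Qb)) :=
    (linearIndependent_monoidHom L Qb).comp f hinj
  -- hence the resolvent is nonzero for some `θ ∈ L`
  have hex : ∃ θ : L, ∑ j : ZMod p, (zetaBar p)⁻¹ ^ j.val * (σ₁ ^ j.val) (θ : Qb) ≠ 0 := by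
    by_contra hcon
    push Not at hcon
    have hsum : ∑ j : ZMod p, ((zetaBar p)⁻¹ ^ j.val) • ((f j : L →* Qb) : L → Qb) = 0 := by
      funext θ
      simp only [Finset.sum_apply, Pi.smul_apply, smul_eq_mul, Pi.zero_apply]
      exact hcon θ
    have h0 := Fintype.linearIndependent_iff.mp hli _ hsum 0
    exact pow_ne_zero _ (inv_ne_zero hz0) h0
  obtain ⟨θ, hθ⟩ := hex
  set α : Qb := ∑ j : ZMod p, (zetaBar p)⁻¹ ^ j.val * (σ₁ ^ j.val) (θ : Qb) with hα
  -- the periodic function underlying the resolvent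
  set G : ℕ → Qb := fun n => (zetaBar p)⁻¹ ^ n * (σ₁ ^ n) (θ : Qb) with hG
  have hGper : ∀ n, G (n + p) = G n := by
    intro n
    simp only [hG]
    rw [hperiod n _ θ.2, pow_add, inv_pow (zetaBar p) p, hz.pow_eq_one, inv_one, mul_one]
  have hGmod : ∀ n, G (n % p) = G n := by
    intro n
    induction n using Nat.strong_induction_on with
    | _ n ih =>
      rcases Nat.lt_or_ge n p with h | h
      · rw [Nat.mod_eq_of_lt h]
      · have h1 : n = (n - p) + p := (Nat.sub_add_cancel h).symm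
        have h2 : n % p = (n - p) % p := by
          conv_lhs => rw [h1]
          exact Nat.add_mod_right _ _
        rw [h2, ih (n - p) (Nat.sub_lt (lt_of_lt_of_le hp.pos h) hp.pos)]
        conv_rhs => rw [h1]
        exact (hGper _).symm
  have hαsum : α = ∑ j : ZMod p, G j.val := rfl
  have hsmul : ∀ τ : GQ, cycloChar p τ = 1 →
      τ α = zetaBar p ^ ((u : ZMod p) * b τ).val * α := by
    intro τ hτ
    set m := ((u : ZMod p) * b τ).val with hm
    have hτz : τ (zetaBar p) = zetaBar p := (cycloChar_eq_one_iff p τ).mp hτ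
    have h1 : τ α = ∑ j : ZMod p, zetaBar p ^ m * G (j.val + m) := by
      rw [hα, map_sum]
      refine Finset.sum_congr rfl fun j _ => ?_
      rw [map_mul, map_pow, map_inv₀, hτz, hshift τ hτ j.val _ θ.2]
      simp only [hG]
      have hzm : zetaBar p ^ m * (zetaBar p)⁻¹ ^ (j.val + m) = (zetaBar p)⁻¹ ^ j.val := by
        have h1 : zetaBar p ^ m * (zetaBar p)⁻¹ ^ m = 1 := by
          rw [← mul_pow, mul_inv_cancel₀ hz0, one_pow]
        calc zetaBar p ^ m * (zetaBar p)⁻¹ ^ (j.val + m)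
            = (zetaBar p)⁻¹ ^ j.val * (zetaBar p ^ m * (zetaBar p)⁻¹ ^ m) := by
              rw [pow_add]; ring
          _ = (zetaBar p)⁻¹ ^ j.val := by rw [h1, mul_one]
      rw [← mul_assoc, hzm]
    have h2 : ∑ j : ZMod p, G (j.val + m) = ∑ j : ZMod p, G j.val := by
      have e : ∀ j : ZMod p, G (j.val + m) = G ((j + (m : ZMod p)).val) := by
        intro j
        rw [ZMod.val_add, ZMod.val_natCast, Nat.add_mod_mod, hGmod]
      simp_rw [e]
      exact Fintype.sum_equiv (Equiv.addRight (m : ZMod p)) _ _ (fun j => rfl)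
    rw [h1, ← Finset.mul_sum, h2, hαsum]
  refine ⟨α, hθ, ?_, u, hsmul⟩
  apply mem_Kp_of_fixed p
  intro τ hτ
  rw [map_pow, hsmul τ hτ, mul_pow, ← pow_mul, mul_comm _ p, pow_mul, hz.pow_eq_one, one_pow,
    one_mul]

end Fermat.Agent.S14
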