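/-
S14, helper494 skeleton, package W2b: `A = α^p` is an `ω²`-eigenvector modulo `p`-th powers.
helper5642.
-/
import Fermat.Agent.S14.H5642W2Common

set_option autoImplicit false

namespace Fermat.Agent.S14

open ExtCitation NumberField

namespace H5642

variable {p : ℕ} [Fact p.Prime]

/-- `b 1 = 0` for a cocycle. -/
theorem cocycle_map_one {b : GQ → ZMod p} (hb : IsExtCocycle p b) : b 1 = 0 := by
  have h := hb.map_mul 1 1
  simp only [mul_one, _root_.map_one, Units.val_one, one_mul] at h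
  linear_combination -h

/-- Conjugation formula: `b(σ⁻¹ τ σ) = χ(σ) b(τ)` for `τ ∈ G_K`. -/
theorem cocycle_map_conj {b : GQ → ZMod p} (hb : IsExtCocycle p b) (σ τ : GQ)
    (hτ : cycloChar p τ = 1) :
    b (σ⁻¹ * τ * σ) = (cycloChar p σ : ZMod p) * b τ := by
  have h1 := hb.map_mul (σ⁻¹ * τ) σ
  have h2 := hb.map_mul σ⁻¹ τ
  have h3 := hb.map_mul σ⁻¹ σ
  rw [inv_mul_cancel, cocycle_map_one hb] at h3
  rw [hτ, Units.val_one, one_mul] at h2
  rw [h1, h2]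
  linear_combination -h3

theorem cycloChar_conj (σ τ : GQ) (hτ : cycloChar p τ = 1) : cycloChar p (σ⁻¹ * τ * σ) = 1 := by
  rw [map_mul, map_mul, hτ, mul_one, map_inv, inv_mul_cancel]

end H5642

open H5642

variable {p : ℕ} [Fact p.Prime]

/-- **W2b** `A = α^p` is an `ω²`-eigenvector modulo `p`-th powers. -/
theorem kummerGen_eigen {b : GQ → ZMod p} (hb : IsExtCocycle p b)
    {α : Qb} (hα : IsKummerGen p b α) :
    EigenSq p (zetaK p) (⟨α ^ p, hα.pow_mem⟩ : Kp p) := by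
  have hp : p.Prime := Fact.out
  have : NeZero p := ⟨hp.ne_zero⟩
  intro σ k hσ
  obtain ⟨σ', hσ'⟩ := exists_galQ_lift p σ
  obtain ⟨u, hu⟩ := hα.smul
  -- `σ' ζ̄ = ζ̄ ^ k`
  have hζ : σ' (zetaBar p) = zetaBar p ^ k := by
    have h1 := hσ' (zetaK p)
    rw [hσ] at h1
    simpa [zetaK] using h1
  have hχ : (cycloChar p σ' : ZMod p) = (k : ZMod p) := cycloChar_eq_of_zetaBar_pow p hζ
  have hα0 : α ≠ 0 := hα.ne_zero
  -- the element `c = σ'(α) / α^(k²)` is fixed by `G_K`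
  have hfix : ∀ τ : GQ, cycloChar p τ = 1 → τ (σ' α / α ^ (k ^ 2)) = σ' α / α ^ (k ^ 2) := by
    intro τ hτ
    have hconj : cycloChar p (σ'⁻¹ * τ * σ') = 1 := cycloChar_conj σ' τ hτ
    have e1 : τ (σ' α) = σ' ((σ'⁻¹ * τ * σ') α) := by
      simp [AlgEquiv.mul_apply]
    have e2 := hu (σ'⁻¹ * τ * σ') hconj
    have e3 := hu τ hτ
    rw [map_div₀, map_pow, e1, e2, map_mul, map_pow, hζ, e3, mul_pow, ← pow_mul, ← pow_mul]
    have hexp : zetaBar p ^ (k * ((u : ZMod p) * b (σ'⁻¹ * τ * σ')).val) =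
        zetaBar p ^ (((u : ZMod p) * b τ).val * k ^ 2) := by
      apply zetaBar_pow_eq_of_cast_eq
      push_cast
      rw [ZMod.natCast_zmod_val, ZMod.natCast_zmod_val, cocycle_map_conj hb σ' τ hτ, hχ]
      ring
    rw [hexp]
    have hz0 : zetaBar p ^ (((u : ZMod p) * b τ).val * k ^ 2) ≠ 0 :=
      pow_ne_zero _ ((zetaBar_spec p).ne_zero hp.ne_zero)
    field_simp
  have hc : σ' α / α ^ (k ^ 2) ∈ Kp p := mem_Kp_of_fixed p hfix
  refine ⟨⟨σ' α / α ^ (k ^ 2), hc⟩, ?_⟩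
  apply Subtype.ext
  have h1 := hσ' (⟨α ^ p, hα.pow_mem⟩ : Kp p)
  rw [← h1]
  show σ' (α ^ p) = (α ^ p) ^ (k ^ 2) * (σ' α / α ^ (k ^ 2)) ^ p
  rw [map_pow, div_pow, ← pow_mul, ← pow_mul, mul_comm p (k ^ 2)]
  field_simp

end Fermat.Agent.S14
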