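/-
S14, helper494 skeleton, package W2c: `A = α^p` is not a `p`-th power in `K = ℚ(ζ_p)`.
helper5642.
-/
import Fermat.Agent.S14.H5642W2Common

set_option autoImplicit false

namespace Fermat.Agent.S14

open ExtCitation NumberField H5642

variable {p : ℕ} [Fact p.Prime]

/-- **W2c** `A = α^p` is not a `p`-th power in `K` (else `α ∈ K` would be fixed by `G_K`). -/
theorem kummerGen_not_pow {b : GQ → ZMod p} (hb : IsExtCocycle p b)
    (hne : ∃ σ : GQ, cycloChar p σ = 1 ∧ b σ ≠ 0) {α : Qb} (hα : IsKummerGen p b α) :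
    ¬ ∃ c : Kp p, (⟨α ^ p, hα.pow_mem⟩ : Kp p) = c ^ p := by
  have hp : p.Prime := Fact.out
  have : NeZero p := ⟨hp.ne_zero⟩
  have hz := zetaBar_spec p
  rintro ⟨c, hc⟩
  have hc' : α ^ p = (c : Qb) ^ p := by
    have := congrArg (Subtype.val) hc
    simpa using this
  have hα0 : α ≠ 0 := hα.ne_zero
  have hc0 : (c : Qb) ≠ 0 := by
    intro h0
    rw [h0, zero_pow hp.ne_zero] at hc'
    exact hα0 (pow_eq_zero_iff hp.ne_zero |>.mp hc')
  -- `α / c` is a `p`-th root of unity, hence a power of `ζ̄`, hence `α ∈ K`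
  have h1 : (α / (c : Qb)) ^ p = 1 := by
    rw [div_pow, hc', div_self (pow_ne_zero _ hc0)]
  obtain ⟨i, -, hi⟩ := hz.eq_pow_of_pow_eq_one h1
  have hαK : α ∈ Kp p := by
    have : α = zetaBar p ^ i * (c : Qb) := by
      rw [hi]; field_simp
    rw [this]
    exact (Kp p).mul_mem (pow_mem (IntermediateField.mem_adjoin_simple_self ℚ (zetaBar p)) i) c.2
  obtain ⟨σ, hσ, hbσ⟩ := hne
  obtain ⟨u, hu⟩ := hα.smul
  have h2 := hu σ hσ
  rw [fixed_of_mem_Kp p hαK hσ] at h2
  have h3 : zetaBar p ^ ((u : ZMod p) * b σ).val = 1 := by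
    have := mul_right_cancel₀ hα0 (show zetaBar p ^ ((u : ZMod p) * b σ).val * α = 1 * α by
      rw [one_mul]; exact h2.symm)
    exact this
  have h4 : ((u : ZMod p) * b σ).val = 0 := by
    have := (zetaBar_pow_eq_iff p (a := ((u : ZMod p) * b σ).val) (b := 0)).mp (by simpa using h3)
    rw [Nat.zero_mod, Nat.mod_eq_of_lt (ZMod.val_lt _)] at this
    exact this
  have h5 : (u : ZMod p) * b σ = 0 := (ZMod.val_eq_zero _).mp h4
  exact hbσ ((Units.mul_right_eq_zero u).mp h5)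

end Fermat.Agent.S14
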