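import Mathlib
import Fermat.Prelude.Def_FLTPrelim_Ramification
import Fermat.Agent.S54.Frobenius

/-!
# S14 / WP-LIFT core: lifting decomposition and inertia elements to `Gal(ℚ̄/ℚ)`

`A` is a valuation subring of `ℚ̄` over a rational prime `ℓ`, `H` a closed subgroup of `Gal(ℚ̄/ℚ)`.

* `mem_decompositionSubgroup`: an automorphism preserving (in both directions) the set of algebraic
  integers lying in `𝔪_A` is in the decomposition group of `A`;
* `mem_inertiaSubgroupIn`: an automorphism congruent to the identity modulo `𝔪_A` on all algebraic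
  integers is in the (Prelude) inertia subgroup of `A`;
* `exists_mul_mem_decomposition`, `exists_mul_mem_inertia`: if `τ` has these properties on the
  `H`-fixed algebraic integers only, then `g * τ` has them for a suitable `g ∈ H`
  (profinite invariant theory: `Algebra.IsInvariant.exists_smul_of_under_eq_of_profinite`,
  `Ideal.Quotient.stabilizerHom_surjective_of_profinite`);
* `lift_decomposition'`, `lift_inertia'`: the statements for an arbitrary intermediate field `L`.
-/

set_option autoImplicit false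

open scoped Pointwise

noncomputable section

namespace Fermat.Agent.S14.LiftCore

/-- `ℚ̄`. -/
abbrev Qb : Type := AlgebraicClosure ℚ

/-- The absolute Galois group of `ℚ`. -/
abbrev GQ : Type := Qb ≃ₐ[ℚ] Qb

section local_facts

variable (A : ValuationSubring Qb)

theorem mem_of_isIntegral {x : Qb} (hx : IsIntegral ℤ x) : x ∈ A := by
  have h1 : IsIntegral A x := hx.tower_top
  obtain ⟨y, hy⟩ := IsIntegrallyClosed.algebraMap_eq_of_integral h1
  rw [← hy]
  exact y.2

variable {A}

/-- An automorphism `σ` such that an algebraic integer `b` lies in `𝔪_A` iff `σ b` does,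
maps `A` into `A`. -/
theorem map_mem_of_integral {ℓ : ℕ} (hℓ : ℓ.Prime) (hA : A.LiesOverPrime ℓ) (σ : GQ)
    (h : ∀ b : Qb, IsIntegral ℤ b → σ b ∈ A.nonunits → b ∈ A.nonunits) (a : Qb) (ha : a ∈ A) :
    σ a ∈ A := by
  have halg : IsAlgebraic ℤ a :=
    (IsFractionRing.isAlgebraic_iff ℤ ℚ Qb).2 (Algebra.IsAlgebraic.isAlgebraic a)
  obtain ⟨s, hs, hsV, hxs⟩ := Fermat.Agent.S54.exists_denominator A ℓ hℓ hA a ha halg
  have hσs : A.valuation (σ s) = 1 :=
    Fermat.Agent.S54.valuation_eq_one_of_mem A (mem_of_isIntegral A (hs.map σ))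
      (fun hmem => hsV (h s hs hmem))
  have hσas : A.valuation (σ (a * s)) ≤ 1 :=
    (A.valuation_le_one_iff _).2 (mem_of_isIntegral A (hxs.map σ))
  have e : A.valuation (σ a) = A.valuation (σ (a * s)) := by
    rw [map_mul, map_mul, hσs, mul_one]
  rw [← A.valuation_le_one_iff, e]
  exact hσas

/-- An automorphism preserving, in both directions, the algebraic integers lying in `𝔪_A`
is in the decomposition group of `A`. -/
theorem mem_decompositionSubgroup {ℓ : ℕ} (hℓ : ℓ.Prime) (hA : A.LiesOverPrime ℓ) (σ : GQ)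
    (h : ∀ b : Qb, IsIntegral ℤ b → (σ b ∈ A.nonunits ↔ b ∈ A.nonunits)) :
    σ ∈ A.decompositionSubgroup ℚ := by
  have h' : ∀ b : Qb, IsIntegral ℤ b → σ⁻¹ b ∈ A.nonunits → b ∈ A.nonunits := by
    intro b hb hmem
    have h1 := (h (σ⁻¹ b) (hb.map σ⁻¹)).2 hmem
    have e : σ (σ⁻¹ b) = b := AlgEquiv.apply_symm_apply σ b
    rwa [e] at h1
  rw [MulAction.mem_stabilizer_iff]
  apply SetLike.ext
  intro x
  rw [ValuationSubring.mem_pointwise_smul_iff_inv_smul_mem]
  constructor
  · intro hx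
    have h1 := map_mem_of_integral hℓ hA σ (fun b hb => (h b hb).1) _ hx
    have h2 : σ (σ⁻¹ • x) = x := AlgEquiv.apply_symm_apply σ x
    rwa [h2] at h1
  · intro hx
    exact map_mem_of_integral hℓ hA σ⁻¹ h' x hx

/-- If `σ b - b ∈ 𝔪_A` for all integral `b`, then `σ` maps `A` into `A` and the same congruence
holds for all `a ∈ A`. -/
theorem congr_of_integral {ℓ : ℕ} (hℓ : ℓ.Prime) (hA : A.LiesOverPrime ℓ) (σ : GQ)
    (h : ∀ b : Qb, IsIntegral ℤ b → σ b - b ∈ A.nonunits) (a : Qb) (ha : a ∈ A) :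
    σ a ∈ A ∧ σ a - a ∈ A.nonunits := by
  have halg : IsAlgebraic ℤ a :=
    (IsFractionRing.isAlgebraic_iff ℤ ℚ Qb).2 (Algebra.IsAlgebraic.isAlgebraic a)
  obtain ⟨s, hs, hsV, hxs⟩ := Fermat.Agent.S54.exists_denominator A ℓ hℓ hA a ha halg
  have hs1 : A.valuation s = 1 :=
    Fermat.Agent.S54.valuation_eq_one_of_mem A (mem_of_isIntegral A hs) hsV
  have hds : A.valuation (σ s - s) < 1 := (A.mem_nonunits_iff).1 (h s hs)
  have hσs : A.valuation (σ s) = 1 := by
    have e : σ s = s + (σ s - s) := by ring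
    rw [e, A.valuation.map_add_eq_of_lt_left (by rw [hs1]; exact hds), hs1]
  have hσas : A.valuation (σ (a * s)) ≤ 1 :=
    (A.valuation_le_one_iff _).2 (mem_of_isIntegral A (hxs.map σ))
  have hσa : A.valuation (σ a) ≤ 1 := by
    have : A.valuation (σ a) = A.valuation (σ (a * s)) := by
      rw [map_mul, map_mul, hσs, mul_one]
    rw [this]; exact hσas
  refine ⟨(A.valuation_le_one_iff _).1 hσa, ?_⟩
  rw [A.mem_nonunits_iff]
  have h1 : A.valuation (σ a - a) = A.valuation ((σ a - a) * (σ s * s)) := by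
    rw [map_mul, map_mul, hσs, hs1, mul_one, mul_one]
  have h2 : (σ a - a) * (σ s * s) = (σ (a * s) - a * s) * s - (a * s) * (σ s - s) := by
    rw [map_mul]; ring
  rw [h1, h2, ← A.mem_nonunits_iff]
  refine A.nonunits.sub_mem ?_ ?_
  · rw [mul_comm]
    exact Fermat.Agent.S54.mul_mem_nonunits A (mem_of_isIntegral A hs) (h _ hxs)
  · exact Fermat.Agent.S54.mul_mem_nonunits A (mem_of_isIntegral A hxs) (h s hs)

/-- An automorphism which is congruent to the identity modulo `𝔪_A` on all integral elements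
lies in the inertia subgroup of `A`. -/
theorem mem_inertiaSubgroupIn {ℓ : ℕ} (hℓ : ℓ.Prime) (hA : A.LiesOverPrime ℓ) (σ : GQ)
    (h : ∀ b : Qb, IsIntegral ℤ b → σ b - b ∈ A.nonunits) : σ ∈ A.inertiaSubgroupIn ℚ := by
  have h' : ∀ b : Qb, IsIntegral ℤ b → σ⁻¹ b - b ∈ A.nonunits := by
    intro b hb
    have h1 := h (σ⁻¹ b) (hb.map σ⁻¹)
    have e : σ (σ⁻¹ b) = b := AlgEquiv.apply_symm_apply σ b
    rw [e] at h1
    have h2 := A.nonunits.sub_mem (A.nonunits.zero_mem) h1
    simpa using h2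
  have hD : σ ∈ A.decompositionSubgroup ℚ := by
    rw [MulAction.mem_stabilizer_iff]
    apply SetLike.ext
    intro x
    rw [ValuationSubring.mem_pointwise_smul_iff_inv_smul_mem]
    constructor
    · intro hx
      have h1 := (congr_of_integral hℓ hA σ h _ hx).1
      have h2 : σ (σ⁻¹ • x) = x := AlgEquiv.apply_symm_apply σ x
      rwa [h2] at h1
    · intro hx
      exact (congr_of_integral hℓ hA σ⁻¹ h' x hx).1
  refine Subgroup.mem_map.mpr ⟨⟨σ, hD⟩, ?_, rfl⟩
  rw [ValuationSubring.inertiaSubgroup, MonoidHom.mem_ker]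
  ext x
  obtain ⟨x, rfl⟩ := IsLocalRing.residue_surjective x
  rw [MulSemiringAction.toRingAut_apply, RingAut.one_apply,
    MulSemiringAction.toRingEquiv_apply_apply,
    ← IsLocalRing.ResidueField.residue_smul, ← sub_eq_zero, ← map_sub,
    IsLocalRing.residue_eq_zero_iff, A.valuation_lt_one_iff]
  exact (A.mem_nonunits_iff).1 (congr_of_integral hℓ hA σ h x x.2).2

/-- Inertia is contained in decomposition. -/
theorem inertiaSubgroupIn_le (A : ValuationSubring Qb) :
    A.inertiaSubgroupIn ℚ ≤ A.decompositionSubgroup ℚ := by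
  intro σ hσ
  obtain ⟨τ, _, rfl⟩ := Subgroup.mem_map.mp hσ
  exact τ.2

end local_facts

section profinite

/-- The ring of all algebraic integers. -/
abbrev Bint : Subalgebra ℤ Qb := integralClosure ℤ Qb

/-- The discrete topology on the ring of algebraic integers. -/
local instance instTopBint : TopologicalSpace Bint := ⊥

local instance instDiscBint : DiscreteTopology Bint := ⟨rfl⟩

theorem continuousSMul_Bint : ContinuousSMul GQ Bint := by
  rw [continuousSMul_iff_stabilizer_isOpen]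
  intro b
  have h1 := stabilizer_isOpen_of_isIntegral (K := ℚ) (L := Qb) (b : Qb)
  convert h1 using 1
  ext g
  rw [SetLike.mem_coe, SetLike.mem_coe, MulAction.mem_stabilizer_iff,
    MulAction.mem_stabilizer_iff, Subtype.ext_iff]
  rfl

local instance : ContinuousSMul GQ Bint := continuousSMul_Bint

variable (H : Subgroup GQ)

/-- The subring of algebraic integers fixed by `H`. -/
abbrev Cfix : Subalgebra ℤ Bint := FixedPoints.subalgebra ℤ Bint H

local instance instSMulCommCfix : SMulCommClass H (Cfix H) Bint where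
  smul_comm h c b := by
    show h • ((c : Bint) * b) = (c : Bint) * h • b
    rw [smul_mul', c.2 h]

local instance instIsInvariantCfix : Algebra.IsInvariant (Cfix H) Bint H where
  isInvariant b hb := ⟨⟨b, hb⟩, rfl⟩

/-- The inclusion of the ring of algebraic integers into a valuation subring of `ℚ̄`. -/
def toVal (A : ValuationSubring Qb) : Bint →+* A where
  toFun x := ⟨(x : Qb), mem_of_isIntegral A x.2⟩
  map_one' := rfl
  map_mul' _ _ := rfl
  map_zero' := rfl
  map_add' _ _ := rfl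

/-- The center of a valuation subring on the ring of algebraic integers. -/
def center (A : ValuationSubring Qb) : Ideal Bint :=
  Ideal.comap (toVal A) (IsLocalRing.maximalIdeal A)

local instance instCenterIsPrime (A : ValuationSubring Qb) : (center A).IsPrime :=
  Ideal.comap_isPrime _ _

theorem mem_center_iff (A : ValuationSubring Qb) (b : Bint) :
    b ∈ center A ↔ (b : Qb) ∈ A.nonunits := by
  show toVal A b ∈ IsLocalRing.maximalIdeal A ↔ _
  rw [A.valuation_lt_one_iff, A.mem_nonunits_iff]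
  rfl

local instance instIsIntegralCfix : Algebra.IsIntegral ℤ (Cfix H) := ⟨fun c => by
  have h1 : IsIntegral ℤ ((c : Bint) : Qb) := (c : Bint).2
  have h2 : IsIntegral ℤ (c : Bint) :=
    (isIntegral_algebraMap_iff (R := ℤ) (A := Bint) (B := Qb) (x := (c : Bint))
      Subtype.val_injective).mp h1
  exact (isIntegral_algebraMap_iff (R := ℤ) (A := Cfix H) (B := Bint) (x := c)
      Subtype.val_injective).mp h2⟩

/-- **Lifting inertia, subgroup form.** If `τ⁻¹` is congruent to the identity modulo `𝔪_A` on the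
`H`-fixed algebraic integers (`H` closed), then `g * τ` lies in the inertia subgroup of `A` for
some `g ∈ H`. -/
theorem exists_mul_mem_inertia (hH : IsClosed (H : Set GQ))
    (A : ValuationSubring Qb) {ℓ : ℕ} (hℓ : ℓ.Prime) (hA : A.LiesOverPrime ℓ) (τ : GQ)
    (h2 : ∀ b : Qb, IsIntegral ℤ b → (∀ g ∈ H, g b = b) → τ⁻¹ b - b ∈ A.nonunits) :
    ∃ g ∈ H, g * τ ∈ A.inertiaSubgroupIn ℚ := by
  have : CompactSpace H := isCompact_iff_compactSpace.mp hH.isCompact
  set Q := center A with hQ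
  have hc2 : ∀ c : Cfix H, τ⁻¹ • (c : Bint) - (c : Bint) ∈ Q := by
    intro c
    rw [mem_center_iff]
    exact h2 _ (c : Bint).2 (fun g hg => congrArg Subtype.val (c.2 ⟨g, hg⟩))
  -- `τ • Q` and `Q` lie over the same prime of the fixed ring
  have hunder : (τ • Q).under (Cfix H) = Q.under (Cfix H) := by
    ext c
    rw [Ideal.mem_comap, Ideal.mem_comap, Ideal.mem_pointwise_smul_iff_inv_smul_mem]
    constructor
    · intro h
      have := Q.sub_mem h (hc2 c)
      simpa using this
    · intro h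
      have := Q.add_mem (hc2 c) h
      simpa using this
  obtain ⟨g, hg⟩ := Algebra.IsInvariant.exists_smul_of_under_eq_of_profinite (A := Cfix H) (G := H)
    (τ • Q) Q hunder
  -- `δ = g τ` stabilizes `Q`
  set δ : GQ := (g : GQ) * τ with hδdef
  have hmem : ∀ b : Bint, b ∈ Q ↔ δ⁻¹ • b ∈ Q := by
    intro b
    conv_lhs => rw [hg]
    rw [Ideal.mem_pointwise_smul_iff_inv_smul_mem, Ideal.mem_pointwise_smul_iff_inv_smul_mem]
    have : δ⁻¹ • b = τ⁻¹ • (g⁻¹ • b) := by
      rw [hδdef, mul_inv_rev, mul_smul]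
      rfl
    rw [this]
  have hδ : δ • Q = Q := by
    ext b
    rw [Ideal.mem_pointwise_smul_iff_inv_smul_mem]
    exact (hmem b).symm
  -- `δ` is trivial on the fixed ring modulo `Q`
  have hδc : ∀ c : Cfix H, δ • (c : Bint) - (c : Bint) ∈ Q := by
    intro c
    rw [hmem]
    have e : δ⁻¹ • (δ • (c : Bint) - (c : Bint)) = - (τ⁻¹ • (c : Bint) - (c : Bint)) := by
      rw [smul_sub, inv_smul_smul, hδdef, mul_inv_rev, mul_smul]
      have : (g : GQ)⁻¹ • (c : Bint) = (c : Bint) := by
        have := c.2 g⁻¹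
        exact this
      rw [this]
      ring
    rw [e]
    exact Q.neg_mem (hc2 c)
  -- the automorphism of `Bint ⧸ Q` induced by `δ`, as an algebra automorphism over the fixed ring
  let f : (Bint ⧸ Q) ≃+* (Bint ⧸ Q) :=
    (Ideal.Quotient.stabilizerHom Q (Q.under ℤ) GQ ⟨δ, hδ⟩).toRingEquiv
  have hf : ∀ b : Bint, f (Ideal.Quotient.mk Q b) = Ideal.Quotient.mk Q (δ • b) := by
    intro b
    exact Ideal.Quotient.stabilizerHom_apply Q (Q.under ℤ) GQ ⟨δ, hδ⟩ b
  obtain ⟨ε, hε⟩ := Ideal.Quotient.stabilizerHom_surjective_of_profinite (G := H)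
    (Q.under (Cfix H)) Q (AlgEquiv.ofRingEquiv (f := f) (by
      intro x
      obtain ⟨c, rfl⟩ := Ideal.Quotient.mk_surjective x
      show f (Ideal.Quotient.mk Q (c : Bint)) = Ideal.Quotient.mk Q (c : Bint)
      rw [hf]
      exact Ideal.Quotient.eq.mpr (hδc c)))
  have hεb : ∀ b : Bint, ε • b - δ • b ∈ Q := by
    intro b
    have e1 := DFunLike.congr_fun hε (Ideal.Quotient.mk Q b)
    rw [Ideal.Quotient.stabilizerHom_apply] at e1
    exact Ideal.Quotient.eq.mp (e1.trans (hf b))
  have hεQ : ∀ b : Bint, b ∈ Q → (ε : H)⁻¹ • b ∈ Q := by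
    intro b hb
    have h3 : (ε : H) • Q = Q := ε.2
    rw [← h3] at hb
    exact Ideal.mem_pointwise_smul_iff_inv_smul_mem.mp hb
  refine ⟨((ε : H) : GQ)⁻¹ * g, H.mul_mem (H.inv_mem (ε : H).2) g.2, ?_⟩
  apply mem_inertiaSubgroupIn hℓ hA
  intro b hb
  have h4 := hεQ _ (Q.neg_mem (hεb ⟨b, hb⟩))
  rw [mem_center_iff] at h4
  convert h4 using 1
  show ((((ε : H) : GQ)⁻¹ * g) * τ) b - b = ((ε : H) : GQ)⁻¹ (-(((ε : H) : GQ) b - δ b))
  rw [hδdef]
  simp only [AlgEquiv.mul_apply, map_neg, map_sub]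
  have : ((ε : H) : GQ)⁻¹ (((ε : H) : GQ) b) = b := AlgEquiv.symm_apply_apply _ b
  rw [this]
  ring

/-- **Lifting decomposition elements, subgroup form.** If `τ⁻¹` reflects membership in `𝔪_A` on the
`H`-fixed algebraic integers (`H` closed), then `g * τ` lies in the decomposition subgroup of `A`
for some `g ∈ H`. -/
theorem exists_mul_mem_decomposition (hH : IsClosed (H : Set GQ))
    (A : ValuationSubring Qb) {ℓ : ℕ} (hℓ : ℓ.Prime) (hA : A.LiesOverPrime ℓ) (τ : GQ)
    (h : ∀ b : Qb, IsIntegral ℤ b → (∀ g ∈ H, g b = b) → τ⁻¹ b ∈ A.nonunits → b ∈ A.nonunits) :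
    ∃ g ∈ H, g * τ ∈ A.decompositionSubgroup ℚ := by
  have : CompactSpace H := isCompact_iff_compactSpace.mp hH.isCompact
  set Q := center A with hQ
  have hle : (τ • Q).under (Cfix H) ≤ Q.under (Cfix H) := by
    intro c hc
    rw [Ideal.mem_comap, Ideal.mem_pointwise_smul_iff_inv_smul_mem, mem_center_iff] at hc
    rw [Ideal.mem_comap, mem_center_iff]
    exact h _ (c : Bint).2 (fun g hg => congrArg Subtype.val (c.2 ⟨g, hg⟩)) hc
  -- `(τ • Q) ∩ C` is a maximal ideal of the fixed ring `C`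
  have hmax : ((τ • Q).under (Cfix H)).IsMaximal := by
    apply Ideal.isMaximal_of_isIntegral_of_isMaximal_comap (R := ℤ)
    apply Ideal.IsPrime.isMaximal (Ideal.comap_isPrime _ _)
    intro hbot
    have hmem : (ℓ : ℤ) ∈ Ideal.comap (algebraMap ℤ (Cfix H)) ((τ • Q).under (Cfix H)) := by
      rw [Ideal.mem_comap, Ideal.mem_comap, Ideal.mem_pointwise_smul_iff_inv_smul_mem,
        mem_center_iff]
      have e : (((τ⁻¹ • (algebraMap (Cfix H) Bint) ((algebraMap ℤ (Cfix H)) (ℓ : ℤ))) : Bint) : Qb)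
          = (ℓ : Qb) := by
        show τ⁻¹ ((ℓ : ℤ) : Qb) = (ℓ : Qb)
        simp
      rw [e]
      exact hA
    rw [hbot, Ideal.mem_bot] at hmem
    exact hℓ.ne_zero (by exact_mod_cast hmem)
  have hne : Q.under (Cfix H) ≠ ⊤ := (Ideal.comap_isPrime _ _).ne_top
  have hunder : (τ • Q).under (Cfix H) = Q.under (Cfix H) := hmax.eq_of_le hne hle
  obtain ⟨g, hg⟩ := Algebra.IsInvariant.exists_smul_of_under_eq_of_profinite (A := Cfix H) (G := H)
    (τ • Q) Q hunder
  set δ : GQ := (g : GQ) * τ with hδdef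
  have hmem : ∀ b : Bint, b ∈ Q ↔ δ⁻¹ • b ∈ Q := by
    intro b
    conv_lhs => rw [hg]
    rw [Ideal.mem_pointwise_smul_iff_inv_smul_mem, Ideal.mem_pointwise_smul_iff_inv_smul_mem]
    have : δ⁻¹ • b = τ⁻¹ • (g⁻¹ • b) := by
      rw [hδdef, mul_inv_rev, mul_smul]
      rfl
    rw [this]
  refine ⟨g, g.2, ?_⟩
  apply mem_decompositionSubgroup hℓ hA
  intro b hb
  have h1 := hmem (δ • ⟨b, hb⟩)
  rw [inv_smul_smul, mem_center_iff, mem_center_iff] at h1
  exact h1

end profinite

section lift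

variable (A : ValuationSubring Qb)

/-- **Lifting decomposition elements.** If `σ₁ ∈ Gal(ℚ̄/ℚ)` maps `A ∩ L` into `A` for an
intermediate field `L`, then some `σ` in the decomposition group of `A` agrees with `σ₁` on `L`. -/
theorem lift_decomposition' {ℓ : ℕ} (hℓ : ℓ.Prime) (hA : A.LiesOverPrime ℓ)
    (L : IntermediateField ℚ Qb) (σ₁ : GQ) (h : ∀ x : Qb, x ∈ L → x ∈ A → σ₁ x ∈ A) :
    ∃ σ : GQ, σ ∈ A.decompositionSubgroup ℚ ∧ ∀ x : Qb, x ∈ L → σ x = σ₁ x := by
  obtain ⟨g, hgH, hg⟩ := exists_mul_mem_decomposition L.fixingSubgroup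
    (InfiniteGalois.fixingSubgroup_isClosed L) A hℓ hA σ₁⁻¹ (by
      intro b hb hfix hmem
      rw [inv_inv] at hmem
      have hbL : b ∈ L := by
        rw [← InfiniteGalois.fixedField_fixingSubgroup L]
        exact (IntermediateField.mem_fixedField_iff _ b).mpr hfix
      by_contra hcon
      have hbA : b ∈ A := mem_of_isIntegral A hb
      have hv1 : A.valuation b = 1 := Fermat.Agent.S54.valuation_eq_one_of_mem A hbA hcon
      have hinvA : b⁻¹ ∈ A := by
        rw [← A.valuation_le_one_iff, map_inv₀, hv1, inv_one]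
      have h1 := h b⁻¹ (L.inv_mem hbL) hinvA
      rw [map_inv₀, ← A.valuation_le_one_iff, map_inv₀] at h1
      rw [A.mem_nonunits_iff] at hmem
      have hb0 : b ≠ 0 := by
        intro h0
        rw [h0, map_zero] at hv1
        exact zero_ne_one hv1
      have hpos : 0 < A.valuation (σ₁ b) :=
        zero_lt_iff.mpr ((A.valuation.ne_zero_iff).mpr (by simpa using hb0))
      have h2 : 1 ≤ A.valuation (σ₁ b) := (inv_le_one₀ hpos).mp h1
      exact absurd hmem (not_lt.mpr h2))
  refine ⟨σ₁ * g⁻¹, ?_, fun x hx => ?_⟩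
  · have h1 := (A.decompositionSubgroup ℚ).inv_mem hg
    rwa [mul_inv_rev, inv_inv] at h1
  · show σ₁ (g⁻¹ x) = σ₁ x
    have h2 : g⁻¹ x = x :=
      (IntermediateField.mem_fixingSubgroup_iff L g⁻¹).mp (L.fixingSubgroup.inv_mem hgH) x hx
    rw [h2]

/-- **Lifting inertia elements.** If `σ₁ ∈ Gal(ℚ̄/ℚ)` maps `A ∩ L` into `A` and is congruent to the
identity modulo `𝔪_A` on `A ∩ L`, then some `σ` in the inertia group of `A` agrees with `σ₁`
on `L`. -/
theorem lift_inertia' {ℓ : ℕ} (hℓ : ℓ.Prime) (hA : A.LiesOverPrime ℓ)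
    (L : IntermediateField ℚ Qb) (σ₁ : GQ)
    (h : ∀ x : Qb, x ∈ L → x ∈ A → σ₁ x ∈ A ∧ σ₁ x - x ∈ A.nonunits) :
    ∃ σ : GQ, σ ∈ A.inertiaSubgroupIn ℚ ∧ ∀ x : Qb, x ∈ L → σ x = σ₁ x := by
  obtain ⟨g, hgH, hg⟩ := exists_mul_mem_inertia L.fixingSubgroup
    (InfiniteGalois.fixingSubgroup_isClosed L) A hℓ hA σ₁⁻¹ (by
      intro b hb hfix
      rw [inv_inv]
      have hbL : b ∈ L := by
        rw [← InfiniteGalois.fixedField_fixingSubgroup L]
        exact (IntermediateField.mem_fixedField_iff _ b).mpr hfix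
      exact (h b hbL (mem_of_isIntegral A hb)).2)
  refine ⟨σ₁ * g⁻¹, ?_, fun x hx => ?_⟩
  · have h1 := (A.inertiaSubgroupIn ℚ).inv_mem hg
    rwa [mul_inv_rev, inv_inv] at h1
  · show σ₁ (g⁻¹ x) = σ₁ x
    have h2 : g⁻¹ x = x :=
      (IntermediateField.mem_fixingSubgroup_iff L g⁻¹).mp (L.fixingSubgroup.inv_mem hgH) x hx
    rw [h2]

end lift

end Fermat.Agent.S14.LiftCore
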