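/-
S14, package W3a (helper1664): `kummerGen_pow_ideal`.

For a Kummer generator `α` of an admissible cocycle, the principal fractional ideal `(α ^ p)` of
`K = ℚ(ζ_p)` is the `p`-th power of a fractional ideal.

Proof: for every prime `v` of `𝓞 K` choose a valuation subring `B` of `ℚ̄` centred on `v`, with
valuation `w`.  If `w(α) ∉ w(Kˣ)`, then the values `w(c α ^ i)` (`c ∈ Kˣ`, `0 ≤ i < p`) lie in
pairwise distinct cosets, so every element of `K(α) ∩ B` is a sum of terms `c_i α ^ i ∈ B` with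
`c_i α ^ i ∈ 𝔪_B` for `i > 0`; hence any `σ₁ ∈ G_K` moving `α` acts trivially on the residue field
of `B ∩ K(α)` and lifts (`LiftCore.lift_inertia'`, helper5411) to an inertia element `σ` of `B`
with `σ ζ = ζ` and `σ α ≠ α`, i.e. `b σ ≠ 0`, contradicting `unram` / `split`.  So
`w(α e) = 1` for some `e ∈ Kˣ`, whence `v(α ^ p) = v(e⁻¹) ^ p`.
-/
import Mathlib
import Fermat.Agent.S14.Defs
import Fermat.Agent.S14.LiftCore

set_option autoImplicit false

namespace Fermat.Agent.S14

open ExtCitation NumberField IsDedekindDomain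
open scoped nonZeroDivisors

namespace W3a

/-! ### The cyclotomic character of an automorphism fixing `ζ_p` -/

theorem cycloChar_eq_one_of_fix {p : ℕ} [Fact p.Prime] (σ : GQ)
    (h : σ (zetaBar p) = zetaBar p) : cycloChar p σ = 1 := by
  have : NeZero p := ⟨(Fact.out : p.Prime).ne_zero⟩
  have h1 := modularCyclotomicCharacter.unique (L := Qb) (card_rootsOfUnity_eq_self p)
    (σ : Qb ≃+* Qb) (c := 1) (by
      intro t ht
      have ht1 : (t : Qb) ^ p = 1 := by
        have := (mem_rootsOfUnity p t).mp ht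
        rw [← Units.val_pow_eq_pow_val, this, Units.val_one]
      obtain ⟨i, _, hi⟩ := (zetaBar_spec p).eq_pow_of_pow_eq_one ht1
      rw [ZMod.val_one, pow_one, ← hi]
      show σ (zetaBar p ^ i) = zetaBar p ^ i
      rw [map_pow, h])
  apply Units.ext
  exact h1.symm

/-! ### Dedekind domain algebra: elements whose valuations are `n`-th powers -/

/-- In a Dedekind domain, a nonzero element all of whose adic valuations are `n`-th powers
(`n ≠ 0`) generates the `n`-th power of an ideal.  (Same proof as helper5350's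
`NF3.exists_ideal_pow_of_valuation`.) -/
theorem exists_ideal_pow_of_valuation {R K : Type*} [CommRing R] [IsDedekindDomain R] [Field K]
    [Algebra R K] [IsFractionRing R K] (n : ℕ) (hn : n ≠ 0) (x : R) (hx : x ≠ 0)
    (hval : ∀ v : HeightOneSpectrum R,
      ∃ c : K, v.valuation K (algebraMap R K x) = v.valuation K c ^ n) :
    ∃ J : Ideal R, Ideal.span {x} = J ^ n := by
  classical
  have hx' : Associates.mk (Ideal.span {x}) ≠ 0 := by
    rw [Associates.mk_ne_zero]
    simpa using hx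
  have key : ∀ p : Associates (Ideal R), Irreducible p →
      n ∣ p.count (Associates.mk (Ideal.span {x})).factors := by
    intro p hp
    obtain ⟨P, rfl⟩ := Associates.mk_surjective p
    have hP : Irreducible P := (Associates.irreducible_mk).mp hp
    let v : HeightOneSpectrum R := ⟨P, Ideal.isPrime_of_prime hP.prime, hP.ne_zero⟩
    obtain ⟨c, hc⟩ := hval v
    rw [HeightOneSpectrum.valuation_of_algebraMap, v.intValuation_if_neg hx] at hc
    have hc0 : v.valuation K c ≠ 0 := by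
      intro h0
      rw [h0, zero_pow hn] at hc
      exact WithZero.exp_ne_zero hc
    obtain ⟨m, hm⟩ : ∃ m : ℤ, v.valuation K c = WithZero.exp m :=
      ⟨WithZero.log (v.valuation K c), (WithZero.exp_log hc0).symm⟩
    rw [hm, ← WithZero.exp_nsmul, WithZero.exp_inj] at hc
    have h2 : ((Associates.mk P).count (Associates.mk (Ideal.span {x})).factors : ℤ)
        = (n : ℤ) * (-m) := by
      have : (v.asIdeal : Ideal R) = P := rfl
      rw [this] at hc
      rw [nsmul_eq_mul] at hc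
      linarith
    exact Int.natCast_dvd_natCast.mp ⟨-m, h2⟩
  obtain ⟨b, hb⟩ := Associates.is_pow_of_dvd_count hx' key
  obtain ⟨J, rfl⟩ := Associates.mk_surjective b
  refine ⟨J, ?_⟩
  rw [← Associates.mk_pow] at hb
  exact associated_iff_eq.mp (Associates.mk_eq_mk_iff_associated.mp hb)

/-- In a Dedekind domain with fraction field `K`, a nonzero element of `K` all of whose adic
valuations are `n`-th powers generates the `n`-th power of a fractional ideal. -/
theorem exists_fractionalIdeal_pow_of_valuation {R K : Type*} [CommRing R] [IsDedekindDomain R]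
    [Field K] [Algebra R K] [IsFractionRing R K] (n : ℕ) (hn : n ≠ 0) (A : K) (hA : A ≠ 0)
    (hval : ∀ v : HeightOneSpectrum R, ∃ c : K, v.valuation K A = v.valuation K c ^ n) :
    ∃ I : FractionalIdeal R⁰ K, FractionalIdeal.spanSingleton R⁰ A = I ^ n := by
  obtain ⟨a, b, hb, hab⟩ := IsFractionRing.div_surjective (A := R) A
  have hb0 : b ≠ 0 := nonZeroDivisors.ne_zero hb
  have hbK : algebraMap R K b ≠ 0 := by
    simpa using (IsFractionRing.injective R K).ne hb0
  have ha0 : a ≠ 0 := by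
    rintro rfl
    rw [map_zero, zero_div] at hab
    exact hA hab.symm
  obtain ⟨k, rfl⟩ := Nat.exists_eq_succ_of_ne_zero hn
  have key : algebraMap R K (a * b ^ k) = A * algebraMap R K b ^ (k + 1) := by
    rw [← hab, map_mul, map_pow]
    field_simp
    ring
  have hvx : ∀ v : HeightOneSpectrum R,
      ∃ c : K, v.valuation K (algebraMap R K (a * b ^ k)) = v.valuation K c ^ (k + 1) := by
    intro v
    obtain ⟨c, hc⟩ := hval v
    refine ⟨c * algebraMap R K b, ?_⟩
    rw [key, map_mul, map_pow, hc, map_mul, mul_pow]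
  obtain ⟨J, hJ⟩ := exists_ideal_pow_of_valuation (K := K) (k + 1) hn (a * b ^ k)
    (mul_ne_zero ha0 (pow_ne_zero _ hb0)) hvx
  refine ⟨(J : FractionalIdeal R⁰ K) * (FractionalIdeal.spanSingleton R⁰ (algebraMap R K b))⁻¹, ?_⟩
  rw [mul_pow, ← FractionalIdeal.coeIdeal_pow, ← hJ, FractionalIdeal.coeIdeal_span_singleton,
    inv_pow, FractionalIdeal.spanSingleton_pow, FractionalIdeal.spanSingleton_inv,
    FractionalIdeal.spanSingleton_mul_spanSingleton, key]
  congr 1
  field_simp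

/-! ### Valuation subrings of `ℚ̄` centred on a prime of a number field -/

section center

variable (F : IntermediateField ℚ Qb) [NumberField F]

/-- Every prime `v` of `𝓞 F` is the centre of a valuation subring of `ℚ̄` lying over a rational
prime. -/
theorem exists_valuationSubring (v : HeightOneSpectrum (𝓞 F)) :
    ∃ (B : ValuationSubring Qb) (ℓ : ℕ), ℓ.Prime ∧ B.LiesOverPrime ℓ ∧
      ∀ r : 𝓞 F, r ∈ v.asIdeal → ((algebraMap (𝓞 F) F r : F) : Qb) ∈ B.nonunits := by
  classical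
  let f : 𝓞 F →+* Qb := (algebraMap F Qb).comp (algebraMap (𝓞 F) F)
  have hf : Function.Injective f :=
    (algebraMap F Qb).injective.comp RingOfIntegers.coe_injective
  let I : Ideal f.range := v.asIdeal.map f.rangeRestrict
  have hI : I ≠ ⊤ := by
    intro h
    have h1 : (1 : f.range) ∈ I := by rw [h]; exact Submodule.mem_top
    rw [Ideal.mem_map_iff_of_surjective _ f.rangeRestrict_surjective] at h1
    obtain ⟨r, hr, hr1⟩ := h1
    have h2 : f r = f 1 := by
      have := congrArg Subtype.val hr1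
      simpa using this
    have h3 : r = 1 := hf h2
    rw [h3] at hr
    exact v.isPrime.ne_top ((Ideal.eq_top_iff_one _).mpr hr)
  obtain ⟨B, hAB, hIB⟩ := Ideal.image_subset_nonunits_valuationSubring I hI
  have hmem : ∀ r : 𝓞 F, r ∈ v.asIdeal →
      ((algebraMap (𝓞 F) F r : F) : Qb) ∈ B.nonunits := by
    intro r hr
    apply hIB
    exact ⟨f.rangeRestrict r, Ideal.mem_map_of_mem _ hr, rfl⟩
  -- the residue characteristic
  have hmax : v.asIdeal.IsMaximal := v.isMaximal
  let _ := Ideal.Quotient.field v.asIdeal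
  have hfin : Finite (𝓞 F ⧸ v.asIdeal) := Ideal.finiteQuotientOfFreeOfNeBot v.asIdeal v.ne_bot
  obtain ⟨ℓ, hℓc⟩ := CharP.exists (𝓞 F ⧸ v.asIdeal)
  have hℓ : ℓ.Prime := CharP.char_is_prime (𝓞 F ⧸ v.asIdeal) ℓ
  have hℓmem : ((ℓ : ℕ) : 𝓞 F) ∈ v.asIdeal := by
    rw [← Ideal.Quotient.eq_zero_iff_mem, map_natCast]
    exact CharP.cast_eq_zero _ ℓ
  refine ⟨B, ℓ, hℓ, ?_, hmem⟩
  have h4 := hmem _ hℓmem
  rw [map_natCast] at h4
  exact h4

/-- If `B` is centred on `v`, an element of `Fˣ` which is a unit of `B` is a `v`-adic unit. -/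
theorem adic_valuation_eq_one (v : HeightOneSpectrum (𝓞 F)) (B : ValuationSubring Qb)
    (hB : ∀ r : 𝓞 F, r ∈ v.asIdeal → ((algebraMap (𝓞 F) F r : F) : Qb) ∈ B.nonunits) (y : F)
    (hy : B.valuation (y : Qb) = 1) : v.valuation F y = 1 := by
  have hint : ∀ r : 𝓞 F, B.valuation ((algebraMap (𝓞 F) F r : F) : Qb) ≤ 1 := by
    intro r
    rw [B.valuation_le_one_iff]
    apply LiftCore.mem_of_isIntegral
    have h1 : IsIntegral ℤ (algebraMap (𝓞 F) F r) := RingOfIntegers.isIntegral_coe r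
    exact h1.map (IsScalarTower.toAlgHom ℤ F Qb)
  have hunit : ∀ r : 𝓞 F, r ∉ v.asIdeal →
      B.valuation ((algebraMap (𝓞 F) F r : F) : Qb) = 1 := by
    intro r hr
    by_contra hne
    have hlt : B.valuation ((algebraMap (𝓞 F) F r : F) : Qb) < 1 := lt_of_le_of_ne (hint r) hne
    obtain ⟨s, m, hm, hsm⟩ := v.isMaximal.exists_inv hr
    have h1 : ((algebraMap (𝓞 F) F s : F) : Qb) * ((algebraMap (𝓞 F) F r : F) : Qb)
        + ((algebraMap (𝓞 F) F m : F) : Qb) = 1 := by
      have := congrArg (fun z : 𝓞 F => ((algebraMap (𝓞 F) F z : F) : Qb)) hsm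
      simpa using this
    have h2 : B.valuation (((algebraMap (𝓞 F) F s : F) : Qb) * ((algebraMap (𝓞 F) F r : F) : Qb)
        + ((algebraMap (𝓞 F) F m : F) : Qb)) < 1 := by
      apply lt_of_le_of_lt (B.valuation.map_add _ _)
      apply max_lt
      · rw [map_mul]
        calc B.valuation ((algebraMap (𝓞 F) F s : F) : Qb)
              * B.valuation ((algebraMap (𝓞 F) F r : F) : Qb)
            ≤ 1 * B.valuation ((algebraMap (𝓞 F) F r : F) : Qb) :=
              mul_le_mul_left (hint s) _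
          _ < 1 := by rw [one_mul]; exact hlt
      · exact (B.mem_nonunits_iff).1 (hB m hm)
    rw [h1, map_one] at h2
    exact lt_irrefl _ h2
  obtain ⟨n, d, h | h⟩ := v.exists_primeCompl_mul_eq_or_mul_eq y
  · have hd : B.valuation ((algebraMap (𝓞 F) F (d : 𝓞 F) : F) : Qb) = 1 := hunit d d.2
    have h' : (y : Qb) * ((algebraMap (𝓞 F) F (d : 𝓞 F) : F) : Qb)
        = ((algebraMap (𝓞 F) F n : F) : Qb) := by
      have := congrArg (fun z : F => (z : Qb)) h
      simpa using this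
    have hn : B.valuation ((algebraMap (𝓞 F) F n : F) : Qb) = 1 := by
      rw [← h', map_mul, hy, hd, one_mul]
    have hnv : n ∉ v.asIdeal := fun hmem =>
      (ne_of_lt ((B.mem_nonunits_iff).1 (hB n hmem))) hn
    have e1 : v.valuation F (algebraMap (𝓞 F) F n) = 1 :=
      (HeightOneSpectrum.valuation_eq_one_iff_notMem (K := F) v).mpr hnv
    have e2 : v.valuation F (algebraMap (𝓞 F) F (d : 𝓞 F)) = 1 :=
      (HeightOneSpectrum.valuation_eq_one_iff_notMem (K := F) v).mpr d.2
    have e3 := congrArg (v.valuation F) h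
    rw [map_mul, e1, e2, mul_one] at e3
    exact e3
  · have hd : B.valuation ((algebraMap (𝓞 F) F (d : 𝓞 F) : F) : Qb) = 1 := hunit d d.2
    have h' : (y : Qb) * ((algebraMap (𝓞 F) F n : F) : Qb)
        = ((algebraMap (𝓞 F) F (d : 𝓞 F) : F) : Qb) := by
      have := congrArg (fun z : F => (z : Qb)) h
      simpa using this
    have hn : B.valuation ((algebraMap (𝓞 F) F n : F) : Qb) = 1 := by
      have e := congrArg B.valuation h'
      rw [map_mul, hy, hd, one_mul] at e
      exact e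
    have hnv : n ∉ v.asIdeal := fun hmem =>
      (ne_of_lt ((B.mem_nonunits_iff).1 (hB n hmem))) hn
    have e1 : v.valuation F (algebraMap (𝓞 F) F n) = 1 :=
      (HeightOneSpectrum.valuation_eq_one_iff_notMem (K := F) v).mpr hnv
    have e2 : v.valuation F (algebraMap (𝓞 F) F (d : 𝓞 F)) = 1 :=
      (HeightOneSpectrum.valuation_eq_one_iff_notMem (K := F) v).mpr d.2
    have e3 := congrArg (v.valuation F) h
    rw [map_mul, e1, e2, mul_one] at e3
    exact e3

end center

/-! ### Elements of `K(α)` and the ultrametric inequality -/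

section kummer

open Polynomial

/-- Every element of `K(α)`, `α ^ p ∈ K`, is a `K`-linear combination of `1, α, …, α ^ (p - 1)`. -/
theorem exists_repr {p : ℕ} (hp : p ≠ 0) (K : IntermediateField ℚ Qb) (α : Qb) (hα : α ^ p ∈ K)
    (x : Qb) (hx : x ∈ IntermediateField.adjoin K {α}) :
    ∃ c : ℕ → K, x = ∑ i ∈ Finset.range p, (c i : Qb) * α ^ i := by
  set Am : K := ⟨α ^ p, hα⟩ with hAm
  set g : K[X] := X ^ p - C Am with hg
  have hgm : g.Monic := monic_X_pow_sub_C Am hp
  have hgα : aeval α g = 0 := by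
    rw [hg, map_sub, map_pow, aeval_X, aeval_C]
    exact sub_self _
  have hint : IsIntegral K α := ⟨g, hgm, hgα⟩
  have h1 : x ∈ Algebra.adjoin K {α} := by
    rw [← IntermediateField.adjoin_simple_toSubalgebra_of_isAlgebraic hint.isAlgebraic]
    exact hx
  rw [Algebra.adjoin_singleton_eq_range_aeval] at h1
  obtain ⟨f, rfl⟩ := h1
  have h2 : aeval α f = aeval α (f %ₘ g) := by
    conv_lhs => rw [← Polynomial.modByMonic_add_div f g]
    rw [map_add, map_mul, hgα, zero_mul, add_zero]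
  have hg1 : g ≠ 1 := by
    intro h
    have := congrArg natDegree h
    rw [hg, natDegree_X_pow_sub_C, natDegree_one] at this
    exact hp this
  have hdeg : (f %ₘ g).natDegree < p := by
    have := natDegree_modByMonic_lt f hgm hg1
    rwa [hg, natDegree_X_pow_sub_C] at this
  refine ⟨fun i => (f %ₘ g).coeff i, ?_⟩
  show aeval α f = _
  rw [h2, aeval_eq_sum_range' hdeg]
  refine Finset.sum_congr rfl fun i _ => ?_
  rw [Algebra.smul_def]
  rfl

/-- If no `c α ^ i` (`c ∈ Kˣ`, `0 < i < p`) is a unit of `B`, then the terms of an element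
`∑ c_i α ^ i` of `B` all lie in `B`, and those with `i > 0` lie in the maximal ideal. -/
theorem terms_mem_of_sum_mem (B : ValuationSubring Qb) (K : IntermediateField ℚ Qb) {p : ℕ}
    (α : Qb) (hα0 : α ≠ 0)
    (hstar : ∀ c : K, c ≠ 0 → ∀ i, 0 < i → i < p → B.valuation ((c : Qb) * α ^ i) ≠ 1)
    (c : ℕ → K) (hx : ∑ i ∈ Finset.range p, (c i : Qb) * α ^ i ∈ B) :
    (∀ i < p, (c i : Qb) * α ^ i ∈ B) ∧
      (∀ i, 0 < i → i < p → (c i : Qb) * α ^ i ∈ B.nonunits) := by
  set w := B.valuation with hw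
  set t : ℕ → Qb := fun i => (c i : Qb) * α ^ i with ht
  have hcoe : ∀ i, c i ≠ 0 → (c i : Qb) ≠ 0 := by
    intro i hi h0
    exact hi (Subtype.ext h0)
  have htne : ∀ i, c i ≠ 0 → t i ≠ 0 := fun i hi => mul_ne_zero (hcoe i hi) (pow_ne_zero _ hα0)
  have htz : ∀ i, c i = 0 → t i = 0 := by
    intro i hi
    simp only [ht, hi, ZeroMemClass.coe_zero, zero_mul]
  -- distinct values
  have hdist : ∀ i j, i < j → j < p → c i ≠ 0 → c j ≠ 0 → w (t i) ≠ w (t j) := by
    intro i j hij hjp hci hcj heq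
    have hcK : (c j) * (c i)⁻¹ ≠ 0 := mul_ne_zero hcj (inv_ne_zero hci)
    apply hstar ((c j) * (c i)⁻¹) hcK (j - i) (Nat.sub_pos_of_lt hij)
      (lt_of_le_of_lt (Nat.sub_le j i) hjp)
    have hti : t i ≠ 0 := htne i hci
    have e : (((c j) * (c i)⁻¹ : K) : Qb) * α ^ (j - i) = t j / t i := by
      have h1 : α ^ j = α ^ (j - i) * α ^ i := by rw [← pow_add, Nat.sub_add_cancel hij.le]
      have h2 : (((c j) * (c i)⁻¹ : K) : Qb) = (c j : Qb) * (c i : Qb)⁻¹ := by push_cast; rfl
      rw [h2]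
      simp only [ht]
      rw [h1]
      have h3 := hcoe i hci
      have h4 : α ^ i ≠ 0 := pow_ne_zero _ hα0
      field_simp
    rw [e, map_div₀, ← heq, div_self]
    exact (w.ne_zero_iff).mpr hti
  have hdist' : ∀ i j, i < p → j < p → i ≠ j → c i ≠ 0 → c j ≠ 0 → w (t i) ≠ w (t j) := by
    intro i j hi hj hne hci hcj
    rcases lt_or_gt_of_ne hne with h | h
    · exact hdist i j h hj hci hcj
    · exact (hdist j i h hi hcj hci).symm
  have hall : ∀ i < p, w (t i) ≤ 1 := by
    by_contra hcon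
    push Not at hcon
    obtain ⟨i₁, hi₁, hgt⟩ := hcon
    obtain ⟨i₀, hi₀, hmax⟩ := Finset.exists_max_image (Finset.range p) (fun i => w (t i))
      ⟨i₁, Finset.mem_range.mpr hi₁⟩
    have hi₀p : i₀ < p := Finset.mem_range.mp hi₀
    have hgt0 : 1 < w (t i₀) := lt_of_lt_of_le hgt (hmax i₁ (Finset.mem_range.mpr hi₁))
    have hpos0 : 0 < w (t i₀) := lt_trans zero_lt_one hgt0
    have hci₀ : c i₀ ≠ 0 := by
      intro h0
      rw [htz i₀ h0, map_zero] at hpos0
      exact lt_irrefl _ hpos0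
    have hrest : w (∑ j ∈ (Finset.range p).erase i₀, t j) < w (t i₀) := by
      apply w.map_sum_lt hpos0.ne'
      intro j hj
      have hjp : j < p := Finset.mem_range.mp (Finset.mem_of_mem_erase hj)
      have hji : j ≠ i₀ := Finset.ne_of_mem_erase hj
      by_cases hcj : c j = 0
      · rw [htz j hcj, map_zero]
        exact hpos0
      · exact lt_of_le_of_ne (hmax j (Finset.mem_range.mpr hjp))
          (hdist' j i₀ hjp hi₀p hji hcj hci₀)
    have hsum : ∑ i ∈ Finset.range p, t i = t i₀ + ∑ j ∈ (Finset.range p).erase i₀, t j := by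
      rw [Finset.add_sum_erase _ _ hi₀]
    have hwsum : w (∑ i ∈ Finset.range p, t i) = w (t i₀) := by
      rw [hsum]
      exact w.map_add_eq_of_lt_left hrest
    have hle : w (∑ i ∈ Finset.range p, t i) ≤ 1 := (B.valuation_le_one_iff _).mpr hx
    rw [hwsum] at hle
    exact not_lt_of_ge hle hgt0
  refine ⟨fun i hi => (B.valuation_le_one_iff _).mp (hall i hi), fun i hi0 hip => ?_⟩
  rw [B.mem_nonunits_iff]
  by_cases hci : c i = 0
  · have h0 : (c i : Qb) * α ^ i = 0 := htz i hci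
    rw [h0, map_zero]
    exact zero_lt_one
  · exact lt_of_le_of_ne (hall i hip) (hstar (c i) hci i hi0 hip)

end kummer

/-! ### The inertia element -/

section inertia

variable {p : ℕ} [Fact p.Prime]

/-- If no `c α ^ i` (`c ∈ Kˣ`, `0 < i < p`) is a unit of `B`, then every `σ₁ ∈ G_K` is congruent to
the identity on `K(α) ∩ B` modulo `𝔪_B`, hence agrees on `K(α)` with an inertia element of `B`. -/
theorem exists_inertia (α : Qb) (hα0 : α ≠ 0) (hαp : α ^ p ∈ Kp p)
    (B : ValuationSubring Qb) {ℓ : ℕ} (hℓ : ℓ.Prime) (hB : B.LiesOverPrime ℓ)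
    (hstar : ∀ c : Kp p, c ≠ 0 → ∀ i, 0 < i → i < p → B.valuation ((c : Qb) * α ^ i) ≠ 1)
    (σ₁ : GQ) (hσ₁K : ∀ x : Kp p, σ₁ (x : Qb) = (x : Qb)) (j : ℕ)
    (hσ₁α : σ₁ α = zetaBar p ^ j * α) :
    ∃ σ : GQ, σ ∈ B.inertiaSubgroupIn ℚ ∧ σ (zetaBar p) = zetaBar p ∧ σ α = σ₁ α := by
  have hp : p ≠ 0 := (Fact.out : p.Prime).ne_zero
  let L : IntermediateField ℚ Qb := (IntermediateField.adjoin (Kp p) {α}).restrictScalars ℚ
  have hζB : zetaBar p ∈ B :=
    LiftCore.mem_of_isIntegral B ((zetaBar_spec p).isIntegral (Nat.pos_of_ne_zero hp))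
  have hζjB : ∀ i : ℕ, (zetaBar p ^ j) ^ i ∈ B := fun i => B.pow_mem (B.pow_mem hζB j) i
  obtain ⟨σ, hσ, hσL⟩ := LiftCore.lift_inertia' B hℓ hB L σ₁ (by
    intro x hxL hxB
    have hx' : x ∈ IntermediateField.adjoin (Kp p) {α} := hxL
    obtain ⟨c, rfl⟩ := exists_repr hp (Kp p) α hαp x hx'
    obtain ⟨h1, h2⟩ := terms_mem_of_sum_mem B (Kp p) α hα0 hstar c hxB
    have hσt : ∀ i, σ₁ ((c i : Qb) * α ^ i) = (zetaBar p ^ j) ^ i * ((c i : Qb) * α ^ i) := by
      intro i
      rw [map_mul, map_pow, hσ₁K, hσ₁α, mul_pow]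
      ring
    rw [map_sum]
    constructor
    · apply sum_mem
      intro i hi
      rw [hσt]
      exact B.mul_mem _ _ (hζjB i) (h1 i (Finset.mem_range.mp hi))
    · rw [← Finset.sum_sub_distrib]
      apply sum_mem
      intro i hi
      rw [hσt]
      rcases Nat.eq_zero_or_pos i with h0 | hpos
      · subst h0
        rw [pow_zero, one_mul, sub_self]
        exact B.nonunits.zero_mem
      · have e : (zetaBar p ^ j) ^ i * ((c i : Qb) * α ^ i) - (c i : Qb) * α ^ i
            = ((zetaBar p ^ j) ^ i - 1) * ((c i : Qb) * α ^ i) := by ring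
        rw [e]
        exact S54.mul_mem_nonunits B (sub_mem (hζjB i) B.one_mem)
          (h2 i hpos (Finset.mem_range.mp hi)))
  refine ⟨σ, hσ, ?_, ?_⟩
  · have hζL : zetaBar p ∈ L :=
      (IntermediateField.adjoin (Kp p) {α}).algebraMap_mem (zetaK p)
    rw [hσL _ hζL]
    exact hσ₁K (zetaK p)
  · have hαL : α ∈ L := IntermediateField.mem_adjoin_simple_self (Kp p) α
    exact hσL _ hαL

/-- For a Kummer generator `α` of an admissible cocycle and any valuation subring `B` of `ℚ̄` over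
a rational prime, the value of `α` lies in the value group of `K`. -/
theorem exists_unit_mul {b : GQ → ZMod p} (hb : IsExtCocycle p b)
    {α : Qb} (hα : IsKummerGen p b α) (B : ValuationSubring Qb) {ℓ : ℕ} (hℓ : ℓ.Prime)
    (hB : B.LiesOverPrime ℓ) :
    ∃ e : Kp p, e ≠ 0 ∧ B.valuation (α * (e : Qb)) = 1 := by
  by_contra hcon
  push Not at hcon
  have hpp : p.Prime := Fact.out
  have hα0 := hα.ne_zero
  set Am : Kp p := ⟨α ^ p, hα.pow_mem⟩ with hAm
  have hAm0 : Am ≠ 0 := by
    intro h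
    have h1 : α ^ p = 0 := congrArg (fun z : Kp p => (z : Qb)) h
    exact hα0 (pow_eq_zero_iff hpp.ne_zero |>.mp h1)
  have hstar : ∀ c : Kp p, c ≠ 0 → ∀ i, 0 < i → i < p →
      B.valuation ((c : Qb) * α ^ i) ≠ 1 := by
    intro c hc i hi hip h1
    have hcop : Nat.Coprime i p :=
      Nat.coprime_comm.mp ((Nat.Prime.coprime_iff_not_dvd hpp).mpr (Nat.not_dvd_of_pos_of_lt hi hip))
    obtain ⟨m, -, hm⟩ := Nat.exists_mul_mod_eq_one_of_coprime hcop hpp.one_lt
    obtain ⟨t, hdm⟩ : ∃ t, i * m = p * t + 1 := by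
      refine ⟨i * m / p, ?_⟩
      have := Nat.div_add_mod (i * m) p
      rw [hm] at this
      exact this.symm
    apply hcon (c ^ m * Am ^ t) (mul_ne_zero (pow_ne_zero _ hc) (pow_ne_zero _ hAm0))
    have e : α * ((c ^ m * Am ^ t : Kp p) : Qb) = ((c : Qb) * α ^ i) ^ m := by
      have e1 : ((c ^ m * Am ^ t : Kp p) : Qb) = (c : Qb) ^ m * (α ^ p) ^ t := by
        push_cast
        rfl
      rw [e1, mul_pow, ← pow_mul α i m, hdm, pow_succ, pow_mul]
      ring
    rw [e, map_pow, h1, one_pow]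
  -- `α ∉ K`
  have hαK : α ∉ Kp p := by
    intro hmem
    have hne : (⟨α, hmem⟩ : Kp p) ≠ 0 := fun h => hα0 (congrArg Subtype.val h)
    apply hcon (⟨α, hmem⟩⁻¹ : Kp p) (inv_ne_zero hne)
    have e1 : (((⟨α, hmem⟩ : Kp p)⁻¹ : Kp p) : Qb) = α⁻¹ := rfl
    rw [e1, mul_inv_cancel₀ hα0, map_one]
  -- an element of `G_K` moving `α`
  obtain ⟨σ₁, hσ₁K, hσ₁α⟩ : ∃ σ₁ : GQ, (∀ x : Kp p, σ₁ (x : Qb) = (x : Qb)) ∧ σ₁ α ≠ α := by
    by_contra hno
    push Not at hno
    apply hαK
    rw [← InfiniteGalois.fixedField_fixingSubgroup (Kp p), IntermediateField.mem_fixedField_iff]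
    intro σ hσ
    exact hno σ (fun x => hσ x)
  have hχ₁ : cycloChar p σ₁ = 1 := cycloChar_eq_one_of_fix σ₁ (hσ₁K (zetaK p))
  obtain ⟨u, hu⟩ := hα.smul
  have h1 := hu σ₁ hχ₁
  obtain ⟨σ, hσI, hσζ, hσα⟩ := exists_inertia α hα0 hα.pow_mem B hℓ hB hstar σ₁ hσ₁K _ h1
  have hχ : cycloChar p σ = 1 := cycloChar_eq_one_of_fix σ hσζ
  have hbσ : b σ = 0 := by
    by_cases hℓp : ℓ = p
    · subst hℓp
      exact hb.split B hB σ (LiftCore.inertiaSubgroupIn_le B hσI) hχ
    · exact hb.unram ℓ hℓ hℓp B hB σ hσI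
  have h2 := hu σ hχ
  rw [hbσ, mul_zero, ZMod.val_zero, pow_zero, one_mul] at h2
  exact hσ₁α (hσα ▸ h2)

end inertia

end W3a

/-- **W3a** unramified everywhere (and `λ` split) ⟹ the ideal `(A)` is a `p`-th power. -/
theorem kummerGen_pow_ideal {p : ℕ} [Fact p.Prime] (h3 : 3 ≤ p) {b : GQ → ZMod p}
    (hb : IsExtCocycle p b) {α : Qb} (hα : IsKummerGen p b α) :
    ∃ I : FractionalIdeal (𝓞 (Kp p))⁰ (Kp p),
      FractionalIdeal.spanSingleton (𝓞 (Kp p))⁰ (⟨α ^ p, hα.pow_mem⟩ : Kp p) = I ^ p := by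
  have _h3 := h3
  have hpp : p.Prime := Fact.out
  have hA0 : (⟨α ^ p, hα.pow_mem⟩ : Kp p) ≠ 0 := by
    intro h
    have h1 : α ^ p = 0 := congrArg (fun z : Kp p => (z : Qb)) h
    exact hα.ne_zero (pow_eq_zero_iff hpp.ne_zero |>.mp h1)
  apply W3a.exists_fractionalIdeal_pow_of_valuation p hpp.ne_zero _ hA0
  intro v
  obtain ⟨B, ℓ, hℓ, hBℓ, hBv⟩ := W3a.exists_valuationSubring (Kp p) v
  obtain ⟨e, he0, he⟩ := W3a.exists_unit_mul hb hα B hℓ hBℓ
  have h1 : B.valuation (((⟨α ^ p, hα.pow_mem⟩ * e ^ p : Kp p)) : Qb) = 1 := by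
    have e1 : (((⟨α ^ p, hα.pow_mem⟩ * e ^ p : Kp p)) : Qb) = (α * (e : Qb)) ^ p := by
      rw [mul_pow]
      rfl
    rw [e1, map_pow, he, one_pow]
  have h2 := W3a.adic_valuation_eq_one (Kp p) v B hBv _ h1
  refine ⟨e⁻¹, ?_⟩
  rw [map_mul, map_pow] at h2
  rw [map_inv₀, inv_pow]
  exact eq_inv_of_mul_eq_one_left h2

end Fermat.Agent.S14
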