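/-
S14 / package W3b (helper5864): `kummerGen_localPow`.

`λ` splits completely in `K(α)/K` (no decomposition at `p` inside `G_K`), hence `A = α^p` is a
`p`-th power modulo `λ³` up to `p`-th powers.

Proof (no Dedekind theory, only valuations on `ℚ̄`):
* `exists_pow_le`   : archimedean property of a valuation subring of an algebraic extension;
* `boost`           : `f = 1 - (1 - b^N₂)^N₁` turns a "mod 𝔪" idempotent into a "mod p³" one;
* `exists_sep`      : decomposition lifting (helper5411 `LiftCore`) separates the conjugates of `α`;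
* `exists_one_sub`  : the center of `A` on the ring of `H`-fixed integers is maximal;
* `exists_approx`   : trace argument, `z = ∑_ω s_ω(e) ω ∈ K` with `z/α ≡ 1 mod p³`;
* `kummerGen_localPow` : denominators in `K` via `S54.exists_denominator`.
-/
import Fermat.Agent.S14.Defs
import Fermat.Agent.S14.LiftCore

set_option autoImplicit false

namespace Fermat.Agent.S14.W3b

open Polynomial

/-- Archimedean property: an algebraic element of the maximal ideal of a valuation subring over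
`ℓ` has a power divisible by `ℓ`. -/
theorem exists_pow_le {L : Type*} [Field L] [CharZero L] (V : ValuationSubring L) (ℓ : ℕ)
    (hℓ : ℓ.Prime) (hV : (ℓ : L) ∈ V.nonunits) (y : L) (hy : y ∈ V.nonunits)
    (halg : IsAlgebraic ℤ y) : ∃ i : ℕ, V.valuation y ^ i ≤ V.valuation (ℓ : L) := by
  by_cases hy0 : y = 0
  · exact ⟨1, by simp [hy0]⟩
  obtain ⟨f, hf0, hfa⟩ := halg
  have hg : aeval y f.primPart = 0 := Polynomial.aeval_primPart_eq_zero hf0 hfa
  have hprim : f.primPart.IsPrimitive := f.isPrimitive_primPart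
  set g := f.primPart with hgdef
  have hex : ∃ i, ¬ (ℓ : ℤ) ∣ g.coeff i := by
    by_contra hcon
    push Not at hcon
    have hC : C (ℓ : ℤ) ∣ g := (Polynomial.C_dvd_iff_dvd_coeff _ _).2 hcon
    exact (Nat.prime_iff_prime_int.mp hℓ).not_isUnit (hprim _ hC)
  classical
  obtain ⟨i, hi, hlt⟩ : ∃ i, ¬ (ℓ : ℤ) ∣ g.coeff i ∧ ∀ k < i, (ℓ : ℤ) ∣ g.coeff k := by
    refine ⟨Nat.find hex, Nat.find_spec hex, fun k hk => ?_⟩
    have := Nat.find_min hex hk
    push Not at this
    exact this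
  refine ⟨i, ?_⟩
  have hyv : V.valuation y < 1 := (V.mem_nonunits_iff).1 hy
  have hℓv : V.valuation (ℓ : L) < 1 := (V.mem_nonunits_iff).1 hV
  have hypos : 0 < V.valuation y := zero_lt_iff.mpr ((V.valuation.ne_zero_iff).mpr hy0)
  have hint : ∀ c : ℤ, V.valuation (c : L) ≤ 1 := fun c =>
    (V.valuation_le_one_iff _).2 (intCast_mem V c)
  have hile : i ≤ g.natDegree := by
    by_contra hcon
    apply hi
    rw [Polynomial.coeff_eq_zero_of_natDegree_lt (not_le.mp hcon)]
    exact dvd_zero _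
  have hsum : ∑ k ∈ Finset.range (g.natDegree + 1), ((g.coeff k : ℤ) : L) * y ^ k = 0 := by
    rw [Polynomial.aeval_eq_sum_range] at hg
    rw [← hg]
    apply Finset.sum_congr rfl
    intro k _
    rw [zsmul_eq_mul]
  have himem : i ∈ Finset.range (g.natDegree + 1) := Finset.mem_range.mpr (by omega)
  rw [← Finset.add_sum_erase _ _ himem] at hsum
  have hci : V.valuation ((g.coeff i : ℤ) : L) = 1 :=
    Fermat.Agent.S54.valuation_eq_one_of_mem V (intCast_mem V _)
      (Fermat.Agent.S54.intCast_not_mem_nonunits V ℓ hℓ hV _ hi)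
  have heq : ((g.coeff i : ℤ) : L) * y ^ i =
      - ∑ k ∈ (Finset.range (g.natDegree + 1)).erase i, ((g.coeff k : ℤ) : L) * y ^ k :=
    eq_neg_of_add_eq_zero_left hsum
  have hval : V.valuation y ^ i = V.valuation (((g.coeff i : ℤ) : L) * y ^ i) := by
    rw [map_mul, hci, one_mul, map_pow]
  set M := max (V.valuation (ℓ : L)) (V.valuation y ^ (i + 1)) with hM
  have hbound : V.valuation y ^ i ≤ M := by
    rw [hval, heq, Valuation.map_neg]
    apply Valuation.map_sum_le
    intro k hk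
    have hki : k ≠ i := Finset.ne_of_mem_erase hk
    rw [map_mul, map_pow]
    rcases lt_or_gt_of_ne hki with hk1 | hk1
    · obtain ⟨m, hm⟩ := hlt k hk1
      have h1 : V.valuation ((g.coeff k : ℤ) : L) ≤ V.valuation (ℓ : L) := by
        rw [hm]
        push_cast
        rw [map_mul]
        calc V.valuation (ℓ : L) * V.valuation (m : L) ≤ V.valuation (ℓ : L) * 1 :=
              mul_le_mul_right (hint m) _
          _ = V.valuation (ℓ : L) := mul_one _
      have h2 : V.valuation y ^ k ≤ 1 := pow_le_one₀ zero_le hyv.le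
      calc V.valuation ((g.coeff k : ℤ) : L) * V.valuation y ^ k
          ≤ V.valuation (ℓ : L) * 1 := mul_le_mul' h1 h2
        _ = V.valuation (ℓ : L) := mul_one _
        _ ≤ M := le_max_left _ _
    · have h2 : V.valuation y ^ k ≤ V.valuation y ^ (i + 1) :=
        pow_le_pow_of_le_one zero_le hyv.le (by omega)
      calc V.valuation ((g.coeff k : ℤ) : L) * V.valuation y ^ k
          ≤ 1 * V.valuation y ^ (i + 1) := mul_le_mul' (hint _) h2
        _ = V.valuation y ^ (i + 1) := one_mul _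
        _ ≤ M := le_max_right _ _
  rcases le_total (V.valuation y ^ (i + 1)) (V.valuation (ℓ : L)) with h | h
  · rwa [hM, max_eq_left h] at hbound
  · rw [hM, max_eq_right h] at hbound
    exfalso
    have hpos : 0 < V.valuation y ^ i := pow_pos hypos i
    have : V.valuation y ^ (i + 1) < V.valuation y ^ i := by
      rw [pow_succ]
      calc V.valuation y ^ i * V.valuation y < V.valuation y ^ i * 1 :=
            mul_lt_mul_of_pos_left hyv hpos
        _ = V.valuation y ^ i := mul_one _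
    exact absurd hbound (not_le.mpr this)

/-- Boosting an approximate idempotent. -/
theorem boost {L : Type*} [Field L] (V : ValuationSubring L) (σ : L →+* L) (b : L)
    (ε : V.ValueGroup) (N₁ N₂ : ℕ) (hb : V.valuation b ≤ 1) (hσb : V.valuation (σ b) ≤ 1)
    (h1 : V.valuation (1 - b) ^ N₁ ≤ ε) (h2 : V.valuation (σ b) ^ N₂ ≤ ε) :
    V.valuation (1 - (1 - (1 - b ^ N₂) ^ N₁)) ≤ ε ∧
      V.valuation (σ (1 - (1 - b ^ N₂) ^ N₁)) ≤ ε := by
  constructor
  · have e1 : 1 - (1 - (1 - b ^ N₂) ^ N₁) = ((1 - b) * ∑ i ∈ Finset.range N₂, b ^ i) ^ N₁ := by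
      rw [mul_neg_geom_sum]; ring
    rw [e1, map_pow, map_mul, mul_pow]
    have hs : V.valuation (∑ i ∈ Finset.range N₂, b ^ i) ≤ 1 := by
      apply Valuation.map_sum_le
      intro i _
      rw [map_pow]
      exact pow_le_one₀ zero_le hb
    calc V.valuation (1 - b) ^ N₁ * V.valuation (∑ i ∈ Finset.range N₂, b ^ i) ^ N₁
        ≤ ε * 1 := mul_le_mul' h1 (pow_le_one₀ zero_le hs)
      _ = ε := mul_one _
  · set u := σ b ^ N₂ with hu
    have e2 : σ (1 - (1 - b ^ N₂) ^ N₁) = u * ∑ i ∈ Finset.range N₁, (1 - u) ^ i := by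
      have := mul_neg_geom_sum (1 - u) N₁
      rw [sub_sub_cancel] at this
      rw [this, hu]
      simp only [map_sub, map_pow, map_one]
    have hu1 : V.valuation u ≤ ε := by rw [hu, map_pow]; exact h2
    have hu2 : V.valuation u ≤ 1 := by rw [hu, map_pow]; exact pow_le_one₀ zero_le hσb
    have hs : V.valuation (∑ i ∈ Finset.range N₁, (1 - u) ^ i) ≤ 1 := by
      apply Valuation.map_sum_le
      intro i _
      rw [map_pow]
      refine pow_le_one₀ zero_le ?_
      exact (V.valuation.map_sub_le (by rw [map_one]) hu2)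
    rw [e2, map_mul]
    calc V.valuation u * V.valuation (∑ i ∈ Finset.range N₁, (1 - u) ^ i)
        ≤ ε * 1 := mul_le_mul' hu1 hs
      _ = ε := mul_one _

section sep

variable (p : ℕ) [Fact p.Prime]

/-- The subgroup of `G_ℚ` fixing `ζ_p` and `α`. -/
noncomputable def Hsub (α : Qb) : Subgroup GQ :=
  MulAction.stabilizer GQ (zetaBar p) ⊓ MulAction.stabilizer GQ α

variable {p}

theorem mem_Hsub {α : Qb} {σ : GQ} :
    σ ∈ Hsub p α ↔ σ (zetaBar p) = zetaBar p ∧ σ α = α := by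
  rw [Hsub, Subgroup.mem_inf, MulAction.mem_stabilizer_iff, MulAction.mem_stabilizer_iff]
  rfl

theorem isClosed_Hsub (α : Qb) : IsClosed (Hsub p α : Set GQ) := by
  apply Subgroup.isClosed_of_isOpen
  rw [Hsub, Subgroup.coe_inf]
  exact (stabilizer_isOpen_of_isIntegral (K := ℚ) (L := Qb) (zetaBar p)).inter
    (stabilizer_isOpen_of_isIntegral (K := ℚ) (L := Qb) α)

/-- Separation: an automorphism fixing `ζ` but moving `α` moves the center of `A` on the ring of
`H`-fixed integers. -/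
theorem exists_sep (A : ValuationSubring Qb) (hA : A.LiesOverPrime p) (α : Qb)
    (hfix : ∀ σ ∈ A.decompositionSubgroup ℚ, σ (zetaBar p) = zetaBar p → σ α = α)
    (σ : GQ) (hσζ : σ (zetaBar p) = zetaBar p) (hσα : σ α ≠ α) :
    ∃ b₀ : Qb, IsIntegral ℤ b₀ ∧ (∀ g ∈ Hsub p α, g b₀ = b₀) ∧ σ b₀ ∈ A.nonunits ∧
      b₀ ∉ A.nonunits := by
  by_contra hcon
  push Not at hcon
  obtain ⟨g, hgH, hgD⟩ := LiftCore.exists_mul_mem_decomposition (Hsub p α) (isClosed_Hsub α) A
    (Fact.out : p.Prime) hA σ⁻¹ (by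
      intro b hb hfixb hmem
      rw [inv_inv] at hmem
      exact hcon b hb hfixb hmem)
  obtain ⟨hgζ, hgα⟩ := mem_Hsub.mp hgH
  have hσinvζ : σ⁻¹ (zetaBar p) = zetaBar p := by
    have : σ⁻¹ (σ (zetaBar p)) = zetaBar p := AlgEquiv.symm_apply_apply σ _
    rwa [hσζ] at this
  have h1 : (g * σ⁻¹) (zetaBar p) = zetaBar p := by
    rw [AlgEquiv.mul_apply, hσinvζ, hgζ]
  have h2 : (g * σ⁻¹) α = α := hfix _ hgD h1
  rw [AlgEquiv.mul_apply] at h2
  have h3 : σ⁻¹ α = α := by
    have : g (σ⁻¹ α) = g α := by rw [h2, hgα]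
    exact g.injective this
  apply hσα
  have : σ (σ⁻¹ α) = α := AlgEquiv.apply_symm_apply σ _
  rw [h3] at this
  exact this

/-- Using maximality of the center on the ring of `H`-fixed integers. -/
theorem exists_one_sub (A : ValuationSubring Qb) (hA : A.LiesOverPrime p) (α : Qb)
    (σ : GQ) (b₀ : Qb) (hb₀ : IsIntegral ℤ b₀) (hfixb : ∀ g ∈ Hsub p α, g b₀ = b₀)
    (hσ : σ b₀ ∈ A.nonunits) (hb : b₀ ∉ A.nonunits) :
    ∃ b : Qb, IsIntegral ℤ b ∧ (∀ g ∈ Hsub p α, g b = b) ∧ 1 - b ∈ A.nonunits ∧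
      σ b ∈ A.nonunits := by
  have hp : p.Prime := Fact.out
  have := LiftCore.instIsIntegralCfix (Hsub p α)
  have := LiftCore.instCenterIsPrime A
  set Q : Ideal (LiftCore.Cfix (Hsub p α)) := (LiftCore.center A).under (LiftCore.Cfix (Hsub p α))
    with hQ
  have hQprime : Q.IsPrime := Ideal.comap_isPrime _ _
  have hmax : Q.IsMaximal := by
    apply Ideal.isMaximal_of_isIntegral_of_isMaximal_comap (R := ℤ)
    apply Ideal.IsPrime.isMaximal (Ideal.comap_isPrime _ _)
    intro hbot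
    have hmem : (p : ℤ) ∈ Ideal.comap (algebraMap ℤ (LiftCore.Cfix (Hsub p α))) Q := by
      rw [Ideal.mem_comap, hQ, Ideal.mem_comap, LiftCore.mem_center_iff]
      have e : (((algebraMap (LiftCore.Cfix (Hsub p α)) LiftCore.Bint)
          ((algebraMap ℤ (LiftCore.Cfix (Hsub p α))) (p : ℤ)) : LiftCore.Bint) : Qb) = (p : Qb) := by
        show ((p : ℤ) : Qb) = (p : Qb)
        simp
      rw [e]
      exact hA
    rw [hbot, Ideal.mem_bot] at hmem
    exact hp.ne_zero (by exact_mod_cast hmem)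
  let x₀ : LiftCore.Cfix (Hsub p α) :=
    ⟨⟨b₀, hb₀⟩, fun g => Subtype.ext (hfixb g.1 g.2)⟩
  have hx₀ : x₀ ∉ Q := by
    rw [hQ, Ideal.mem_comap, LiftCore.mem_center_iff]
    exact hb
  obtain ⟨y, i, hi, hyi⟩ := hmax.exists_inv hx₀
  have hiQ : (((i : LiftCore.Cfix (Hsub p α)) : LiftCore.Bint) : Qb) ∈ A.nonunits := by
    rw [hQ, Ideal.mem_comap, LiftCore.mem_center_iff] at hi
    exact hi
  have hyint : IsIntegral ℤ (((y : LiftCore.Cfix (Hsub p α)) : LiftCore.Bint) : Qb) :=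
    (y : LiftCore.Bint).2
  have hyfix : ∀ g ∈ Hsub p α, g (((y : LiftCore.Cfix (Hsub p α)) : LiftCore.Bint) : Qb) =
      (((y : LiftCore.Cfix (Hsub p α)) : LiftCore.Bint) : Qb) := fun g hg =>
    congrArg Subtype.val (y.2 ⟨g, hg⟩)
  have heq : (((y : LiftCore.Cfix (Hsub p α)) : LiftCore.Bint) : Qb) * b₀ +
      (((i : LiftCore.Cfix (Hsub p α)) : LiftCore.Bint) : Qb) = 1 := by
    have := congrArg (fun t : LiftCore.Cfix (Hsub p α) => ((t : LiftCore.Bint) : Qb)) hyi
    simpa using this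
  refine ⟨(((y : LiftCore.Cfix (Hsub p α)) : LiftCore.Bint) : Qb) * b₀, hyint.mul hb₀, ?_, ?_, ?_⟩
  · intro g hg
    rw [map_mul, hyfix g hg, hfixb g hg]
  · have : 1 - (((y : LiftCore.Cfix (Hsub p α)) : LiftCore.Bint) : Qb) * b₀ =
        (((i : LiftCore.Cfix (Hsub p α)) : LiftCore.Bint) : Qb) := by
      rw [← heq]; ring
    rw [this]
    exact hiQ
  · rw [map_mul]
    exact Fermat.Agent.S54.mul_mem_nonunits A (LiftCore.mem_of_isIntegral A (hyint.map σ)) hσ

end sep

section approx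

variable {p : ℕ} [Fact p.Prime]

theorem map_eq_of_mem_Kp {σ : GQ} (hσ : σ (zetaBar p) = zetaBar p) {x : Qb} (hx : x ∈ Kp p) :
    σ x = x := by
  have hle : Kp p ≤ IntermediateField.fixedField (MulAction.stabilizer GQ (zetaBar p)) := by
    rw [Kp, IntermediateField.adjoin_le_iff]
    intro y hy
    rw [Set.mem_singleton_iff] at hy
    subst hy
    rw [SetLike.mem_coe, IntermediateField.mem_fixedField_iff]
    intro f hf
    exact MulAction.mem_stabilizer_iff.mp hf
  exact (IntermediateField.mem_fixedField_iff _ x).mp (hle hx) σ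
    (MulAction.mem_stabilizer_iff.mpr hσ)

theorem mem_Kp_of_fixed {x : Qb} (h : ∀ σ : GQ, σ (zetaBar p) = zetaBar p → σ x = x) :
    x ∈ Kp p := by
  rw [← InfiniteGalois.fixedField_fixingSubgroup (Kp p), IntermediateField.mem_fixedField_iff]
  intro f hf
  apply h
  exact (IntermediateField.mem_fixingSubgroup_iff (Kp p) f).mp hf _
    (IntermediateField.mem_adjoin_simple_self ℚ (zetaBar p))

/-- An `H`-fixed algebraic integer which is `≡ 1 mod p³` at `A` and `≡ 0 mod p³` at `σ⁻¹ A`. -/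
theorem exists_idem (A : ValuationSubring Qb) (hA : A.LiesOverPrime p) (α : Qb)
    (hfix : ∀ σ ∈ A.decompositionSubgroup ℚ, σ (zetaBar p) = zetaBar p → σ α = α)
    (σ : GQ) (hσζ : σ (zetaBar p) = zetaBar p) (hσα : σ α ≠ α) :
    ∃ f : Qb, IsIntegral ℤ f ∧ (∀ g ∈ Hsub p α, g f = f) ∧
      A.valuation (1 - f) ≤ A.valuation (p : Qb) ^ 3 ∧
      A.valuation (σ f) ≤ A.valuation (p : Qb) ^ 3 := by
  have hp : p.Prime := Fact.out
  obtain ⟨b₀, hb₀, hfixb₀, hσb₀, hb₀'⟩ := exists_sep A hA α hfix σ hσζ hσα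
  obtain ⟨b, hb, hfixb, h1b, hσb⟩ := exists_one_sub A hA α σ b₀ hb₀ hfixb₀ hσb₀ hb₀'
  have halg : ∀ x : Qb, IsAlgebraic ℤ x := fun x =>
    (IsFractionRing.isAlgebraic_iff ℤ ℚ Qb).2 (Algebra.IsAlgebraic.isAlgebraic x)
  obtain ⟨i₁, hi₁⟩ := exists_pow_le A p hp hA (1 - b) h1b (halg _)
  obtain ⟨i₂, hi₂⟩ := exists_pow_le A p hp hA (σ b) hσb (halg _)
  have hbA : A.valuation b ≤ 1 :=
    (A.valuation_le_one_iff _).2 (LiftCore.mem_of_isIntegral A hb)
  have hσbA : A.valuation (σ b) ≤ 1 :=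
    (A.valuation_le_one_iff _).2 (LiftCore.mem_of_isIntegral A (hb.map σ))
  obtain ⟨hf1, hf2⟩ := boost A (σ : Qb →+* Qb) b (A.valuation (p : Qb) ^ 3) (i₁ * 3) (i₂ * 3)
    hbA hσbA (by rw [pow_mul]; exact pow_le_pow_left₀ zero_le hi₁ 3)
    (by rw [pow_mul]; exact pow_le_pow_left₀ zero_le hi₂ 3)
  refine ⟨1 - (1 - b ^ (i₂ * 3)) ^ (i₁ * 3), ?_, ?_, hf1, hf2⟩
  · exact isIntegral_one.sub ((isIntegral_one.sub (hb.pow _)).pow _)
  · intro g hg
    simp only [map_sub, map_pow, map_one, hfixb g hg]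

/-- `1 - ∏ f` is small if all `1 - f` are small and the `f` are integral at `A`. -/
theorem valuation_one_sub_prod_le {L : Type*} [Field L] (V : ValuationSubring L) {ι : Type*}
    (T : Finset ι) (f : ι → L) (ε : V.ValueGroup) (h1 : ∀ i ∈ T, V.valuation (f i) ≤ 1)
    (h2 : ∀ i ∈ T, V.valuation (1 - f i) ≤ ε) : V.valuation (1 - ∏ i ∈ T, f i) ≤ ε := by
  classical
  induction T using Finset.induction_on with
  | empty => simp
  | insert a T ha ih =>
    rw [Finset.prod_insert ha]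
    have e : 1 - f a * ∏ i ∈ T, f i = (1 - f a) + f a * (1 - ∏ i ∈ T, f i) := by ring
    rw [e]
    refine (V.valuation.map_add_le ?_ ?_)
    · exact h2 a (Finset.mem_insert_self a T)
    · rw [map_mul]
      calc V.valuation (f a) * V.valuation (1 - ∏ i ∈ T, f i) ≤ 1 * ε :=
            mul_le_mul' (h1 a (Finset.mem_insert_self a T))
              (ih (fun i hi => h1 i (Finset.mem_insert_of_mem hi))
                (fun i hi => h2 i (Finset.mem_insert_of_mem hi)))
        _ = ε := one_mul _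

/-- **Approximation** (trace argument): if no element of the decomposition group of `A` inside
`G_K` moves `α`, then `α` is approximated modulo `p³` by an element of `K`, multiplicatively. -/
theorem exists_approx (A : ValuationSubring Qb) (hA : A.LiesOverPrime p) (α : Qb) (hα0 : α ≠ 0)
    (hαp : α ^ p ∈ Kp p)
    (hfix : ∀ σ ∈ A.decompositionSubgroup ℚ, σ (zetaBar p) = zetaBar p → σ α = α) :
    ∃ z : Qb, z ∈ Kp p ∧ A.valuation (z / α - 1) ≤ A.valuation (p : Qb) ^ 3 := by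
  classical
  have hp : p.Prime := Fact.out
  set ε := A.valuation (p : Qb) ^ 3 with hε
  let P : Qb → Prop := fun ω => ∃ σ : GQ, σ (zetaBar p) = zetaBar p ∧ σ α = ω
  let Ω : Finset Qb := (nthRoots p (α ^ p)).toFinset.filter P
  have hΩ : ∀ ω, ω ∈ Ω ↔ P ω := by
    intro ω
    simp only [Ω, Finset.mem_filter, Multiset.mem_toFinset, and_iff_right_iff_imp]
    rintro ⟨σ, hσζ, rfl⟩
    rw [mem_nthRoots hp.pos, ← map_pow]
    exact map_eq_of_mem_Kp hσζ hαp
  have hαΩ : α ∈ Ω := (hΩ α).mpr ⟨1, rfl, rfl⟩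
  have hpow : ∀ ω ∈ Ω, ω ^ p = α ^ p := by
    intro ω hω
    have := (Finset.mem_filter.mp hω).1
    rw [Multiset.mem_toFinset, mem_nthRoots hp.pos] at this
    exact this
  -- choice of automorphisms
  have hs : ∀ ω : Qb, ∃ σ : GQ, ω ∈ Ω → (σ (zetaBar p) = zetaBar p ∧ σ α = ω) := by
    intro ω
    by_cases h : ω ∈ Ω
    · obtain ⟨σ, h1⟩ := (hΩ ω).mp h
      exact ⟨σ, fun _ => h1⟩
    · exact ⟨1, fun h' => absurd h' h⟩
  choose s hs using hs
  -- choice of idempotents
  have hf : ∀ ω : Qb, ∃ f : Qb, IsIntegral ℤ f ∧ (∀ g ∈ Hsub p α, g f = f) ∧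
      (ω ∈ Ω → ω ≠ α → A.valuation (1 - f) ≤ ε ∧ A.valuation (s ω f) ≤ ε) := by
    intro ω
    by_cases h : ω ∈ Ω ∧ ω ≠ α
    · obtain ⟨f, h1, h2, h3, h4⟩ := exists_idem A hA α hfix (s ω) (hs ω h.1).1
        (by rw [(hs ω h.1).2]; exact h.2)
      exact ⟨f, h1, h2, fun _ _ => ⟨h3, h4⟩⟩
    · exact ⟨1, isIntegral_one, fun g _ => map_one g, fun h1 h2 => absurd ⟨h1, h2⟩ h⟩
  choose f hfint hffix hfval using hf
  have hintA : ∀ x : Qb, IsIntegral ℤ x → A.valuation x ≤ 1 := fun x hx =>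
    (A.valuation_le_one_iff _).2 (LiftCore.mem_of_isIntegral A hx)
  set e := ∏ ω ∈ Ω.erase α, f ω with he
  have he_int : IsIntegral ℤ e := IsIntegral.prod _ (fun ω _ => hfint ω)
  have he_fix : ∀ g ∈ Hsub p α, g e = e := by
    intro g hg
    rw [he, map_prod]
    exact Finset.prod_congr rfl (fun ω _ => hffix ω g hg)
  have he1 : A.valuation (1 - e) ≤ ε := by
    apply valuation_one_sub_prod_le
    · intro ω _
      exact hintA _ (hfint ω)
    · intro ω hω
      exact (hfval ω (Finset.mem_of_mem_erase hω) (Finset.ne_of_mem_erase hω)).1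
  have he2 : ∀ ω ∈ Ω.erase α, A.valuation (s ω e) ≤ ε := by
    intro ω hω
    rw [he, ← Finset.mul_prod_erase _ _ hω, map_mul, map_mul]
    calc A.valuation (s ω (f ω)) * A.valuation (s ω (∏ x ∈ (Ω.erase α).erase ω, f x))
        ≤ ε * 1 := mul_le_mul'
          (hfval ω (Finset.mem_of_mem_erase hω) (Finset.ne_of_mem_erase hω)).2
          (hintA _ ((IsIntegral.prod _ (fun x _ => hfint x)).map (s ω)))
      _ = ε := mul_one _
  refine ⟨∑ ω ∈ Ω, s ω e * ω, ?_, ?_⟩
  · -- invariance under `G_K`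
    apply mem_Kp_of_fixed
    intro σ hσ
    have hσinv : σ⁻¹ (zetaBar p) = zetaBar p := by
      have : σ⁻¹ (σ (zetaBar p)) = zetaBar p := AlgEquiv.symm_apply_apply σ _
      rwa [hσ] at this
    rw [map_sum]
    refine Finset.sum_nbij' (fun ω => σ ω) (fun ω => σ⁻¹ ω) ?_ ?_ ?_ ?_ ?_
    · intro ω hω
      obtain ⟨τ, hτζ, hτα⟩ := (hΩ ω).mp hω
      exact (hΩ _).mpr ⟨σ * τ, by rw [AlgEquiv.mul_apply, hτζ, hσ], by
        rw [AlgEquiv.mul_apply, hτα]⟩
    · intro ω hω
      obtain ⟨τ, hτζ, hτα⟩ := (hΩ ω).mp hω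
      exact (hΩ _).mpr ⟨σ⁻¹ * τ, by rw [AlgEquiv.mul_apply, hτζ, hσinv], by
        rw [AlgEquiv.mul_apply, hτα]⟩
    · intro ω _
      exact AlgEquiv.symm_apply_apply σ ω
    · intro ω _
      exact AlgEquiv.apply_symm_apply σ ω
    · intro ω hω
      have hσω : σ ω ∈ Ω := by
        obtain ⟨τ, hτζ, hτα⟩ := (hΩ ω).mp hω
        exact (hΩ _).mpr ⟨σ * τ, by rw [AlgEquiv.mul_apply, hτζ, hσ], by
          rw [AlgEquiv.mul_apply, hτα]⟩
      obtain ⟨h1ζ, h1α⟩ := hs ω hω
      obtain ⟨h2ζ, h2α⟩ := hs (σ ω) hσω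
      have h2ζ' : (s (σ ω))⁻¹ (zetaBar p) = zetaBar p := by
        have : (s (σ ω))⁻¹ (s (σ ω) (zetaBar p)) = zetaBar p := AlgEquiv.symm_apply_apply _ _
        rwa [h2ζ] at this
      have h2α' : (s (σ ω))⁻¹ (σ ω) = α := by
        have : (s (σ ω))⁻¹ (s (σ ω) α) = α := AlgEquiv.symm_apply_apply _ _
        rwa [h2α] at this
      have hτ : (s (σ ω))⁻¹ * (σ * s ω) ∈ Hsub p α := by
        rw [mem_Hsub]
        constructor
        · rw [AlgEquiv.mul_apply, AlgEquiv.mul_apply, h1ζ, hσ, h2ζ']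
        · rw [AlgEquiv.mul_apply, AlgEquiv.mul_apply, h1α, h2α']
      have h3 := he_fix _ hτ
      rw [AlgEquiv.mul_apply, AlgEquiv.mul_apply] at h3
      have h4 : σ (s ω e) = s (σ ω) e := by
        have : s (σ ω) ((s (σ ω))⁻¹ (σ (s ω e))) = σ (s ω e) := AlgEquiv.apply_symm_apply _ _
        rw [h3] at this
        exact this.symm
      rw [map_mul, h4]
  · -- the estimate
    have hsα : s α e = e := by
      obtain ⟨h1ζ, h1α⟩ := hs α hαΩ
      exact he_fix _ (mem_Hsub.mpr ⟨h1ζ, h1α⟩)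
    have hsplit : (∑ ω ∈ Ω, s ω e * ω) / α - 1 =
        -(1 - e) + ∑ ω ∈ Ω.erase α, s ω e * (ω / α) := by
      rw [← Finset.add_sum_erase _ _ hαΩ, hsα, add_div, Finset.sum_div, mul_div_assoc,
        div_self hα0]
      have : ∀ ω ∈ Ω.erase α, s ω e * ω / α = s ω e * (ω / α) := fun ω _ => mul_div_assoc _ _ _
      rw [Finset.sum_congr rfl this]
      ring
    rw [hsplit]
    refine A.valuation.map_add_le ?_ ?_
    · rw [Valuation.map_neg]
      exact he1
    · apply Valuation.map_sum_le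
      intro ω hω
      have hωp : (ω / α) ^ p = 1 := by
        rw [div_pow, hpow ω (Finset.mem_of_mem_erase hω)]
        exact div_self (pow_ne_zero _ hα0)
      have hωint : IsIntegral ℤ (ω / α) :=
        IsIntegral.of_pow hp.pos (by rw [hωp]; exact isIntegral_one)
      rw [map_mul]
      calc A.valuation (s ω e) * A.valuation (ω / α) ≤ ε * 1 :=
            mul_le_mul' (he2 ω hω) (hintA _ hωint)
        _ = ε := mul_one _

end approx

end Fermat.Agent.S14.W3b

namespace Fermat.Agent.S14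

open ExtCitation NumberField

namespace W3b

variable {p : ℕ} [Fact p.Prime]

/-- An automorphism fixing `ζ_p` has trivial cyclotomic character. -/
theorem cycloChar_eq_one_of_fix {σ : GQ} (hσ : σ (zetaBar p) = zetaBar p) : cycloChar p σ = 1 := by
  have hp : p.Prime := Fact.out
  have : NeZero p := ⟨hp.ne_zero⟩
  have hζ := zetaBar_spec p
  obtain ⟨t, ht⟩ := hζ.isUnit hp.ne_zero
  have htmem : t ∈ rootsOfUnity p Qb := by
    rw [mem_rootsOfUnity]
    apply Units.ext
    rw [Units.val_pow_eq_pow_val, ht, hζ.pow_eq_one, Units.val_one]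
  have hspec := modularCyclotomicCharacter.spec Qb (card_rootsOfUnity_eq_self p)
    (σ : Qb ≃+* Qb) htmem
  rw [ht] at hspec
  have hspec' : σ (zetaBar p) = zetaBar p ^ ((cycloChar p σ : (ZMod p)ˣ) : ZMod p).val := hspec
  rw [hσ] at hspec'
  have hlt : ((cycloChar p σ : (ZMod p)ˣ) : ZMod p).val < p := ZMod.val_lt _
  have h1 : ((cycloChar p σ : (ZMod p)ˣ) : ZMod p).val = 1 :=
    hζ.pow_inj hlt hp.one_lt (by rw [pow_one]; exact hspec'.symm)
  apply Units.ext
  rw [Units.val_one, ← ZMod.natCast_zmod_val ((cycloChar p σ : (ZMod p)ˣ) : ZMod p), h1,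
    Nat.cast_one]

theorem mem_nonunits_comap {K L : Type*} [Field K] [Field L] (A : ValuationSubring L)
    (f : K →+* L) (x : K) : x ∈ (A.comap f).nonunits ↔ f x ∈ A.nonunits := by
  rw [ValuationSubring.mem_nonunits_iff_or, ValuationSubring.mem_nonunits_iff_or,
    ValuationSubring.mem_comap, map_inv₀, map_eq_zero]

/-- `ζ - 1` lies in the maximal ideal of every valuation subring over `p`. -/
theorem zeta_sub_one_mem_nonunits (h3 : 3 ≤ p) (A : ValuationSubring Qb)
    (hA : A.LiesOverPrime p) : zetaBar p - 1 ∈ A.nonunits := by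
  have hp : p.Prime := Fact.out
  have hζ := zetaBar_spec p
  have hζA : zetaBar p ∈ A := LiftCore.mem_of_isIntegral A (hζ.isIntegral hp.pos)
  obtain ⟨r, hr⟩ := exists_add_pow_prime_eq hp (⟨zetaBar p, hζA⟩ : A) (-1)
  have hodd : Odd p := hp.odd_of_ne_two (by omega)
  have hr' : (zetaBar p - 1) ^ p = (p : Qb) * (-(zetaBar p * (r : Qb))) := by
    have := congrArg (Subtype.val : A → Qb) hr
    simp only [sub_eq_add_neg] at this ⊢
    push_cast at this
    rw [this, hζ.pow_eq_one, hodd.neg_one_pow]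
    ring
  have hpv : A.valuation (p : Qb) < 1 := (A.mem_nonunits_iff).1 hA
  have h1 : A.valuation (zetaBar p - 1) ^ p < 1 := by
    rw [← map_pow, hr', map_mul]
    have hle : A.valuation (-(zetaBar p * (r : Qb))) ≤ 1 :=
      (A.valuation_le_one_iff _).2 (A.neg_mem _ (A.mul_mem _ _ hζA r.2))
    calc A.valuation (p : Qb) * A.valuation (-(zetaBar p * (r : Qb)))
        ≤ A.valuation (p : Qb) * 1 := mul_le_mul_right hle _
      _ = A.valuation (p : Qb) := mul_one _
      _ < 1 := hpv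
  rw [A.mem_nonunits_iff]
  by_contra hcon
  exact absurd h1 (not_lt.mpr (one_le_pow₀ (not_lt.mp hcon)))

end W3b

/-- **W3b** `λ` splits completely ⟹ `A` is a `p`-th power modulo `λ³` up to `p`-th powers. -/
theorem kummerGen_localPow {p : ℕ} [Fact p.Prime] (h3 : 3 ≤ p) {b : GQ → ZMod p}
    (hb : IsExtCocycle p b) {α : Qb} (hα : IsKummerGen p b α) :
    LocalPow p (zetaK p) (⟨α ^ p, hα.pow_mem⟩ : Kp p) := by
  have hp : p.Prime := Fact.out
  obtain ⟨A, _, hA, _⟩ := Fermat.Agent.S54.exists_frobenius p hp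
  have hfix : ∀ σ ∈ A.decompositionSubgroup ℚ, σ (zetaBar p) = zetaBar p → σ α = α := by
    intro σ hσ hζ
    have hχ : cycloChar p σ = 1 := W3b.cycloChar_eq_one_of_fix hζ
    obtain ⟨u, hu⟩ := hα.smul
    rw [hu σ hχ, hb.split A hA σ hσ hχ, mul_zero, ZMod.val_zero, pow_zero, one_mul]
  obtain ⟨z, hzK, hz⟩ := W3b.exists_approx A hA α hα.ne_zero hα.pow_mem hfix
  set v := A.valuation with hv
  have hpv : v (p : Qb) < 1 := (A.mem_nonunits_iff).1 hA
  have hε : v (p : Qb) ^ 3 < 1 := pow_lt_one₀ zero_le hpv (by norm_num)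
  have hR : v (z / α) = 1 := by
    have e : z / α = 1 + (z / α - 1) := by ring
    rw [e]
    exact v.map_one_add_of_lt (lt_of_le_of_lt hz hε)
  have hz0 : z ≠ 0 := by
    rintro rfl
    rw [zero_div, map_zero] at hR
    exact zero_ne_one hR
  have hα0 : α ≠ 0 := hα.ne_zero
  -- `w = α / z`
  have hw : v (α / z - 1) ≤ v (p : Qb) ^ 3 := by
    have e : α / z - 1 = -(z / α - 1) * (z / α)⁻¹ := by
      field_simp
      ring
    rw [e, map_mul, Valuation.map_neg, map_inv₀, hR, inv_one, mul_one]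
    exact hz
  have hw1 : v (α / z) ≤ 1 := by
    have e : α / z = 1 + (α / z - 1) := by ring
    rw [e]
    exact (v.map_one_add_of_lt (lt_of_le_of_lt hw hε)).le
  have hwp : v ((α / z) ^ p - 1) ≤ v (p : Qb) ^ 3 := by
    have e : (α / z) ^ p - 1 = -((1 - α / z) * ∑ i ∈ Finset.range p, (α / z) ^ i) := by
      rw [mul_neg_geom_sum]; ring
    rw [e, Valuation.map_neg, map_mul]
    have h1 : v (1 - α / z) ≤ v (p : Qb) ^ 3 := by
      rw [← Valuation.map_neg, neg_sub]; exact hw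
    have h2 : v (∑ i ∈ Finset.range p, (α / z) ^ i) ≤ 1 := by
      apply Valuation.map_sum_le
      intro i _
      rw [map_pow]
      exact pow_le_one₀ zero_le hw1
    calc v (1 - α / z) * v (∑ i ∈ Finset.range p, (α / z) ^ i) ≤ v (p : Qb) ^ 3 * 1 :=
          mul_le_mul' h1 h2
      _ = v (p : Qb) ^ 3 := mul_one _
  -- `λ = ζ - 1`
  have hlam : v (zetaBar p - 1) < 1 :=
    (A.mem_nonunits_iff).1 (W3b.zeta_sub_one_mem_nonunits h3 A hA)
  have hlam0 : zetaBar p - 1 ≠ 0 := sub_ne_zero.mpr ((zetaBar_spec p).ne_one hp.one_lt)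
  have hplam : v (p : Qb) ≤ v (zetaBar p - 1) := by
    obtain ⟨c, hc⟩ := (zetaK_spec p).toInteger_sub_one_dvd_prime'
    have hc1 : ((p : ℕ) : Kp p) = (zetaK p - 1) * ((c : 𝓞 (Kp p)) : Kp p) := by
      have h1 := congrArg (algebraMap (𝓞 (Kp p)) (Kp p)) hc
      rw [map_mul, map_sub, map_one, map_natCast] at h1
      exact h1
    have hc' : (p : Qb) = (zetaBar p - 1) * (((c : 𝓞 (Kp p)) : Kp p) : Qb) := by
      have h2 := congrArg (algebraMap (Kp p) Qb) hc1
      rw [map_mul, map_sub, map_one, map_natCast] at h2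
      exact h2
    have hcint : IsIntegral ℤ ((((c : 𝓞 (Kp p)) : Kp p) : Qb)) :=
      (isIntegral_algebraMap_iff (algebraMap (Kp p) Qb).injective).2
        (RingOfIntegers.isIntegral_coe c)
    rw [hc', map_mul]
    calc v (zetaBar p - 1) * v (((c : 𝓞 (Kp p)) : Kp p) : Qb) ≤ v (zetaBar p - 1) * 1 :=
          mul_le_mul_right ((A.valuation_le_one_iff _).2 (LiftCore.mem_of_isIntegral A hcint)) _
      _ = v (zetaBar p - 1) := mul_one _
  -- the element `t = (A y^p - 1) / λ³` of `K`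
  let z' : Kp p := ⟨z, hzK⟩
  let A' : Kp p := ⟨α ^ p, hα.pow_mem⟩
  have hz'0 : z' ≠ 0 := fun h => hz0 (congrArg Subtype.val h)
  have hlamK0 : zetaK p - 1 ≠ 0 := sub_ne_zero.mpr ((zetaK_spec p).ne_one hp.one_lt)
  set t : Kp p := (A' * z'⁻¹ ^ p - 1) / (zetaK p - 1) ^ 3 with ht
  have htcoe : ((t : Kp p) : Qb) = ((α / z) ^ p - 1) / (zetaBar p - 1) ^ 3 := by
    rw [ht]
    push_cast
    show (α ^ p * z⁻¹ ^ p - 1) / (zetaBar p - 1) ^ 3 = _
    rw [div_pow, div_eq_mul_inv (α ^ p), inv_pow]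
  have htv : v ((t : Kp p) : Qb) ≤ 1 := by
    rw [htcoe, map_div₀, map_pow]
    have hpos : 0 < v (zetaBar p - 1) ^ 3 :=
      pow_pos (zero_lt_iff.mpr ((Valuation.ne_zero_iff _).mpr hlam0)) 3
    rw [div_le_one₀ hpos]
    exact hwp.trans (pow_le_pow_left₀ zero_le hplam 3)
  -- denominators in `K`
  set V' : ValuationSubring (Kp p) := A.comap (algebraMap (Kp p) Qb) with hV'
  have htV' : t ∈ V' := by
    rw [hV', ValuationSubring.mem_comap]
    exact (A.valuation_le_one_iff _).1 htv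
  have hpV' : ((p : ℕ) : Kp p) ∈ V'.nonunits := by
    rw [hV', W3b.mem_nonunits_comap, map_natCast]
    exact hA
  have halg : IsAlgebraic ℤ t :=
    (IsFractionRing.isAlgebraic_iff ℤ ℚ (Kp p)).2 (Algebra.IsAlgebraic.isAlgebraic t)
  obtain ⟨s, hs, hsV, hts⟩ := Fermat.Agent.S54.exists_denominator V' p hp hpV' t htV' halg
  refine ⟨z'⁻¹, t * s, s, inv_ne_zero hz'0, hts, hs, ?_, ?_⟩
  · rintro ⟨b', hb', rfl⟩
    apply hsV
    rw [hV', W3b.mem_nonunits_comap, map_mul, A.mem_nonunits_iff, map_mul]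
    have hb'int : IsIntegral ℤ (algebraMap (Kp p) Qb b') :=
      (isIntegral_algebraMap_iff (algebraMap (Kp p) Qb).injective).2 hb'
    have h1 : A.valuation (algebraMap (Kp p) Qb b') ≤ 1 :=
      (A.valuation_le_one_iff _).2 (LiftCore.mem_of_isIntegral A hb'int)
    have h2 : A.valuation (algebraMap (Kp p) Qb (zetaK p - 1)) < 1 := hlam
    calc A.valuation (algebraMap (Kp p) Qb (zetaK p - 1)) * A.valuation (algebraMap (Kp p) Qb b')
        ≤ A.valuation (algebraMap (Kp p) Qb (zetaK p - 1)) * 1 := mul_le_mul_right h1 _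
      _ = A.valuation (algebraMap (Kp p) Qb (zetaK p - 1)) := mul_one _
      _ < 1 := h2
  · have e : (zetaK p - 1) ^ 3 * t = A' * z'⁻¹ ^ p - 1 := by
      rw [ht, mul_div_cancel₀ _ (pow_ne_zero 3 hlamK0)]
    show (A' * z'⁻¹ ^ p - 1) * s = (zetaK p - 1) ^ 3 * (t * s)
    rw [← e]
    ring

end Fermat.Agent.S14
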