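/-
Thaine relation for `K = ℚ(ζ_p)`, auxiliary field `L = K(ζ_ℓ)`: field theory and ramification.
Part of the S14 project (package W4, Thaine relation).
-/
import Mathlib

set_option autoImplicit false

namespace Fermat.Agent.S14

open NumberField Polynomial IntermediateField IsDedekindDomain
open scoped Pointwise

section H90

variable {K L : Type*} [Field K] [Field L] [Algebra K L] [FiniteDimensional K L]

/-- The partial norms `F i = ∏_{j < i} τ^j x`. -/
noncomputable def thaineH90F (τ : L ≃ₐ[K] L) (x : Lˣ) (i : ℕ) : Lˣ :=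
  ∏ j ∈ Finset.range i, (τ ^ j) • x

omit [FiniteDimensional K L] in
theorem thaineH90F_add (τ : L ≃ₐ[K] L) (x : Lˣ) (i k : ℕ) :
    thaineH90F τ x (i + k) = thaineH90F τ x i * (τ ^ i) • thaineH90F τ x k := by
  unfold thaineH90F
  rw [Finset.prod_range_add, Finset.smul_prod']
  congr 1
  refine Finset.prod_congr rfl (fun j _ => ?_)
  rw [smul_smul, pow_add]

theorem thaineH90F_orderOf [IsGalois K L] (τ : L ≃ₐ[K] L)
    (hτ : ∀ σ : L ≃ₐ[K] L, σ ∈ Subgroup.zpowers τ) (x : Lˣ)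
    (hx : Algebra.norm K (x : L) = 1) : thaineH90F τ x (orderOf τ) = 1 := by
  classical
  apply Units.ext
  have h1 : ((thaineH90F τ x (orderOf τ) : Lˣ) : L) = ∏ j ∈ Finset.range (orderOf τ), (τ ^ j) (x : L) := by
    unfold thaineH90F
    rw [Units.coe_prod]
    rfl
  have h2 : ∏ j ∈ Finset.range (orderOf τ), (τ ^ j) (x : L) = ∏ σ : L ≃ₐ[K] L, σ (x : L) := by
    have himg : (Finset.range (orderOf τ)).image (fun j => τ ^ j) = Finset.univ := by
      apply Finset.eq_univ_of_forall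
      intro σ
      have hfin : IsOfFinOrder τ := isOfFinOrder_of_finite τ
      have : σ ∈ Submonoid.powers τ := hfin.mem_powers_iff_mem_zpowers.mpr (hτ σ)
      obtain ⟨i, hi⟩ := (Submonoid.mem_powers_iff _ _).mp this
      rw [Finset.mem_image]
      exact ⟨i % orderOf τ, Finset.mem_range.mpr (Nat.mod_lt _ hfin.orderOf_pos),
        by rw [pow_mod_orderOf, hi]⟩
    rw [← himg, Finset.prod_image]
    intro a ha b hb hab
    exact pow_injOn_Iio_orderOf (by simpa using ha) (by simpa using hb) hab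
  rw [h1, h2, ← Algebra.norm_eq_prod_automorphisms, hx, map_one, Units.val_one]

theorem thaineH90F_mod [IsGalois K L] (τ : L ≃ₐ[K] L)
    (hτ : ∀ σ : L ≃ₐ[K] L, σ ∈ Subgroup.zpowers τ) (x : Lˣ)
    (hx : Algebra.norm K (x : L) = 1) (i : ℕ) :
    thaineH90F τ x i = thaineH90F τ x (i % orderOf τ) := by
  have hn := thaineH90F_orderOf τ hτ x hx
  have hq : ∀ q : ℕ, thaineH90F τ x (orderOf τ * q) = 1 := by
    intro q
    induction q with
    | zero => simp [thaineH90F]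
    | succ q ih =>
      rw [mul_add, mul_one, thaineH90F_add, ih, hn, smul_one, mul_one]
  conv_lhs => rw [← Nat.div_add_mod i (orderOf τ)]
  rw [thaineH90F_add, hq, one_mul, pow_mul, pow_orderOf_eq_one, one_pow, one_smul]

/-- Hilbert 90 for a cyclic extension, universe polymorphic. -/
theorem thaine_hilbert90 [IsGalois K L] (τ : L ≃ₐ[K] L)
    (hτ : ∀ σ : L ≃ₐ[K] L, σ ∈ Subgroup.zpowers τ) (x : Lˣ)
    (hx : Algebra.norm K (x : L) = 1) : ∃ y : Lˣ, τ (y : L) = x * y := by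
  classical
  have hfin : IsOfFinOrder τ := isOfFinOrder_of_finite τ
  have hex : ∀ σ : L ≃ₐ[K] L, ∃ i : ℕ, τ ^ i = σ := fun σ =>
    (Submonoid.mem_powers_iff _ _).mp (hfin.mem_powers_iff_mem_zpowers.mpr (hτ σ))
  choose idx hidx using hex
  let f : (L ≃ₐ[K] L) → Lˣ := fun σ => thaineH90F τ x (idx σ)
  have hf : groupCohomology.IsMulCocycle₁ f := by
    intro g h
    change thaineH90F τ x (idx (g * h)) = g • thaineH90F τ x (idx h) * thaineH90F τ x (idx g)
    have hmod : idx (g * h) % orderOf τ = (idx g + idx h) % orderOf τ := by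
      have : τ ^ idx (g * h) = τ ^ (idx g + idx h) := by rw [hidx, pow_add, hidx, hidx]
      exact pow_eq_pow_iff_modEq.mp this
    rw [thaineH90F_mod τ hτ x hx (idx (g * h)), hmod, ← thaineH90F_mod τ hτ x hx, thaineH90F_add,
      hidx, mul_comm]
  obtain ⟨β, hβ⟩ := groupCohomology.isMulCoboundary₁_of_isMulCocycle₁_of_aut_to_units f hf
  refine ⟨β, ?_⟩
  have h1 := hβ τ
  have h2 : f τ = x := by
    change thaineH90F τ x (idx τ) = x
    have hmod : idx τ % orderOf τ = 1 % orderOf τ := by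
      have : τ ^ idx τ = τ ^ 1 := by rw [hidx, pow_one]
      exact pow_eq_pow_iff_modEq.mp this
    rw [thaineH90F_mod τ hτ x hx, hmod, ← thaineH90F_mod τ hτ x hx]
    rw [thaineH90F, Finset.prod_range_one, pow_zero, one_smul]
  rw [h2] at h1
  have h3 : τ • β = x * β := by rw [← h1, div_mul_cancel]
  have h4 := congrArg (fun u : Lˣ => (u : L)) h3
  simpa using h4

end H90

section Field

variable {p ℓ : ℕ} [hp : Fact p.Prime] [hℓ : Fact ℓ.Prime]
variable (K : Type*) [Field K] [NumberField K] [IsCyclotomicExtension {p} ℚ K]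
variable (L : Type*) [Field L] [NumberField L] [Algebra K L] [IsCyclotomicExtension {ℓ} K L]

include K in
theorem thaine_isCyclo_mul (hpl : p ≠ ℓ) : IsCyclotomicExtension {p * ℓ} ℚ L := by
  have h1 : IsCyclotomicExtension ({p} ∪ {ℓ}) ℚ L :=
    IsCyclotomicExtension.trans {p} {ℓ} ℚ K L (algebraMap K L).injective
  have hp0 : p ≠ 0 := hp.out.ne_zero
  have hℓ0 : ℓ ≠ 0 := hℓ.out.ne_zero
  have : NeZero p := ⟨hp0⟩
  have : NeZero ℓ := ⟨hℓ0⟩
  have : NeZero (p * ℓ) := ⟨mul_ne_zero hp0 hℓ0⟩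
  obtain ⟨ζp, hζp⟩ := IsCyclotomicExtension.exists_isPrimitiveRoot ℚ L (S := {p} ∪ {ℓ}) (n := p)
    (by simp) hp0
  obtain ⟨ζl, hζl⟩ := IsCyclotomicExtension.exists_isPrimitiveRoot ℚ L (S := {p} ∪ {ℓ}) (n := ℓ)
    (by simp) hℓ0
  have hcop : Nat.Coprime p ℓ := (Nat.coprime_primes hp.out hℓ.out).mpr hpl
  have hprim : IsPrimitiveRoot (ζp * ζl) (p * ℓ) := by
    have h1 : orderOf ζp = p := hζp.eq_orderOf.symm
    have h2 : orderOf ζl = ℓ := hζl.eq_orderOf.symm
    have := (Commute.all ζp ζl).orderOf_mul_eq_mul_orderOf_of_coprime (by rw [h1, h2]; exact hcop)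
    rw [h1, h2] at this
    rw [← this]
    exact IsPrimitiveRoot.orderOf _
  have h2 : IsCyclotomicExtension ({p} ∪ {ℓ} ∪ {p * ℓ}) ℚ L :=
    IsCyclotomicExtension.union_of_isPrimitiveRoot _ ℚ L hprim
  have h3 : IsCyclotomicExtension ({p * ℓ} ∪ {p} ∪ {ℓ}) ℚ L := by
    have : ({p * ℓ} ∪ {p} ∪ {ℓ} : Set ℕ) = {p} ∪ {ℓ} ∪ {p * ℓ} := by
      ext x; simp; tauto
    rw [this]; exact h2
  have h4 : IsCyclotomicExtension ({p * ℓ} ∪ {p}) ℚ L :=
    (IsCyclotomicExtension.iff_union_of_dvd (n := ℓ) ℚ L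
      ⟨p * ℓ, by simp, mul_ne_zero hp0 hℓ0, dvd_mul_left ℓ p⟩).mpr h3
  exact (IsCyclotomicExtension.iff_union_of_dvd (n := p) ℚ L
      ⟨p * ℓ, by simp, mul_ne_zero hp0 hℓ0, dvd_mul_right p ℓ⟩).mpr h4

theorem thaine_finrank (hpl : p ≠ ℓ) : Module.finrank K L = ℓ - 1 := by
  have hp0 : p ≠ 0 := hp.out.ne_zero
  have hℓ0 : ℓ ≠ 0 := hℓ.out.ne_zero
  have : NeZero p := ⟨hp0⟩
  have : NeZero ℓ := ⟨hℓ0⟩
  have : NeZero (p * ℓ) := ⟨mul_ne_zero hp0 hℓ0⟩
  have := thaine_isCyclo_mul (p := p) (ℓ := ℓ) K L hpl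
  have hcop : Nat.Coprime p ℓ := (Nat.coprime_primes hp.out hℓ.out).mpr hpl
  have h1 : Module.finrank ℚ L = (p * ℓ).totient := IsCyclotomicExtension.Rat.finrank (p * ℓ) L
  have h2 : Module.finrank ℚ K = p.totient := IsCyclotomicExtension.Rat.finrank p K
  have h3 := Module.finrank_mul_finrank ℚ K L
  rw [h1, h2, Nat.totient_mul hcop, Nat.totient_prime hp.out, Nat.totient_prime hℓ.out] at h3
  exact Nat.eq_of_mul_eq_mul_left (Nat.sub_pos_of_lt hp.out.one_lt) h3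

include L in
theorem thaine_irreducible_cyclotomic (hpl : p ≠ ℓ) : Irreducible (cyclotomic ℓ K) := by
  have hℓ0 : ℓ ≠ 0 := hℓ.out.ne_zero
  have : NeZero ℓ := ⟨hℓ0⟩
  have hμ := IsCyclotomicExtension.zeta_spec ℓ K L
  set μ := IsCyclotomicExtension.zeta ℓ K L
  have hfin := thaine_finrank (p := p) (ℓ := ℓ) K L hpl
  have : FiniteDimensional K L := IsCyclotomicExtension.finiteDimensional {ℓ} K L
  have htop : K⟮μ⟯ = ⊤ := by
    have := IsCyclotomicExtension.adjoin_primitive_root_eq_top (A := K) (B := L) hμ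
    rw [← IntermediateField.toSubalgebra_inj, IntermediateField.top_toSubalgebra, ← this]
    exact IntermediateField.adjoin_simple_toSubalgebra_of_isAlgebraic (IsIntegral.of_finite K μ).isAlgebraic
  have hdeg : (minpoly K μ).natDegree = ℓ - 1 := by
    rw [(Field.primitive_element_iff_minpoly_natDegree_eq K μ).mp htop, hfin]
  have hdvd : minpoly K μ ∣ cyclotomic ℓ K := by
    apply minpoly.dvd
    have := hμ.isRoot_cyclotomic (NeZero.pos ℓ)
    rw [← map_cyclotomic ℓ (algebraMap K L)] at this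
    rwa [aeval_def, eval₂_eq_eval_map]
  have heq : cyclotomic ℓ K = minpoly K μ := by
    apply Polynomial.eq_of_monic_of_dvd_of_natDegree_le (minpoly.monic (IsIntegral.of_finite K μ))
      (cyclotomic.monic ℓ K) hdvd
    rw [natDegree_cyclotomic, Nat.totient_prime hℓ.out, hdeg]
  rw [heq]
  exact minpoly.irreducible (IsIntegral.of_finite K μ)

/-- A generator `τ` of `Gal(L/K)`, acting on `ζ_ℓ` by `ζ_ℓ ↦ ζ_ℓ ^ g` with `g` a primitive root
mod `ℓ`. -/
theorem thaine_exists_generator (hpl : p ≠ ℓ) :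
    ∃ (τ : L ≃ₐ[K] L) (g : ℕ), (∀ σ : L ≃ₐ[K] L, σ ∈ Subgroup.zpowers τ) ∧
      τ (IsCyclotomicExtension.zeta ℓ K L) = (IsCyclotomicExtension.zeta ℓ K L) ^ g ∧
      orderOf (g : ZMod ℓ) = ℓ - 1 := by
  have hℓ0 : ℓ ≠ 0 := hℓ.out.ne_zero
  have : NeZero ℓ := ⟨hℓ0⟩
  have hirr := thaine_irreducible_cyclotomic (p := p) (ℓ := ℓ) K L hpl
  let e := IsCyclotomicExtension.autEquivPow L hirr
  have hcyc : IsCyclic (ZMod ℓ)ˣ := ZMod.isCyclic_units_prime hℓ.out
  obtain ⟨u, hu⟩ := hcyc.exists_generator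
  refine ⟨e.symm u, (u : ZMod ℓ).val, ?_, ?_, ?_⟩
  · intro σ
    obtain ⟨k, hk⟩ := Subgroup.mem_zpowers_iff.mp (hu (e σ))
    refine Subgroup.mem_zpowers_iff.mpr ⟨k, ?_⟩
    apply e.injective
    rw [map_zpow, MulEquiv.apply_symm_apply, hk]
  · have h1 := IsPrimitiveRoot.autToPow_spec K (IsCyclotomicExtension.zeta_spec ℓ K L) (e.symm u)
    have h2 : (IsPrimitiveRoot.autToPow K (IsCyclotomicExtension.zeta_spec ℓ K L)) (e.symm u) = u :=
      e.apply_symm_apply u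
    rw [h2] at h1
    exact h1.symm
  · rw [ZMod.natCast_zmod_val, orderOf_units, orderOf_eq_card_of_forall_mem_zpowers hu,
      Nat.card_eq_fintype_card, ZMod.card_units]

/-- The norm of `1 + c ζ_ℓ` is `1` if `c ^ ℓ = c`, `c ≠ 0, -1`. -/
theorem thaine_norm_one_add (hpl : p ≠ ℓ) (hℓ2 : ℓ ≠ 2) (c : K) (hc : c ^ ℓ = c) (hc0 : c ≠ 0)
    (hc1 : c ≠ -1) :
    Algebra.norm K (1 + algebraMap K L c * IsCyclotomicExtension.zeta ℓ K L) = 1 := by
  classical
  have hℓ0 : ℓ ≠ 0 := hℓ.out.ne_zero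
  have : NeZero ℓ := ⟨hℓ0⟩
  have hirr := thaine_irreducible_cyclotomic (p := p) (ℓ := ℓ) K L hpl
  have hμ := IsCyclotomicExtension.zeta_spec ℓ K L
  set μ := IsCyclotomicExtension.zeta ℓ K L
  have hodd : Odd ℓ := hℓ.out.odd_of_ne_two hℓ2
  have heven : Even (ℓ - 1) := hℓ.out.even_sub_one hℓ2
  -- norm (a - μ) = eval a (cyclotomic ℓ K)
  have key : ∀ a : K, Algebra.norm K (algebraMap K L a - μ) = eval a (cyclotomic ℓ K) := by
    intro a
    let pb := hμ.powerBasis K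
    have hgen : pb.gen = μ := hμ.powerBasis_gen K
    rw [Algebra.norm_eq_matrix_det pb.basis, map_sub, hμ.minpoly_eq_cyclotomic_of_irreducible hirr,
      ← hgen, ← charpoly_leftMulMatrix pb, Matrix.eval_charpoly]
    congr 2
    rw [AlgHom.commutes]
    rfl
  have hfin : Module.finrank K L = ℓ - 1 := by
    rw [IsCyclotomicExtension.finrank L hirr, Nat.totient_prime hℓ.out]
  have hcl : c ^ (ℓ - 1) = 1 := by
    have : c ^ (ℓ - 1) * c = 1 * c := by
      rw [← pow_succ, Nat.sub_add_cancel hℓ.out.pos, hc, one_mul]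
    exact mul_right_cancel₀ hc0 this
  have h1 : (1 + algebraMap K L c * μ) = algebraMap K L (-c) * (algebraMap K L (-c⁻¹) - μ) := by
    rw [map_neg, map_neg, map_inv₀]
    have : algebraMap K L c ≠ 0 := by simpa using hc0
    field_simp
    ring
  rw [h1, map_mul, Algebra.norm_algebraMap, key, hfin, heven.neg_pow, hcl, one_mul]
  have h2 := cyclotomic_prime_mul_X_sub_one K ℓ
  have h3 := congrArg (eval (-c⁻¹)) h2
  simp only [eval_mul, eval_sub, eval_X, eval_one, eval_pow] at h3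
  have h4 : (-c⁻¹) ^ ℓ = -c⁻¹ := by
    rw [hodd.neg_pow, inv_pow, hc]
  rw [h4] at h3
  have h5 : (-c⁻¹ - 1 : K) ≠ 0 := by
    intro h
    apply hc1
    have : c⁻¹ = -1 := by linear_combination -h
    rw [← inv_inv c, this]; norm_num
  exact mul_right_cancel₀ h5 (by rw [h3, one_mul])



/-- Every nonzero prime of a ring of integers lies over a rational prime. -/
theorem thaine_exists_liesOver (F : Type*) [Field F] [NumberField F] (P : Ideal (𝓞 F)) [P.IsPrime]
    (hP : P ≠ ⊥) : ∃ q : ℕ, q.Prime ∧ P.LiesOver (Ideal.span {(q : ℤ)}) := by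
  have h1 : (P.under ℤ).IsPrime := Ideal.IsPrime.under ℤ P
  have h2 : P.under ℤ ≠ ⊥ := Ideal.under_ne_bot ℤ hP
  have h3 : Prime (Submodule.IsPrincipal.generator (P.under ℤ)) :=
    Submodule.IsPrincipal.prime_generator_of_isPrime _ h2
  refine ⟨(Submodule.IsPrincipal.generator (P.under ℤ)).natAbs, Int.prime_iff_natAbs_prime.mp h3, ?_⟩
  constructor
  rw [Int.span_natAbs, Ideal.span_singleton_generator]

theorem thaine_ramIdx (hpl : p ≠ ℓ) (P : Ideal (𝓞 L)) [P.IsPrime] (hP : P ≠ ⊥) :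
    (((ℓ : ℕ) : 𝓞 L) ∈ P → P.ramificationIdx (𝓞 K) = ℓ - 1) ∧
    (((ℓ : ℕ) : 𝓞 L) ∉ P → P.ramificationIdx (𝓞 K) = 1) := by
  have hp0 : p ≠ 0 := hp.out.ne_zero
  have hℓ0 : ℓ ≠ 0 := hℓ.out.ne_zero
  have : NeZero p := ⟨hp0⟩
  have : NeZero ℓ := ⟨hℓ0⟩
  have : NeZero (p * ℓ) := ⟨mul_ne_zero hp0 hℓ0⟩
  have hL := thaine_isCyclo_mul (p := p) (ℓ := ℓ) K L hpl
  obtain ⟨q, hq, hPq⟩ := thaine_exists_liesOver L P hP
  have : Fact q.Prime := ⟨hq⟩
  set Q : Ideal (𝓞 K) := P.under (𝓞 K) with hQ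
  have hQprime : Q.IsPrime := Ideal.IsPrime.under (𝓞 K) P
  have hPQ : P.LiesOver Q := ⟨rfl⟩
  have hQq : Q.LiesOver (Ideal.span {(q : ℤ)}) := Ideal.LiesOver.tower_bot P Q _
  have htower : P.ramificationIdx ℤ = Q.ramificationIdx ℤ * P.ramificationIdx (𝓞 K) :=
    Ideal.ramificationIdx_tower Q P
  have hmem : ((ℓ : ℕ) : 𝓞 L) ∈ P ↔ q = ℓ := by
    have h1 : ((ℓ : ℕ) : 𝓞 L) ∈ P ↔ ((ℓ : ℕ) : ℤ) ∈ P.under ℤ := by
      rw [Ideal.mem_comap]; simp
    rw [h1, ← hPq.over, Ideal.mem_span_singleton, Int.natCast_dvd_natCast,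
      Nat.prime_dvd_prime_iff_eq hq hℓ.out]
  by_cases hqℓ : q = ℓ
  · subst hqℓ
    have e1 : P.ramificationIdx ℤ = q - 1 := by
      have := IsCyclotomicExtension.Rat.ramificationIdx_eq (p * q) (m := p) (p := q) (k := 0) L P
        (by ring) (by rw [Nat.prime_dvd_prime_iff_eq hq hp.out]; exact fun h => hpl h.symm)
      simpa using this
    have e2 : Q.ramificationIdx ℤ = 1 :=
      IsCyclotomicExtension.Rat.ramificationIdx_eq_of_not_dvd (m := p) q K Q
        (by rw [Nat.prime_dvd_prime_iff_eq hq hp.out]; exact fun h => hpl h.symm)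
    rw [e1, e2, one_mul] at htower
    exact ⟨fun _ => htower.symm, fun h => absurd (hmem.mpr rfl) h⟩
  · refine ⟨fun h => absurd (hmem.mp h) hqℓ, fun _ => ?_⟩
    by_cases hqp : q = p
    · subst hqp
      have e1 : P.ramificationIdx ℤ = q - 1 := by
        have := IsCyclotomicExtension.Rat.ramificationIdx_eq (q * ℓ) (m := ℓ) (p := q) (k := 0) L P
          (by ring) (by rw [Nat.prime_dvd_prime_iff_eq hq hℓ.out]; exact hqℓ)
        simpa using this
      have e2 : Q.ramificationIdx ℤ = q - 1 :=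
        IsCyclotomicExtension.Rat.ramificationIdx_eq_of_prime q K Q
      rw [e1, e2] at htower
      have hpos : 0 < q - 1 := Nat.sub_pos_of_lt hq.one_lt
      exact (Nat.eq_of_mul_eq_mul_left hpos (by rw [← htower, mul_one])).symm
    · have e1 : P.ramificationIdx ℤ = 1 :=
        IsCyclotomicExtension.Rat.ramificationIdx_eq_of_not_dvd (m := p * ℓ) q L P
          (by
            rw [hq.dvd_mul, Nat.prime_dvd_prime_iff_eq hq hp.out, Nat.prime_dvd_prime_iff_eq hq hℓ.out]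
            tauto)
      rw [e1] at htower
      exact Nat.eq_one_of_mul_eq_one_left htower.symm

/-- Primes of `L` above `ℓ` are totally ramified over `K`: the whole Galois group is inertia. -/
theorem thaine_inertia (hpl : p ≠ ℓ) (P : Ideal (𝓞 L)) [P.IsPrime] (hP : P ≠ ⊥)
    (hℓP : ((ℓ : ℕ) : 𝓞 L) ∈ P) (σ : L ≃ₐ[K] L) (x : 𝓞 L) : σ • x - x ∈ P := by
  have : IsGalois K L := IsCyclotomicExtension.isGalois {ℓ} K L
  have : FiniteDimensional K L := IsCyclotomicExtension.finiteDimensional {ℓ} K L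
  set Q : Ideal (𝓞 K) := P.under (𝓞 K) with hQ
  have hQprime : Q.IsPrime := Ideal.IsPrime.under (𝓞 K) P
  have hPQ : P.LiesOver Q := ⟨rfl⟩
  have hQ0 : Q ≠ ⊥ := Ideal.under_ne_bot (𝓞 K) hP
  have hQmax : Q.IsMaximal := hQprime.isMaximal hQ0
  have : Finite (𝓞 K ⧸ Q) := Ideal.finiteQuotientOfFreeOfNeBot Q hQ0
  have : Finite Q.ResidueField := by
    exact Finite.of_surjective _ (Ideal.bijective_algebraMap_quotient_residueField Q).surjective
  have h1 := Ideal.card_inertia_eq_ramificationIdxIn (G := Gal(L/K)) Q P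
  rw [Ideal.ramificationIdxIn_eq_ramificationIdx Q P Gal(L/K),
    (thaine_ramIdx (p := p) (ℓ := ℓ) K L hpl P hP).1 hℓP] at h1
  have h2 : Nat.card Gal(L/K) = ℓ - 1 := by
    rw [IsGalois.card_aut_eq_finrank, thaine_finrank (p := p) (ℓ := ℓ) K L hpl]
  have h3 : Ideal.inertia Gal(L/K) P = ⊤ := Subgroup.eq_top_of_card_eq _ (by rw [h1, h2])
  have h4 : σ ∈ Ideal.inertia Gal(L/K) P := by rw [h3]; trivial
  exact h4 x

omit hℓ in
/-- A prime ideal of a ring of integers containing the rational prime `q` lies over `(q)`. -/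
theorem thaine_liesOver_of_mem (F : Type*) [Field F] [NumberField F] (P : Ideal (𝓞 F)) [P.IsPrime]
    (q : ℕ) (hq : q.Prime) (h : ((q : ℕ) : 𝓞 F) ∈ P) : P.LiesOver (Ideal.span {(q : ℤ)}) := by
  constructor
  have h1 : (P.under ℤ).IsPrime := Ideal.IsPrime.under ℤ P
  have h2 : Ideal.span {(q : ℤ)} ≤ P.under ℤ := by
    rw [Ideal.span_singleton_le_iff_mem, Ideal.mem_comap]
    simpa using h
  have h3 : (Ideal.span {(q : ℤ)}).IsMaximal :=
    PrincipalIdealRing.isMaximal_of_irreducible (Nat.prime_iff_prime_int.mp hq).irreducible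
  exact h3.eq_of_le h1.ne_top h2

theorem thaine_intValuation_isUnit {R : Type*} [CommRing R] [IsDedekindDomain R]
    (w : HeightOneSpectrum R) {u : R} (hu : IsUnit u) : w.intValuation u = 1 := by
  obtain ⟨u, rfl⟩ := hu
  have h1 := w.intValuation_le_one (u : R)
  have h2 := w.intValuation_le_one ((u⁻¹ : Rˣ) : R)
  have h3 : w.intValuation (u : R) * w.intValuation ((u⁻¹ : Rˣ) : R) = 1 := by
    rw [← map_mul, Units.mul_inv, map_one]
  apply le_antisymm h1
  by_contra hlt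
  push Not at hlt
  have : w.intValuation (u : R) * w.intValuation ((u⁻¹ : Rˣ) : R) < 1 := by
    calc _ ≤ w.intValuation (u : R) * 1 := by gcongr
      _ = w.intValuation (u : R) := mul_one _
      _ < 1 := hlt
  rw [h3] at this
  exact lt_irrefl _ this

include K in
/-- `ζ_ℓ - 1` is a uniformizer at every prime of `L` above `ℓ`. -/
theorem thaine_intValuation_zeta_sub_one (hpl : p ≠ ℓ) (w : HeightOneSpectrum (𝓞 L))
    (hℓw : ((ℓ : ℕ) : 𝓞 L) ∈ w.asIdeal) {μ : 𝓞 L} (hμ : IsPrimitiveRoot μ ℓ) :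
    w.intValuation (μ - 1) = WithZero.exp (-1 : ℤ) := by
  have hp0 : p ≠ 0 := hp.out.ne_zero
  have hℓ0 : ℓ ≠ 0 := hℓ.out.ne_zero
  have : NeZero p := ⟨hp0⟩
  have : NeZero ℓ := ⟨hℓ0⟩
  have : NeZero (p * ℓ) := ⟨mul_ne_zero hp0 hℓ0⟩
  have hL := thaine_isCyclo_mul (p := p) (ℓ := ℓ) K L hpl
  have hlies : w.asIdeal.LiesOver (Ideal.span {(ℓ : ℤ)}) :=
    thaine_liesOver_of_mem L w.asIdeal ℓ hℓ.out hℓw
  -- valuation of ℓ
  have e1 : w.asIdeal.ramificationIdx ℤ = ℓ - 1 := by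
    have := IsCyclotomicExtension.Rat.ramificationIdx_eq (p * ℓ) (m := p) (p := ℓ) (k := 0) L
      w.asIdeal (by ring)
      (by rw [Nat.prime_dvd_prime_iff_eq hℓ.out hp.out]; exact fun h => hpl h.symm)
    simpa using this
  have hℓne : ((ℓ : ℕ) : 𝓞 L) ≠ 0 := by exact_mod_cast hℓ0
  have hmap : (Ideal.span {(ℓ : ℤ)}).map (algebraMap ℤ (𝓞 L)) = Ideal.span {((ℓ : ℕ) : 𝓞 L)} := by
    rw [Ideal.map_span, Set.image_singleton]; simp
  have hne : (Ideal.span {(ℓ : ℤ)}).map (algebraMap ℤ (𝓞 L)) ≠ ⊥ := by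
    rw [hmap]; simpa using hℓne
  have e2 := Ideal.IsDedekindDomain.ramificationIdx_eq_multiplicity (Ideal.span {(ℓ : ℤ)}) w.asIdeal hne
  rw [hmap, e1] at e2
  have hvℓ : w.intValuation ((ℓ : ℕ) : 𝓞 L) = WithZero.exp (-((ℓ - 1 : ℕ) : ℤ)) := by
    rw [w.intValuation_eq_exp_neg_multiplicity hℓne, ← e2]
  -- product formula
  have hμ' : IsPrimitiveRoot μ ((ℓ - 1) + 1) := by rwa [Nat.sub_add_cancel hℓ.out.pos]
  have hprod := hμ'.prod_one_sub_pow_eq_order
  have hcast : ((ℓ - 1 : ℕ) : 𝓞 L) + 1 = ((ℓ : ℕ) : 𝓞 L) := by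
    rw [← Nat.cast_add_one, Nat.sub_add_cancel hℓ.out.pos]
  rw [hcast] at hprod
  have hfac : ∀ k ∈ Finset.range (ℓ - 1), w.intValuation (1 - μ ^ (k + 1)) = w.intValuation (μ - 1) := by
    intro k hk
    have hk' : k + 1 < ℓ := by have := Finset.mem_range.mp hk; omega
    have hcop : (k + 1).Coprime ℓ := by
      rw [Nat.coprime_comm]
      exact (Nat.Prime.coprime_iff_not_dvd hℓ.out).mpr (Nat.not_dvd_of_pos_of_lt (by omega) hk')
    obtain ⟨u, hu⟩ := hμ.associated_sub_one_pow_sub_one_of_coprime hcop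
    rw [Valuation.map_sub_swap, ← hu, map_mul, thaine_intValuation_isUnit w u.isUnit, mul_one]
  have hval : w.intValuation ((ℓ : ℕ) : 𝓞 L) = w.intValuation (μ - 1) ^ (ℓ - 1) := by
    rw [← hprod, map_prod, Finset.prod_congr rfl hfac, Finset.prod_const, Finset.card_range]
  rw [hvℓ] at hval
  have ht0 : w.intValuation (μ - 1) ≠ 0 := by
    intro h
    rw [h, zero_pow (Nat.sub_pos_of_lt hℓ.out.one_lt).ne'] at hval
    exact WithZero.exp_ne_zero hval
  rw [← WithZero.exp_log ht0] at hval ⊢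
  rw [← WithZero.exp_nsmul, WithZero.exp_inj] at hval
  rw [WithZero.exp_inj]
  have hpos : (0 : ℤ) < ((ℓ - 1 : ℕ) : ℤ) := by exact_mod_cast Nat.sub_pos_of_lt hℓ.out.one_lt
  rw [nsmul_eq_mul] at hval
  nlinarith [hval]

end Field

end Fermat.Agent.S14
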