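/-
Thaine relation, core step: Hilbert 90 in `L = K(ζ_ℓ)` for a norm-one unit and the
valuations of the norm of the resulting element.
Part of the S14 project (package W4, Thaine relation).
-/
import Fermat.Agent.S14.ThaineField

set_option autoImplicit false

namespace Fermat.Agent.S14

open NumberField Polynomial IntermediateField IsDedekindDomain
open scoped Pointwise

section Core

variable {p ℓ : ℕ} [hp : Fact p.Prime] [hℓ : Fact ℓ.Prime]
variable (K : Type*) [Field K] [NumberField K] [IsCyclotomicExtension {p} ℚ K]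
variable (L : Type*) [Field L] [NumberField L] [Algebra K L] [IsCyclotomicExtension {ℓ} K L]

theorem thaine_galRestrict_eq_smul (σ : L ≃ₐ[K] L) (x : 𝓞 L) :
    galRestrict (𝓞 K) K L (𝓞 L) σ x = σ • x := by
  apply RingOfIntegers.ext
  exact algebraMap_galRestrict_apply (𝓞 K) σ x

omit [NumberField K] [NumberField L] in
/-- If `τ β = ε β` with `ε` a unit, then every `σ` in the group generated by `τ` multiplies `β`
by a unit. -/
theorem thaine_smul_eq_unit_mul (τ : L ≃ₐ[K] L) (hτ : ∀ σ : L ≃ₐ[K] L, σ ∈ Subgroup.zpowers τ)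
    (β : 𝓞 L) (ε : (𝓞 L)ˣ) (hβ : τ • β = ε * β) (σ : L ≃ₐ[K] L) :
    ∃ u : 𝓞 L, IsUnit u ∧ σ • β = u * β := by
  let H : Subgroup (L ≃ₐ[K] L) :=
    { carrier := {σ | ∃ u : 𝓞 L, IsUnit u ∧ σ • β = u * β}
      one_mem' := ⟨1, isUnit_one, by simp⟩
      mul_mem' := by
        rintro a b ⟨u, hu, hua⟩ ⟨v, hv, hvb⟩
        refine ⟨a • v * u, ?_, ?_⟩
        · exact (hv.map (MulSemiringAction.toRingHom (L ≃ₐ[K] L) (𝓞 L) a)).mul hu
        · rw [mul_smul, hvb, smul_mul', hua]; ring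
      inv_mem' := by
        rintro a ⟨u, hu, hua⟩
        have hu' : IsUnit (a⁻¹ • u) := hu.map (MulSemiringAction.toRingHom (L ≃ₐ[K] L) (𝓞 L) a⁻¹)
        obtain ⟨u', hu'eq⟩ := hu'
        refine ⟨((u'⁻¹ : (𝓞 L)ˣ) : 𝓞 L), Units.isUnit _, ?_⟩
        have h1 : β = a⁻¹ • u * a⁻¹ • β := by
          rw [← smul_mul', ← hua, inv_smul_smul]
        rw [← hu'eq] at h1
        calc a⁻¹ • β = ((u'⁻¹ : (𝓞 L)ˣ) : 𝓞 L) * (u' * a⁻¹ • β) := by
              rw [← mul_assoc, Units.inv_mul, one_mul]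
          _ = ((u'⁻¹ : (𝓞 L)ˣ) : 𝓞 L) * β := by rw [← h1] }
  have hτH : τ ∈ H := ⟨ε, ε.isUnit, hβ⟩
  have : Subgroup.zpowers τ ≤ H := (Subgroup.zpowers_le).mpr hτH
  exact this (hτ σ)

/-- Core of the Thaine relation.  `ε` is a unit of `L = K(ζ_ℓ)` of relative norm `1` which is
congruent to `η ∈ 𝓞 K` modulo `ζ_ℓ - 1`; `τ` generates `Gal(L/K)` and acts on `ζ_ℓ` by
`ζ_ℓ ↦ ζ_ℓ ^ g`.  Then there is a nonzero `x ∈ 𝓞 K` whose valuation at every prime not above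
`ℓ` is divisible by `ℓ - 1`, and such that `η ≡ g ^ (v(x)) mod v` for every prime `v` above `ℓ`. -/
theorem thaine_core (hpl : p ≠ ℓ)
    (τ : L ≃ₐ[K] L) (hτ : ∀ σ : L ≃ₐ[K] L, σ ∈ Subgroup.zpowers τ) (g : ℕ)
    {μ : 𝓞 L} (hμ : IsPrimitiveRoot μ ℓ) (hτμ : τ • μ = μ ^ g)
    (ε : (𝓞 L)ˣ) (hε : Algebra.norm K ((ε : 𝓞 L) : L) = 1)
    (η : 𝓞 K) (hεη : (ε : 𝓞 L) - algebraMap (𝓞 K) (𝓞 L) η ∈ Ideal.span {μ - 1}) :
    ∃ x : 𝓞 K, x ≠ 0 ∧
      (∀ v : HeightOneSpectrum (𝓞 K), ((ℓ : ℕ) : 𝓞 K) ∉ v.asIdeal →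
        ∃ k : ℕ, v.intValuation x = WithZero.exp (-(((ℓ - 1) * k : ℕ) : ℤ))) ∧
      (∀ v : HeightOneSpectrum (𝓞 K), ((ℓ : ℕ) : 𝓞 K) ∈ v.asIdeal →
        ∃ r : ℕ, v.intValuation x = WithZero.exp (-(r : ℤ)) ∧ η - (g : 𝓞 K) ^ r ∈ v.asIdeal) := by
  have hgal : IsGalois K L := IsCyclotomicExtension.isGalois {ℓ} K L
  have hfd : FiniteDimensional K L := IsCyclotomicExtension.finiteDimensional {ℓ} K L
  have hcyc : IsCyclic (L ≃ₐ[K] L) := ⟨τ, hτ⟩
  have hℓ1 : 0 < ℓ - 1 := Nat.sub_pos_of_lt hℓ.out.one_lt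
  -- Hilbert 90
  have hεL : Algebra.norm K ((Units.map (algebraMap (𝓞 L) L).toMonoidHom ε : Lˣ) : L) = 1 := hε
  obtain ⟨y, hy⟩ := thaine_hilbert90 τ hτ (Units.map (algebraMap (𝓞 L) L).toMonoidHom ε) hεL
  have hyalg : IsAlgebraic ℤ (y : L) :=
    (IsFractionRing.isAlgebraic_iff ℤ ℚ L).mpr (IsAlgebraic.of_finite ℚ (y : L))
  obtain ⟨m, hm0, hmint⟩ := hyalg.exists_integral_multiple
  set β : 𝓞 L := ⟨m • (y : L), hmint⟩ with hβdef
  have hβ0 : β ≠ 0 := by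
    intro h
    have h1 : ((β : 𝓞 L) : L) = 0 := by rw [h]; rfl
    have h2 : m • (y : L) = 0 := h1
    rw [zsmul_eq_mul, mul_eq_zero] at h2
    rcases h2 with h2 | h2
    · exact hm0 (by exact_mod_cast h2)
    · exact y.ne_zero h2
  have hτβ : τ • β = ε * β := by
    apply RingOfIntegers.ext
    change τ (m • (y : L)) = ((ε : 𝓞 L) : L) * (m • (y : L))
    rw [map_zsmul, hy, mul_smul_comm]
    rfl
  have hunit := thaine_smul_eq_unit_mul K L τ hτ β ε hτβ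
  -- the norm
  set x : 𝓞 K := Algebra.intNorm (𝓞 K) (𝓞 L) β with hx
  have hx0 : x ≠ 0 := Algebra.intNorm_ne_zero.mpr hβ0
  have hxprod : algebraMap (𝓞 K) (𝓞 L) x = ∏ σ : L ≃ₐ[K] L, σ • β := by
    apply RingOfIntegers.ext
    have h1 : ((algebraMap (𝓞 K) (𝓞 L) x : 𝓞 L) : L) = algebraMap K L ((x : 𝓞 K) : K) := rfl
    rw [h1]
    have h2 : ((x : 𝓞 K) : K) = Algebra.norm K ((β : 𝓞 L) : L) :=
      Algebra.algebraMap_intNorm (A := 𝓞 K) (K := K) (L := L) (B := 𝓞 L) β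
    rw [h2, Algebra.norm_eq_prod_automorphisms]
    change ∏ σ : L ≃ₐ[K] L, σ ((β : 𝓞 L) : L) = algebraMap (𝓞 L) L (∏ σ : L ≃ₐ[K] L, σ • β)
    rw [map_prod]
    rfl
  have hcard : Nat.card (L ≃ₐ[K] L) = ℓ - 1 := by
    rw [IsGalois.card_aut_eq_finrank, thaine_finrank (p := p) (ℓ := ℓ) K L hpl]
  have hwx : ∀ w : HeightOneSpectrum (𝓞 L),
      w.intValuation (algebraMap (𝓞 K) (𝓞 L) x) = w.intValuation β ^ (ℓ - 1) := by
    intro w
    rw [hxprod, map_prod]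
    have : ∀ σ ∈ (Finset.univ : Finset (L ≃ₐ[K] L)), w.intValuation (σ • β) = w.intValuation β := by
      intro σ _
      obtain ⟨u, hu, hσ⟩ := hunit σ
      rw [hσ, map_mul, thaine_intValuation_isUnit w hu, one_mul]
    rw [Finset.prod_congr rfl this, Finset.prod_const, Finset.card_univ, ← Nat.card_eq_fintype_card,
      hcard]
  -- a prime of L above each prime of K
  have hexw : ∀ v : HeightOneSpectrum (𝓞 K), ∃ w : HeightOneSpectrum (𝓞 L),
      w.asIdeal.LiesOver v.asIdeal := by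
    intro v
    have : v.asIdeal.IsMaximal := v.isMaximal
    obtain ⟨P, hPmax, hPv⟩ := Ideal.exists_maximal_ideal_liesOver_of_isIntegral v.asIdeal (S := 𝓞 L)
    exact ⟨⟨P, hPmax.isPrime, Ideal.ne_bot_of_liesOver_of_ne_bot v.ne_bot P⟩, hPv⟩
  have hpowval : ∀ (v : HeightOneSpectrum (𝓞 K)) (w : HeightOneSpectrum (𝓞 L))
      [w.asIdeal.LiesOver v.asIdeal],
      v.intValuation x ^ (w.asIdeal.ramificationIdx (𝓞 K)) = w.intValuation β ^ (ℓ - 1) := by
    intro v w _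
    rw [← hwx w, ← Ideal.ramificationIdx'_eq_ramificationIdx v.asIdeal w.asIdeal v.ne_bot]
    exact HeightOneSpectrum.intValuation_liesOver v w x
  have hmemiff : ∀ (v : HeightOneSpectrum (𝓞 K)) (w : HeightOneSpectrum (𝓞 L))
      [w.asIdeal.LiesOver v.asIdeal], ((ℓ : ℕ) : 𝓞 L) ∈ w.asIdeal ↔ ((ℓ : ℕ) : 𝓞 K) ∈ v.asIdeal := by
    intro v w h
    rw [h.over, Ideal.mem_comap, map_natCast]
  refine ⟨x, hx0, ?_, ?_⟩
  · intro v hv
    obtain ⟨w, hw⟩ := hexw v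
    have e1 := (thaine_ramIdx (p := p) (ℓ := ℓ) K L hpl w.asIdeal w.ne_bot).2
      (fun h => hv ((hmemiff v w).mp h))
    have h1 := hpowval v w
    rw [e1, pow_one, w.intValuation_eq_exp_neg_multiplicity hβ0] at h1
    refine ⟨multiplicity w.asIdeal (Ideal.span {β}), ?_⟩
    rw [h1, ← WithZero.exp_nsmul, nsmul_eq_mul]
    congr 1
    push_cast
    ring
  · intro v hv
    obtain ⟨w, hw⟩ := hexw v
    have hℓw : ((ℓ : ℕ) : 𝓞 L) ∈ w.asIdeal := (hmemiff v w).mpr hv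
    have e1 := (thaine_ramIdx (p := p) (ℓ := ℓ) K L hpl w.asIdeal w.ne_bot).1 hℓw
    have h1 := hpowval v w
    rw [e1] at h1
    have h2 : v.intValuation x = w.intValuation β :=
      (pow_left_inj₀ zero_le zero_le hℓ1.ne').mp h1
    set r := multiplicity w.asIdeal (Ideal.span {β}) with hr
    have hwβ : w.intValuation β = WithZero.exp (-(r : ℤ)) :=
      w.intValuation_eq_exp_neg_multiplicity hβ0
    refine ⟨r, h2.trans hwβ, ?_⟩
    -- residue computation at `w`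
    set P := w.asIdeal with hPdef
    have hPprime : P.IsPrime := w.isPrime
    have hP0 : P ≠ ⊥ := w.ne_bot
    have hPival := thaine_intValuation_zeta_sub_one (p := p) (ℓ := ℓ) K L hpl w hℓw hμ
    have hPimem : μ - 1 ∈ P := by
      rw [hPdef, ← HeightOneSpectrum.intValuation_lt_one_iff_mem, hPival]
      rw [← WithZero.exp_zero, WithZero.exp_lt_exp]
      norm_num
    have hPir : w.intValuation ((μ - 1) ^ r) = WithZero.exp (-(r : ℤ)) := by
      rw [map_pow, hPival, ← WithZero.exp_nsmul]; simp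
    have hPir_mem : (μ - 1) ^ r ∈ P ^ r := by
      rw [hPdef, ← HeightOneSpectrum.intValuation_le_pow_iff_mem, hPir]
    have hPir_notmem : (μ - 1) ^ r ∉ P ^ (r + 1) := by
      rw [hPdef, ← HeightOneSpectrum.intValuation_le_pow_iff_mem, hPir, WithZero.exp_le_exp]
      push_cast; omega
    have hβ_mem : β ∈ P ^ r := by
      rw [hPdef, ← HeightOneSpectrum.intValuation_le_pow_iff_mem, hwβ]
    have hβ_notmem : β ∉ P ^ (r + 1) := by
      rw [hPdef, ← HeightOneSpectrum.intValuation_le_pow_iff_mem, hwβ, WithZero.exp_le_exp]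
      push_cast; omega
    obtain ⟨d, e, he, hde⟩ := Ideal.exists_mul_add_mem_pow_succ hP0 ((μ - 1) ^ r) β hPir_mem
      hPir_notmem hβ_mem
    have hd : d ∉ P := by
      intro hdP
      apply hβ_notmem
      rw [← hde, pow_succ]
      exact Ideal.add_mem _ (Ideal.mul_mem_mul hPir_mem hdP) (by rwa [← pow_succ])
    have hin : ∀ y : 𝓞 L, τ • y - y ∈ P := fun y =>
      thaine_inertia (p := p) (ℓ := ℓ) K L hpl P hP0 hℓw τ y
    -- τ maps P^(r+1) into itself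
    have hτP : ∀ y ∈ P ^ (r + 1), τ • y ∈ P ^ (r + 1) := by
      intro y hy
      have h1 : P.map (MulSemiringAction.toRingHom (L ≃ₐ[K] L) (𝓞 L) τ) ≤ P := by
        rw [Ideal.map_le_iff_le_comap]
        intro z hz
        rw [Ideal.mem_comap]
        have := Ideal.add_mem _ (hin z) hz
        simpa using this
      have h2 : (P ^ (r + 1)).map (MulSemiringAction.toRingHom (L ≃ₐ[K] L) (𝓞 L) τ) ≤ P ^ (r + 1) := by
        rw [Ideal.map_pow]
        exact Ideal.pow_right_mono h1 _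
      exact h2 (Ideal.mem_map_of_mem _ hy)
    set θ : 𝓞 L := ∑ i ∈ Finset.range g, μ ^ i with hθ
    have hτPi : τ • (μ - 1) = (μ - 1) * θ := by
      rw [smul_sub, hτμ, smul_one, hθ, mul_geom_sum]
    have hθg : θ - (g : 𝓞 L) ∈ P := by
      have : θ - (g : 𝓞 L) = ∑ i ∈ Finset.range g, (μ ^ i - 1) := by
        rw [Finset.sum_sub_distrib, hθ]; simp
      rw [this]
      refine Ideal.sum_mem _ (fun i _ => ?_)
      obtain ⟨c, hc⟩ := sub_one_dvd_pow_sub_one μ i  -- μ - 1 ∣ μ ^ i - 1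
      rw [hc]
      exact Ideal.mul_mem_right _ _ hPimem
    have hθr : θ ^ r - (g : 𝓞 L) ^ r ∈ P := by
      obtain ⟨c, hc⟩ := sub_dvd_pow_sub_pow θ (g : 𝓞 L) r
      rw [hc]
      exact Ideal.mul_mem_right _ _ hθg
    have hεηP : (ε : 𝓞 L) - algebraMap (𝓞 K) (𝓞 L) η ∈ P :=
      (Ideal.span_le.mpr (Set.singleton_subset_iff.mpr hPimem)) hεη
    -- the key congruence
    have hkey : (μ - 1) ^ r * (θ ^ r * τ • d - ε * d) ∈ P ^ (r + 1) := by
      have h1 : τ • β = ((μ - 1) * θ) ^ r * τ • d + τ • e := by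
        rw [← hde, smul_add, smul_mul', smul_pow', hτPi]
      rw [mul_pow] at h1
      have h2 : (μ - 1) ^ r * (θ ^ r * τ • d - ε * d) = ε * e - τ • e := by
        have h3 : ε * β = ε * ((μ - 1) ^ r * d + e) := by rw [hde]
        rw [← hτβ, h1] at h3
        linear_combination h3
      rw [h2]
      exact Ideal.sub_mem _ (Ideal.mul_mem_left _ _ he) (hτP e he)
    have h3 : θ ^ r * τ • d - ε * d ∈ P := Ideal.mem_prime_of_mul_mem_pow hP0 hPir_notmem hkey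
    have h4 : (θ ^ r - ε) * d ∈ P := by
      have : (θ ^ r - ε) * d = (θ ^ r * τ • d - ε * d) - θ ^ r * (τ • d - d) := by ring
      rw [this]
      exact Ideal.sub_mem _ h3 (Ideal.mul_mem_left _ _ (hin d))
    have h5 : θ ^ r - ε ∈ P := (hPprime.mem_or_mem h4).resolve_right hd
    have h6 : algebraMap (𝓞 K) (𝓞 L) (η - (g : 𝓞 K) ^ r) ∈ P := by
      have : algebraMap (𝓞 K) (𝓞 L) (η - (g : 𝓞 K) ^ r) =
          (θ ^ r - (g : 𝓞 L) ^ r) - (θ ^ r - ε) - ((ε : 𝓞 L) - algebraMap (𝓞 K) (𝓞 L) η) := by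
        rw [map_sub, map_pow, map_natCast]; ring
      rw [this]
      exact Ideal.sub_mem _ (Ideal.sub_mem _ hθr h5) hεηP
    rw [hw.over, Ideal.mem_comap]
    exact h6

end Core

end Fermat.Agent.S14
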