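/-
Thaine relation: assembly.  From the core step (`thaine_core`) to the relation
`∏_σ σ(𝔩)^{m_σ} · J^p = (δ)` in `K = ℚ(ζ_p)`.
Part of the S14 project (package W4, Thaine relation).
-/
import Fermat.Agent.S14.ThaineCore

set_option autoImplicit false

namespace Fermat.Agent.S14

open NumberField Polynomial IntermediateField IsDedekindDomain
open scoped Pointwise

/-- Factorization of a principal ideal from its valuations: if `n ∣ v(x)` for all primes `v`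
outside the finite set `S`, then `(x) = ∏_{v ∈ S} v^{v(x)} · J^n`. -/
theorem thaine_ideal_factor {R : Type*} [CommRing R] [IsDedekindDomain R] (x : R) (hx : x ≠ 0)
    (S : Finset (HeightOneSpectrum R)) (n : ℕ) (c : HeightOneSpectrum R → ℕ)
    (hc : ∀ v, v.intValuation x = WithZero.exp (-(c v : ℤ)))
    (hn : ∀ v, v ∉ S → n ∣ c v) :
    ∃ J : Ideal R, Ideal.span {x} = (∏ v ∈ S, v.asIdeal ^ c v) * J ^ n := by
  classical
  have hI : Ideal.span {x} ≠ (0 : Ideal R) := by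
    simpa using hx
  have hfac := Ideal.finprod_heightOneSpectrum_factorization hI
  have hcount : ∀ v : HeightOneSpectrum R, v.maxPowDividing (Ideal.span {x}) = v.asIdeal ^ c v := by
    intro v
    have h1 := v.intValuation_if_neg hx
    rw [hc v, WithZero.exp_inj, neg_inj] at h1
    unfold HeightOneSpectrum.maxPowDividing
    congr 1
    exact_mod_cast h1.symm
  have hfin : (Function.mulSupport fun v : HeightOneSpectrum R =>
      v.maxPowDividing (Ideal.span {x})).Finite := Ideal.hasFiniteMulSupport hI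
  set T : Finset (HeightOneSpectrum R) := hfin.toFinset ∪ S with hT
  have hsub : (Function.mulSupport fun v : HeightOneSpectrum R =>
      v.maxPowDividing (Ideal.span {x})) ⊆ ↑T := by
    intro v hv
    rw [hT, Finset.coe_union]
    exact Or.inl (by simpa using hv)
  rw [finprod_eq_prod_of_mulSupport_subset _ hsub] at hfac
  have hST : S ⊆ T := Finset.subset_union_right
  rw [← Finset.prod_sdiff hST] at hfac
  refine ⟨∏ v ∈ T \ S, v.asIdeal ^ (c v / n), ?_⟩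
  rw [← hfac, mul_comm]
  congr 1
  · exact Finset.prod_congr rfl (fun v _ => hcount v)
  · rw [← Finset.prod_pow]
    refine Finset.prod_congr rfl (fun v hv => ?_)
    rw [hcount v, ← pow_mul, Nat.div_mul_cancel (hn v (Finset.mem_sdiff.mp hv).2)]

/-- Multiplication by `k` (prime to `p`) permutes `{1, …, p-1}` modulo `p`. -/
theorem thaine_image_mul_mod {p : ℕ} [hp : Fact p.Prime] (k : ℕ) (hk : ¬ p ∣ k) :
    (Finset.Ico 1 p).image (fun t => (k * t) % p) = Finset.Ico 1 p ∧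
      Set.InjOn (fun t => (k * t) % p) (Finset.Ico 1 p : Set ℕ) := by
  have hinj : Set.InjOn (fun t => (k * t) % p) (Finset.Ico 1 p : Set ℕ) := by
    intro a ha b hb hab
    simp only [Finset.coe_Ico, Set.mem_Ico] at ha hb
    have h1 : k * a ≡ k * b [MOD p] := hab
    have hcop : Nat.Coprime p k := (Nat.Prime.coprime_iff_not_dvd hp.out).mpr hk
    have h2 : a ≡ b [MOD p] := Nat.ModEq.cancel_left_of_coprime hcop h1
    exact Nat.ModEq.eq_of_lt_of_lt h2 ha.2 hb.2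
  refine ⟨?_, hinj⟩
  apply Finset.eq_of_subset_of_card_le
  · intro s hs
    rw [Finset.mem_image] at hs
    obtain ⟨t, ht, rfl⟩ := hs
    rw [Finset.mem_Ico] at ht ⊢
    refine ⟨?_, Nat.mod_lt _ hp.out.pos⟩
    rw [Nat.one_le_iff_ne_zero, Ne, ← Nat.dvd_iff_mod_eq_zero, hp.out.dvd_mul]
    push Not
    exact ⟨hk, Nat.not_dvd_of_pos_of_lt (by omega) ht.2⟩
  · rw [Finset.card_image_of_injOn hinj]

/-- `η = ∏ (1 + ζ^t)^{N t}` with `N t ≡ t⁻² mod p` is an `ω²`-eigenvector modulo `p`-th powers: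
`η^{k²} = σ_k(η) · w^p`. -/
theorem thaine_eta_eigen {p : ℕ} [hp : Fact p.Prime] {R : Type*} [CommRing R] (ζ : R)
    (hζp : ζ ^ p = 1) (N : ℕ → ℕ) (hN : ∀ t, (N t : ZMod p) = ((t : ZMod p)⁻¹) ^ 2)
    (hNlt : ∀ t, N t < p) (k : ℕ) (hk : ¬ p ∣ k) :
    ∃ w : R, (∏ t ∈ Finset.Ico 1 p, (1 + ζ ^ t) ^ N t) ^ (k ^ 2) =
      (∏ t ∈ Finset.Ico 1 p, (1 + (ζ ^ k) ^ t) ^ N t) * w ^ p := by
  obtain ⟨himg, hinj⟩ := thaine_image_mul_mod (p := p) k hk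
  have hk0 : (k : ZMod p) ≠ 0 := by
    rwa [Ne, ZMod.natCast_eq_zero_iff]
  have hmodpow : ∀ a : ℕ, ζ ^ (a % p) = ζ ^ a := by
    intro a
    conv_rhs => rw [← Nat.div_add_mod a p, pow_add, pow_mul, hζp, one_pow, one_mul]
  have hexp : ∀ t : ℕ, ∃ z : ℕ, N ((k * t) % p) * k ^ 2 = N t + p * z := by
    intro t
    refine ⟨(N ((k * t) % p) * k ^ 2) / p, ?_⟩
    have h1 : ((N ((k * t) % p) * k ^ 2 : ℕ) : ZMod p) = (N t : ZMod p) := by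
      push_cast
      rw [hN, hN, ZMod.natCast_mod]
      push_cast
      rw [mul_inv, mul_pow, mul_right_comm, inv_pow, inv_mul_cancel₀ (pow_ne_zero 2 hk0), one_mul,
        inv_pow]
    have h2 : (N ((k * t) % p) * k ^ 2) % p = N t := by
      rw [ZMod.natCast_eq_natCast_iff'] at h1
      rw [h1, Nat.mod_eq_of_lt (hNlt t)]
    conv_lhs => rw [← Nat.mod_add_div (N ((k * t) % p) * k ^ 2) p, h2]
  choose z hz using hexp
  refine ⟨∏ t ∈ Finset.Ico 1 p, (1 + (ζ ^ k) ^ t) ^ z t, ?_⟩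
  rw [← Finset.prod_pow, ← Finset.prod_pow, ← Finset.prod_mul_distrib]
  conv_lhs => rw [← himg]
  rw [Finset.prod_image hinj]
  refine Finset.prod_congr rfl (fun t _ => ?_)
  rw [hmodpow, ← pow_mul, hz t, pow_add, pow_mul ζ k t, pow_mul (1 + (ζ ^ k) ^ t) p, ← pow_mul,
    ← pow_mul, mul_comm p, pow_mul (1 + ζ ^ (k * t)) (z t) p]

section Rel

variable {p ℓ : ℕ} [hp : Fact p.Prime] [hℓ : Fact ℓ.Prime]
variable (K : Type*) [Field K] [NumberField K] [IsCyclotomicExtension {p} ℚ K]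

/-- The primes of `K = ℚ(ζ_p)` above `ℓ ≡ 1 mod p` form one free orbit under `Gal(K/ℚ)`. -/
theorem thaine_orbit (hℓ1 : ℓ % p = 1) (𝔩 : Ideal (𝓞 K)) [𝔩.IsPrime]
    (h𝔩 : ((ℓ : ℕ) : 𝓞 K) ∈ 𝔩) :
    (∀ P : Ideal (𝓞 K), P.IsPrime → ((ℓ : ℕ) : 𝓞 K) ∈ P → ∃ σ : K ≃ₐ[ℚ] K, σ • 𝔩 = P) ∧
    (∀ σ σ' : K ≃ₐ[ℚ] K, σ • 𝔩 = σ' • 𝔩 → σ = σ') := by
  have hp0 : p ≠ 0 := hp.out.ne_zero
  have : NeZero p := ⟨hp0⟩
  have hgal : IsGalois ℚ K := IsCyclotomicExtension.isGalois {p} ℚ K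
  have hfd : FiniteDimensional ℚ K := IsCyclotomicExtension.finiteDimensional {p} ℚ K
  have hpl : p ≠ ℓ := by
    rintro rfl
    rw [Nat.mod_self] at hℓ1
    exact zero_ne_one hℓ1
  have hlies : 𝔩.LiesOver (Ideal.span {(ℓ : ℤ)}) := thaine_liesOver_of_mem K 𝔩 ℓ hℓ.out h𝔩
  have hprime : (Ideal.span {(ℓ : ℤ)}).IsPrime :=
    (Ideal.span_singleton_prime (by exact_mod_cast hℓ.out.ne_zero)).mpr
      (Nat.prime_iff_prime_int.mp hℓ.out)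
  constructor
  · intro P hP hℓP
    have hliesP : P.LiesOver (Ideal.span {(ℓ : ℤ)}) := thaine_liesOver_of_mem K P ℓ hℓ.out hℓP
    exact Ideal.exists_smul_eq_of_isGaloisGroup (Ideal.span {(ℓ : ℤ)}) 𝔩 P (K ≃ₐ[ℚ] K)
  · intro σ σ' h
    have hne : Ideal.span {(ℓ : ℤ)} ≠ ⊥ := by
      simp [hℓ.out.ne_zero]
    have hmax : (Ideal.span {(ℓ : ℤ)}).IsMaximal := hprime.isMaximal hne
    have : Finite (ℤ ⧸ Ideal.span {(ℓ : ℤ)}) := Ideal.finiteQuotientOfFreeOfNeBot _ hne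
    have : Finite (Ideal.span {(ℓ : ℤ)}).ResidueField :=
      Finite.of_surjective _
        (Ideal.bijective_algebraMap_quotient_residueField (Ideal.span {(ℓ : ℤ)})).surjective
    have hcard := Ideal.card_stabilizer_eq (G := K ≃ₐ[ℚ] K) (Ideal.span {(ℓ : ℤ)}) 𝔩
    have hndvd : ¬ ℓ ∣ p := by
      rw [Nat.prime_dvd_prime_iff_eq hℓ.out hp.out]; exact fun h => hpl h.symm
    rw [IsCyclotomicExtension.Rat.ramificationIdxIn_eq_of_not_dvd ℓ K hndvd,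
      IsCyclotomicExtension.Rat.inertiaDegIn_eq_of_not_dvd ℓ K hndvd, one_mul] at hcard
    have hone : ((ℓ : ℕ) : ZMod p) = 1 := by
      have : ((ℓ : ℕ) : ZMod p) = ((1 : ℕ) : ZMod p) := by
        rw [ZMod.natCast_eq_natCast_iff']
        rw [hℓ1, Nat.mod_eq_of_lt hp.out.one_lt]
      simpa using this
    rw [hone, orderOf_one] at hcard
    have hmem : σ'⁻¹ * σ ∈ MulAction.stabilizer (K ≃ₐ[ℚ] K) 𝔩 := by
      rw [MulAction.mem_stabilizer_iff, mul_smul, h, inv_smul_smul]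
    have hsub : Subsingleton (MulAction.stabilizer (K ≃ₐ[ℚ] K) 𝔩) :=
      (Nat.card_eq_one_iff_unique.mp hcard).1
    have h1 : (⟨σ'⁻¹ * σ, hmem⟩ : MulAction.stabilizer (K ≃ₐ[ℚ] K) 𝔩) = 1 := Subsingleton.elim _ _
    have h2 : σ'⁻¹ * σ = 1 := congrArg Subtype.val h1
    exact (inv_mul_eq_one.mp h2).symm


variable (L : Type*) [Field L] [NumberField L] [Algebra K L] [IsCyclotomicExtension {ℓ} K L]

omit [IsCyclotomicExtension {p} ℚ K] in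
theorem thaine_isUnit_of_norm_eq_one [FiniteDimensional K L] (x : 𝓞 L)
    (h : Algebra.norm K ((x : 𝓞 L) : L) = 1) : IsUnit x := by
  have h1 : Algebra.intNorm (𝓞 K) (𝓞 L) x = 1 := by
    apply RingOfIntegers.ext
    have := Algebra.algebraMap_intNorm (A := 𝓞 K) (K := K) (L := L) (B := 𝓞 L) x
    rw [h] at this
    exact this
  have h2 := Algebra.dvd_algebraMap_intNorm_self (A := 𝓞 K) (B := 𝓞 L) x
  rw [h1, map_one] at h2
  exact isUnit_of_dvd_one h2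

/-- The norm-one unit `ε = ∏ (1 + ζ^t ζ_ℓ)^{n_t}` of `L` and its congruence mod `ζ_ℓ - 1`. -/
theorem thaine_exists_unit (hpl : p ≠ ℓ) (hp2 : p ≠ 2) (hℓ1 : ℓ % p = 1)
    {ζ : 𝓞 K} (hζ : IsPrimitiveRoot ζ p) {μ : 𝓞 L}
    (hμ : ((μ : 𝓞 L) : L) = IsCyclotomicExtension.zeta ℓ K L) (n : ℕ → ℕ) :
    ∃ ε : (𝓞 L)ˣ, Algebra.norm K (((ε : 𝓞 L)) : L) = 1 ∧
      (ε : 𝓞 L) - algebraMap (𝓞 K) (𝓞 L) (∏ t ∈ Finset.Ico 1 p, (1 + ζ ^ t) ^ n t) ∈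
        Ideal.span {μ - 1} := by
  have hfd : FiniteDimensional K L := IsCyclotomicExtension.finiteDimensional {ℓ} K L
  have hℓ2 : ℓ ≠ 2 := by
    rintro rfl
    have h3 : 3 ≤ p := by
      have := hp.out.two_le
      omega
    rw [Nat.mod_eq_of_lt (by omega)] at hℓ1
    omega
  set u : ℕ → 𝓞 L := fun t => 1 + algebraMap (𝓞 K) (𝓞 L) (ζ ^ t) * μ with hu
  have hζK : IsPrimitiveRoot ((ζ : 𝓞 K) : K) p :=
    hζ.map_of_injective (f := algebraMap (𝓞 K) K) (RingOfIntegers.coe_injective)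
  have hnorm : ∀ t ∈ Finset.Ico 1 p, Algebra.norm K ((u t : 𝓞 L) : L) = 1 := by
    intro t ht
    rw [Finset.mem_Ico] at ht
    have h1 : ((u t : 𝓞 L) : L) = 1 + algebraMap K L (((ζ : 𝓞 K) : K) ^ t) *
        IsCyclotomicExtension.zeta ℓ K L := by
      rw [← hμ]
      simp only [hu, map_add, map_one, map_mul, map_pow]
      rfl
    rw [h1]
    apply thaine_norm_one_add (p := p) (ℓ := ℓ) K L hpl hℓ2
    · -- c ^ ℓ = c
      rw [← pow_mul, mul_comm, pow_mul]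
      congr 1
      conv_lhs => rw [← Nat.div_add_mod ℓ p, hℓ1, pow_add, pow_mul, hζK.pow_eq_one, one_pow, one_mul,
        pow_one]
    · exact pow_ne_zero _ (hζK.ne_zero hp.out.ne_zero)
    · intro h
      have h2 : ((ζ : 𝓞 K) : K) ^ (2 * t) = 1 := by
        rw [mul_comm, pow_mul, h]; norm_num
      have h3 := (hζK.pow_eq_one_iff_dvd _).mp h2
      have h4 : p ∣ t := by
        have hcop : Nat.Coprime p 2 := (Nat.coprime_primes hp.out Nat.prime_two).mpr hp2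
        exact hcop.dvd_of_dvd_mul_left h3
      have := Nat.le_of_dvd (by omega) h4
      omega
  set E : 𝓞 L := ∏ t ∈ Finset.Ico 1 p, u t ^ n t with hE
  have hEnorm : Algebra.norm K ((E : 𝓞 L) : L) = 1 := by
    have : ((E : 𝓞 L) : L) = ∏ t ∈ Finset.Ico 1 p, ((u t : 𝓞 L) : L) ^ n t := by
      rw [hE]
      simp only [map_prod, map_pow]
    rw [this, map_prod]
    refine Finset.prod_eq_one (fun t ht => ?_)
    rw [map_pow, hnorm t ht, one_pow]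
  have hEunit : IsUnit E := thaine_isUnit_of_norm_eq_one K L E hEnorm
  refine ⟨hEunit.unit, hEnorm, ?_⟩
  rw [IsUnit.unit_spec, ← Ideal.Quotient.eq, hE, map_prod, map_prod, map_prod]
  refine Finset.prod_congr rfl (fun t _ => ?_)
  rw [map_pow, map_pow, map_pow]
  congr 1
  rw [Ideal.Quotient.eq]
  have : u t - algebraMap (𝓞 K) (𝓞 L) (1 + ζ ^ t) = algebraMap (𝓞 K) (𝓞 L) (ζ ^ t) * (μ - 1) := by
    simp only [hu, map_add, map_one]; ring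
  rw [this]
  exact Ideal.mul_mem_left _ _ (Ideal.mem_span_singleton_self _)

end Rel

section Residue

variable {p ℓ : ℕ} [hp : Fact p.Prime] [hℓ : Fact ℓ.Prime]
variable {K : Type*} [Field K] [NumberField K]

omit hp in
/-- Fermat's little theorem in the residue ring of a prime of norm `ℓ`. -/
theorem thaine_fermat (𝔩 : Ideal (𝓞 K)) [h𝔩p : 𝔩.IsPrime] (habs : Ideal.absNorm 𝔩 = ℓ)
    (y : 𝓞 K ⧸ 𝔩) (hy : y ≠ 0) : y ^ (ℓ - 1) = 1 := by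
  have h0 : 𝔩 ≠ ⊥ := by
    rintro rfl
    rw [Ideal.absNorm_bot] at habs
    exact hℓ.out.ne_zero habs.symm
  have hmax : 𝔩.IsMaximal := h𝔩p.isMaximal h0
  let _ := Ideal.Quotient.field 𝔩
  have : Finite (𝓞 K ⧸ 𝔩) := Ideal.finiteQuotientOfFreeOfNeBot 𝔩 h0
  let _ := Fintype.ofFinite (𝓞 K ⧸ 𝔩)
  have hcard : Fintype.card (𝓞 K ⧸ 𝔩) = ℓ := by
    rw [← Nat.card_eq_fintype_card, ← Submodule.cardQuot_apply, ← Ideal.absNorm_apply, habs]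
  have := FiniteField.pow_card_sub_one_eq_one y hy
  rwa [hcard] at this

omit hp [NumberField K] in
/-- A primitive root `g` mod `ℓ` has order `ℓ - 1` in the residue ring of a prime above `ℓ`. -/
theorem thaine_orderOf_residue (𝔩 : Ideal (𝓞 K)) [h𝔩p : 𝔩.IsPrime] (h𝔩 : ((ℓ : ℕ) : 𝓞 K) ∈ 𝔩)
    (g : ℕ) (hg : orderOf (g : ZMod ℓ) = ℓ - 1) : orderOf ((g : ℕ) : 𝓞 K ⧸ 𝔩) = ℓ - 1 := by
  have hnt : Nontrivial (𝓞 K ⧸ 𝔩) := Ideal.Quotient.nontrivial_iff.mpr h𝔩p.ne_top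
  have hchar : CharP (𝓞 K ⧸ 𝔩) ℓ := by
    rw [CharP.charP_iff_prime_eq_zero hℓ.out]
    have : ((ℓ : ℕ) : 𝓞 K ⧸ 𝔩) = Ideal.Quotient.mk 𝔩 ((ℓ : ℕ) : 𝓞 K) := by simp
    rw [this, Ideal.Quotient.eq_zero_iff_mem]
    exact h𝔩
  let φ : ZMod ℓ →+* 𝓞 K ⧸ 𝔩 := ZMod.castHom (dvd_refl ℓ) (𝓞 K ⧸ 𝔩)
  have hφ : Function.Injective φ := φ.injective
  have h1 : φ (g : ZMod ℓ) = ((g : ℕ) : 𝓞 K ⧸ 𝔩) := map_natCast φ g
  rw [← h1, ← hg]
  exact orderOf_injective φ.toMonoidHom hφ _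

/-- A degree-one prime `𝔩 ∤ p` of a field containing `ζ_p` has norm `ℓ ≡ 1 mod p`. -/
theorem thaine_mod_eq_one {ζ : 𝓞 K} (hζ : IsPrimitiveRoot ζ p) (𝔩 : Ideal (𝓞 K)) [h𝔩p : 𝔩.IsPrime]
    (habs : Ideal.absNorm 𝔩 = ℓ) (hp𝔩 : ((p : ℕ) : 𝓞 K) ∉ 𝔩) : ℓ % p = 1 := by
  have hp1 : 1 < p := hp.out.one_lt
  have hζ0 : Ideal.Quotient.mk 𝔩 ζ ≠ 0 := by
    intro h
    have h1 : (Ideal.Quotient.mk 𝔩 ζ) ^ p = 1 := by rw [← map_pow, hζ.pow_eq_one, map_one]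
    rw [h, zero_pow hp.out.ne_zero] at h1
    have hnt : Nontrivial (𝓞 K ⧸ 𝔩) := Ideal.Quotient.nontrivial_iff.mpr h𝔩p.ne_top
    exact zero_ne_one h1
  have hfer := thaine_fermat 𝔩 habs _ hζ0
  set b := (ℓ - 1) % p with hb
  have hζb : (Ideal.Quotient.mk 𝔩 ζ) ^ b = 1 := by
    have : ζ ^ (ℓ - 1) = ζ ^ b := by
      conv_lhs => rw [← Nat.div_add_mod (ℓ - 1) p, pow_add, pow_mul, hζ.pow_eq_one, one_pow, one_mul]
    rw [← map_pow, ← this, map_pow, hfer]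
  have hb0 : b = 0 := by
    by_contra hne
    have hblt : b < p := Nat.mod_lt _ hp.out.pos
    have hcop : b.Coprime p :=
      (Nat.coprime_comm.mp ((Nat.Prime.coprime_iff_not_dvd hp.out).mpr
        (Nat.not_dvd_of_pos_of_lt (Nat.pos_of_ne_zero hne) hblt)))
    have hprim : IsPrimitiveRoot (ζ ^ b) ((p - 1) + 1) := by
      rw [Nat.sub_add_cancel hp.out.pos]
      exact hζ.pow_of_coprime b hcop
    have hprod := hprim.prod_one_sub_pow_eq_order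
    have hcast : ((p - 1 : ℕ) : 𝓞 K) + 1 = ((p : ℕ) : 𝓞 K) := by
      rw [← Nat.cast_add_one, Nat.sub_add_cancel hp.out.pos]
    rw [hcast] at hprod
    apply hp𝔩
    rw [← hprod]
    have hmem0 : 0 ∈ Finset.range (p - 1) := Finset.mem_range.mpr (by omega)
    have hfac : 1 - (ζ ^ b) ^ (0 + 1) ∈ 𝔩 := by
      rw [zero_add, pow_one, ← Ideal.Quotient.eq_zero_iff_mem, map_sub, map_one, map_pow, hζb,
        sub_self]
    exact Ideal.mem_of_dvd _ (Finset.dvd_prod_of_mem _ hmem0) hfac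
  have hℓpos : 0 < ℓ := hℓ.out.pos
  have h2 : ℓ = (ℓ - 1) + 1 := by omega
  rw [h2, Nat.add_mod, ← hb, hb0, zero_add, Nat.mod_mod, Nat.mod_eq_of_lt hp1]

end Residue

section Final

variable {p ℓ : ℕ} [hp : Fact p.Prime] [hℓ : Fact ℓ.Prime]
variable (K : Type*) [Field K] [NumberField K] [IsCyclotomicExtension {p} ℚ K]

/-- Thaine's relation, intermediate form: `ℓ = N𝔩` prime, `𝔩 ∤ p`, `η = ∏ (1 + ζ^t)^{N t}` not a
`p`-th power mod `𝔩`, `m σ ≡ χ(σ)⁻² mod p`. -/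
theorem thaine_rel (hp2 : p ≠ 2) {ζ : 𝓞 K} (hζ : IsPrimitiveRoot ζ p)
    (N : ℕ → ℕ) (hN : ∀ t, (N t : ZMod p) = ((t : ZMod p)⁻¹) ^ 2) (hNlt : ∀ t, N t < p)
    (𝔩 : Ideal (𝓞 K)) [h𝔩p : 𝔩.IsPrime] (habs : Ideal.absNorm 𝔩 = ℓ) (hp𝔩 : ((p : ℕ) : 𝓞 K) ∉ 𝔩)
    (hgood : ¬ ∃ x : 𝓞 K, x ^ p - ∏ t ∈ Finset.Ico 1 p, (1 + ζ ^ t) ^ N t ∈ 𝔩)
    (m : (K ≃ₐ[ℚ] K) → ℕ)
    (hm : ∀ (σ : K ≃ₐ[ℚ] K) (k : ℕ), σ⁻¹ • ζ = ζ ^ k → (m σ : ZMod p) = (k : ZMod p) ^ 2)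
    (hmlt : ∀ σ, m σ < p) :
    ∃ (J : Ideal (𝓞 K)) (δ : 𝓞 K), δ ≠ 0 ∧
      (∏ σ : K ≃ₐ[ℚ] K, (σ • 𝔩) ^ m σ) * J ^ p = Ideal.span {δ} := by
  classical
  have hℓ0 : ℓ ≠ 0 := hℓ.out.ne_zero
  have : NeZero ℓ := ⟨hℓ0⟩
  have hp1 : 1 < p := hp.out.one_lt
  have h𝔩mem : ((ℓ : ℕ) : 𝓞 K) ∈ 𝔩 := habs ▸ Ideal.absNorm_mem 𝔩
  have h𝔩0 : 𝔩 ≠ ⊥ := by
    rintro rfl
    rw [Ideal.absNorm_bot] at habs
    exact hℓ0 habs.symm
  have hℓ1 : ℓ % p = 1 := thaine_mod_eq_one hζ 𝔩 habs hp𝔩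
  have hpl : p ≠ ℓ := by
    rintro rfl
    rw [Nat.mod_self] at hℓ1
    exact zero_ne_one hℓ1
  obtain ⟨q, hq⟩ : p ∣ ℓ - 1 := by
    have h1 : ℓ = p * (ℓ / p) + 1 := by
      have := Nat.div_add_mod ℓ p
      rw [hℓ1] at this
      exact this.symm
    exact ⟨ℓ / p, by omega⟩
  set η : 𝓞 K := ∏ t ∈ Finset.Ico 1 p, (1 + ζ ^ t) ^ N t with hη
  -- the auxiliary field `L = K(ζ_ℓ)`
  let L := CyclotomicField ℓ K
  obtain ⟨τ, g, hτ, hτμ, hg⟩ := thaine_exists_generator (p := p) (ℓ := ℓ) K L hpl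
  have hμspec := IsCyclotomicExtension.zeta_spec ℓ K L
  set μ : 𝓞 L := hμspec.toInteger with hμdef
  have hμ : IsPrimitiveRoot μ ℓ := hμspec.toInteger_isPrimitiveRoot
  have hμcoe : ((μ : 𝓞 L) : L) = IsCyclotomicExtension.zeta ℓ K L := rfl
  have hτμ' : τ • μ = μ ^ g := by
    apply RingOfIntegers.ext
    have h1 : ((μ ^ g : 𝓞 L) : L) = ((μ : 𝓞 L) : L) ^ g := map_pow (algebraMap (𝓞 L) L) μ g
    change τ ((μ : 𝓞 L) : L) = ((μ ^ g : 𝓞 L) : L)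
    rw [h1, hμcoe, hτμ]
  obtain ⟨ε, hεnorm, hεη⟩ := thaine_exists_unit (p := p) (ℓ := ℓ) K L hpl hp2 hℓ1 hζ hμcoe N
  obtain ⟨x, hx0, hout, hin⟩ :=
    thaine_core (p := p) (ℓ := ℓ) K L hpl τ hτ g hμ hτμ' ε hεnorm η hεη
  -- valuations of `x`
  have hex : ∀ v : HeightOneSpectrum (𝓞 K), ∃ c : ℕ,
      v.intValuation x = WithZero.exp (-(c : ℤ)) ∧
      (((ℓ : ℕ) : 𝓞 K) ∉ v.asIdeal → (ℓ - 1) ∣ c) ∧
      (((ℓ : ℕ) : 𝓞 K) ∈ v.asIdeal → η - (g : 𝓞 K) ^ c ∈ v.asIdeal) := by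
    intro v
    by_cases hv : ((ℓ : ℕ) : 𝓞 K) ∈ v.asIdeal
    · obtain ⟨r, hr1, hr2⟩ := hin v hv
      exact ⟨r, hr1, fun h => absurd hv h, fun _ => hr2⟩
    · obtain ⟨k, hk⟩ := hout v hv
      exact ⟨(ℓ - 1) * k, hk, fun _ => dvd_mul_right _ _, fun h => absurd h hv⟩
  choose c hc1 hc2 hc3 using hex
  -- the orbit of `𝔩`
  have hsmulnat : ∀ (σ : K ≃ₐ[ℚ] K) (n : ℕ), σ • ((n : ℕ) : 𝓞 K) = n := fun σ n =>
    map_natCast (MulSemiringAction.toRingHom (K ≃ₐ[ℚ] K) (𝓞 K) σ) n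
  obtain ⟨horb, hfree⟩ := thaine_orbit (p := p) (ℓ := ℓ) K hℓ1 𝔩 h𝔩mem
  have hmemσ : ∀ σ : K ≃ₐ[ℚ] K, ((ℓ : ℕ) : 𝓞 K) ∈ σ • 𝔩 := by
    intro σ
    have h1 : σ • ((ℓ : ℕ) : 𝓞 K) ∈ σ • 𝔩 := Ideal.smul_mem_pointwise_smul σ _ 𝔩 h𝔩mem
    rwa [hsmulnat] at h1
  have hneσ : ∀ σ : K ≃ₐ[ℚ] K, σ • 𝔩 ≠ ⊥ := by
    intro σ h
    have h1 := hmemσ σ
    rw [h, Ideal.mem_bot] at h1
    exact hℓ0 (by exact_mod_cast h1)
  have hprimeσ : ∀ σ : K ≃ₐ[ℚ] K, (σ • 𝔩).IsPrime := fun σ => inferInstance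
  let V : (K ≃ₐ[ℚ] K) → HeightOneSpectrum (𝓞 K) := fun σ => ⟨σ • 𝔩, hprimeσ σ, hneσ σ⟩
  have hVinj : Function.Injective V := fun σ σ' h =>
    hfree σ σ' (congrArg HeightOneSpectrum.asIdeal h)
  set S : Finset (HeightOneSpectrum (𝓞 K)) := Finset.univ.image V with hS
  have hout' : ∀ v, v ∉ S → (ℓ - 1) ∣ c v := by
    intro v hv
    apply hc2
    intro hmem
    obtain ⟨σ, hσ⟩ := horb v.asIdeal v.isPrime hmem
    apply hv
    rw [hS, Finset.mem_image]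
    exact ⟨σ, Finset.mem_univ _, HeightOneSpectrum.ext hσ⟩
  obtain ⟨J₀, hJ₀⟩ := thaine_ideal_factor x hx0 S (ℓ - 1) c hc1 hout'
  rw [hS, Finset.prod_image (fun a _ b _ h => hVinj h)] at hJ₀
  have hVas : ∀ σ, (V σ).asIdeal = σ • 𝔩 := fun σ => rfl
  -- discrete logarithms
  set r := c (V 1) with hr
  have hr𝔩 : η - (g : 𝓞 K) ^ r ∈ 𝔩 := by
    have := hc3 (V 1) (hmemσ 1)
    rwa [hVas, one_smul] at this
  have hpr : ¬ p ∣ r := by
    rintro ⟨j, hj⟩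
    apply hgood
    refine ⟨(g : 𝓞 K) ^ j, ?_⟩
    rw [← pow_mul, mul_comm, ← hj]
    have := 𝔩.neg_mem hr𝔩
    rwa [neg_sub] at this
  -- residue ring
  have hfer := thaine_fermat (ℓ := ℓ) 𝔩 habs
  have hord := thaine_orderOf_residue (ℓ := ℓ) 𝔩 h𝔩mem g hg
  have hnt : Nontrivial (𝓞 K ⧸ 𝔩) := Ideal.Quotient.nontrivial_iff.mpr h𝔩p.ne_top
  have hdom : IsDomain (𝓞 K ⧸ 𝔩) := Ideal.Quotient.isDomain 𝔩
  set π := Ideal.Quotient.mk 𝔩 with hπ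
  set γ : 𝓞 K ⧸ 𝔩 := ((g : ℕ) : 𝓞 K ⧸ 𝔩) with hγ
  have hπg : π ((g : ℕ) : 𝓞 K) = γ := map_natCast π g
  have hγ0 : γ ≠ 0 := by
    intro h
    have h1 : orderOf γ = ℓ - 1 := hord
    rw [h, orderOf_zero] at h1   -- orderOf 0 = 0 in a nontrivial monoid with zero
    have := hℓ.out.one_lt
    omega
  have hγu : IsUnit γ := IsUnit.of_pow_eq_one (hfer γ hγ0) (by have := hℓ.out.one_lt; omega)
  obtain ⟨u, hu⟩ := hγu
  have hordu : orderOf u = ℓ - 1 := by rw [← orderOf_units, hu, hord]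
  have hπη : π η = γ ^ r := by
    rw [← hπg, ← map_pow, ← sub_eq_zero, ← map_sub, hπ, Ideal.Quotient.eq_zero_iff_mem]
    exact hr𝔩
  have hqpos : 0 < q := by
    rcases Nat.eq_zero_or_pos q with h | h
    · rw [h, mul_zero] at hq
      have := hℓ.out.one_lt
      omega
    · exact h
  have hcong : ∀ σ : K ≃ₐ[ℚ] K, c (V σ) ≡ r * m σ [MOD p] := by
    intro σ
    have h1 : η - (g : 𝓞 K) ^ c (V σ) ∈ σ • 𝔩 := hc3 (V σ) (hmemσ σ)
    have h2 : σ⁻¹ • η - (g : 𝓞 K) ^ c (V σ) ∈ 𝔩 := by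
      have := (Ideal.mem_pointwise_smul_iff_inv_smul_mem).mp h1
      rwa [smul_sub, smul_pow', hsmulnat] at this
    have hπσ : π (σ⁻¹ • η) = γ ^ c (V σ) := by
      rw [← hπg, ← map_pow, ← sub_eq_zero, ← map_sub, hπ, Ideal.Quotient.eq_zero_iff_mem]
      exact h2
    -- exponent `k` of `σ⁻¹` on `ζ`
    let f : 𝓞 K →+* 𝓞 K := MulSemiringAction.toRingHom (K ≃ₐ[ℚ] K) (𝓞 K) σ⁻¹
    have hfζ : (σ⁻¹ • ζ) ^ p = 1 := by
      rw [← smul_pow', hζ.pow_eq_one, smul_one]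
    obtain ⟨k, hkp, hk⟩ := hζ.eq_pow_of_pow_eq_one hfζ
    have hkndvd : ¬ p ∣ k := by
      intro hdvd
      have hk0 : k = 0 := Nat.eq_zero_of_dvd_of_lt hdvd hkp
      rw [hk0, pow_zero] at hk
      have h3 : ζ = 1 := by
        have : σ • (σ⁻¹ • ζ) = σ • (1 : 𝓞 K) := by rw [← hk]
        rwa [smul_inv_smul, smul_one] at this
      exact hζ.ne_one hp1 h3
    obtain ⟨w, hw⟩ := thaine_eta_eigen (p := p) ζ hζ.pow_eq_one N hN hNlt k hkndvd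
    have hση : σ⁻¹ • η = ∏ t ∈ Finset.Ico 1 p, (1 + (ζ ^ k) ^ t) ^ N t := by
      change f η = _
      rw [hη, map_prod]
      refine Finset.prod_congr rfl (fun t _ => ?_)
      rw [map_pow, map_add, map_one, map_pow]
      change (1 + (σ⁻¹ • ζ) ^ t) ^ N t = _
      rw [← hk]
    rw [← hση] at hw
    have hw' : γ ^ (r * k ^ 2) = γ ^ c (V σ) * (π w) ^ p := by
      rw [pow_mul, ← hπη, ← map_pow, hw, map_mul, hπσ, map_pow]
    have hπw0 : π w ≠ 0 := by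
      intro h
      rw [h, zero_pow hp.out.ne_zero, mul_zero] at hw'
      exact pow_ne_zero _ hγ0 hw'
    have hw'' : γ ^ (r * k ^ 2 * q) = γ ^ (c (V σ) * q) := by
      rw [pow_mul, hw', mul_pow, ← pow_mul (π w), ← hq, hfer _ hπw0, mul_one, ← pow_mul]
    have hmod : r * k ^ 2 * q ≡ c (V σ) * q [MOD ℓ - 1] := by
      rw [← hordu]
      apply pow_eq_pow_iff_modEq.mp
      apply Units.ext
      rw [Units.val_pow_eq_pow_val, Units.val_pow_eq_pow_val, hu]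
      exact hw''
    rw [hq] at hmod
    have hmod2 : r * k ^ 2 ≡ c (V σ) [MOD p] := Nat.ModEq.mul_right_cancel' hqpos.ne' hmod
    have hmk : m σ ≡ k ^ 2 [MOD p] := by
      rw [← ZMod.natCast_eq_natCast_iff]
      push_cast
      exact hm σ k hk.symm
    exact hmod2.symm.trans (Nat.ModEq.mul_left r hmk.symm)
  -- choose `s` with `r s ≡ 1`
  have hcop : Nat.Coprime r p :=
    Nat.Coprime.symm ((Nat.Prime.coprime_iff_not_dvd hp.out).mpr hpr)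
  obtain ⟨s, -, hs⟩ := Nat.exists_mul_mod_eq_one_of_coprime hcop hp1
  have hsc : ∀ σ : K ≃ₐ[ℚ] K, ∃ t : ℕ, s * c (V σ) = m σ + p * t := by
    intro σ
    have h1 : s * c (V σ) ≡ m σ [MOD p] := by
      have h2 : s * c (V σ) ≡ s * (r * m σ) [MOD p] := Nat.ModEq.mul_left s (hcong σ)
      have h3 : s * (r * m σ) ≡ 1 * m σ [MOD p] := by
        rw [← mul_assoc, mul_comm s r]
        exact Nat.ModEq.mul_right _ (by rw [Nat.ModEq, hs, Nat.mod_eq_of_lt hp1])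
      rw [one_mul] at h3
      exact h2.trans h3
    have h4 : (s * c (V σ)) % p = m σ := by
      rw [h1, Nat.mod_eq_of_lt (hmlt σ)]
    refine ⟨(s * c (V σ)) / p, ?_⟩
    conv_lhs => rw [← Nat.mod_add_div (s * c (V σ)) p, h4]
  choose t ht using hsc
  refine ⟨(∏ σ : K ≃ₐ[ℚ] K, (σ • 𝔩) ^ t σ) * J₀ ^ (q * s), x ^ s, pow_ne_zero _ hx0, ?_⟩
  have hprodeq : ∏ σ : K ≃ₐ[ℚ] K, ((V σ).asIdeal ^ c (V σ)) ^ s =
      (∏ σ : K ≃ₐ[ℚ] K, (σ • 𝔩) ^ m σ) * (∏ σ : K ≃ₐ[ℚ] K, (σ • 𝔩) ^ t σ) ^ p := by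
    rw [← Finset.prod_pow, ← Finset.prod_mul_distrib]
    refine Finset.prod_congr rfl (fun σ _ => ?_)
    rw [hVas, ← pow_mul, mul_comm (c (V σ)) s, ht σ, pow_add, pow_mul, ← pow_mul, ← pow_mul,
      mul_comm p]
  have hexp : q * s * p = (ℓ - 1) * s := by rw [hq]; ring
  rw [← Ideal.span_singleton_pow, hJ₀, mul_pow (∏ σ : K ≃ₐ[ℚ] K, (V σ).asIdeal ^ c (V σ)),
    ← Finset.prod_pow, hprodeq, mul_pow, ← pow_mul, ← pow_mul, hexp, mul_assoc]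

end Final

end Fermat.Agent.S14
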