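/-
S14 package W4: Thaine's relation, in the interface form of the S14 skeleton
(`Fermat/Agent/S14/Skeleton.lean`, helper494).  Proof: `ThaineField`, `ThaineCore`, `ThaineRel`.
-/
import Fermat.Agent.S14.Defs
import Fermat.Agent.S14.ThaineRel

set_option autoImplicit false

namespace Fermat.Agent.S14

open NumberField IsDedekindDomain
open scoped Pointwise

/-- The Galois action on ideals through `galRestrict` is the pointwise action. -/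
theorem thaine_map_galRestrict_eq_smul {K : Type*} [Field K] [NumberField K] (σ : K ≃ₐ[ℚ] K)
    (I : Ideal (𝓞 K)) : I.map (galRestrict ℤ ℚ K (𝓞 K) σ) = σ • I := by
  rw [Ideal.pointwise_smul_def]
  apply le_antisymm
  · rw [Ideal.map_le_iff_le_comap]
    intro x hx
    rw [Ideal.mem_comap]
    have h1 : galRestrict ℤ ℚ K (𝓞 K) σ x = MulSemiringAction.toRingHom (K ≃ₐ[ℚ] K) (𝓞 K) σ x :=
      thaine_galRestrict_eq_smul ℚ K σ x
    rw [h1]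
    exact Ideal.mem_map_of_mem _ hx
  · rw [Ideal.map_le_iff_le_comap]
    intro x hx
    rw [Ideal.mem_comap]
    have h1 : MulSemiringAction.toRingHom (K ≃ₐ[ℚ] K) (𝓞 K) σ x = galRestrict ℤ ℚ K (𝓞 K) σ x :=
      (thaine_galRestrict_eq_smul ℚ K σ x).symm
    rw [h1]
    exact Ideal.mem_map_of_mem _ hx

/-- **W4** (Thaine).  For a degree-one prime `𝔩 ∤ p` of `K = ℚ(ζ_p)` at which `η` is not a `p`-th
power residue, `ε₂ 𝔩 = ∏_σ σ(𝔩)^{m_σ}` is principal up to a `p`-th power of an ideal. -/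
theorem thaine_relation {p : ℕ} [Fact p.Prime] (h5 : 5 ≤ p) {K : Type*} [Field K] [NumberField K]
    [IsCyclotomicExtension {p} ℚ K] {ζ : K} (hζ : IsPrimitiveRoot ζ p)
    (𝔩 : Ideal (𝓞 K)) [𝔩.IsPrime] (hdeg : (Ideal.absNorm 𝔩).Prime) (hp : (p : 𝓞 K) ∉ 𝔩)
    (hgood : ¬ ∃ x : 𝓞 K, x ^ p - etaInt hζ ∈ 𝔩) :
    ∃ (J : Ideal (𝓞 K)) (δ : 𝓞 K), δ ≠ 0 ∧
      (∏ σ : K ≃ₐ[ℚ] K, (𝔩.map (galRestrict ℤ ℚ K (𝓞 K) σ)) ^ expInvSq hζ σ) * J ^ p =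
        Ideal.span {δ} := by
  have hpprime : p.Prime := Fact.out
  have : NeZero p := ⟨hpprime.ne_zero⟩
  have : Fact (Ideal.absNorm 𝔩).Prime := ⟨hdeg⟩
  have hζ' : IsPrimitiveRoot hζ.toInteger p := hζ.toInteger_isPrimitiveRoot
  have hm : ∀ (σ : K ≃ₐ[ℚ] K) (k : ℕ), σ⁻¹ • hζ.toInteger = hζ.toInteger ^ k →
      (expInvSq hζ σ : ZMod p) = (k : ZMod p) ^ 2 := by
    intro σ k hk
    have h1 : σ⁻¹ ζ = ζ ^ k := by
      have e1 : ((σ⁻¹ • hζ.toInteger : 𝓞 K) : K) = σ⁻¹ ζ := rfl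
      have e2 : ((hζ.toInteger ^ k : 𝓞 K) : K) = ζ ^ k :=
        map_pow (algebraMap (𝓞 K) K) hζ.toInteger k
      rw [← e1, hk, e2]
    have h2 := hζ.autToPow_spec ℚ σ⁻¹
    rw [h1] at h2
    have hkmod : ζ ^ k = ζ ^ (k % p) := by
      conv_lhs => rw [← Nat.div_add_mod k p, pow_add, pow_mul, hζ.pow_eq_one, one_pow, one_mul]
    have h3 : ((hζ.autToPow ℚ σ⁻¹ : (ZMod p)ˣ) : ZMod p).val = k % p :=
      hζ.pow_inj (ZMod.val_lt _) (Nat.mod_lt _ hpprime.pos) (h2.trans hkmod)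
    have h5' : ((hζ.autToPow ℚ σ⁻¹ : (ZMod p)ˣ) : ZMod p) = (k : ZMod p) := by
      rw [← ZMod.natCast_zmod_val ((hζ.autToPow ℚ σ⁻¹ : (ZMod p)ˣ) : ZMod p), h3, ZMod.natCast_mod]
    unfold expInvSq
    rw [ZMod.natCast_zmod_val, ← map_inv, h5']
  obtain ⟨J, δ, hδ, h⟩ := thaine_rel (p := p) (ℓ := Ideal.absNorm 𝔩) K (by omega) hζ'
    (fun t => (((t : ZMod p)⁻¹) ^ 2).val) (fun t => ZMod.natCast_zmod_val _)
    (fun t => ZMod.val_lt _) 𝔩 rfl hp hgood (expInvSq hζ) hm (fun σ => ZMod.val_lt _)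
  refine ⟨J, δ, hδ, ?_⟩
  rw [← h]
  congr 1
  refine Finset.prod_congr rfl (fun σ _ => ?_)
  rw [thaine_map_galRestrict_eq_smul]

end Fermat.Agent.S14
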