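/-
S14 package W5a (assembly helper5950): partial zeta functions of two ideal classes differ by
`O(1)` on `(1, 2]`.  Statement = `partialZeta_sub_bounded` of the helper494 skeleton.

Chain (smooth unfolding, helper7447's decomposition):
  Unfold/Tent, Weight, Places, Shift  (U0–U3, helper7447)
  Unfold/U4                            (orbit decomposition, helper4244)
  Unfold/U5in                          (cosets + summed shift bound, helper5950)
  Unfold/U5                            (class-zeta comparison core, helper371)
-/
import Fermat.Agent.S14.Defs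
import Fermat.Agent.S14.Unfold.U5

set_option autoImplicit false

namespace Fermat.Agent.S14

open NumberField
open scoped nonZeroDivisors

/-- The real partial zeta function is the `toReal` of the `ℝ≥0∞`-valued one. -/
theorem partialZeta_eq_toReal_classZeta (F : Type*) [Field F] [NumberField F]
    (C : ClassGroup (𝓞 F)) (s : ℝ) :
    partialZeta F C s = (Unfold.classZeta F C s).toReal := by
  unfold partialZeta Unfold.classZeta
  rw [ENNReal.tsum_toReal_eq (fun _ => ENNReal.ofReal_ne_top)]
  refine tsum_congr fun I => ?_
  rw [ENNReal.toReal_ofReal (Real.rpow_nonneg (Nat.cast_nonneg _) _)]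

/-- **W5a** (analytic lemma AL).  Partial zeta functions of two ideal classes differ by
`O(1)` on `(1, 2]`. -/
theorem partialZeta_sub_bounded (F : Type*) [Field F] [NumberField F] (C C' : ClassGroup (𝓞 F)) :
    ∃ B : ℝ, ∀ s : ℝ, 1 < s → s ≤ 2 → |partialZeta F C s - partialZeta F C' s| ≤ B := by
  obtain ⟨B, hB⟩ := Unfold.abs_classZeta_sub_le_U5 F C
  obtain ⟨B', hB'⟩ := Unfold.abs_classZeta_sub_le_U5 F C'
  refine ⟨B + B', fun s hs1 hs2 => ?_⟩
  rw [partialZeta_eq_toReal_classZeta, partialZeta_eq_toReal_classZeta]
  have h1 := hB s hs1 hs2
  have h2 := hB' s hs1 hs2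
  rw [abs_le] at h1 h2 ⊢
  constructor <;> linarith

end Fermat.Agent.S14
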