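import Fermat.Agent.S14.Defs

set_option autoImplicit false

namespace Fermat.Agent.S14

open NumberField Filter Topology
open scoped nonZeroDivisors

namespace W5c

variable (F : Type*) [Field F] [NumberField F]

/-- Number of integral ideals of norm `n`. -/
noncomputable def cnt (n : ℕ) : ℝ := Nat.card {I : Ideal (𝓞 F) // Ideal.absNorm I = n}

theorem cnt_nonneg (n : ℕ) : 0 ≤ cnt F n := Nat.cast_nonneg _

theorem tendsto_cnt : Tendsto (fun n : ℕ => (∑ k ∈ Finset.Icc 1 n, cnt F k) / (n : ℝ)) atTop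
    (𝓝 (dedekindZeta_residue F)) := by
  refine ((Ideal.tendsto_norm_le_div_atTop₀ F).comp tendsto_natCast_atTop_atTop).congr fun n ↦ ?_
  simp only [Function.comp_apply, Nat.cast_le, cnt, ← Nat.cast_sum]
  congr
  rw [← add_left_inj 1, ← Ideal.card_norm_le_eq_card_norm_le_add_one,
    show Finset.Icc 1 n = Finset.Ioc 0 n from Finset.Icc_succ_left_eq_Ioc _ _,
    show 1 = Nat.card {I : Ideal (𝓞 F) // Ideal.absNorm I = 0} by simp [Ideal.absNorm_eq_zero_iff],
    Finset.sum_Ioc_add_eq_sum_Icc (n.zero_le),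
    ← Finset.card_preimage_eq_sum_card_image_eq (fun k _ ↦ Ideal.finite_setOfPred_absNorm_eq k)]
  simp [Set.coe_eq_subtype]

theorem lseriesSummable {s : ℝ} (hs : 1 < s) :
    LSeriesSummable (fun n => (cnt F n : ℂ)) (s : ℂ) := by
  refine LSeriesSummable_of_sum_norm_bigO_and_nonneg ?_ (cnt_nonneg F) zero_le_one
    (by simpa using hs)
  exact Asymptotics.isBigO_atTop_natCast_rpow_of_tendsto_div_rpow (by simpa using tendsto_cnt F)

/-- The real Dirichlet series term. -/
noncomputable def rterm (s : ℝ) (n : ℕ) : ℝ := if n = 0 then 0 else cnt F n * (n : ℝ) ^ (-s)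

theorem term_eq (s : ℝ) (n : ℕ) :
    LSeries.term (fun n => (cnt F n : ℂ)) (s : ℂ) n = ((rterm F s n : ℝ) : ℂ) := by
  rw [LSeries.term_def, rterm]
  split_ifs with h
  · simp
  · rw [Complex.ofReal_mul, Real.rpow_neg (Nat.cast_nonneg n), Complex.ofReal_inv,
      Complex.ofReal_cpow (Nat.cast_nonneg n), div_eq_mul_inv]
    simp

theorem summable_rterm {s : ℝ} (hs : 1 < s) : Summable (rterm F s) := by
  have h := lseriesSummable F hs
  rw [LSeriesSummable] at h
  have h2 : Summable fun n => ((rterm F s n : ℝ) : ℂ) := h.congr (term_eq F s)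
  exact Complex.summable_ofReal.1 h2

/-- The fibre of the norm map on nonzero ideals, as a fibre on all ideals. -/
def fiberEquiv (n : ℕ) (hn : n ≠ 0) :
    {I : (Ideal (𝓞 F))⁰ // Ideal.absNorm (I : Ideal (𝓞 F)) = n} ≃
      {I : Ideal (𝓞 F) // Ideal.absNorm I = n} where
  toFun I := ⟨(I.1 : Ideal (𝓞 F)), I.2⟩
  invFun I := ⟨⟨I.1, mem_nonZeroDivisors_of_ne_zero (by
    rintro h
    apply hn
    rw [← I.2, h]
    simp)⟩, I.2⟩
  left_inv _ := rfl
  right_inv _ := rfl

theorem finite_fiber (n : ℕ) :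
    Finite {I : (Ideal (𝓞 F))⁰ // Ideal.absNorm (I : Ideal (𝓞 F)) = n} := by
  by_cases hn : n = 0
  · subst hn
    have : IsEmpty {I : (Ideal (𝓞 F))⁰ // Ideal.absNorm (I : Ideal (𝓞 F)) = 0} := by
      constructor
      rintro ⟨I, hI⟩
      rw [Ideal.absNorm_eq_zero_iff] at hI
      exact (nonZeroDivisors.ne_zero I.2) hI
    infer_instance
  · have : Finite {I : Ideal (𝓞 F) // Ideal.absNorm I = n} :=
      (Ideal.finite_setOfPred_absNorm_eq n).to_subtype
    exact Finite.of_equiv _ (fiberEquiv F n hn).symm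

theorem tsum_fiber (s : ℝ) (n : ℕ) :
    ∑' I : {I : (Ideal (𝓞 F))⁰ // Ideal.absNorm (I : Ideal (𝓞 F)) = n},
      (Ideal.absNorm ((I : (Ideal (𝓞 F))⁰) : Ideal (𝓞 F)) : ℝ) ^ (-s) = rterm F s n := by
  have h1 : ∀ I : {I : (Ideal (𝓞 F))⁰ // Ideal.absNorm (I : Ideal (𝓞 F)) = n},
      (Ideal.absNorm ((I : (Ideal (𝓞 F))⁰) : Ideal (𝓞 F)) : ℝ) ^ (-s) = (n : ℝ) ^ (-s) :=
    fun I => by rw [I.2]
  rw [tsum_congr h1, tsum_const, rterm]
  split_ifs with hn
  · subst hn
    have : IsEmpty {I : (Ideal (𝓞 F))⁰ // Ideal.absNorm (I : Ideal (𝓞 F)) = 0} := by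
      constructor
      rintro ⟨I, hI⟩
      rw [Ideal.absNorm_eq_zero_iff] at hI
      exact (nonZeroDivisors.ne_zero I.2) hI
    simp
  · rw [Nat.card_congr (fiberEquiv F n hn), nsmul_eq_mul, cnt]

theorem summable_and_tsum {s : ℝ} (hs : 1 < s) :
    Summable (fun I : (Ideal (𝓞 F))⁰ => (Ideal.absNorm (I : Ideal (𝓞 F)) : ℝ) ^ (-s)) ∧
      idealZeta F s = ∑' n, rterm F s n := by
  let N : (Ideal (𝓞 F))⁰ → ℕ := fun I => Ideal.absNorm (I : Ideal (𝓞 F))
  let e := Equiv.sigmaFiberEquiv N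
  let g : (Ideal (𝓞 F))⁰ → ℝ := fun I => (Ideal.absNorm (I : Ideal (𝓞 F)) : ℝ) ^ (-s)
  have hfin : ∀ n, Summable fun y : {I : (Ideal (𝓞 F))⁰ // N I = n} => (g ∘ e) ⟨n, y⟩ := by
    intro n
    have := finite_fiber F n
    exact Summable.of_finite
  have hfib : ∀ n, ∑' y : {I : (Ideal (𝓞 F))⁰ // N I = n}, (g ∘ e) ⟨n, y⟩ = rterm F s n :=
    fun n => tsum_fiber F s n
  have hsum : Summable (g ∘ e) := by
    refine (summable_sigma_of_nonneg (f := g ∘ e)
      (fun x => Real.rpow_nonneg (Nat.cast_nonneg _) _)).2 ⟨hfin, ?_⟩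
    exact (summable_rterm F hs).congr (fun n => (hfib n).symm)
  refine ⟨(Equiv.summable_iff e).1 hsum, ?_⟩
  have h3 : ∑' I, g I = ∑' x, (g ∘ e) x := (Equiv.tsum_eq e g).symm
  show ∑' I, g I = _
  rw [h3, hsum.tsum_sigma' hfin]
  exact tsum_congr hfib

theorem dedekindZeta_eq {s : ℝ} (hs : 1 < s) :
    dedekindZeta F (s : ℂ) = ((idealZeta F s : ℝ) : ℂ) := by
  rw [(summable_and_tsum F hs).2, Complex.ofReal_tsum, dedekindZeta, LSeries]
  exact tsum_congr (term_eq F s)

theorem tendsto_idealZeta :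
    Tendsto (fun s : ℝ => (s - 1) * idealZeta F s) (𝓝[>] 1) (𝓝 (dedekindZeta_residue F)) := by
  have h := tendsto_sub_one_mul_dedekindZeta_nhdsGT F
  rw [← tendsto_ofReal_iff]
  refine h.congr' ?_
  filter_upwards [self_mem_nhdsWithin] with s hs
  rw [dedekindZeta_eq F hs]
  push_cast
  rfl

theorem one_le_idealZeta {s : ℝ} (hs : 1 < s) : 1 ≤ idealZeta F s := by
  have hsum := (summable_and_tsum F hs).1
  have h := hsum.le_tsum (1 : (Ideal (𝓞 F))⁰)
    (fun j _ => Real.rpow_nonneg (Nat.cast_nonneg _) _)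
  simpa [idealZeta, Ideal.one_eq_top] using h

theorem idealZeta_anti {s t : ℝ} (hs : 1 < s) (hst : s ≤ t) : idealZeta F t ≤ idealZeta F s := by
  have hs' := (summable_and_tsum F hs).1
  have ht' := (summable_and_tsum F (hs.trans_le hst)).1
  refine ht'.tsum_le_tsum (fun I => ?_) hs'
  apply Real.rpow_le_rpow_of_exponent_le
  · have h0 : Ideal.absNorm (I : Ideal (𝓞 F)) ≠ 0 := by
      rw [Ne, Ideal.absNorm_eq_zero_iff]
      exact nonZeroDivisors.ne_zero I.2
    exact_mod_cast Nat.one_le_iff_ne_zero.2 h0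
  · linarith

end W5c

/-- **W5c** `(s-1) ζ_F(s)` is bounded above and below on `(1, 2]` (Mathlib residue theorem). -/
theorem idealZeta_bounds (F : Type*) [Field F] [NumberField F] :
    ∃ c C : ℝ, 0 < c ∧ ∀ s : ℝ, 1 < s → s ≤ 2 →
      c ≤ (s - 1) * idealZeta F s ∧ (s - 1) * idealZeta F s ≤ C := by
  have hr := dedekindZeta_residue_pos F
  have hlim := W5c.tendsto_idealZeta F
  have hev : ∀ᶠ s in 𝓝[>] (1 : ℝ), (s - 1) * idealZeta F s ∈
      Set.Ioo (dedekindZeta_residue F / 2) (3 * dedekindZeta_residue F / 2) :=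
    hlim.eventually (Ioo_mem_nhds (by linarith) (by linarith))
  obtain ⟨u, hu1, hu⟩ := mem_nhdsGT_iff_exists_Ioo_subset.1 hev
  have hu1' : (1 : ℝ) < u := hu1
  have hm1 : 1 < (1 + min u 2) / 2 := by
    have : 1 < min u 2 := lt_min hu1' (by norm_num)
    linarith
  have hmu : (1 + min u 2) / 2 < u := by
    have : min u 2 ≤ u := min_le_left _ _
    linarith
  refine ⟨min (dedekindZeta_residue F / 2) ((1 + min u 2) / 2 - 1),
    max (3 * dedekindZeta_residue F / 2) (idealZeta F ((1 + min u 2) / 2)),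
    lt_min (by positivity) (by linarith), fun s hs1 hs2 => ?_⟩
  by_cases hsm : s < (1 + min u 2) / 2
  · have h := hu ⟨hs1, hsm.trans hmu⟩
    exact ⟨(min_le_left _ _).trans h.1.le, h.2.le.trans (le_max_left _ _)⟩
  · push Not at hsm
    have h1 := W5c.one_le_idealZeta F hs1
    have h2 := W5c.idealZeta_anti F hm1 hsm
    constructor
    · calc min (dedekindZeta_residue F / 2) ((1 + min u 2) / 2 - 1)
          ≤ (1 + min u 2) / 2 - 1 := min_le_right _ _
        _ ≤ (s - 1) * 1 := by linarith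
        _ ≤ (s - 1) * idealZeta F s := by
          apply mul_le_mul_of_nonneg_left h1
          linarith
    · calc (s - 1) * idealZeta F s ≤ 1 * idealZeta F ((1 + min u 2) / 2) := by
            apply mul_le_mul (by linarith) h2 (by linarith) (by norm_num)
        _ ≤ max (3 * dedekindZeta_residue F / 2) (idealZeta F ((1 + min u 2) / 2)) := by
          rw [one_mul]
          exact le_max_right _ _

end Fermat.Agent.S14
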