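/-
S14, package W5d (helper494 skeleton): the real-variable sieve `sieve_bound`.

`sieve_bound_of` is the skeleton statement `sieve_bound` with the conclusions of the packages
W5a (`partialZeta_sub_bounded`) and W5b (`summable_absNorm_rpow`) as hypotheses.

Proof (no Euler products, no characters): for a finite set `T` of primes and a class `C` let
`S(T, C) = ∑ N(I)^(-s)` over the ideals of class `C` prime to `T`.  Then
`S(T ∪ {q}, C) = S(T, C) - N(q)^(-s) S(T, C [q]⁻¹)`, hence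
* `osc S(T, ·) ≤ ∏_T (1 + N(q)^(-s)) · osc S(∅, ·)`,
* `∑_C S(T, C) = ∏_T (1 - N(q)^(-s)) · ζ_F(s)`.
If `C₀ ∉ U`, every ideal of class `C₀` has a prime factor of class outside `U`, so `S(T, C₀)` is
small for a suitable finite set `T` of primes with classes outside `U`.
-/
import Fermat.Agent.S14.Defs

set_option autoImplicit false

namespace Fermat.Agent.S14

open NumberField IsDedekindDomain
open scoped nonZeroDivisors

namespace W5d

section

variable {F : Type*} [Field F] [NumberField F]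

/-- The weight `N(I)^(-s)`. -/
noncomputable def wt (s : ℝ) (I : (Ideal (𝓞 F))⁰) : ℝ :=
  (Ideal.absNorm (I : Ideal (𝓞 F)) : ℝ) ^ (-s)

/-- A height one prime as a nonzero ideal. -/
noncomputable def pr (v : HeightOneSpectrum (𝓞 F)) : (Ideal (𝓞 F))⁰ :=
  ⟨v.asIdeal, mem_nonZeroDivisors_of_ne_zero v.ne_bot⟩

/-- Ideals of class `C` prime to all primes in `T`. -/
def sieveSet (T : Finset (HeightOneSpectrum (𝓞 F))) (C : ClassGroup (𝓞 F)) :
    Set (Ideal (𝓞 F))⁰ :=
  {I | ClassGroup.mk0 I = C ∧ ∀ v ∈ T, ¬ v.asIdeal ∣ (I : Ideal (𝓞 F))}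

/-- `S(T, C)`. -/
noncomputable def sieveSum (s : ℝ) (T : Finset (HeightOneSpectrum (𝓞 F)))
    (C : ClassGroup (𝓞 F)) : ℝ :=
  ∑' I, (sieveSet T C).indicator (wt s) I

theorem wt_nonneg (s : ℝ) (I : (Ideal (𝓞 F))⁰) : 0 ≤ wt s I :=
  Real.rpow_nonneg (Nat.cast_nonneg _) _

omit [NumberField F] in
theorem coe_pr (v : HeightOneSpectrum (𝓞 F)) : ((pr v : (Ideal (𝓞 F))⁰) : Ideal (𝓞 F)) = v.asIdeal :=
  rfl

theorem wt_mul (s : ℝ) (I J : (Ideal (𝓞 F))⁰) : wt s (I * J) = wt s I * wt s J := by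
  unfold wt
  rw [Submonoid.coe_mul, map_mul, Nat.cast_mul,
    Real.mul_rpow (Nat.cast_nonneg _) (Nat.cast_nonneg _)]

theorem two_le_absNorm (v : HeightOneSpectrum (𝓞 F)) : 2 ≤ Ideal.absNorm v.asIdeal := by
  have h0 : Ideal.absNorm v.asIdeal ≠ 0 := fun h => v.ne_bot (Ideal.absNorm_eq_zero_iff.mp h)
  have h1 : Ideal.absNorm v.asIdeal ≠ 1 := fun h =>
    v.isPrime.ne_top (Ideal.absNorm_eq_one_iff.mp h)
  omega

theorem wt_pr_le_half {s : ℝ} (hs : 1 < s) (v : HeightOneSpectrum (𝓞 F)) :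
    wt s (pr v) ≤ 1 / 2 := by
  unfold wt
  rw [coe_pr, Real.rpow_neg (Nat.cast_nonneg _), one_div]
  have h2 : (2 : ℝ) ≤ (Ideal.absNorm v.asIdeal : ℝ) := by exact_mod_cast two_le_absNorm v
  have h3 : (2 : ℝ) ≤ (Ideal.absNorm v.asIdeal : ℝ) ^ s := by
    calc (2 : ℝ) = 2 ^ (1 : ℝ) := (Real.rpow_one 2).symm
      _ ≤ 2 ^ s := Real.rpow_le_rpow_of_exponent_le (by norm_num) hs.le
      _ ≤ _ := Real.rpow_le_rpow (by norm_num) h2 (by linarith)
  exact inv_anti₀ (by norm_num) h3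

theorem dvd_pr_mul_iff {v q : HeightOneSpectrum (𝓞 F)} (hvq : v ≠ q) (J : Ideal (𝓞 F)) :
    v.asIdeal ∣ q.asIdeal * J ↔ v.asIdeal ∣ J := by
  constructor
  · intro h
    rcases v.prime.dvd_or_dvd h with h | h
    · exfalso
      apply hvq
      have hle : q.asIdeal ≤ v.asIdeal := Ideal.le_of_dvd h
      exact HeightOneSpectrum.ext (q.isMaximal.eq_of_le v.isPrime.ne_top hle).symm
    · exact h
  · intro h
    exact Dvd.dvd.mul_left h _

theorem mul_mem_sieveSet {T : Finset (HeightOneSpectrum (𝓞 F))} {q : HeightOneSpectrum (𝓞 F)}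
    (hq : q ∉ T) (C : ClassGroup (𝓞 F)) (J : (Ideal (𝓞 F))⁰) :
    pr q * J ∈ sieveSet T C ↔ J ∈ sieveSet T (C * (ClassGroup.mk0 (pr q))⁻¹) := by
  unfold sieveSet
  simp only [Set.mem_ofPred_eq, map_mul, Submonoid.coe_mul, coe_pr]
  constructor
  · rintro ⟨h1, h2⟩
    refine ⟨?_, fun v hv => ?_⟩
    · rw [← h1, mul_comm, inv_mul_cancel_left]
    · have hvq : v ≠ q := fun h => hq (h ▸ hv)
      exact fun h => h2 v hv ((dvd_pr_mul_iff hvq _).mpr h)
  · rintro ⟨h1, h2⟩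
    refine ⟨?_, fun v hv => ?_⟩
    · rw [h1, mul_comm, inv_mul_cancel_right]
    · have hvq : v ≠ q := fun h => hq (h ▸ hv)
      exact fun h => h2 v hv ((dvd_pr_mul_iff hvq _).mp h)

theorem pr_mul_injective (q : HeightOneSpectrum (𝓞 F)) :
    Function.Injective (fun J : (Ideal (𝓞 F))⁰ => pr q * J) := by
  intro J J' h
  have h' : q.asIdeal * (J : Ideal (𝓞 F)) = q.asIdeal * (J' : Ideal (𝓞 F)) := by
    have := congrArg (fun x : (Ideal (𝓞 F))⁰ => (x : Ideal (𝓞 F))) h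
    simpa [Submonoid.coe_mul, coe_pr] using this
  exact Subtype.ext (mul_left_cancel₀ q.ne_bot h')

omit [NumberField F] in
theorem mem_range_pr_mul {q : HeightOneSpectrum (𝓞 F)} {I : (Ideal (𝓞 F))⁰}
    (h : q.asIdeal ∣ (I : Ideal (𝓞 F))) : I ∈ Set.range (fun J : (Ideal (𝓞 F))⁰ => pr q * J) := by
  obtain ⟨c, hc⟩ := h
  have hc0 : c ≠ 0 := by
    rintro rfl
    rw [mul_zero] at hc
    exact (nonZeroDivisors.ne_zero I.2) hc
  refine ⟨⟨c, mem_nonZeroDivisors_of_ne_zero hc0⟩, Subtype.ext ?_⟩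
  simp only [Submonoid.coe_mul, coe_pr]
  exact hc.symm

/-- The sieve recursion. -/
theorem sieveSum_insert [DecidableEq (HeightOneSpectrum (𝓞 F))] {s : ℝ}
    (hsum : Summable (wt (F := F) s))
    {T : Finset (HeightOneSpectrum (𝓞 F))} {q : HeightOneSpectrum (𝓞 F)} (hq : q ∉ T)
    (C : ClassGroup (𝓞 F)) :
    sieveSum s (insert q T) C =
      sieveSum s T C - wt s (pr q) * sieveSum s T (C * (ClassGroup.mk0 (pr q))⁻¹) := by
  set D : Set (Ideal (𝓞 F))⁰ := sieveSet T C ∩ {I | q.asIdeal ∣ (I : Ideal (𝓞 F))} with hD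
  have h1 : ∀ I, (sieveSet T C).indicator (wt s) I =
      (sieveSet (insert q T) C).indicator (wt s) I + D.indicator (wt s) I := by
    intro I
    by_cases hI : I ∈ sieveSet T C
    · by_cases hd : q.asIdeal ∣ (I : Ideal (𝓞 F))
      · have h3 : I ∉ sieveSet (insert q T) C := fun h => h.2 q (Finset.mem_insert_self _ _) hd
        rw [Set.indicator_of_mem hI, Set.indicator_of_notMem h3,
          Set.indicator_of_mem (show I ∈ D from ⟨hI, hd⟩), zero_add]
      · have h3 : I ∈ sieveSet (insert q T) C := ⟨hI.1, fun v hv => by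
          rcases Finset.mem_insert.mp hv with rfl | hv
          · exact hd
          · exact hI.2 v hv⟩
        rw [Set.indicator_of_mem hI, Set.indicator_of_mem h3,
          Set.indicator_of_notMem (fun h : I ∈ D => hd h.2), add_zero]
    · have h3 : I ∉ sieveSet (insert q T) C := fun h =>
        hI ⟨h.1, fun v hv => h.2 v (Finset.mem_insert_of_mem hv)⟩
      rw [Set.indicator_of_notMem hI, Set.indicator_of_notMem h3,
        Set.indicator_of_notMem (fun h : I ∈ D => hI h.1), add_zero]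
  have h2 : ∑' I, D.indicator (wt s) I =
      wt s (pr q) * sieveSum s T (C * (ClassGroup.mk0 (pr q))⁻¹) := by
    have hsupp : Function.support (D.indicator (wt s)) ⊆
        Set.range (fun J : (Ideal (𝓞 F))⁰ => pr q * J) := by
      intro I hI
      have hID : I ∈ D := by
        by_contra hcon
        exact hI (Set.indicator_of_notMem hcon _)
      exact mem_range_pr_mul hID.2
    rw [← (pr_mul_injective q).tsum_eq hsupp, sieveSum, ← tsum_mul_left]
    congr 1
    funext J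
    by_cases hJ : J ∈ sieveSet T (C * (ClassGroup.mk0 (pr q))⁻¹)
    · have h3 : pr q * J ∈ D :=
        ⟨(mul_mem_sieveSet hq C J).mpr hJ, by
          show q.asIdeal ∣ ((pr q * J : (Ideal (𝓞 F))⁰) : Ideal (𝓞 F))
          rw [Submonoid.coe_mul, coe_pr]
          exact Dvd.intro _ rfl⟩
      rw [Set.indicator_of_mem hJ, Set.indicator_of_mem h3, wt_mul]
    · have h3 : pr q * J ∉ D := fun h => hJ ((mul_mem_sieveSet hq C J).mp h.1)
      rw [Set.indicator_of_notMem hJ, Set.indicator_of_notMem h3, mul_zero]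
  have h4 : sieveSum s T C = sieveSum s (insert q T) C + ∑' I, D.indicator (wt s) I := by
    unfold sieveSum
    rw [← Summable.tsum_add (hsum.indicator _) (hsum.indicator _)]
    exact tsum_congr h1
  rw [h4, h2]
  ring

/-- Oscillation of `S(T, ·)` over the classes. -/
theorem abs_sieveSum_sub_le [DecidableEq (HeightOneSpectrum (𝓞 F))] {s : ℝ}
    (hsum : Summable (wt (F := F) s)) {B₀ : ℝ}
    (hB : ∀ C C' : ClassGroup (𝓞 F), |sieveSum s ∅ C - sieveSum s ∅ C'| ≤ B₀)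
    (T : Finset (HeightOneSpectrum (𝓞 F))) (C C' : ClassGroup (𝓞 F)) :
    |sieveSum s T C - sieveSum s T C'| ≤ B₀ * ∏ v ∈ T, (1 + wt s (pr v)) := by
  induction T using Finset.induction_on generalizing C C' with
  | empty => simpa using hB C C'
  | insert q T hq ih =>
    rw [sieveSum_insert hsum hq, sieveSum_insert hsum hq, Finset.prod_insert hq]
    set g := (ClassGroup.mk0 (pr q))⁻¹
    have e : sieveSum s T C - wt s (pr q) * sieveSum s T (C * g) -
        (sieveSum s T C' - wt s (pr q) * sieveSum s T (C' * g)) =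
        (sieveSum s T C - sieveSum s T C') -
          wt s (pr q) * (sieveSum s T (C * g) - sieveSum s T (C' * g)) := by ring
    rw [e]
    calc |sieveSum s T C - sieveSum s T C' -
          wt s (pr q) * (sieveSum s T (C * g) - sieveSum s T (C' * g))|
        ≤ |sieveSum s T C - sieveSum s T C'| +
          |wt s (pr q) * (sieveSum s T (C * g) - sieveSum s T (C' * g))| := abs_sub _ _
      _ = |sieveSum s T C - sieveSum s T C'| +
          wt s (pr q) * |sieveSum s T (C * g) - sieveSum s T (C' * g)| := by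
        rw [abs_mul, abs_of_nonneg (wt_nonneg _ _)]
      _ ≤ B₀ * ∏ v ∈ T, (1 + wt s (pr v)) +
          wt s (pr q) * (B₀ * ∏ v ∈ T, (1 + wt s (pr v))) :=
        add_le_add (ih _ _) (mul_le_mul_of_nonneg_left (ih _ _) (wt_nonneg _ _))
      _ = B₀ * ((1 + wt s (pr q)) * ∏ v ∈ T, (1 + wt s (pr v))) := by ring

theorem sum_sieveSum_insert [DecidableEq (HeightOneSpectrum (𝓞 F))] {s : ℝ}
    (hsum : Summable (wt (F := F) s)) {T : Finset (HeightOneSpectrum (𝓞 F))}
    {q : HeightOneSpectrum (𝓞 F)} (hq : q ∉ T) :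
    ∑ C : ClassGroup (𝓞 F), sieveSum s (insert q T) C =
      (1 - wt s (pr q)) * ∑ C : ClassGroup (𝓞 F), sieveSum s T C := by
  simp_rw [sieveSum_insert hsum hq]
  rw [Finset.sum_sub_distrib, ← Finset.mul_sum]
  have h : ∑ C : ClassGroup (𝓞 F), sieveSum s T (C * (ClassGroup.mk0 (pr q))⁻¹) =
      ∑ C : ClassGroup (𝓞 F), sieveSum s T C :=
    Equiv.sum_comp (Equiv.mulRight (ClassGroup.mk0 (pr q))⁻¹) (fun C => sieveSum s T C)
  rw [h]
  ring

theorem sum_sieveSum_eq [DecidableEq (HeightOneSpectrum (𝓞 F))] {s : ℝ}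
    (hsum : Summable (wt (F := F) s)) (T : Finset (HeightOneSpectrum (𝓞 F))) :
    ∑ C : ClassGroup (𝓞 F), sieveSum s T C =
      (∏ v ∈ T, (1 - wt s (pr v))) * ∑ C : ClassGroup (𝓞 F), sieveSum s ∅ C := by
  induction T using Finset.induction_on with
  | empty => simp
  | insert q T hq ih =>
    rw [sum_sieveSum_insert hsum hq, ih, Finset.prod_insert hq]
    ring

theorem sieveSum_empty (s : ℝ) (C : ClassGroup (𝓞 F)) :
    sieveSum s ∅ C = partialZeta F C s := by
  unfold sieveSum partialZeta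
  rw [← tsum_subtype]
  have h : sieveSet (∅ : Finset (HeightOneSpectrum (𝓞 F))) C = {I | ClassGroup.mk0 I = C} := by
    ext I
    simp [sieveSet]
  rw [h]
  rfl

theorem sum_sieveSum_empty {s : ℝ} (hsum : Summable (wt (F := F) s)) :
    ∑ C : ClassGroup (𝓞 F), sieveSum s ∅ C = idealZeta F s := by
  classical
  unfold sieveSum idealZeta
  rw [← Summable.tsum_finsetSum (fun C _ => hsum.indicator _)]
  refine tsum_congr fun I => ?_
  rw [Finset.sum_eq_single (ClassGroup.mk0 I)]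
  · exact Set.indicator_of_mem (show I ∈ sieveSet ∅ (ClassGroup.mk0 I) from ⟨rfl, by simp⟩) _
  · intro C _ hC
    exact Set.indicator_of_notMem (fun h : I ∈ sieveSet ∅ C => hC h.1.symm) _
  · intro h
    exact absurd (Finset.mem_univ _) h

/-- An ideal whose class is outside the subgroup `U` has a prime factor of class outside `U`. -/
theorem exists_prime_dvd_of_mk0_notMem (U : Subgroup (ClassGroup (𝓞 F))) (I : (Ideal (𝓞 F))⁰)
    (hI : ClassGroup.mk0 I ∉ U) :
    ∃ v : HeightOneSpectrum (𝓞 F), v.asIdeal ∣ (I : Ideal (𝓞 F)) ∧ ClassGroup.mk0 (pr v) ∉ U := by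
  by_contra hcon
  push Not at hcon
  apply hI
  have key : ∀ J : Ideal (𝓞 F), ∀ hJ : J ≠ 0,
      (∀ v : HeightOneSpectrum (𝓞 F), v.asIdeal ∣ J → ClassGroup.mk0 (pr v) ∈ U) →
      ClassGroup.mk0 ⟨J, mem_nonZeroDivisors_of_ne_zero hJ⟩ ∈ U := by
    intro J
    induction J using UniqueFactorizationMonoid.induction_on_prime with
    | h₁ => intro hJ; exact absurd rfl hJ
    | h₂ x hx =>
      intro hJ _
      have hx1 : x = 1 := by rw [Ideal.one_eq_top]; exact Ideal.isUnit_iff.mp hx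
      have : (⟨x, mem_nonZeroDivisors_of_ne_zero hJ⟩ : (Ideal (𝓞 F))⁰) = 1 := Subtype.ext hx1
      rw [this, map_one]
      exact U.one_mem
    | h₃ a p ha hp iha =>
      intro hJ hall
      have hpp : p.IsPrime := Ideal.isPrime_of_prime hp
      let v : HeightOneSpectrum (𝓞 F) := ⟨p, hpp, hp.ne_zero⟩
      have e : (⟨p * a, mem_nonZeroDivisors_of_ne_zero hJ⟩ : (Ideal (𝓞 F))⁰) =
          pr v * ⟨a, mem_nonZeroDivisors_of_ne_zero ha⟩ := Subtype.ext rfl
      rw [e, map_mul]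
      exact U.mul_mem (hall v (Dvd.intro _ rfl))
        (iha ha (fun w hw => hall w (Dvd.dvd.mul_left hw p)))
  have h := key (I : Ideal (𝓞 F)) (nonZeroDivisors.ne_zero I.2) hcon
  exact h

/-- For a class `C₀ ∉ U`, the sum `S(T, C₀)` is small for a suitable finite set `T` of primes with
classes outside `U`. -/
theorem exists_sieveSum_le {s : ℝ} (hsum : Summable (wt (F := F) s))
    (U : Subgroup (ClassGroup (𝓞 F))) {C₀ : ClassGroup (𝓞 F)} (hC₀ : C₀ ∉ U) {ε : ℝ}
    (hε : 0 < ε) :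
    ∃ T : Finset (HeightOneSpectrum (𝓞 F)),
      (∀ v ∈ T, ClassGroup.mk0 (pr v) ∉ U) ∧ sieveSum s T C₀ ≤ ε := by
  classical
  obtain ⟨A, hA⟩ := hsum.tsum_vanishing (Iio_mem_nhds hε)
  have hex : ∀ I : {I : (Ideal (𝓞 F))⁰ // ClassGroup.mk0 I = C₀},
      ∃ v : HeightOneSpectrum (𝓞 F),
        v.asIdeal ∣ ((I : (Ideal (𝓞 F))⁰) : Ideal (𝓞 F)) ∧ ClassGroup.mk0 (pr v) ∉ U :=
    fun I => exists_prime_dvd_of_mk0_notMem U I.1 (by rw [I.2]; exact hC₀)
  choose g hg using hex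
  refine ⟨(A.subtype (fun I => ClassGroup.mk0 I = C₀)).image g, ?_, ?_⟩
  · intro v hv
    obtain ⟨I, _, rfl⟩ := Finset.mem_image.mp hv
    exact (hg I).2
  · have hdisj : Disjoint
        (sieveSet ((A.subtype (fun I => ClassGroup.mk0 I = C₀)).image g) C₀)
        (A : Set (Ideal (𝓞 F))⁰) := by
      rw [Set.disjoint_left]
      intro I hI hIA
      have hmem : (⟨I, hI.1⟩ : {I : (Ideal (𝓞 F))⁰ // ClassGroup.mk0 I = C₀}) ∈
          A.subtype (fun I => ClassGroup.mk0 I = C₀) := Finset.mem_subtype.mpr hIA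
      exact hI.2 _ (Finset.mem_image_of_mem g hmem) (hg ⟨I, hI.1⟩).1
    have h := hA _ hdisj
    rw [tsum_subtype] at h
    exact le_of_lt h

theorem exp_neg_two_mul_le {x : ℝ} (h0 : 0 ≤ x) (h1 : x ≤ 1 / 2) :
    Real.exp (-(2 * x)) ≤ 1 - x := by
  rw [Real.exp_neg]
  have h2 : 1 + 2 * x ≤ Real.exp (2 * x) := by linarith [Real.add_one_le_exp (2 * x)]
  have h3 : (Real.exp (2 * x))⁻¹ ≤ (1 + 2 * x)⁻¹ := inv_anti₀ (by linarith) h2
  have h4 : (1 + 2 * x)⁻¹ ≤ 1 - x := by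
    rw [inv_eq_one_div, div_le_iff₀ (by linarith)]
    nlinarith
  exact h3.trans h4

end

/-- **W5d** (sieve, real variable), with the statements of W5a and W5b as hypotheses. -/
theorem sieve_bound_of (F : Type*) [Field F] [NumberField F]
    (hAL : ∀ C C' : ClassGroup (𝓞 F), ∃ B : ℝ, ∀ s : ℝ, 1 < s → s ≤ 2 →
      |partialZeta F C s - partialZeta F C' s| ≤ B)
    (hsum : ∀ s : ℝ, 1 < s →
      Summable fun I : (Ideal (𝓞 F))⁰ => (Ideal.absNorm (I : Ideal (𝓞 F)) : ℝ) ^ (-s))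
    (U : Subgroup (ClassGroup (𝓞 F))) (hU : U ≠ ⊤) :
    ∃ B : ℝ, ∀ s : ℝ, 1 < s → s ≤ 2 → ∀ M : ℝ,
      (∀ S : Finset (HeightOneSpectrum (𝓞 F)),
        (∀ v ∈ S, ClassGroup.mk0 ⟨v.asIdeal, mem_nonZeroDivisors_of_ne_zero v.ne_bot⟩ ∉ U) →
        ∑ v ∈ S, (Ideal.absNorm v.asIdeal : ℝ) ^ (-s) ≤ M) →
      idealZeta F s ≤ B * Real.exp (3 * M) := by
  classical
  choose B hB using hAL
  set B₀ : ℝ := 1 + ∑ C : ClassGroup (𝓞 F), ∑ C' : ClassGroup (𝓞 F), |B C C'| with hB₀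
  have hsum0 : ∀ C : ClassGroup (𝓞 F), 0 ≤ ∑ C' : ClassGroup (𝓞 F), |B C C'| :=
    fun C => Finset.sum_nonneg (fun C' _ => abs_nonneg _)
  have hB₀1 : 1 ≤ B₀ := by
    have : 0 ≤ ∑ C : ClassGroup (𝓞 F), ∑ C' : ClassGroup (𝓞 F), |B C C'| :=
      Finset.sum_nonneg (fun C _ => hsum0 C)
    linarith
  have hBle : ∀ C C' : ClassGroup (𝓞 F), B C C' ≤ B₀ := by
    intro C C'
    have h1 : |B C C'| ≤ ∑ C'' : ClassGroup (𝓞 F), |B C C''| :=
      Finset.single_le_sum (f := fun C'' => |B C C''|) (fun C'' _ => abs_nonneg _)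
        (Finset.mem_univ C')
    have h2 : ∑ C'' : ClassGroup (𝓞 F), |B C C''| ≤
        ∑ D : ClassGroup (𝓞 F), ∑ C'' : ClassGroup (𝓞 F), |B D C''| :=
      Finset.single_le_sum (f := fun D => ∑ C'' : ClassGroup (𝓞 F), |B D C''|)
        (fun D _ => hsum0 D) (Finset.mem_univ C)
    have h3 := le_abs_self (B C C')
    linarith
  obtain ⟨C₀, hC₀⟩ : ∃ C₀ : ClassGroup (𝓞 F), C₀ ∉ U := by
    by_contra h
    push Not at h
    exact hU ((Subgroup.eq_top_iff' U).mpr h)
  refine ⟨2 * Fintype.card (ClassGroup (𝓞 F)) * B₀, fun s hs hs2 M hM => ?_⟩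
  have hsum' : Summable (W5d.wt (F := F) s) := hsum s hs
  have hosc0 : ∀ C C' : ClassGroup (𝓞 F),
      |W5d.sieveSum s ∅ C - W5d.sieveSum s ∅ C'| ≤ B₀ := fun C C' => by
    rw [W5d.sieveSum_empty, W5d.sieveSum_empty]
    exact (hB C C' s hs hs2).trans (hBle C C')
  obtain ⟨T, hTU, hTle⟩ := W5d.exists_sieveSum_le hsum' U hC₀ (show (0 : ℝ) < B₀ by linarith)
  have hM' : ∑ v ∈ T, W5d.wt s (W5d.pr v) ≤ M := hM T hTU
  have hM0 : 0 ≤ M := by simpa using hM ∅ (by simp)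
  have hprod1 : ∏ v ∈ T, (1 + W5d.wt s (W5d.pr v)) ≤ Real.exp M := by
    calc ∏ v ∈ T, (1 + W5d.wt s (W5d.pr v))
        ≤ ∏ v ∈ T, Real.exp (W5d.wt s (W5d.pr v)) :=
          Finset.prod_le_prod
            (fun v _ => by have := W5d.wt_nonneg s (W5d.pr v); linarith)
            (fun v _ => by have := Real.add_one_le_exp (W5d.wt s (W5d.pr v)); linarith)
      _ = Real.exp (∑ v ∈ T, W5d.wt s (W5d.pr v)) := (Real.exp_sum _ _).symm
      _ ≤ Real.exp M := Real.exp_le_exp.mpr hM'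
  have hcls : ∀ C : ClassGroup (𝓞 F), W5d.sieveSum s T C ≤ B₀ + B₀ * Real.exp M := fun C => by
    have h1 := W5d.abs_sieveSum_sub_le hsum' hosc0 T C C₀
    have h2 := (abs_le.mp h1).2
    have h3 : B₀ * ∏ v ∈ T, (1 + W5d.wt s (W5d.pr v)) ≤ B₀ * Real.exp M :=
      mul_le_mul_of_nonneg_left hprod1 (by linarith)
    linarith
  have htot : ∑ C : ClassGroup (𝓞 F), W5d.sieveSum s T C ≤
      Fintype.card (ClassGroup (𝓞 F)) * (B₀ + B₀ * Real.exp M) := by
    calc ∑ C : ClassGroup (𝓞 F), W5d.sieveSum s T C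
        ≤ ∑ _C : ClassGroup (𝓞 F), (B₀ + B₀ * Real.exp M) :=
          Finset.sum_le_sum (fun C _ => hcls C)
      _ = Fintype.card (ClassGroup (𝓞 F)) * (B₀ + B₀ * Real.exp M) := by
        rw [Finset.sum_const, Finset.card_univ, nsmul_eq_mul]
  have hz : (∏ v ∈ T, (1 - W5d.wt s (W5d.pr v))) * idealZeta F s =
      ∑ C : ClassGroup (𝓞 F), W5d.sieveSum s T C := by
    rw [W5d.sum_sieveSum_eq hsum' T, W5d.sum_sieveSum_empty hsum']
  have hprod2 : Real.exp (-(2 * M)) ≤ ∏ v ∈ T, (1 - W5d.wt s (W5d.pr v)) := by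
    calc Real.exp (-(2 * M)) ≤ Real.exp (∑ v ∈ T, (-(2 * W5d.wt s (W5d.pr v)))) := by
          apply Real.exp_le_exp.mpr
          rw [Finset.sum_neg_distrib, ← Finset.mul_sum]
          linarith
      _ = ∏ v ∈ T, Real.exp (-(2 * W5d.wt s (W5d.pr v))) := Real.exp_sum _ _
      _ ≤ ∏ v ∈ T, (1 - W5d.wt s (W5d.pr v)) :=
          Finset.prod_le_prod (fun v _ => (Real.exp_pos _).le)
            (fun v _ => W5d.exp_neg_two_mul_le (W5d.wt_nonneg s _) (W5d.wt_pr_le_half hs v))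
  have hζ0 : 0 ≤ idealZeta F s := tsum_nonneg (fun I => W5d.wt_nonneg s I)
  have hexp : Real.exp (3 * M) = Real.exp (2 * M) * Real.exp M := by
    rw [← Real.exp_add]
    congr 1
    ring
  have hexpM : 1 ≤ Real.exp M := Real.one_le_exp hM0
  have h5 : Real.exp (-(2 * M)) * idealZeta F s ≤
      Fintype.card (ClassGroup (𝓞 F)) * (B₀ + B₀ * Real.exp M) :=
    calc Real.exp (-(2 * M)) * idealZeta F s
        ≤ (∏ v ∈ T, (1 - W5d.wt s (W5d.pr v))) * idealZeta F s :=
          mul_le_mul_of_nonneg_right hprod2 hζ0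
      _ = ∑ C : ClassGroup (𝓞 F), W5d.sieveSum s T C := hz
      _ ≤ _ := htot
  have h6 : idealZeta F s = Real.exp (2 * M) * (Real.exp (-(2 * M)) * idealZeta F s) := by
    rw [← mul_assoc, ← Real.exp_add, add_neg_cancel, Real.exp_zero, one_mul]
  have hcard : (0 : ℝ) ≤ Fintype.card (ClassGroup (𝓞 F)) := Nat.cast_nonneg _
  calc idealZeta F s = Real.exp (2 * M) * (Real.exp (-(2 * M)) * idealZeta F s) := h6
    _ ≤ Real.exp (2 * M) * (Fintype.card (ClassGroup (𝓞 F)) * (B₀ + B₀ * Real.exp M)) :=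
        mul_le_mul_of_nonneg_left h5 (Real.exp_pos _).le
    _ ≤ Real.exp (2 * M) * (Fintype.card (ClassGroup (𝓞 F)) * (2 * B₀ * Real.exp M)) := by
        apply mul_le_mul_of_nonneg_left _ (Real.exp_pos _).le
        apply mul_le_mul_of_nonneg_left _ hcard
        nlinarith
    _ = 2 * Fintype.card (ClassGroup (𝓞 F)) * B₀ * Real.exp (3 * M) := by
        rw [hexp]
        ring

end W5d

end Fermat.Agent.S14
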