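/-
S14 package W5e (helper3468), for the skeleton of helper494
(`Fermat/Agent/S14/Skeleton.lean`, theorem `sum_split_primes_le`, same statement).

Content: if `u` is not a `p`-th power in a number field `K ∋ ζ_p`, then the primes `v ∤ p u`
of `K` at which `u` is a `p`-th power residue split completely in `M = K(u^{1/p})`, hence
`∑_{v ∈ S} N v^{-s} ≤ (1/p) log (1/(s-1)) + C` for every finite set `S` of such primes.

Self-contained over Mathlib (imports nothing else).  Auxiliary declarations live in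
`Fermat.Agent.S14.W5e`; reusable ones:
* `W5e.zetaR F s`            : real Dedekind zeta value as a series over `ℕ`
* `W5e.summable_zterm`       : its summability for `s > 1`
* `W5e.dedekindZeta_eq`      : `dedekindZeta F s = zetaR F s` for real `s`
* `W5e.zetaR_bound`          : `(s-1) ζ_F(s) ≤ C` on `(1,2]`
* `W5e.sum_le_zetaR`         : finite sums of `N(I)^{-s}` over distinct nonzero ideals `≤ ζ_F(s)`
* `W5e.prod_one_add_le_zetaR`: finite Euler products `∏ (1 + N P^{-s}) ≤ ζ_F(s)`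
* `W5e.sum_primes_le`        : `∑_{P ∈ T} N P^{-s} ≤ log (1/(s-1)) + C` for finite sets of primes
* `W5e.split_of_pow_residue` : the splitting statement (`p` primes above `v`, all of norm `N v`)
-/
import Mathlib

set_option autoImplicit false

namespace Fermat.Agent.S14.W5e

open NumberField Ideal Filter Topology Polynomial
open scoped Pointwise

variable (F : Type*) [Field F] [NumberField F]

/-- number of ideals of norm `n` -/
noncomputable def coeff (n : ℕ) : ℝ := (Nat.card {I : Ideal (𝓞 F) // absNorm I = n} : ℝ)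

/-- the general term of the real Dedekind zeta series -/
noncomputable def zterm (s : ℝ) (n : ℕ) : ℝ := if n = 0 then 0 else coeff F n * (n : ℝ) ^ (-s)

/-- the real Dedekind zeta function, as a series over `ℕ` -/
noncomputable def zetaR (s : ℝ) : ℝ := ∑' n : ℕ, zterm F s n

theorem coeff_nonneg (n : ℕ) : 0 ≤ coeff F n := Nat.cast_nonneg _

theorem zterm_nonneg (s : ℝ) (n : ℕ) : 0 ≤ zterm F s n := by
  unfold zterm
  split_ifs
  · exact le_rfl
  · exact mul_nonneg (coeff_nonneg F n) (Real.rpow_nonneg (Nat.cast_nonneg _) _)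

theorem term_eq (s : ℝ) (n : ℕ) :
    LSeries.term (fun n ↦ ((Nat.card {I : Ideal (𝓞 F) // absNorm I = n} : ℕ) : ℂ)) (s : ℂ) n
      = ((zterm F s n : ℝ) : ℂ) := by
  unfold zterm LSeries.term
  split_ifs with h
  · simp
  · rw [Complex.ofReal_mul, Real.rpow_neg (Nat.cast_nonneg _), Complex.ofReal_inv,
      Complex.ofReal_cpow (Nat.cast_nonneg _), div_eq_mul_inv]
    simp [coeff]

theorem dedekindZeta_eq (s : ℝ) : dedekindZeta F (s : ℂ) = ((zetaR F s : ℝ) : ℂ) := by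
  unfold dedekindZeta LSeries zetaR
  rw [Complex.ofReal_tsum]
  exact tsum_congr (term_eq F s)

theorem tendsto_sum_coeff :
    Tendsto (fun n : ℕ ↦ (∑ k ∈ Finset.Icc 1 n, coeff F k) / (n : ℝ)) atTop
      (𝓝 (dedekindZeta_residue F)) := by
  unfold coeff
  refine ((Ideal.tendsto_norm_le_div_atTop₀ F).comp tendsto_natCast_atTop_atTop).congr fun n ↦ ?_
  simp only [Function.comp_apply, Nat.cast_le, ← Nat.cast_sum]
  congr
  rw [← add_left_inj 1, ← card_norm_le_eq_card_norm_le_add_one,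
    show Finset.Icc 1 n = Finset.Ioc 0 n from Finset.Icc_succ_left_eq_Ioc _ _,
    show 1 = Nat.card {I : Ideal (𝓞 F) // absNorm I = 0} by simp [Ideal.absNorm_eq_zero_iff],
    Finset.sum_Ioc_add_eq_sum_Icc (n.zero_le),
    ← Finset.card_preimage_eq_sum_card_image_eq (fun k _ ↦ finite_setOfPred_absNorm_eq k)]
  simp [Set.coe_eq_subtype]

theorem lseriesSummable {s : ℝ} (hs : 1 < s) :
    LSeriesSummable (fun n ↦ ((Nat.card {I : Ideal (𝓞 F) // absNorm I = n} : ℕ) : ℂ)) (s : ℂ) := by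
  have h := LSeriesSummable_of_sum_norm_bigO_and_nonneg (f := coeff F) (r := 1) (s := (s : ℂ))
    (Asymptotics.isBigO_atTop_natCast_rpow_of_tendsto_div_rpow
      (by simpa using tendsto_sum_coeff F))
    (coeff_nonneg F) zero_le_one (by simpa using hs)
  exact h

theorem summable_zterm {s : ℝ} (hs : 1 < s) : Summable (zterm F s) := by
  have h := lseriesSummable F hs
  unfold LSeriesSummable at h
  have h2 : Summable (fun n ↦ ((zterm F s n : ℝ) : ℂ)) := by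
    refine h.congr ?_
    intro n
    exact term_eq F s n
  exact Complex.summable_ofReal.mp h2

theorem zetaR_nonneg (s : ℝ) : 0 ≤ zetaR F s := tsum_nonneg (zterm_nonneg F s)

/-- the real zeta series is antitone on `(1, ∞)` -/
theorem zetaR_anti {s t : ℝ} (hs : 1 < s) (hst : s ≤ t) : zetaR F t ≤ zetaR F s := by
  refine (summable_zterm F (hs.trans_le hst)).tsum_le_tsum (fun n ↦ ?_) (summable_zterm F hs)
  unfold zterm
  split_ifs with h
  · exact le_rfl
  · refine mul_le_mul_of_nonneg_left ?_ (coeff_nonneg F n)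
    refine Real.rpow_le_rpow_of_exponent_le ?_ (by linarith)
    exact_mod_cast Nat.one_le_iff_ne_zero.mpr h

theorem tendsto_zetaR :
    Tendsto (fun s : ℝ ↦ (s - 1) * zetaR F s) (𝓝[>] 1) (𝓝 (dedekindZeta_residue F)) := by
  have h := tendsto_sub_one_mul_dedekindZeta_nhdsGT F
  have h2 := (Complex.continuous_re.tendsto _).comp h
  refine h2.congr fun s ↦ ?_
  simp only [Function.comp_apply]
  rw [dedekindZeta_eq]
  simp [← Complex.ofReal_one, ← Complex.ofReal_sub, ← Complex.ofReal_mul]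

/-- `(s - 1) ζ_F(s)` is bounded above on `(1, 2]`. -/
theorem zetaR_bound : ∃ C : ℝ, 0 < C ∧ ∀ s : ℝ, 1 < s → s ≤ 2 → (s - 1) * zetaR F s ≤ C := by
  have h := tendsto_zetaR F
  have hev : ∀ᶠ s in 𝓝[>] (1 : ℝ), (s - 1) * zetaR F s ≤ dedekindZeta_residue F + 1 :=
    h.eventually (eventually_le_nhds (lt_add_one _))
  obtain ⟨b, hb, hIoo⟩ := mem_nhdsGT_iff_exists_Ioo_subset.mp hev
  have hb' : (1 : ℝ) < b := hb
  set s₀ : ℝ := (1 + b) / 2 with hs₀
  have hs₀1 : 1 < s₀ := by rw [hs₀]; linarith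
  have hs₀b : s₀ < b := by rw [hs₀]; linarith
  refine ⟨max (dedekindZeta_residue F + 1) (zetaR F s₀), ?_, ?_⟩
  · exact lt_max_of_lt_left (by have := dedekindZeta_residue_pos F; linarith)
  · intro s hs1 hs2
    rcases lt_or_ge s s₀ with hlt | hge
    · exact le_max_of_le_left (hIoo ⟨hs1, hlt.trans hs₀b⟩)
    · refine le_max_of_le_right ?_
      have h1 : zetaR F s ≤ zetaR F s₀ := zetaR_anti F hs₀1 hge
      have h2 : 0 ≤ zetaR F s := zetaR_nonneg F s
      have h3 : s - 1 ≤ 1 := by linarith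
      have h4 : 0 ≤ s - 1 := by linarith
      calc (s - 1) * zetaR F s ≤ 1 * zetaR F s := mul_le_mul_of_nonneg_right h3 h2
        _ = zetaR F s := one_mul _
        _ ≤ zetaR F s₀ := h1


/-- a finite sum of `N(I)^{-s}` over distinct nonzero ideals is at most `ζ_F(s)` -/
theorem sum_le_zetaR {s : ℝ} (hs : 1 < s) (𝒜 : Finset (Ideal (𝓞 F)))
    (h𝒜 : ∀ I ∈ 𝒜, I ≠ ⊥) :
    ∑ I ∈ 𝒜, (absNorm I : ℝ) ^ (-s) ≤ zetaR F s := by
  classical
  have hmaps : ∀ I ∈ 𝒜, absNorm I ∈ 𝒜.image (fun I ↦ absNorm I) := fun I hI ↦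
    Finset.mem_image_of_mem _ hI
  rw [← Finset.sum_fiberwise_of_maps_to hmaps]
  have hle : ∀ n ∈ 𝒜.image (fun I ↦ absNorm I),
      ∑ I ∈ 𝒜 with absNorm I = n, (absNorm I : ℝ) ^ (-s) ≤ zterm F s n := by
    intro n hn
    obtain ⟨I₀, hI₀, rfl⟩ := Finset.mem_image.mp hn
    have hn0 : absNorm I₀ ≠ 0 := by
      rw [Ne, Ideal.absNorm_eq_zero_iff]
      exact h𝒜 I₀ hI₀
    have h1 : ∑ I ∈ 𝒜 with absNorm I = absNorm I₀, (absNorm I : ℝ) ^ (-s)
        = ((𝒜.filter (fun I ↦ absNorm I = absNorm I₀)).card : ℝ) * (absNorm I₀ : ℝ) ^ (-s) := by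
      rw [Finset.sum_congr rfl (g := fun _ ↦ (absNorm I₀ : ℝ) ^ (-s))]
      · rw [Finset.sum_const, nsmul_eq_mul]
      · intro I hI
        rw [(Finset.mem_filter.mp hI).2]
    rw [h1]
    unfold zterm
    rw [if_neg hn0]
    refine mul_le_mul_of_nonneg_right ?_ (Real.rpow_nonneg (Nat.cast_nonneg _) _)
    unfold coeff
    have hfin : {I : Ideal (𝓞 F) | absNorm I = absNorm I₀}.Finite :=
      finite_setOfPred_absNorm_eq (absNorm I₀)
    have h2 : Nat.card {I : Ideal (𝓞 F) // absNorm I = absNorm I₀}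
        = {I : Ideal (𝓞 F) | absNorm I = absNorm I₀}.ncard := rfl
    rw [h2]
    have h3 : ((𝒜.filter (fun I ↦ absNorm I = absNorm I₀)) : Set (Ideal (𝓞 F))).ncard
        ≤ {I : Ideal (𝓞 F) | absNorm I = absNorm I₀}.ncard := by
      refine Set.ncard_le_ncard ?_ hfin
      intro I hI
      exact (Finset.mem_filter.mp (Finset.mem_coe.mp hI)).2
    rw [Set.ncard_coe_finset] at h3
    exact_mod_cast h3
  calc ∑ n ∈ 𝒜.image (fun I ↦ absNorm I), ∑ I ∈ 𝒜 with absNorm I = n, (absNorm I : ℝ) ^ (-s)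
      ≤ ∑ n ∈ 𝒜.image (fun I ↦ absNorm I), zterm F s n := Finset.sum_le_sum hle
    _ ≤ zetaR F s := (summable_zterm F hs).sum_le_tsum _ (fun n _ ↦ zterm_nonneg F s n)

/-- products of distinct sets of nonzero primes are distinct -/
theorem prod_injOn (T : Finset (Ideal (𝓞 F))) (hT : ∀ P ∈ T, P.IsPrime ∧ P ≠ ⊥) :
    Set.InjOn (fun U : Finset (Ideal (𝓞 F)) ↦ ∏ P ∈ U, P) (T.powerset : Set (Finset (Ideal (𝓞 F)))) := by
  classical
  have key : ∀ U ∈ T.powerset, ∀ U' ∈ T.powerset, (∏ P ∈ U, P) = ∏ P ∈ U', P → U ⊆ U' := by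
    intro U hU U' hU' h P hP
    have hPT := hT P (Finset.mem_powerset.mp hU hP)
    have h1 : ∏ Q ∈ U', Q ≤ P := by
      rw [← h]
      exact Ideal.le_of_dvd (Finset.dvd_prod_of_mem _ hP)
    obtain ⟨Q, hQ, hQP⟩ := (Ideal.IsPrime.prod_le hPT.1).mp h1
    have hQT := hT Q (Finset.mem_powerset.mp hU' hQ)
    have hQmax : Q.IsMaximal := hQT.1.isMaximal hQT.2
    have : Q = P := hQmax.eq_of_le hPT.1.ne_top hQP
    rwa [← this]
  intro U hU U' hU' h
  exact Finset.Subset.antisymm (key U hU U' hU' h) (key U' hU' U hU h.symm)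

/-- finite Euler products are bounded by `ζ_F(s)` -/
theorem prod_one_add_le_zetaR {s : ℝ} (hs : 1 < s) (T : Finset (Ideal (𝓞 F)))
    (hT : ∀ P ∈ T, P.IsPrime ∧ P ≠ ⊥) :
    ∏ P ∈ T, (1 + (absNorm P : ℝ) ^ (-s)) ≤ zetaR F s := by
  classical
  rw [Finset.prod_one_add]
  have h1 : ∀ U ∈ T.powerset, ∏ P ∈ U, (absNorm P : ℝ) ^ (-s)
      = (absNorm (∏ P ∈ U, P) : ℝ) ^ (-s) := by
    intro U _
    rw [Real.finsetProd_rpow _ _ (fun P _ ↦ Nat.cast_nonneg _), map_prod, Nat.cast_prod]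
  rw [Finset.sum_congr rfl h1]
  have h2 := Finset.sum_image (f := fun I : Ideal (𝓞 F) ↦ (absNorm I : ℝ) ^ (-s))
    (prod_injOn F T hT)
  rw [← h2]
  refine sum_le_zetaR F hs _ ?_
  intro I hI
  obtain ⟨U, hU, rfl⟩ := Finset.mem_image.mp hI
  rw [← Ideal.zero_eq_bot, Finset.prod_ne_zero_iff]
  intro P hP
  rw [Ideal.zero_eq_bot]
  exact (hT P (Finset.mem_powerset.mp hU hP)).2

theorem sub_sq_le_log_one_add {x : ℝ} (hx : 0 ≤ x) : x - x ^ 2 ≤ Real.log (1 + x) := by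
  have h1 : 1 - (1 + x)⁻¹ ≤ Real.log (1 + x) := Real.one_sub_inv_le_log_of_pos (by linarith)
  have h2 : x - x ^ 2 ≤ 1 - (1 + x)⁻¹ := by
    have hpos : 0 < 1 + x := by linarith
    rw [show 1 - (1 + x)⁻¹ = x / (1 + x) by field_simp; ring, le_div_iff₀ hpos]
    nlinarith [pow_nonneg hx 3]
  linarith

/-- **Analytic bound**: the sum of `N(P)^{-s}` over any finite set of nonzero primes is at most
`log (1/(s-1)) + C`. -/
theorem sum_primes_le : ∃ C : ℝ, ∀ s : ℝ, 1 < s → s ≤ 2 → ∀ T : Finset (Ideal (𝓞 F)),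
    (∀ P ∈ T, P.IsPrime ∧ P ≠ ⊥) →
    ∑ P ∈ T, (absNorm P : ℝ) ^ (-s) ≤ Real.log (1 / (s - 1)) + C := by
  obtain ⟨C₁, hC₁, hbd⟩ := zetaR_bound F
  refine ⟨Real.log C₁ + zetaR F 2, ?_⟩
  intro s hs1 hs2 T hT
  have hs0 : 0 < s - 1 := by linarith
  have hx0 : ∀ P : Ideal (𝓞 F), 0 ≤ (absNorm P : ℝ) ^ (-s) := fun P ↦
    Real.rpow_nonneg (Nat.cast_nonneg _) _
  -- sum of squares
  have hsq : ∑ P ∈ T, ((absNorm P : ℝ) ^ (-s)) ^ 2 ≤ zetaR F 2 := by
    have h2 : ∑ P ∈ T, (absNorm P : ℝ) ^ (-(2 : ℝ)) ≤ zetaR F 2 :=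
      sum_le_zetaR F (by norm_num) T (fun P hP ↦ (hT P hP).2)
    refine le_trans (Finset.sum_le_sum fun P hP ↦ ?_) h2
    have hP0 : absNorm P ≠ 0 := by
      rw [Ne, Ideal.absNorm_eq_zero_iff]
      exact (hT P hP).2
    have hP1 : (1 : ℝ) ≤ (absNorm P : ℝ) := by exact_mod_cast Nat.one_le_iff_ne_zero.mpr hP0
    rw [← Real.rpow_natCast, ← Real.rpow_mul (Nat.cast_nonneg _)]
    refine Real.rpow_le_rpow_of_exponent_le hP1 ?_
    push_cast
    linarith
  have hprod_pos : 0 < ∏ P ∈ T, (1 + (absNorm P : ℝ) ^ (-s)) :=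
    Finset.prod_pos fun P _ ↦ by have := hx0 P; linarith
  have hprod_le : ∏ P ∈ T, (1 + (absNorm P : ℝ) ^ (-s)) ≤ C₁ / (s - 1) := by
    refine (prod_one_add_le_zetaR F hs1 T hT).trans ?_
    rw [le_div_iff₀ hs0, mul_comm]
    exact hbd s hs1 hs2
  have hlog : Real.log (∏ P ∈ T, (1 + (absNorm P : ℝ) ^ (-s)))
      ≤ Real.log C₁ + Real.log (1 / (s - 1)) := by
    refine (Real.log_le_log hprod_pos hprod_le).trans (le_of_eq ?_)
    rw [div_eq_mul_inv, Real.log_mul hC₁.ne' (inv_pos.mpr hs0).ne', one_div]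
  have hlogsum : Real.log (∏ P ∈ T, (1 + (absNorm P : ℝ) ^ (-s)))
      = ∑ P ∈ T, Real.log (1 + (absNorm P : ℝ) ^ (-s)) :=
    Real.log_prod fun P _ ↦ by have := hx0 P; linarith
  have hterm : ∑ P ∈ T, (absNorm P : ℝ) ^ (-s)
      ≤ ∑ P ∈ T, (Real.log (1 + (absNorm P : ℝ) ^ (-s)) + ((absNorm P : ℝ) ^ (-s)) ^ 2) := by
    refine Finset.sum_le_sum fun P _ ↦ ?_
    have := sub_sq_le_log_one_add (hx0 P)
    linarith
  rw [Finset.sum_add_distrib, ← hlogsum] at hterm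
  linarith


section

variable {p : ℕ} [hp : Fact p.Prime] {K M : Type*} [Field K] [NumberField K] [Field M]
  [NumberField M] [Algebra K M] [IsGalois K M]

/-- if `ζ - 1` lies in a prime ideal then so does `p` -/
theorem natCast_mem_of_sub_one_mem {R : Type*} [CommRing R] [IsDomain R] {ζ : R}
    (hζ : IsPrimitiveRoot ζ p) (I : Ideal R) (h : ζ - 1 ∈ I) : (p : R) ∈ I := by
  have hsum : ∑ i ∈ Finset.range p, ζ ^ i = 0 := hζ.geom_sum_eq_zero hp.out.one_lt
  have h1 : ∀ i : ℕ, ζ ^ i - 1 ∈ I := fun i ↦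
    I.mem_of_dvd (by simpa using sub_dvd_pow_sub_pow ζ 1 i) h
  have h2 : (p : R) = - ∑ i ∈ Finset.range p, (ζ ^ i - 1) := by
    rw [Finset.sum_sub_distrib, hsum]
    simp
  rw [h2]
  exact I.neg_mem (I.sum_mem fun i _ ↦ h1 i)

theorem split_of_pow_residue (hdeg : Module.finrank K M = p) {ζ : 𝓞 K}
    (hζ : IsPrimitiveRoot ζ p) (u : 𝓞 K) (θ : 𝓞 M) (hθ : θ ^ p = algebraMap (𝓞 K) (𝓞 M) u)
    (σ : Gal(M/K)) (hσ : σ • θ = algebraMap (𝓞 K) (𝓞 M) ζ * θ)
    (𝔮 : Ideal (𝓞 K)) [𝔮.IsMaximal] (hp𝔮 : (p : 𝓞 K) ∉ 𝔮) (hu𝔮 : u ∉ 𝔮)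
    (x : 𝓞 K) (hx : x ^ p - u ∈ 𝔮) :
    (primesOver 𝔮 (𝓞 M)).ncard = p ∧ ∀ P ∈ primesOver 𝔮 (𝓞 M), absNorm P = absNorm 𝔮 := by
  have hmain := ncard_primesOver_mul_ramificationIdxIn_mul_inertiaDegIn 𝔮 (𝓞 M) Gal(M/K)
  rw [IsGaloisGroup.card_eq_finrank Gal(M/K) K M, hdeg] at hmain
  have hg : (primesOver 𝔮 (𝓞 M)).ncard = p := by
    have hdvd : (primesOver 𝔮 (𝓞 M)).ncard ∣ p := Dvd.intro _ hmain
    rcases (Nat.dvd_prime hp.out).mp hdvd with h1 | h1
    · exfalso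
      obtain ⟨Q, hQ⟩ := Set.ncard_eq_one.mp h1
      have hQmem : Q ∈ primesOver 𝔮 (𝓞 M) := by rw [hQ]; exact Set.mem_singleton _
      have hQprime : Q.IsPrime := hQmem.1
      have hQover : Q.LiesOver 𝔮 := hQmem.2
      -- σ fixes Q
      have hσQ : σ • Q = Q := by
        have h2 : σ • Q ∈ primesOver 𝔮 (𝓞 M) := ⟨inferInstance, inferInstance⟩
        rw [hQ] at h2
        exact h2
      -- the product formula
      have hpoly : (X ^ p - C (x ^ p) : (𝓞 K)[X])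
          = ∏ i ∈ Finset.range p, (X - C (ζ ^ i * x)) :=
        X_pow_sub_C_eq_prod hζ hp.out.pos rfl
      have hprod : θ ^ p - algebraMap (𝓞 K) (𝓞 M) (x ^ p)
          = ∏ i ∈ Finset.range p, (θ - algebraMap (𝓞 K) (𝓞 M) (ζ ^ i * x)) := by
        have := congrArg (Polynomial.aeval θ) hpoly
        simpa [Polynomial.aeval_prod] using this
      have hmemQ : θ ^ p - algebraMap (𝓞 K) (𝓞 M) (x ^ p) ∈ Q := by
        rw [hθ, ← map_sub, ← Ideal.mem_comap, ← Ideal.under_def, ← Ideal.over_def Q 𝔮]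
        have : u - x ^ p = - (x ^ p - u) := by ring
        rw [this]
        exact 𝔮.neg_mem hx
      rw [hprod] at hmemQ
      obtain ⟨i, -, hi⟩ := (Ideal.IsPrime.prod_mem_iff).mp hmemQ
      -- apply σ
      have hi2 : σ • (θ - algebraMap (𝓞 K) (𝓞 M) (ζ ^ i * x)) ∈ Q := by
        have := Ideal.smul_mem_pointwise_smul σ _ Q hi
        rwa [hσQ] at this
      rw [smul_sub, hσ, smul_algebraMap] at hi2
      have hdiff : (algebraMap (𝓞 K) (𝓞 M) ζ - 1) * θ ∈ Q := by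
        have := Q.sub_mem hi2 hi
        have e : algebraMap (𝓞 K) (𝓞 M) ζ * θ - algebraMap (𝓞 K) (𝓞 M) (ζ ^ i * x)
            - (θ - algebraMap (𝓞 K) (𝓞 M) (ζ ^ i * x)) = (algebraMap (𝓞 K) (𝓞 M) ζ - 1) * θ := by
          ring
        rwa [e] at this
      rcases hQprime.mem_or_mem hdiff with h3 | h3
      · have h4 : ζ - 1 ∈ 𝔮 := by
          rw [Ideal.over_def Q 𝔮, Ideal.under_def, Ideal.mem_comap, map_sub, map_one]
          exact h3
        exact hp𝔮 (natCast_mem_of_sub_one_mem hζ 𝔮 h4)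
      · have h4 : θ ^ p ∈ Q := Q.pow_mem_of_mem h3 p hp.out.pos
        rw [hθ] at h4
        apply hu𝔮
        rw [Ideal.over_def Q 𝔮, Ideal.under_def, Ideal.mem_comap]
        exact h4
    · exact h1
  refine ⟨hg, ?_⟩
  intro P hP
  have hPprime : P.IsPrime := hP.1
  have hPover : P.LiesOver 𝔮 := hP.2
  rw [hg] at hmain
  have hef : ramificationIdxIn 𝔮 (𝓞 M) * inertiaDegIn 𝔮 (𝓞 M) = 1 := by
    have hp0 : 0 < p := hp.out.pos
    exact Nat.eq_of_mul_eq_mul_left hp0 (by rw [hmain, mul_one])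
  have hf : inertiaDegIn 𝔮 (𝓞 M) = 1 := Nat.eq_one_of_mul_eq_one_left hef
  rw [inertiaDegIn_eq_inertiaDeg 𝔮 P Gal(M/K)] at hf
  have := absNorm_pow_inertiaDeg (p := 𝔮) (q := P)
  rw [hf, pow_one] at this
  exact this.symm


/-- the density bound for primes splitting in an abstract Kummer extension `M = K(θ)`, `θ^p = u` -/
theorem sum_split_primes_le_aux (hdeg : Module.finrank K M = p) {ζ : 𝓞 K}
    (hζ : IsPrimitiveRoot ζ p) (u : 𝓞 K) (θ : 𝓞 M) (hθ : θ ^ p = algebraMap (𝓞 K) (𝓞 M) u)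
    (σ : Gal(M/K)) (hσ : σ • θ = algebraMap (𝓞 K) (𝓞 M) ζ * θ) :
    ∃ C : ℝ, ∀ s : ℝ, 1 < s → s ≤ 2 →
      ∀ S : Finset (IsDedekindDomain.HeightOneSpectrum (𝓞 K)),
      (∀ v ∈ S, (p : 𝓞 K) ∉ v.asIdeal ∧ u ∉ v.asIdeal ∧ ∃ x : 𝓞 K, x ^ p - u ∈ v.asIdeal) →
      ∑ v ∈ S, (Ideal.absNorm v.asIdeal : ℝ) ^ (-s) ≤ (1 / p) * Real.log (1 / (s - 1)) + C := by
  classical
  obtain ⟨C, hC⟩ := sum_primes_le M
  refine ⟨C / p, ?_⟩
  intro s hs1 hs2 S hS
  set T : Finset (Ideal (𝓞 M)) :=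
    S.biUnion (fun v ↦ IsDedekindDomain.primesOverFinset v.asIdeal (𝓞 M)) with hT
  have hmem : ∀ (v : IsDedekindDomain.HeightOneSpectrum (𝓞 K)) (P : Ideal (𝓞 M)),
      P ∈ IsDedekindDomain.primesOverFinset v.asIdeal (𝓞 M) ↔ P ∈ primesOver v.asIdeal (𝓞 M) :=
    fun v P ↦ by
      have : v.asIdeal.IsMaximal := v.isMaximal
      exact IsDedekindDomain.mem_primesOverFinset_iff v.ne_bot (𝓞 M)
  have hTprime : ∀ P ∈ T, P.IsPrime ∧ P ≠ ⊥ := by
    intro P hP
    obtain ⟨v, -, hPv⟩ := Finset.mem_biUnion.mp hP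
    have hPv' := (hmem v P).mp hPv
    exact ⟨hPv'.1, Ideal.ne_bot_of_mem_primesOver v.ne_bot hPv'⟩
  have hdisj : (S : Set (IsDedekindDomain.HeightOneSpectrum (𝓞 K))).PairwiseDisjoint
      (fun v ↦ IsDedekindDomain.primesOverFinset v.asIdeal (𝓞 M)) := by
    intro v _ w _ hvw
    rw [Function.onFun, Finset.disjoint_left]
    intro P hPv hPw
    have h1 := ((hmem v P).mp hPv).2
    have h2 := ((hmem w P).mp hPw).2
    apply hvw
    ext1
    rw [h1.over, h2.over]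
  have hsum : ∑ P ∈ T, (absNorm P : ℝ) ^ (-s) = ∑ v ∈ S,
      ∑ P ∈ IsDedekindDomain.primesOverFinset v.asIdeal (𝓞 M), (absNorm P : ℝ) ^ (-s) :=
    Finset.sum_biUnion hdisj
  have hinner : ∀ v ∈ S,
      ∑ P ∈ IsDedekindDomain.primesOverFinset v.asIdeal (𝓞 M), (absNorm P : ℝ) ^ (-s)
        = (p : ℝ) * (absNorm v.asIdeal : ℝ) ^ (-s) := by
    intro v hv
    obtain ⟨hpv, huv, x, hx⟩ := hS v hv
    have : v.asIdeal.IsMaximal := v.isMaximal
    obtain ⟨hcard, hnorm⟩ := split_of_pow_residue hdeg hζ u θ hθ σ hσ v.asIdeal hpv huv x hx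
    rw [Finset.sum_congr rfl (g := fun _ ↦ (absNorm v.asIdeal : ℝ) ^ (-s))]
    · rw [Finset.sum_const, nsmul_eq_mul]
      congr 1
      have : (IsDedekindDomain.primesOverFinset v.asIdeal (𝓞 M)).card = p := by
        rw [← hcard, ← Set.ncard_coe_finset, IsDedekindDomain.coe_primesOverFinset v.ne_bot]
      exact_mod_cast this
    · intro P hP
      rw [hnorm P ((hmem v P).mp hP)]
  have hfin := hC s hs1 hs2 T hTprime
  rw [hsum, Finset.sum_congr rfl hinner, ← Finset.mul_sum] at hfin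
  have hp0 : (0 : ℝ) < p := by exact_mod_cast hp.out.pos
  rw [show (1 / (p : ℝ)) * Real.log (1 / (s - 1)) + C / p
      = (Real.log (1 / (s - 1)) + C) / p by ring, le_div_iff₀ hp0]
  linarith

end

end Fermat.Agent.S14.W5e

namespace Fermat.Agent.S14

open NumberField Polynomial IsDedekindDomain

/-- **W5e** primes at which a non-`p`-th-power `u` is a `p`-th power residue split completely in
`K(u^{1/p})`, so they have (upper) density at most `1/p`. -/
theorem sum_split_primes_le {p : ℕ} [Fact p.Prime] (h3 : 3 ≤ p) {K : Type*} [Field K]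
    [NumberField K] {ζ : K} (hζ : IsPrimitiveRoot ζ p) (u : 𝓞 K)
    (hu : ¬ ∃ x : K, x ^ p = (u : K)) :
    ∃ C : ℝ, ∀ s : ℝ, 1 < s → s ≤ 2 → ∀ S : Finset (HeightOneSpectrum (𝓞 K)),
      (∀ v ∈ S, (p : 𝓞 K) ∉ v.asIdeal ∧ u ∉ v.asIdeal ∧ ∃ x : 𝓞 K, x ^ p - u ∈ v.asIdeal) →
      ∑ v ∈ S, (Ideal.absNorm v.asIdeal : ℝ) ^ (-s) ≤ (1 / p) * Real.log (1 / (s - 1)) + C := by
  have _ := h3
  have hp : p.Prime := Fact.out
  have : NeZero p := ⟨hp.ne_zero⟩
  have H : Irreducible (X ^ p - C (u : K) : K[X]) :=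
    X_pow_sub_C_irreducible_of_prime hp (fun b hb ↦ hu ⟨b, hb⟩)
  have : Fact (Irreducible (X ^ p - C (u : K) : K[X])) := ⟨H⟩
  have : Module.Finite K (AdjoinRoot (X ^ p - C (u : K) : K[X])) :=
    (AdjoinRoot.powerBasis H.ne_zero).finite
  have : NumberField (AdjoinRoot (X ^ p - C (u : K) : K[X])) :=
    NumberField.of_module_finite K _
  have hζ' : (primitiveRoots p K).Nonempty := ⟨ζ, (mem_primitiveRoots hp.pos).mpr hζ⟩
  have : IsSplittingField K (AdjoinRoot (X ^ p - C (u : K) : K[X])) (X ^ p - C (u : K)) :=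
    isSplittingField_AdjoinRoot_X_pow_sub_C hζ' H
  have : IsGalois K (AdjoinRoot (X ^ p - C (u : K) : K[X])) :=
    isGalois_of_isSplittingField_X_pow_sub_C hζ' H _
  have hdeg : Module.finrank K (AdjoinRoot (X ^ p - C (u : K) : K[X])) = p :=
    finrank_of_isSplittingField_X_pow_sub_C hζ' H _
  have hroot : (AdjoinRoot.root (X ^ p - C (u : K) : K[X])) ^ p
      = algebraMap K (AdjoinRoot (X ^ p - C (u : K) : K[X])) (u : K) :=
    root_X_pow_sub_C_pow p (u : K)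
  have hint : IsIntegral ℤ (AdjoinRoot.root (X ^ p - C (u : K) : K[X])) := by
    refine IsIntegral.of_pow hp.pos ?_
    rw [hroot]
    exact (RingOfIntegers.isIntegral_coe u).algebraMap
  let θ : 𝓞 (AdjoinRoot (X ^ p - C (u : K) : K[X])) := ⟨AdjoinRoot.root _, hint⟩
  have hθ : θ ^ p = algebraMap (𝓞 K) (𝓞 (AdjoinRoot (X ^ p - C (u : K) : K[X]))) u := by
    apply RingOfIntegers.ext
    exact hroot
  let σ : Gal(AdjoinRoot (X ^ p - C (u : K) : K[X])/K) :=
    autAdjoinRootXPowSubC p (u : K) hζ.toRootsOfUnity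
  have hσ : σ • θ = algebraMap (𝓞 K) (𝓞 (AdjoinRoot (X ^ p - C (u : K) : K[X]))) hζ.toInteger * θ := by
    apply RingOfIntegers.ext
    show σ (AdjoinRoot.root _) = algebraMap K _ ζ * AdjoinRoot.root _
    rw [autAdjoinRootXPowSubC_root, Algebra.smul_def]
    rfl
  exact W5e.sum_split_primes_le_aux hdeg hζ.toInteger_isPrimitiveRoot u θ hθ σ hσ

end Fermat.Agent.S14
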