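/-
S14 package W5f (helper767): primes of residue degree ≥ 2 contribute `O(1)`.
Statement exactly as in helper494's `Skeleton.lean`.
-/
import Fermat.Agent.S14.Defs

set_option autoImplicit false

namespace Fermat.Agent.S14

open NumberField IsDedekindDomain

section W5f

variable (F : Type*) [Field F] [NumberField F]

/-- The rational prime below a height-one prime of `𝓞 F`. -/
noncomputable def w5fPrimeBelow (v : HeightOneSpectrum (𝓞 F)) : ℕ :=
  Ideal.absNorm (Ideal.under ℤ v.asIdeal)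

theorem w5fPrimeBelow_prime (v : HeightOneSpectrum (𝓞 F)) : (w5fPrimeBelow F v).Prime := by
  haveI : NeZero v.asIdeal := ⟨v.ne_bot⟩
  exact Nat.absNorm_under_prime v.asIdeal

theorem w5f_liesOver (v : HeightOneSpectrum (𝓞 F)) :
    v.asIdeal.LiesOver (Ideal.span {((w5fPrimeBelow F v : ℕ) : ℤ)}) :=
  Int.liesOver_span_absNorm v.asIdeal

theorem w5f_absNorm_eq (v : HeightOneSpectrum (𝓞 F)) :
    Ideal.absNorm v.asIdeal = w5fPrimeBelow F v ^ (v.asIdeal.inertiaDeg ℤ) := by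
  haveI := w5f_liesOver F v
  exact (Ideal.pow_inertiaDeg (w5fPrimeBelow F v) v.asIdeal).symm

theorem w5f_sq_le_absNorm (v : HeightOneSpectrum (𝓞 F))
    (hv : ¬ (Ideal.absNorm v.asIdeal).Prime) :
    w5fPrimeBelow F v ^ 2 ≤ Ideal.absNorm v.asIdeal := by
  have hq := w5fPrimeBelow_prime F v
  have hpos : 0 < v.asIdeal.inertiaDeg ℤ := Ideal.inertiaDeg_pos v.asIdeal ℤ
  rw [w5f_absNorm_eq F v] at hv ⊢
  have h2 : 2 ≤ v.asIdeal.inertiaDeg ℤ := by
    by_contra hlt
    have h1 : v.asIdeal.inertiaDeg ℤ = 1 := by omega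
    rw [h1, pow_one] at hv
    exact hv hq
  exact Nat.pow_le_pow_right hq.pos h2

/-- At most `[F : ℚ]` primes lie over a given rational prime. -/
theorem w5f_card_fiber_le (S : Finset (HeightOneSpectrum (𝓞 F))) (q : ℕ) :
    (S.filter fun v => w5fPrimeBelow F v = q).card ≤ Module.finrank ℤ (𝓞 F) := by
  classical
  by_cases hq : q.Prime
  · have hPprime : (Ideal.span {(q : ℤ)}).IsPrime := by
      rw [Ideal.span_singleton_prime (by exact_mod_cast hq.ne_zero)]
      exact Nat.prime_iff_prime_int.mp hq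
    haveI : Fact q.Prime := ⟨hq⟩
    have hPmax : (Ideal.span {(q : ℤ)}).IsMaximal := Int.ideal_span_isMaximal_of_prime q
    letI : Fintype ((Ideal.span {(q : ℤ)}).primesOver (𝓞 F)) :=
      (IsDedekindDomain.primesOver_finite (Ideal.span {(q : ℤ)}) (𝓞 F)).fintype
    have hsum := Ideal.sum_ramification_inertia_eq_finrank (Ideal.span {(q : ℤ)}) (𝓞 F)
    have hcard : Fintype.card ((Ideal.span {(q : ℤ)}).primesOver (𝓞 F)) ≤
        Module.finrank ℤ (𝓞 F) := by
      rw [← hsum, Fintype.card_eq_sum_ones]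
      refine Finset.sum_le_sum fun Q _ => ?_
      have hQ : Q.1.IsPrime := Q.2.1
      exact Nat.one_le_iff_ne_zero.mpr (Nat.mul_ne_zero (Ideal.ramificationIdx_pos Q.1 ℤ).ne'
        (Ideal.inertiaDeg_pos Q.1 ℤ).ne')
    rw [← Fintype.card_coe]
    refine le_trans (Fintype.card_le_of_injective
      (fun v : {v // v ∈ S.filter fun v => w5fPrimeBelow F v = q} =>
        (⟨v.1.asIdeal, v.1.isPrime, by
          have h := (Finset.mem_filter.mp v.2).2
          have hl := w5f_liesOver F v.1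
          rw [h] at hl
          exact hl⟩ : (Ideal.span {(q : ℤ)}).primesOver (𝓞 F))) ?_) hcard
    intro v w hvw
    exact Subtype.ext (HeightOneSpectrum.ext (congrArg Subtype.val hvw))
  · have : (S.filter fun v => w5fPrimeBelow F v = q) = ∅ := by
      refine Finset.filter_eq_empty_iff.mpr fun v _ h => hq (h ▸ w5fPrimeBelow_prime F v)
    rw [this, Finset.card_empty]
    exact Nat.zero_le _

/-- **W5f** primes of residue degree `≥ 2` contribute `O(1)`. -/
theorem sum_higher_degree_primes_le :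
    ∃ C : ℝ, ∀ s : ℝ, 1 < s → ∀ S : Finset (HeightOneSpectrum (𝓞 F)),
      (∀ v ∈ S, ¬ (Ideal.absNorm v.asIdeal).Prime) →
      ∑ v ∈ S, (Ideal.absNorm v.asIdeal : ℝ) ^ (-s) ≤ C := by
  classical
  refine ⟨(Module.finrank ℤ (𝓞 F) : ℝ) * (Real.pi ^ 2 / 6), fun s hs S hS => ?_⟩
  -- termwise bound by `1 / q ^ 2`
  have hterm : ∀ v ∈ S, (Ideal.absNorm v.asIdeal : ℝ) ^ (-s) ≤
      1 / ((w5fPrimeBelow F v : ℕ) : ℝ) ^ 2 := by
    intro v hv
    have hq := w5fPrimeBelow_prime F v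
    have hle := w5f_sq_le_absNorm F v (hS v hv)
    have hqpos : (0 : ℝ) < ((w5fPrimeBelow F v : ℕ) : ℝ) ^ 2 := by
      have : (0 : ℝ) < ((w5fPrimeBelow F v : ℕ) : ℝ) := by exact_mod_cast hq.pos
      positivity
    have hle' : ((w5fPrimeBelow F v : ℕ) : ℝ) ^ 2 ≤ (Ideal.absNorm v.asIdeal : ℝ) := by
      exact_mod_cast hle
    have hN1 : (1 : ℝ) ≤ (Ideal.absNorm v.asIdeal : ℝ) := by
      have h1 : (1 : ℝ) ≤ ((w5fPrimeBelow F v : ℕ) : ℝ) ^ 2 := by
        have : (1 : ℝ) ≤ ((w5fPrimeBelow F v : ℕ) : ℝ) := by exact_mod_cast hq.one_lt.le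
        nlinarith
      linarith
    calc (Ideal.absNorm v.asIdeal : ℝ) ^ (-s)
        ≤ (Ideal.absNorm v.asIdeal : ℝ) ^ (-1 : ℝ) :=
          Real.rpow_le_rpow_of_exponent_le hN1 (by linarith)
      _ = 1 / (Ideal.absNorm v.asIdeal : ℝ) := by
          rw [Real.rpow_neg_one, one_div]
      _ ≤ 1 / ((w5fPrimeBelow F v : ℕ) : ℝ) ^ 2 :=
          one_div_le_one_div_of_le hqpos hle'
  refine le_trans (Finset.sum_le_sum hterm) ?_
  -- group by the prime below
  have hmaps : ∀ v ∈ S, w5fPrimeBelow F v ∈ S.image (w5fPrimeBelow F) :=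
    fun v hv => Finset.mem_image_of_mem _ hv
  rw [← Finset.sum_fiberwise_of_maps_to hmaps]
  have hfib : ∀ q ∈ S.image (w5fPrimeBelow F),
      ∑ v ∈ S.filter (fun v => w5fPrimeBelow F v = q), 1 / ((w5fPrimeBelow F v : ℕ) : ℝ) ^ 2
        ≤ (Module.finrank ℤ (𝓞 F) : ℝ) * (1 / (q : ℝ) ^ 2) := by
    intro q _
    have h1 : ∑ v ∈ S.filter (fun v => w5fPrimeBelow F v = q),
        1 / ((w5fPrimeBelow F v : ℕ) : ℝ) ^ 2 =
        ∑ v ∈ S.filter (fun v => w5fPrimeBelow F v = q), 1 / (q : ℝ) ^ 2 := by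
      refine Finset.sum_congr rfl fun v hv => ?_
      rw [(Finset.mem_filter.mp hv).2]
    rw [h1, Finset.sum_const, nsmul_eq_mul]
    have := w5f_card_fiber_le F S q
    have hnn : (0 : ℝ) ≤ 1 / (q : ℝ) ^ 2 := by positivity
    exact mul_le_mul_of_nonneg_right (by exact_mod_cast this) hnn
  refine le_trans (Finset.sum_le_sum hfib) ?_
  rw [← Finset.mul_sum]
  refine mul_le_mul_of_nonneg_left ?_ (by positivity)
  exact sum_le_hasSum _ (fun i _ => by positivity) hasSum_zeta_two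

end W5f

end Fermat.Agent.S14
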