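/-
S14 package W6a (helper4927): the cyclotomic element `η = ∏ (1 + ζ^t)^{n_t}` is a unit.
-/
import Fermat.Agent.S14.Defs

set_option autoImplicit false

namespace Fermat.Agent.S14

open NumberField

/-- In a domain, if `x ^ p = 1`, `p` odd and `x ≠ 1`, then `1 + x` is a unit, with inverse
`∑_{k < (p+1)/2} x^(2k)`. -/
theorem isUnit_one_add_of_pow_eq_one_W6a {R : Type*} [CommRing R] [IsDomain R] {p : ℕ}
    (hodd : Odd p) {x : R} (hx : x ^ p = 1) (hx1 : x ≠ 1) : IsUnit (1 + x) := by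
  obtain ⟨m, rfl⟩ := hodd
  have hsub : (1 : R) - x ≠ 0 := fun h => hx1 (sub_eq_zero.mp h).symm
  have key : (1 - x) * ((1 + x) * ∑ k ∈ Finset.range (m + 1), (x ^ 2) ^ k) = (1 - x) * 1 := by
    have h1 : (1 - x) * (1 + x) = 1 - x ^ 2 := by ring
    have h2 : (1 - x ^ 2) * ∑ k ∈ Finset.range (m + 1), (x ^ 2) ^ k = 1 - (x ^ 2) ^ (m + 1) := by
      rw [mul_comm]
      exact geom_sum_mul_neg (x ^ 2) (m + 1)
    have h3 : (x ^ 2) ^ (m + 1) = x := by
      have : (x ^ 2) ^ (m + 1) = x ^ (2 * m + 1) * x := by ring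
      rw [this, hx, one_mul]
    rw [← mul_assoc, h1, h2, h3, mul_one]
  exact IsUnit.of_mul_eq_one _ (mul_left_cancel₀ hsub key)

/-- **W6a** `η` is a unit. -/
theorem isUnit_etaInt {p : ℕ} [Fact p.Prime] (h3 : 3 ≤ p) {K : Type*} [Field K] [NumberField K]
    [IsCyclotomicExtension {p} ℚ K] {ζ : K} (hζ : IsPrimitiveRoot ζ p) : IsUnit (etaInt hζ) := by
  have hp : p.Prime := Fact.out
  have : NeZero p := ⟨hp.ne_zero⟩
  have hodd : Odd p := hp.odd_of_ne_two (by omega)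
  have hprim : IsPrimitiveRoot hζ.toInteger p := hζ.toInteger_isPrimitiveRoot
  unfold etaInt
  refine IsUnit.prod_iff.mpr ?_
  intro t ht
  rw [Finset.mem_Ico] at ht
  refine IsUnit.pow _ ?_
  apply isUnit_one_add_of_pow_eq_one_W6a hodd
  · rw [← pow_mul, mul_comm, pow_mul, hprim.pow_eq_one, one_pow]
  · exact hprim.pow_ne_one_of_pos_of_lt (by omega) ht.2

end Fermat.Agent.S14
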