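/-
S14 package W6b (helper4927): `η = ∏ (1 + ζ^t)^{n_t}`, `n_t ≡ t⁻² mod p`, is an `ω²`-eigenvector
modulo `p`-th powers.
-/
import Fermat.Agent.S14.Defs

set_option autoImplicit false

namespace Fermat.Agent.S14

open NumberField

section W6b

variable {p : ℕ} [Fact p.Prime]

/-- Reindexing a product over `1 ≤ t < p` by the nonzero residues mod `p`. -/
theorem prod_Ico_eq_prod_zmod_W6b {M : Type*} [CommMonoid M] (g : ZMod p → M) :
    ∏ t ∈ Finset.Ico 1 p, g (t : ZMod p) = ∏ x ∈ Finset.univ.erase (0 : ZMod p), g x := by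
  have hp : p.Prime := Fact.out
  refine Finset.prod_nbij' (fun t => (t : ZMod p)) (fun x => x.val) ?_ ?_ ?_ ?_ ?_
  · intro t ht
    rw [Finset.mem_Ico] at ht
    rw [Finset.mem_erase]
    refine ⟨?_, Finset.mem_univ _⟩
    rw [Ne, ZMod.natCast_eq_zero_iff]
    intro hdvd
    have := Nat.le_of_dvd (by omega) hdvd
    omega
  · intro x hx
    rw [Finset.mem_erase] at hx
    rw [Finset.mem_Ico]
    refine ⟨?_, ZMod.val_lt x⟩
    have : x.val ≠ 0 := fun h => hx.1 ((ZMod.val_eq_zero x).mp h)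
    omega
  · intro t ht
    rw [Finset.mem_Ico] at ht
    exact ZMod.val_natCast_of_lt ht.2
  · intro x _
    exact ZMod.natCast_zmod_val x
  · intro t _
    rfl

omit [Fact p.Prime] in
theorem pow_eq_pow_mod_W6b {M : Type*} [Monoid M] {x : M} (hx : x ^ p = 1) (n : ℕ) :
    x ^ n = x ^ (n % p) := by
  conv_lhs => rw [← Nat.mod_add_div n p, pow_add, pow_mul, hx, one_pow, mul_one]

/-- `η` as a product over the nonzero residues. -/
theorem etaK_eq_prod_zmod_W6b {K : Type*} [Field K] [NumberField K] (ζ : K) :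
    etaK p ζ = ∏ x ∈ Finset.univ.erase (0 : ZMod p), (1 + ζ ^ x.val) ^ ((x⁻¹) ^ 2).val := by
  have hp : p.Prime := Fact.out
  rw [← prod_Ico_eq_prod_zmod_W6b (fun x : ZMod p => (1 + ζ ^ x.val) ^ ((x⁻¹) ^ 2).val)]
  unfold etaK
  refine Finset.prod_congr rfl ?_
  intro t ht
  rw [Finset.mem_Ico] at ht
  rw [ZMod.val_natCast_of_lt ht.2]

end W6b

/-- **W6b** `η` is an `ω²`-eigenvector modulo `p`-th powers. -/
theorem etaK_eigenSq {p : ℕ} [Fact p.Prime] (h3 : 3 ≤ p) {K : Type*} [Field K] [NumberField K]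
    [IsCyclotomicExtension {p} ℚ K] {ζ : K} (hζ : IsPrimitiveRoot ζ p) :
    EigenSq p ζ (etaK p ζ) := by
  have hp : p.Prime := Fact.out
  have hodd : Odd p := hp.odd_of_ne_two (by omega)
  have hζp : ζ ^ p = 1 := hζ.pow_eq_one
  intro σ k hσ
  -- `k` is prime to `p`
  have hk : (k : ZMod p) ≠ 0 := by
    rw [Ne, ZMod.natCast_eq_zero_iff]
    rintro ⟨m, rfl⟩
    rw [pow_mul, hζp, one_pow] at hσ
    have h1 : ζ = 1 := by
      have := congrArg σ.symm hσ
      simpa using this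
    exact hζ.ne_one hp.one_lt h1
  -- nonvanishing of the factors
  have hne : ∀ x : ZMod p, x ≠ 0 → (1 + ζ ^ x.val : K) ≠ 0 := by
    intro x hx h0
    have hx1 : 0 < x.val := Nat.pos_of_ne_zero fun h => hx ((ZMod.val_eq_zero x).mp h)
    have hx2 : x.val < p := ZMod.val_lt x
    have h1 : ζ ^ x.val = -1 := eq_neg_of_add_eq_zero_right h0
    have h2 : ζ ^ (2 * x.val) = 1 := by
      rw [mul_comm, pow_mul, h1]; norm_num
    have h3' : p ∣ 2 * x.val := (hζ.pow_eq_one_iff_dvd _).mp h2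
    rcases (Nat.Prime.dvd_mul hp).mp h3' with h | h
    · have := Nat.le_of_dvd (by norm_num) h
      omega
    · have := Nat.le_of_dvd hx1 h
      omega
  -- the image of `η` under `σ`
  have hση : σ (etaK p ζ) =
      ∏ y ∈ Finset.univ.erase (0 : ZMod p),
        (1 + ζ ^ y.val) ^ ((k : ZMod p) ^ 2 * (y⁻¹) ^ 2).val := by
    rw [etaK_eq_prod_zmod_W6b, map_prod]
    have e1 : ∀ x ∈ Finset.univ.erase (0 : ZMod p),
        σ ((1 + ζ ^ x.val) ^ ((x⁻¹) ^ 2).val) =
          (1 + ζ ^ ((k : ZMod p) * x).val) ^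
            ((k : ZMod p) ^ 2 * ((((k : ZMod p) * x)⁻¹) ^ 2)).val := by
      intro x hx
      rw [Finset.mem_erase] at hx
      have hx0 : x ≠ 0 := hx.1
      rw [map_pow, map_add, map_one, map_pow, hσ, ← pow_mul]
      have e2 : ζ ^ (k * x.val) = ζ ^ ((k : ZMod p) * x).val := by
        rw [pow_eq_pow_mod_W6b hζp (k * x.val)]
        congr 1
        rw [ZMod.val_mul, ZMod.val_natCast, Nat.mod_mul_mod]
      have e3 : (k : ZMod p) ^ 2 * ((((k : ZMod p) * x)⁻¹) ^ 2) = (x⁻¹) ^ 2 := by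
        field_simp
      rw [e2, e3]
    rw [Finset.prod_congr rfl e1]
    refine Finset.prod_nbij' (fun x => (k : ZMod p) * x) (fun y => (k : ZMod p)⁻¹ * y)
      ?_ ?_ ?_ ?_ ?_
    · intro x hx
      rw [Finset.mem_erase] at hx ⊢
      exact ⟨mul_ne_zero hk hx.1, Finset.mem_univ _⟩
    · intro y hy
      rw [Finset.mem_erase] at hy ⊢
      exact ⟨mul_ne_zero (inv_ne_zero hk) hy.1, Finset.mem_univ _⟩
    · intro x _
      rw [← mul_assoc, inv_mul_cancel₀ hk, one_mul]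
    · intro y _
      rw [← mul_assoc, mul_inv_cancel₀ hk, one_mul]
    · intro x _
      rfl
  -- the auxiliary element `d`
  set d : K := ∏ y ∈ Finset.univ.erase (0 : ZMod p),
      (1 + ζ ^ y.val) ^ ((k ^ 2 * ((y⁻¹) ^ 2).val) / p) with hd
  have hd0 : d ≠ 0 := by
    rw [hd, Finset.prod_ne_zero_iff]
    intro y hy
    rw [Finset.mem_erase] at hy
    exact pow_ne_zero _ (hne y hy.1)
  have hkey : etaK p ζ ^ (k ^ 2) = σ (etaK p ζ) * d ^ p := by
    rw [hση, etaK_eq_prod_zmod_W6b, hd, ← Finset.prod_pow, ← Finset.prod_pow,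
      ← Finset.prod_mul_distrib]
    refine Finset.prod_congr rfl ?_
    intro y _
    rw [← pow_mul, ← pow_mul, ← pow_add]
    congr 1
    have e4 : ((k : ZMod p) ^ 2 * (y⁻¹) ^ 2).val = (k ^ 2 * ((y⁻¹) ^ 2).val) % p := by
      have : ((k : ZMod p) ^ 2 * (y⁻¹) ^ 2) = ((k ^ 2 * ((y⁻¹) ^ 2).val : ℕ) : ZMod p) := by
        push_cast
        rw [ZMod.natCast_zmod_val]
      rw [this, ZMod.val_natCast]
    rw [e4, mul_comm (((y⁻¹) ^ 2).val) (k ^ 2), mul_comm _ p]
    exact (Nat.mod_add_div _ _).symm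
  refine ⟨d⁻¹, ?_⟩
  rw [hkey, mul_assoc, ← mul_pow, mul_inv_cancel₀ hd0, one_pow, mul_one]

end Fermat.Agent.S14
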