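/-
S14, package W6c (helper7814): `dvd_of_localPow_etaK_pow`.

`η = ∏_{t=1}^{p-1} (1 + ζ^t)^{n_t}`, `n_t ≡ t⁻² (mod p)`, satisfies `η ≡ 2^N (1 - λ²/8) mod λ³`
(`λ = ζ - 1`), while `p`-th powers of `λ`-units are `≡` rational integers mod `λ³` (`p ≥ 5`).
Hence `η^j` locally a `p`-th power forces `p ∣ j`.
-/
import Fermat.Agent.S14.Defs

set_option autoImplicit false

namespace Fermat.Agent.S14

open NumberField Finset

namespace W6c

/-! ### Sums over `1 ≤ t < p` in `ZMod p` -/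

section Sums

variable {p : ℕ} [Fact p.Prime]

theorem natCast_ne_zero_of_mem_Ico {t : ℕ} (ht : t ∈ Ico 1 p) : (t : ZMod p) ≠ 0 := by
  rw [mem_Ico] at ht
  rw [Ne, ZMod.natCast_eq_zero_iff]
  intro h
  have := Nat.le_of_dvd (by omega) h
  omega

/-- Reindexing a sum over `1 ≤ t < p` as a sum over the units of `ZMod p`. -/
theorem sum_Ico_eq_sum_units {M : Type*} [AddCommMonoid M] (f : ZMod p → M) :
    ∑ b ∈ Ico 1 p, f (b : ZMod p) = ∑ x : (ZMod p)ˣ, f (x : ZMod p) := by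
  symm
  refine sum_bij (fun a _ => (a : ZMod p).val) ?_ ?_ ?_ ?_
  · intro a _
    rw [mem_Ico]
    constructor
    · apply Nat.pos_of_ne_zero
      rw [← @ZMod.val_zero p]
      intro h
      exact Units.ne_zero a (ZMod.val_injective p h)
    · exact ZMod.val_lt _
  · intro _ _ _ _ h
    rw [Units.ext_iff]
    exact ZMod.val_injective p h
  · intro b hb
    rw [mem_Ico] at hb
    refine ⟨Units.mk0 (b : ZMod p) ?_, Finset.mem_univ _, ?_⟩
    · intro h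
      have h2 := congrArg ZMod.val h
      rw [ZMod.val_cast_of_lt hb.2, ZMod.val_zero] at h2
      omega
    · simp only [ZMod.val_cast_of_lt hb.2, Units.val_mk0]
  · rintro a -
    simp only [ZMod.natCast_val, ZMod.cast_id', id_eq]

theorem sum_units_inv (hp : 5 ≤ p) : ∑ x : (ZMod p)ˣ, ((x : ZMod p))⁻¹ = 0 := by
  have h1 : ∑ x : (ZMod p)ˣ, ((x : ZMod p))⁻¹ = ∑ x : (ZMod p)ˣ, ((x : ZMod p)) ^ 1 := by
    refine Fintype.sum_equiv (Equiv.inv _) _ _ ?_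
    intro x
    show ((x : ZMod p))⁻¹ = ((x⁻¹ : (ZMod p)ˣ) : ZMod p) ^ 1
    rw [pow_one, Units.val_inv_eq_inv_val]
  rw [h1, FiniteField.sum_pow_units, ZMod.card]
  rw [if_neg]
  intro h
  have := Nat.le_of_dvd (by norm_num) h
  omega

theorem card_units_cast : (Fintype.card (ZMod p)ˣ : ZMod p) = -1 := by
  rw [ZMod.card_units_eq_totient, Nat.totient_prime Fact.out]
  have hp : 1 ≤ p := (Fact.out (p := p.Prime)).one_le
  rw [Nat.cast_sub hp, ZMod.natCast_self]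
  simp

theorem two_ne_zero' (hp : 5 ≤ p) : (2 : ZMod p) ≠ 0 := by
  have h : ((2 : ℕ) : ZMod p) ≠ 0 := by
    rw [Ne, ZMod.natCast_eq_zero_iff]
    intro h
    have := Nat.le_of_dvd (by norm_num) h
    omega
  exact_mod_cast h

/-- `∑_t n_t * t = 0` where `n_t = t⁻²`. -/
theorem sum_exp_mul (hp : 5 ≤ p) :
    ∑ t ∈ Ico 1 p, ((((t : ZMod p)⁻¹) ^ 2).val : ZMod p) * ((t : ZMod p) / 2) = 0 := by
  have h : ∀ t ∈ Ico 1 p, ((((t : ZMod p)⁻¹) ^ 2).val : ZMod p) * ((t : ZMod p) / 2) =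
      (t : ZMod p)⁻¹ * 2⁻¹ := by
    intro t ht
    have ht0 := natCast_ne_zero_of_mem_Ico ht
    rw [ZMod.natCast_zmod_val]
    field_simp
  rw [sum_congr rfl h, ← sum_mul, sum_Ico_eq_sum_units (fun x : ZMod p => x⁻¹),
    sum_units_inv hp, zero_mul]

/-- `∑_t n_t * (t²/8 - t/4) = -1/8` where `n_t = t⁻²`. -/
theorem sum_exp_mul_sq (hp : 5 ≤ p) :
    ∑ t ∈ Ico 1 p, ((((t : ZMod p)⁻¹) ^ 2).val : ZMod p) *
      ((t : ZMod p) ^ 2 / 8 - (t : ZMod p) / 4) = -(8 : ZMod p)⁻¹ := by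
  have h2 := two_ne_zero' hp
  have h4 : (4 : ZMod p) ≠ 0 := by
    have : (4 : ZMod p) = 2 * 2 := by norm_num
    rw [this]; exact mul_ne_zero h2 h2
  have h8 : (8 : ZMod p) ≠ 0 := by
    have : (8 : ZMod p) = 2 * 2 * 2 := by norm_num
    rw [this]; exact mul_ne_zero (mul_ne_zero h2 h2) h2
  have h : ∀ t ∈ Ico 1 p, ((((t : ZMod p)⁻¹) ^ 2).val : ZMod p) *
      ((t : ZMod p) ^ 2 / 8 - (t : ZMod p) / 4) = (8 : ZMod p)⁻¹ - (t : ZMod p)⁻¹ * 4⁻¹ := by
    intro t ht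
    have ht0 := natCast_ne_zero_of_mem_Ico ht
    rw [ZMod.natCast_zmod_val]
    field_simp
  rw [sum_congr rfl h, sum_sub_distrib, ← sum_mul,
    sum_Ico_eq_sum_units (fun x : ZMod p => x⁻¹), sum_units_inv hp, zero_mul, sub_zero,
    sum_const, Nat.card_Ico, nsmul_eq_mul]
  have hp1 : 1 ≤ p := (Fact.out (p := p.Prime)).one_le
  rw [Nat.cast_sub hp1, ZMod.natCast_self]
  simp

end Sums

/-! ### Truncated exponentials in a `ZMod p`-algebra with `π ^ 3 = 0` -/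

section Trunc

variable {p : ℕ} [Fact p.Prime] {S : Type*} [CommRing S] [Algebra (ZMod p) S]

/-- The truncated exponential `E(x, y) = 1 + x π + (y + x²/2) π²`; when `π ^ 3 = 0`,
`E(x, y) * E(x', y') = E(x + x', y + y')`. -/
noncomputable def E (π : S) (x y : ZMod p) : S :=
  1 + algebraMap (ZMod p) S x * π + algebraMap (ZMod p) S (y + x ^ 2 / 2) * π ^ 2

theorem E_zero (π : S) : E (p := p) π 0 0 = 1 := by
  simp [E]

theorem E_mul (hp : 5 ≤ p) (π : S) (hπ : π ^ 3 = 0) (x y x' y' : ZMod p) :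
    E π x y * E π x' y' = E π (x + x') (y + y') := by
  have h2 := two_ne_zero' hp
  have key : algebraMap (ZMod p) S (y + y' + (x + x') ^ 2 / 2) =
      algebraMap (ZMod p) S (y + x ^ 2 / 2) + algebraMap (ZMod p) S (y' + x' ^ 2 / 2) +
        algebraMap (ZMod p) S x * algebraMap (ZMod p) S x' := by
    rw [← map_mul, ← map_add, ← map_add]
    congr 1
    field_simp
    ring
  have e1 : algebraMap (ZMod p) S (x + x') =
      algebraMap (ZMod p) S x + algebraMap (ZMod p) S x' := map_add _ _ _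
  unfold E
  rw [key, e1]
  generalize algebraMap (ZMod p) S x = a
  generalize algebraMap (ZMod p) S x' = a'
  generalize algebraMap (ZMod p) S (y + x ^ 2 / 2) = c
  generalize algebraMap (ZMod p) S (y' + x' ^ 2 / 2) = c'
  linear_combination (a * c' + c * a' + c * c' * π) * hπ

theorem E_pow (hp : 5 ≤ p) (π : S) (hπ : π ^ 3 = 0) (x y : ZMod p) (n : ℕ) :
    E π x y ^ n = E π ((n : ZMod p) * x) ((n : ZMod p) * y) := by
  induction n with
  | zero => simp [E_zero]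
  | succ n ih =>
    rw [pow_succ, ih, E_mul hp π hπ]
    congr 1 <;> push_cast <;> ring

theorem E_prod (hp : 5 ≤ p) (π : S) (hπ : π ^ 3 = 0) {ι : Type*} (s : Finset ι)
    (x y : ι → ZMod p) (n : ι → ℕ) :
    ∏ i ∈ s, E π (x i) (y i) ^ n i =
      E π (∑ i ∈ s, (n i : ZMod p) * x i) (∑ i ∈ s, (n i : ZMod p) * y i) := by
  classical
  induction s using Finset.induction_on with
  | empty => simp [E_zero]
  | insert a s ha ih =>
    rw [prod_insert ha, sum_insert ha, sum_insert ha, ih, E_pow hp π hπ, E_mul hp π hπ]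

/-- `1 + π = E(1, -1/2)`. -/
theorem one_add_eq_E (hp : 5 ≤ p) (π : S) : 1 + π = E (p := p) π 1 (-(1 / 2)) := by
  have h2 := two_ne_zero' hp
  have : (-(1 / 2) + (1 : ZMod p) ^ 2 / 2) = 0 := by
    field_simp
    ring
  unfold E
  rw [this]
  simp

/-- `1 + (1 + π)^t = 2 * E(t/2, t²/8 - t/4)`. -/
theorem one_add_pow_eq (hp : 5 ≤ p) (π : S) (hπ : π ^ 3 = 0) (t : ℕ) :
    1 + (1 + π) ^ t = algebraMap (ZMod p) S 2 *
      E π ((t : ZMod p) / 2) ((t : ZMod p) ^ 2 / 8 - (t : ZMod p) / 4) := by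
  have h2 := two_ne_zero' hp
  have h4 : (4 : ZMod p) ≠ 0 := by
    have : (4 : ZMod p) = 2 * 2 := by norm_num
    rw [this]; exact mul_ne_zero h2 h2
  have h8 : (8 : ZMod p) ≠ 0 := by
    have : (8 : ZMod p) = 2 * 2 * 2 := by norm_num
    rw [this]; exact mul_ne_zero (mul_ne_zero h2 h2) h2
  rw [one_add_eq_E hp π, E_pow hp π hπ]
  unfold E
  have e1 : algebraMap (ZMod p) S 2 * algebraMap (ZMod p) S ((t : ZMod p) / 2) =
      algebraMap (ZMod p) S ((t : ZMod p) * 1) := by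
    rw [← map_mul]
    congr 1
    field_simp
  have e2 : algebraMap (ZMod p) S 2 * algebraMap (ZMod p) S
      ((t : ZMod p) ^ 2 / 8 - (t : ZMod p) / 4 + ((t : ZMod p) / 2) ^ 2 / 2) =
      algebraMap (ZMod p) S ((t : ZMod p) * (-(1 / 2)) + ((t : ZMod p) * 1) ^ 2 / 2) := by
    rw [← map_mul]
    congr 1
    field_simp
    ring
  have e3 : algebraMap (ZMod p) S 2 = 2 := by
    rw [map_ofNat]
  linear_combination (-π) * e1 - π ^ 2 * e2 - e3

/-- The image of `η` in a `ZMod p`-algebra where `ζ ↦ 1 + π`, `π ^ 3 = 0`. -/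
theorem eta_trunc (hp : 5 ≤ p) (π : S) (hπ : π ^ 3 = 0) :
    ∏ t ∈ Ico 1 p, (1 + (1 + π) ^ t) ^ (((t : ZMod p)⁻¹) ^ 2).val =
      algebraMap (ZMod p) S (2 ^ (∑ t ∈ Ico 1 p, (((t : ZMod p)⁻¹) ^ 2).val)) *
        E π 0 (-(8 : ZMod p)⁻¹) := by
  have h : ∀ t ∈ Ico 1 p, (1 + (1 + π) ^ t) ^ (((t : ZMod p)⁻¹) ^ 2).val =
      algebraMap (ZMod p) S 2 ^ (((t : ZMod p)⁻¹) ^ 2).val *
        E π ((t : ZMod p) / 2) ((t : ZMod p) ^ 2 / 8 - (t : ZMod p) / 4) ^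
          (((t : ZMod p)⁻¹) ^ 2).val := by
    intro t _
    rw [one_add_pow_eq hp π hπ, mul_pow]
  rw [prod_congr rfl h, prod_mul_distrib, prod_pow_eq_pow_sum, E_prod hp π hπ,
    sum_exp_mul hp, sum_exp_mul_sq hp, map_pow]

end Trunc

/-! ### The concrete quotient `𝓞 K ⧸ (ζ - 1)^3` -/

section Concrete

variable {p : ℕ} [hp : Fact p.Prime] {K : Type*} [Field K] [NumberField K]
  [hK : IsCyclotomicExtension {p} ℚ K] {ζ : K}

theorem absNorm_span (hζ : IsPrimitiveRoot ζ p) :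
    Ideal.absNorm (Ideal.span {hζ.toInteger - 1}) = p := by
  rw [← pow_one p] at hK hζ
  exact IsCyclotomicExtension.Rat.absNorm_span_zeta_sub_one p 0 hζ

/-- Every algebraic integer of `ℚ(ζ_p)` is congruent to a rational integer modulo `ζ - 1`. -/
theorem exists_int_sub (hζ : IsPrimitiveRoot ζ p) (y : 𝓞 K) :
    ∃ n : ℤ, hζ.toInteger - 1 ∣ y - (n : 𝓞 K) := by
  set I : Ideal (𝓞 K) := Ideal.span {hζ.toInteger - 1} with hI
  have hprime : Prime (hζ.toInteger - 1) := hζ.zeta_sub_one_prime'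
  have hcard : Nat.card (𝓞 K ⧸ I) = p := by
    have h := absNorm_span hζ
    rw [Ideal.absNorm_apply, Submodule.cardQuot_apply] at h
    simpa using h
  have : Nontrivial (𝓞 K ⧸ I) := by
    rw [Ideal.Quotient.nontrivial_iff]
    intro h
    rw [hI, Ideal.span_singleton_eq_top] at h
    exact hprime.not_isUnit h
  have : CharP (𝓞 K ⧸ I) p := by
    rw [CharP.charP_iff_prime_eq_zero Fact.out]
    have : ((p : 𝓞 K)) ∈ I := by
      rw [hI, Ideal.mem_span_singleton]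
      exact hζ.toInteger_sub_one_dvd_prime'
    have h2 := Ideal.Quotient.eq_zero_iff_mem.mpr this
    simpa using h2
  let f : ZMod p →+* (𝓞 K ⧸ I) := ZMod.castHom (dvd_refl p) (𝓞 K ⧸ I)
  have hinj : Function.Injective f := f.injective
  have : Finite (𝓞 K ⧸ I) := Nat.finite_of_card_ne_zero (by
    rw [hcard]; exact (Fact.out (p := p.Prime)).ne_zero)
  have hbij : Function.Bijective f := by
    refine Function.Injective.bijective_of_nat_card_le hinj ?_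
    rw [hcard, Nat.card_eq_fintype_card, ZMod.card]
  obtain ⟨a, ha⟩ := hbij.2 (Ideal.Quotient.mk I y)
  refine ⟨(a.val : ℤ), ?_⟩
  rw [← Ideal.mem_span_singleton, ← hI, ← Ideal.Quotient.eq_zero_iff_mem, map_sub, ← ha,
    sub_eq_zero]
  have h3 : ((a.val : ℤ) : 𝓞 K) = ((a.val : ℕ) : 𝓞 K) := by push_cast; rfl
  rw [h3, map_natCast]
  conv_lhs => rw [← ZMod.natCast_zmod_val a]
  rw [map_natCast]

/-- `ζ - 1` does not divide `η`. -/
theorem not_dvd_etaInt (hp5 : 5 ≤ p) (hζ : IsPrimitiveRoot ζ p) :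
    ¬ hζ.toInteger - 1 ∣ etaInt hζ := by
  have hprime : Prime (hζ.toInteger - 1) := hζ.zeta_sub_one_prime'
  intro h
  unfold etaInt at h
  obtain ⟨t, -, ht⟩ := (Prime.dvd_finsetProd_iff hprime _).mp h
  have h1 : hζ.toInteger - 1 ∣ 1 + hζ.toInteger ^ t := hprime.dvd_of_dvd_pow ht
  have h2 : hζ.toInteger - 1 ∣ hζ.toInteger ^ t - 1 := sub_one_dvd_pow_sub_one _ t
  have h3 : hζ.toInteger - 1 ∣ (2 : 𝓞 K) := by
    have : (2 : 𝓞 K) = (1 + hζ.toInteger ^ t) - (hζ.toInteger ^ t - 1) := by ring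
    rw [this]
    exact dvd_sub h1 h2
  have h4 := IsCyclotomicExtension.Rat.two_not_mem_span_zeta_sub_one' p hζ (by omega)
  exact h4 (Ideal.mem_span_singleton.mpr h3)

/-- Integral form: if `η^k y^p ≡ x^p mod (ζ-1)^3` with `ζ - 1 ∤ y`, then `p ∣ k`. -/
theorem main_int (hp5 : 5 ≤ p) (hζ : IsPrimitiveRoot ζ p) (k : ℕ) (x y : 𝓞 K)
    (hy : ¬ hζ.toInteger - 1 ∣ y)
    (h : (hζ.toInteger - 1) ^ 3 ∣ (etaInt hζ) ^ k * y ^ p - x ^ p) : p ∣ k := by
  have hprime : Prime (hζ.toInteger - 1) := hζ.zeta_sub_one_prime'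
  set lam : 𝓞 K := hζ.toInteger - 1 with hlam
  set J : Ideal (𝓞 K) := Ideal.span {lam ^ 3} with hJ
  have hp0 : p ≠ 0 := (Fact.out (p := p.Prime)).ne_zero
  have hlam3p : lam ^ 3 ∣ (p : 𝓞 K) := by
    have h1 : lam ^ (p - 1) ∣ (p : 𝓞 K) :=
      (IsCyclotomicExtension.Rat.associated_zeta_sub_one_pow_prime p hζ).dvd
    exact (pow_dvd_pow lam (by omega)).trans h1
  have hpJ : (p : 𝓞 K) ∈ J := by
    rw [hJ, Ideal.mem_span_singleton]
    exact hlam3p
  have : Nontrivial (𝓞 K ⧸ J) := by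
    rw [Ideal.Quotient.nontrivial_iff]
    intro h
    rw [hJ, Ideal.span_singleton_eq_top] at h
    exact hprime.not_isUnit ((isUnit_pow_iff (by norm_num)).mp h)
  have : CharP (𝓞 K ⧸ J) p := by
    rw [CharP.charP_iff_prime_eq_zero Fact.out]
    have h2 := Ideal.Quotient.eq_zero_iff_mem.mpr hpJ
    simpa using h2
  let _ : Algebra (ZMod p) (𝓞 K ⧸ J) := ZMod.algebra _ p
  -- integers
  have hF1 : ∀ n : ℤ, algebraMap (ZMod p) (𝓞 K ⧸ J) (n : ZMod p) =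
      Ideal.Quotient.mk J (n : 𝓞 K) := by
    intro n
    rw [map_intCast, map_intCast]
  have hmk : ∀ z w : 𝓞 K, Ideal.Quotient.mk J z = Ideal.Quotient.mk J w ↔ lam ^ 3 ∣ z - w := by
    intro z w
    rw [Ideal.Quotient.eq, hJ, Ideal.mem_span_singleton]
  set π : 𝓞 K ⧸ J := Ideal.Quotient.mk J lam with hπdef
  have hπ2 : π ^ 2 = Ideal.Quotient.mk J (lam ^ 2) := by
    rw [hπdef, ← map_pow]
  have hπ : π ^ 3 = 0 := by
    rw [hπdef, ← map_pow, Ideal.Quotient.eq_zero_iff_mem, hJ, Ideal.mem_span_singleton]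
  have hQ : ∀ u v : ZMod p, algebraMap (ZMod p) (𝓞 K ⧸ J) u * π ^ 2 =
      algebraMap (ZMod p) (𝓞 K ⧸ J) v → u = 0 := by
    intro u v huv
    by_contra hu
    obtain ⟨n, hn⟩ := ZMod.intCast_surjective (u⁻¹ * v)
    have h1 : π ^ 2 = algebraMap (ZMod p) (𝓞 K ⧸ J) (u⁻¹ * v) := by
      rw [map_mul, ← huv, ← mul_assoc, ← map_mul, inv_mul_cancel₀ hu, map_one, one_mul]
    rw [← hn, hF1, hπ2, hmk] at h1
    have h2 : lam ∣ (n : 𝓞 K) := by
      have h3 : lam ∣ lam ^ 2 - (n : 𝓞 K) := (dvd_pow_self lam (by norm_num)).trans h1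
      have h4 : lam ∣ lam ^ 2 := dvd_pow_self lam (by norm_num)
      exact (dvd_sub_right h4).mp h3
    rw [hlam, IsCyclotomicExtension.Rat.zeta_sub_one_dvd_intCast_iff' p hζ] at h2
    obtain ⟨n', rfl⟩ := h2
    have h5 : lam ^ 3 ∣ (((p : ℤ) * n' : ℤ) : 𝓞 K) := by
      push_cast
      exact Dvd.dvd.mul_right hlam3p _
    have h6 : lam ^ 3 ∣ lam ^ 2 := (dvd_sub_left h5).mp h1
    have h7 : lam ^ 2 * lam ∣ lam ^ 2 * 1 := by
      rw [mul_one, ← pow_succ]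
      exact h6
    have h8 : lam ∣ 1 := (mul_dvd_mul_iff_left (pow_ne_zero 2 hprime.ne_zero)).mp h7
    exact hprime.not_isUnit (isUnit_of_dvd_one h8)
  have hP : ∀ y : 𝓞 K, ∃ a : ZMod p, (Ideal.Quotient.mk J y) ^ p =
      algebraMap (ZMod p) (𝓞 K ⧸ J) a ∧ (¬ lam ∣ y → a ≠ 0) := by
    intro y
    obtain ⟨n, w, hw⟩ := exists_int_sub hζ y
    refine ⟨(n : ZMod p), ?_, ?_⟩
    · have hy' : y = (n : 𝓞 K) + lam * w := by rw [hlam, ← hw]; ring
      rw [hy', map_add, add_pow_char, ← hF1, ← map_pow, ZMod.pow_card, map_mul, mul_pow]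
      have h0 : (Ideal.Quotient.mk J lam) ^ p = 0 := by
        rw [← map_pow, Ideal.Quotient.eq_zero_iff_mem, hJ, Ideal.mem_span_singleton]
        exact pow_dvd_pow lam (by omega)
      rw [h0, zero_mul, add_zero]
    · intro hy' h0
      apply hy'
      rw [ZMod.intCast_zmod_eq_zero_iff_dvd] at h0
      have h1 : lam ∣ (n : 𝓞 K) := by
        rw [hlam, IsCyclotomicExtension.Rat.zeta_sub_one_dvd_intCast_iff' p hζ]
        exact h0
      have hy'' : y = (n : 𝓞 K) + lam * w := by rw [hlam, ← hw]; ring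
      rw [hy'']
      exact dvd_add h1 (dvd_mul_right _ _)
  -- assemble
  obtain ⟨a, hya, hya0⟩ := hP y
  obtain ⟨b, hxb, -⟩ := hP x
  have ha : a ≠ 0 := hya0 hy
  have hζπ : (1 + π) = Ideal.Quotient.mk J hζ.toInteger := by
    rw [hπdef, hlam, map_sub, map_one]
    ring
  set N : ℕ := ∑ t ∈ Ico 1 p, (((t : ZMod p)⁻¹) ^ 2).val with hN
  have hη : Ideal.Quotient.mk J (etaInt hζ) =
      algebraMap (ZMod p) (𝓞 K ⧸ J) (2 ^ N) * E π 0 (-(8 : ZMod p)⁻¹) := by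
    rw [← eta_trunc hp5 π hπ]
    unfold etaInt
    rw [map_prod]
    refine Finset.prod_congr rfl fun t _ => ?_
    rw [map_pow, map_add, map_one, map_pow, hζπ]
  have hfin : (Ideal.Quotient.mk J (etaInt hζ)) ^ k
      * (Ideal.Quotient.mk J y) ^ p = (Ideal.Quotient.mk J x) ^ p := by
    rw [← map_pow, ← map_pow, ← map_mul, ← map_pow, hmk]
    exact h
  rw [hη, hya, hxb, mul_pow, E_pow hp5 π hπ, ← map_pow] at hfin
  have h2 := two_ne_zero' (p := p) hp5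
  have h8 : (8 : ZMod p) ≠ 0 := by
    have : (8 : ZMod p) = 2 * 2 * 2 := by norm_num
    rw [this]; exact mul_ne_zero (mul_ne_zero h2 h2) h2
  have hE : E π ((k : ZMod p) * 0) ((k : ZMod p) * (-(8 : ZMod p)⁻¹)) =
      1 + algebraMap (ZMod p) (𝓞 K ⧸ J) ((k : ZMod p) * (-(8 : ZMod p)⁻¹)) * π ^ 2 := by
    unfold E
    rw [mul_zero, map_zero, zero_mul, add_zero]
    congr 2
    simp
  rw [hE] at hfin
  have hkey : algebraMap (ZMod p) (𝓞 K ⧸ J)
      ((2 ^ N) ^ k * a * ((k : ZMod p) * (-(8 : ZMod p)⁻¹))) * π ^ 2 =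
      algebraMap (ZMod p) (𝓞 K ⧸ J) (b - (2 ^ N) ^ k * a) := by
    rw [map_sub, ← hfin]
    simp only [map_mul]
    ring
  have h3 := hQ _ _ hkey
  have hk : (k : ZMod p) = 0 := by
    rcases mul_eq_zero.mp h3 with h4 | h4
    · exact absurd h4 (mul_ne_zero (pow_ne_zero _ (pow_ne_zero _ h2)) ha)
    · rcases mul_eq_zero.mp h4 with h5 | h5
      · exact h5
      · exact absurd (neg_eq_zero.mp h5) (inv_ne_zero h8)
  exact (ZMod.natCast_eq_zero_iff k p).mp hk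

/-- Cancelling common powers of a prime from a fraction. -/
theorem exists_coprime_rep {R : Type*} [CommRing R] [IsDomain R] [WfDvdMonoid R] {l : R}
    (hl : Prime l) (c d : R) (hc : c ≠ 0) (hd : d ≠ 0) :
    ∃ c' d' : R, c' ≠ 0 ∧ d' ≠ 0 ∧ ¬ (l ∣ c' ∧ l ∣ d') ∧ c * d' = c' * d := by
  obtain ⟨m, c₁, hc₁, rfl⟩ := WfDvdMonoid.max_power_factor hc hl.irreducible
  obtain ⟨n, d₁, hd₁, rfl⟩ := WfDvdMonoid.max_power_factor hd hl.irreducible
  have hc₁0 : c₁ ≠ 0 := right_ne_zero_of_mul hc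
  have hd₁0 : d₁ ≠ 0 := right_ne_zero_of_mul hd
  rcases le_total m n with hmn | hmn
  · refine ⟨c₁, l ^ (n - m) * d₁, hc₁0, mul_ne_zero (pow_ne_zero _ hl.ne_zero) hd₁0,
      fun h => hc₁ h.1, ?_⟩
    have : l ^ n = l ^ m * l ^ (n - m) := by rw [← pow_add, Nat.add_sub_cancel' hmn]
    rw [this]; ring
  · refine ⟨l ^ (m - n) * c₁, d₁, mul_ne_zero (pow_ne_zero _ hl.ne_zero) hc₁0, hd₁0,
      fun h => hd₁ h.2, ?_⟩
    have : l ^ m = l ^ n * l ^ (m - n) := by rw [← pow_add, Nat.add_sub_cancel' hmn]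
    rw [this]; ring

end Concrete

end W6c

/-- **W6c** `η ≡ m (1 - λ²/8) mod λ³` while `p`-th powers are `≡` integers: if `η^j` is locally a
`p`-th power then `p ∣ j`. -/
theorem dvd_of_localPow_etaK_pow {p : ℕ} [Fact p.Prime] (h5 : 5 ≤ p) {K : Type*} [Field K]
    [NumberField K] [IsCyclotomicExtension {p} ℚ K] {ζ : K} (hζ : IsPrimitiveRoot ζ p) {j : ℕ}
    (h : LocalPow p ζ (etaK p ζ ^ j)) : p ∣ j := by
  have hp0 : p ≠ 0 := (Fact.out (p := p.Prime)).ne_zero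
  have : NeZero p := ⟨hp0⟩
  obtain ⟨y, a, b, hy0, ha, hb, hbl, heq⟩ := h
  have hprime : Prime (hζ.toInteger - 1) := hζ.zeta_sub_one_prime'
  set lam : 𝓞 K := hζ.toInteger - 1 with hlam
  have hlamK : (algebraMap (𝓞 K) K lam) = ζ - 1 := by
    rw [hlam, map_sub, map_one]
    rfl
  set a₀ : 𝓞 K := IsIntegralClosure.mk' (𝓞 K) a ha with ha₀
  set b₀ : 𝓞 K := IsIntegralClosure.mk' (𝓞 K) b hb with hb₀
  have ha₀K : algebraMap (𝓞 K) K a₀ = a := IsIntegralClosure.algebraMap_mk' (𝓞 K) a ha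
  have hb₀K : algebraMap (𝓞 K) K b₀ = b := IsIntegralClosure.algebraMap_mk' (𝓞 K) b hb
  have hinj : Function.Injective (algebraMap (𝓞 K) K) := FaithfulSMul.algebraMap_injective _ _
  have hbl' : ¬ lam ∣ b₀ := by
    rintro ⟨b', hb'⟩
    apply hbl
    refine ⟨algebraMap (𝓞 K) K b', RingOfIntegers.isIntegral_coe b', ?_⟩
    rw [← hb₀K, hb', map_mul, hlamK]
  obtain ⟨c, d, hd, hcd⟩ := IsFractionRing.div_surjective (A := 𝓞 K) y
  have hd0 : d ≠ 0 := nonZeroDivisors.ne_zero hd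
  have hc0 : c ≠ 0 := by
    rintro rfl
    rw [map_zero, zero_div] at hcd
    exact hy0 hcd.symm
  obtain ⟨c', d', hc'0, hd'0, hcop, hrep⟩ := W6c.exists_coprime_rep hprime c d hc0 hd0
  have hdK : algebraMap (𝓞 K) K d ≠ 0 := fun h => hd0 (hinj (by rw [h, map_zero]))
  have hd'K : algebraMap (𝓞 K) K d' ≠ 0 := fun h => hd'0 (hinj (by rw [h, map_zero]))
  have hy : y = algebraMap (𝓞 K) K c' / algebraMap (𝓞 K) K d' := by
    rw [← hcd, div_eq_div_iff hdK hd'K, ← map_mul, ← map_mul, hrep]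
  have hηK : algebraMap (𝓞 K) K (etaInt hζ) = etaK p ζ := coe_etaInt hζ
  -- the equation in `𝓞 K`
  have heqO : ((etaInt hζ) ^ j * c' ^ p - d' ^ p) * b₀ = lam ^ 3 * (a₀ * d' ^ p) := by
    apply hinj
    simp only [map_mul, map_sub, map_pow, hηK, ha₀K, hb₀K, hlamK]
    have hyp : y ^ p * (algebraMap (𝓞 K) K d') ^ p = (algebraMap (𝓞 K) K c') ^ p := by
      rw [hy, div_pow, div_mul_cancel₀ _ (pow_ne_zero _ hd'K)]
    linear_combination (algebraMap (𝓞 K) K d') ^ p * heq - etaK p ζ ^ j * b * hyp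
  have hdvd3 : lam ^ 3 ∣ (etaInt hζ) ^ j * c' ^ p - d' ^ p :=
    hprime.pow_dvd_of_dvd_mul_right 3 hbl' ⟨_, heqO⟩
  have hdvd1 : lam ∣ (etaInt hζ) ^ j * c' ^ p - d' ^ p :=
    (dvd_pow_self lam (by norm_num)).trans hdvd3
  have hη : ¬ lam ∣ etaInt hζ := W6c.not_dvd_etaInt h5 hζ
  have hd' : ¬ lam ∣ d' := by
    intro hd'
    have h1 : lam ∣ (etaInt hζ) ^ j * c' ^ p :=
      (dvd_sub_left (dvd_pow hd' hp0)).mp hdvd1
    rcases hprime.dvd_or_dvd h1 with h2 | h2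
    · exact hη (hprime.dvd_of_dvd_pow h2)
    · exact hcop ⟨hprime.dvd_of_dvd_pow h2, hd'⟩
  have hc' : ¬ lam ∣ c' := by
    intro hc'
    have h1 : lam ∣ d' ^ p :=
      (dvd_sub_right (Dvd.dvd.mul_left (dvd_pow hc' hp0) _)).mp hdvd1
    exact hd' (hprime.dvd_of_dvd_pow h1)
  exact W6c.main_int h5 hζ j d' c' hc' hdvd3

end Fermat.Agent.S14
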