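import Fermat.Agent.S14.Defs

/-!
S14 package W6d (helper468): the `ω²`-eigenspace of `E/E^p` for `K = ℚ(ζ_p)` has dimension at most
one.  Proof: equivariant Dirichlet unit theorem (trace of the Galois action on the unit lattice)
plus a projector argument over `ZMod p`.
-/

set_option autoImplicit false

namespace Fermat.Agent.S14.H468

open NumberField NumberField.Units NumberField.InfinitePlace NumberField.Units.dirichletUnitTheorem
open Module

variable {K : Type*} [Field K] [NumberField K]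

/-- The action of an automorphism on units of the ring of integers. -/
noncomputable def actU (σ : K ≃ₐ[ℚ] K) : (𝓞 K)ˣ →* (𝓞 K)ˣ :=
  Units.map (RingOfIntegers.mapRingEquiv (σ : K ≃+* K)).toMonoidHom

@[simp] lemma coe_actU (σ : K ≃ₐ[ℚ] K) (u : (𝓞 K)ˣ) :
    ((actU σ u : (𝓞 K)ˣ) : K) = σ (u : K) := rfl

lemma actU_mul (σ τ : K ≃ₐ[ℚ] K) (u : (𝓞 K)ˣ) : actU (σ * τ) u = actU σ (actU τ u) := by
  apply Units.ext
  apply RingOfIntegers.ext
  rfl

lemma actU_one (u : (𝓞 K)ˣ) : actU (1 : K ≃ₐ[ℚ] K) u = u := by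
  apply Units.ext
  apply RingOfIntegers.ext
  rfl

lemma place_actU (σ : K ≃ₐ[ℚ] K) (u : (𝓞 K)ˣ) (w : InfinitePlace K) :
    w ((actU σ u : (𝓞 K)ˣ) : K) = (σ⁻¹ • w) (u : K) := by
  rw [coe_actU, InfinitePlace.smul_apply]
  rfl

lemma mult_smul' (σ : K ≃ₐ[ℚ] K) (w : InfinitePlace K) : mult (σ • w) = mult w := by
  unfold mult
  by_cases h : w.IsReal
  · rw [if_pos h, if_pos (isReal_smul_iff.mpr h)]
  · rw [if_neg h, if_neg (fun h' => h (isReal_smul_iff.mp h'))]

open Classical in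
/-- Extension of a vector of `logSpace K` to all places (value at `w₀` making the sum zero). -/
noncomputable def ext (x : logSpace K) (v : InfinitePlace K) : ℝ :=
  if h : v = w₀ then -∑ w, x w else x ⟨v, h⟩

/-- The real-linear action on `logSpace K` induced by an automorphism. -/
noncomputable def gam (σ : K ≃ₐ[ℚ] K) : logSpace K →ₗ[ℝ] logSpace K where
  toFun x := fun w => ext x (σ⁻¹ • w.1)
  map_add' x y := by
    funext w
    simp only [ext, Pi.add_apply]
    split_ifs with h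
    · rw [Finset.sum_add_distrib]; ring
    · rfl
  map_smul' c x := by
    funext w
    simp only [ext, Pi.smul_apply, smul_eq_mul, RingHom.id_apply]
    split_ifs with h
    · rw [← Finset.mul_sum]; ring
    · rfl

lemma logEmbedding_actU (σ : K ≃ₐ[ℚ] K) (u : (𝓞 K)ˣ) :
    logEmbedding K (Additive.ofMul (actU σ u)) = gam σ (logEmbedding K (Additive.ofMul u)) := by
  funext w
  rw [logEmbedding_component, place_actU]
  change _ = ext _ _
  unfold ext
  split_ifs with h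
  · have hm : mult w.1 = mult (w₀ : InfinitePlace K) :=
      (mult_smul' σ⁻¹ w.1).symm.trans (congrArg mult h)
    rw [sum_logEmbedding_component, neg_mul, neg_neg, hm, h]
  · rw [logEmbedding_component]
    simp only [mult_smul']


/-- If `σ` fixes every infinite place then it acts trivially on the log space. -/
lemma gam_eq_id (σ : K ≃ₐ[ℚ] K) (h : ∀ w : InfinitePlace K, σ • w = w) : gam σ = LinearMap.id := by
  ext x w
  change ext x (σ⁻¹ • w.1) = x w
  have hw : σ⁻¹ • w.1 = w.1 := by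
    conv_lhs => rw [← h w.1]
    rw [inv_smul_smul]
  unfold ext
  rw [dif_neg (by rw [hw]; exact w.2)]
  congr 1
  exact Subtype.ext hw

open Classical in
/-- If `σ` fixes no infinite place then its trace on the log space is `-1`. -/
lemma trace_gam_of_free (σ : K ≃ₐ[ℚ] K) (h : ∀ w : InfinitePlace K, σ • w ≠ w) :
    LinearMap.trace ℝ (logSpace K) (gam σ) = -1 := by
  rw [LinearMap.trace_eq_matrix_trace ℝ (Pi.basisFun ℝ {w : InfinitePlace K // w ≠ w₀})]
  unfold Matrix.trace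
  simp only [Matrix.diag_apply, LinearMap.toMatrix_apply, Pi.basisFun_apply, Pi.basisFun_repr]
  have hne : σ • (w₀ : InfinitePlace K) ≠ w₀ := h w₀
  have key : ∀ w : {w : InfinitePlace K // w ≠ w₀},
      gam σ (Pi.single w (1 : ℝ)) w = if w = ⟨σ • w₀, hne⟩ then -1 else 0 := by
    intro w
    change ext (Pi.single w (1 : ℝ)) (σ⁻¹ • w.1) = _
    unfold ext
    by_cases hw : σ⁻¹ • w.1 = w₀
    · rw [dif_pos hw, Finset.sum_pi_single']
      have : w = ⟨σ • w₀, hne⟩ := Subtype.ext (inv_smul_eq_iff.mp hw)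
      simp [this]
    · rw [dif_neg hw]
      have h1 : (⟨σ⁻¹ • w.1, hw⟩ : {w : InfinitePlace K // w ≠ w₀}) ≠ w := by
        intro h2
        have h3 : σ⁻¹ • w.1 = w.1 := congrArg Subtype.val h2
        apply h w.1
        conv_lhs => rw [← h3]
        rw [smul_inv_smul]
      have h4 : w ≠ ⟨σ • w₀, hne⟩ := by
        intro h5
        apply hw
        rw [h5, inv_smul_smul]
      rw [Pi.single_eq_of_ne h1, if_neg h4]
  rw [Finset.sum_congr rfl (fun w _ => key w), Finset.sum_ite_eq' Finset.univ, if_pos (Finset.mem_univ _)]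

lemma mem_unitLattice_iff (x : logSpace K) :
    x ∈ unitLattice K ↔ ∃ u : (𝓞 K)ˣ, logEmbedding K (Additive.ofMul u) = x := by
  unfold unitLattice
  rw [Submodule.mem_map]
  constructor
  · rintro ⟨u, -, rfl⟩
    exact ⟨Additive.toMul u, rfl⟩
  · rintro ⟨u, rfl⟩
    exact ⟨Additive.ofMul u, Submodule.mem_top, rfl⟩

lemma gam_mem (σ : K ≃ₐ[ℚ] K) (x : logSpace K) (hx : x ∈ unitLattice K) :
    gam σ x ∈ unitLattice K := by
  obtain ⟨u, rfl⟩ := (mem_unitLattice_iff x).mp hx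
  rw [← logEmbedding_actU]
  exact (mem_unitLattice_iff _).mpr ⟨_, rfl⟩

/-- The `ℤ`-linear action on the unit lattice. -/
noncomputable def Gam (σ : K ≃ₐ[ℚ] K) : unitLattice K →ₗ[ℤ] unitLattice K :=
  ((gam σ).restrictScalars ℤ).restrict (gam_mem σ)

lemma coe_Gam (σ : K ≃ₐ[ℚ] K) (x : unitLattice K) :
    ((Gam σ x : unitLattice K) : logSpace K) = gam σ (x : logSpace K) := rfl

/-- The lattice point attached to a unit. -/
noncomputable def lat (u : (𝓞 K)ˣ) : unitLattice K :=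
  ⟨logEmbedding K (Additive.ofMul u), (mem_unitLattice_iff _).mpr ⟨u, rfl⟩⟩

lemma lat_surjective (x : unitLattice K) : ∃ u : (𝓞 K)ˣ, lat u = x := by
  obtain ⟨u, hu⟩ := (mem_unitLattice_iff _).mp x.2
  exact ⟨u, Subtype.ext hu⟩

lemma Gam_lat (σ : K ≃ₐ[ℚ] K) (u : (𝓞 K)ˣ) : Gam σ (lat u) = lat (actU σ u) := by
  apply Subtype.ext
  rw [coe_Gam]
  exact (logEmbedding_actU σ u).symm

lemma lat_mul (u v : (𝓞 K)ˣ) : lat (u * v) = lat u + lat v := by
  apply Subtype.ext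
  change logEmbedding K (Additive.ofMul (u * v)) = _
  rw [ofMul_mul, map_add]
  rfl

lemma lat_zpow (u : (𝓞 K)ˣ) (n : ℤ) : lat (u ^ n) = n • lat u := by
  apply Subtype.ext
  change logEmbedding K (Additive.ofMul (u ^ n)) = _
  rw [ofMul_zpow, map_zsmul]
  rfl

lemma lat_pow (u : (𝓞 K)ˣ) (n : ℕ) : lat (u ^ n) = (n : ℤ) • lat u := by
  rw [← zpow_natCast, lat_zpow]

lemma lat_eq_zero_iff (u : (𝓞 K)ˣ) : lat u = 0 ↔ u ∈ torsion K := by
  rw [← logEmbedding_eq_zero_iff]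
  constructor
  · intro h; exact congrArg Subtype.val h
  · intro h; exact Subtype.ext h

lemma Gam_mul (σ τ : K ≃ₐ[ℚ] K) : Gam (σ * τ) = Gam σ ∘ₗ Gam τ := by
  ext x
  obtain ⟨u, rfl⟩ := lat_surjective x
  rw [LinearMap.comp_apply, Gam_lat, Gam_lat, Gam_lat, actU_mul]

lemma Gam_one : Gam (1 : K ≃ₐ[ℚ] K) = LinearMap.id := by
  ext x
  obtain ⟨u, rfl⟩ := lat_surjective x
  rw [Gam_lat, actU_one]; rfl

lemma Gam_pow (σ : K ≃ₐ[ℚ] K) (j : ℕ) : Gam (σ ^ j) = (Gam σ) ^ j := by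
  induction j with
  | zero => rw [pow_zero, pow_zero, Gam_one]; rfl
  | succ j ih => rw [pow_succ, pow_succ, Gam_mul, ih]; rfl

/-- The trace of the integral action equals the trace of the real action. -/
lemma trace_Gam (σ : K ≃ₐ[ℚ] K) :
    ((LinearMap.trace ℤ (unitLattice K) (Gam σ) : ℤ) : ℝ) =
      LinearMap.trace ℝ (logSpace K) (gam σ) := by
  classical
  rw [LinearMap.trace_eq_matrix_trace ℤ (basisUnitLattice K),
    LinearMap.trace_eq_matrix_trace ℝ ((basisUnitLattice K).ofZLatticeBasis ℝ (unitLattice K))]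
  unfold Matrix.trace
  rw [Int.cast_sum]
  refine Finset.sum_congr rfl (fun i _ => ?_)
  rw [Matrix.diag_apply, Matrix.diag_apply, LinearMap.toMatrix_apply, LinearMap.toMatrix_apply,
    Basis.ofZLatticeBasis_apply, ← coe_Gam, Basis.ofZLatticeBasis_repr_apply]


section LinAlg

/-- Pure linear algebra: a matrix `T` over `ZMod p` of size `m - 1` with `T ^ m = 1` and
`trace (T ^ j) = -1` for `0 < j < m` has all eigenspaces for eigenvalues `a ≠ 1`, `a ^ m = 1`
of dimension at most one. -/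
theorem eigen_dependent {p : ℕ} [Fact p.Prime] {d m : ℕ} (hmp : m < p) (hd : d + 1 = m)
    (T : Matrix (Fin d) (Fin d) (ZMod p)) (hTm : T ^ m = 1)
    (htr : ∀ j, 0 < j → j < m → Matrix.trace (T ^ j) = -1)
    (a : ZMod p) (ham : a ^ m = 1) (ha1 : a ≠ 1) (x y : Fin d → ZMod p)
    (hx : T.mulVec x = a • x) (hy : T.mulVec y = a • y) :
    ∃ c c' : ZMod p, (c ≠ 0 ∨ c' ≠ 0) ∧ c • x + c' • y = 0 := by
  have hp : p.Prime := Fact.out
  have hm0 : 0 < m := by omega
  have hmF : (m : ZMod p) ≠ 0 := by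
    intro h
    rw [ZMod.natCast_eq_zero_iff] at h
    exact absurd (Nat.le_of_dvd hm0 h) (by omega)
  have ha0 : a ≠ 0 := by
    rintro rfl
    rw [zero_pow hm0.ne'] at ham
    exact zero_ne_one ham
  have hainv : a⁻¹ ^ m = 1 := by rw [inv_pow, ham, inv_one]
  have hainv1 : a⁻¹ ≠ 1 := by
    intro h
    exact ha1 (by rw [← inv_inv a, h, inv_one])
  -- the projector
  set f : ℕ → Matrix (Fin d) (Fin d) (ZMod p) := fun j => (a⁻¹) ^ j • T ^ j with hf
  set S : Matrix (Fin d) (Fin d) (ZMod p) := ∑ j ∈ Finset.range m, f j with hS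
  have hfm : f m = f 0 := by
    simp only [hf, hainv, hTm, pow_zero]
  have hTf : ∀ j, T * f j = a • f (j + 1) := by
    intro j
    simp only [hf]
    rw [Matrix.mul_smul, ← pow_succ', smul_smul]
    congr 1
    rw [pow_succ, mul_comm (a⁻¹ ^ j), ← mul_assoc, mul_inv_cancel₀ ha0, one_mul]
  have hshift : ∑ j ∈ Finset.range m, f (j + 1) = S := by
    have h1 := Finset.sum_range_succ' f m
    have h2 := Finset.sum_range_succ f m
    rw [h1, hfm] at h2
    exact add_right_cancel h2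
  have hTS : T * S = a • S := by
    conv_lhs => rw [hS, Finset.mul_sum]
    rw [Finset.sum_congr rfl (fun j _ => hTf j), ← Finset.smul_sum, hshift]
  have hTjS : ∀ j : ℕ, T ^ j * S = a ^ j • S := by
    intro j
    induction j with
    | zero => simp
    | succ j ih => rw [pow_succ, mul_assoc, hTS, Matrix.mul_smul, ih, smul_smul, pow_succ, mul_comm]
  have hSS : S * S = (m : ZMod p) • S := by
    conv_lhs => rw [hS, Finset.sum_mul]
    have : ∀ j ∈ Finset.range m, f j * S = S := by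
      intro j _
      simp only [hf]
      rw [Matrix.smul_mul, hTjS, smul_smul, ← mul_pow, inv_mul_cancel₀ ha0, one_pow, one_smul]
    rw [Finset.sum_congr rfl this, Finset.sum_const, Finset.card_range, Nat.cast_smul_eq_nsmul]
  set P : Matrix (Fin d) (Fin d) (ZMod p) := (m : ZMod p)⁻¹ • S with hP
  have hPP : P * P = P := by
    rw [hP, Matrix.smul_mul, Matrix.mul_smul, hSS, smul_smul, smul_smul, mul_assoc,
      inv_mul_cancel₀ hmF, mul_one]
  -- trace of S
  have hgeom : ∑ j ∈ Finset.range m, a⁻¹ ^ j = 0 := by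
    have := geom_sum_mul a⁻¹ m
    rw [hainv, sub_self] at this
    rcases mul_eq_zero.mp this with h | h
    · exact h
    · exact absurd (sub_eq_zero.mp h) hainv1
  have htrS : Matrix.trace S = (m : ZMod p) := by
    rw [hS, Matrix.trace_sum]
    have h1 : ∀ j ∈ Finset.range m, Matrix.trace (f j) =
        (if j = 0 then (m : ZMod p) else 0) - a⁻¹ ^ j := by
      intro j hj
      simp only [hf, Matrix.trace_smul, smul_eq_mul]
      by_cases hj0 : j = 0
      · subst hj0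
        simp only [pow_zero, Matrix.trace_one, Fintype.card_fin, one_mul, if_true]
        rw [← hd]; push_cast; ring
      · rw [htr j (Nat.pos_of_ne_zero hj0) (Finset.mem_range.mp hj), if_neg hj0]; ring
    rw [Finset.sum_congr rfl h1, Finset.sum_sub_distrib, hgeom, sub_zero,
      Finset.sum_ite_eq' (Finset.range m) 0, if_pos (Finset.mem_range.mpr hm0)]
  have htrP : Matrix.trace P = 1 := by
    rw [hP, Matrix.trace_smul, htrS, smul_eq_mul, inv_mul_cancel₀ hmF]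
  -- eigenvectors are fixed by P
  have hfix : ∀ z : Fin d → ZMod p, T.mulVec z = a • z → P.mulVec z = z := by
    intro z hz
    have hTj : ∀ j : ℕ, (T ^ j).mulVec z = a ^ j • z := by
      intro j
      induction j with
      | zero => simp
      | succ j ih =>
        rw [pow_succ, ← Matrix.mulVec_mulVec, hz, Matrix.mulVec_smul, ih, smul_smul, pow_succ,
          mul_comm]
    have hSz : S.mulVec z = (m : ZMod p) • z := by
      rw [hS, Matrix.sum_mulVec]
      have : ∀ j ∈ Finset.range m, (f j).mulVec z = z := by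
        intro j _
        simp only [hf]
        rw [Matrix.smul_mulVec, hTj, smul_smul, ← mul_pow, inv_mul_cancel₀ ha0, one_pow, one_smul]
      rw [Finset.sum_congr rfl this, Finset.sum_const, Finset.card_range, Nat.cast_smul_eq_nsmul]
    rw [hP, Matrix.smul_mulVec, hSz, smul_smul, inv_mul_cancel₀ hmF, one_smul]
  -- rank of P is one
  set L : (Fin d → ZMod p) →ₗ[ZMod p] (Fin d → ZMod p) := Matrix.toLin' P with hL
  have hLid : IsIdempotentElem L := by
    change L * L = L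
    rw [hL, Module.End.mul_eq_comp, ← Matrix.toLin'_mul, hPP]
  have hproj := LinearMap.IsIdempotentElem.isProj_range L hLid
  have htrL : LinearMap.trace (ZMod p) _ L = 1 := by
    rw [hL, Matrix.trace_toLin'_eq, htrP]
  have hrank : finrank (ZMod p) (LinearMap.range L) = 1 := by
    have h1 := hproj.trace
    rw [htrL] at h1
    have h2 : finrank (ZMod p) (LinearMap.range L) ≤ d := by
      have := Submodule.finrank_le (LinearMap.range L)
      simpa using this
    have h3 : ((finrank (ZMod p) (LinearMap.range L) : ℕ) : ZMod p) = ((1 : ℕ) : ZMod p) := by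
      rw [← h1]; simp
    rw [ZMod.natCast_eq_natCast_iff'] at h3
    rw [Nat.mod_eq_of_lt (by omega), Nat.mod_eq_of_lt (by omega)] at h3
    exact h3
  have hxL : x ∈ LinearMap.range L := ⟨x, by rw [hL, Matrix.toLin'_apply, hfix x hx]⟩
  have hyL : y ∈ LinearMap.range L := ⟨y, by rw [hL, Matrix.toLin'_apply, hfix y hy]⟩
  -- two vectors in a one-dimensional space are dependent
  obtain ⟨v, hv⟩ := finrank_eq_one_iff'.mp hrank
  obtain ⟨c1, hc1⟩ := hv.2 ⟨x, hxL⟩
  obtain ⟨c2, hc2⟩ := hv.2 ⟨y, hyL⟩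
  have hc1' : c1 • (v : Fin d → ZMod p) = x := congrArg Subtype.val hc1
  have hc2' : c2 • (v : Fin d → ZMod p) = y := congrArg Subtype.val hc2
  by_cases h2 : c2 = 0
  · refine ⟨0, 1, Or.inr one_ne_zero, ?_⟩
    rw [← hc2', h2]; simp
  · refine ⟨c2, -c1, Or.inl h2, ?_⟩
    rw [← hc1', ← hc2', smul_smul, smul_smul]
    rw [mul_comm, neg_mul, neg_smul, add_neg_cancel]


end LinAlg

/-- **Core lemma (UE).** Let `g` be an automorphism of the number field `K` permuting the `m`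
infinite places cyclically (`g ^ j` fixes a place iff `m ∣ j`).  Let `p > m` be prime and `n : ℤ`
with `n ^ m = 1`, `n ≠ 1` in `ZMod p`.  Two units that are `n`-eigen for `g` modulo `p`-th powers
are dependent modulo torsion and `p`-th powers. -/
theorem exists_rel_of_eigen (g : K ≃ₐ[ℚ] K) (m : ℕ)
    (hfix : ∀ (j : ℕ) (w : InfinitePlace K), (g ^ j) • w = w ↔ m ∣ j)
    (hcard : Fintype.card (InfinitePlace K) = m)
    (p : ℕ) [Fact p.Prime] (hmp : m < p)
    (n : ℤ) (hn1 : (n : ZMod p) ^ m = 1) (hn2 : (n : ZMod p) ≠ 1)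
    (u u' : (𝓞 K)ˣ)
    (hu : ∃ v : (𝓞 K)ˣ, actU g u = u ^ n * v ^ p)
    (hu' : ∃ v : (𝓞 K)ˣ, actU g u' = u' ^ n * v ^ p) :
    ∃ i j : ℕ, ¬ (p ∣ i ∧ p ∣ j) ∧
      ∃ t ∈ torsion K, ∃ v : (𝓞 K)ˣ, u ^ i * u' ^ j = t * v ^ p := by
  classical
  have hp : p.Prime := Fact.out
  have : NeZero p := ⟨hp.ne_zero⟩
  have hm0 : 0 < m := hcard ▸ Fintype.card_pos
  have hd : Units.rank K + 1 = m := by
    unfold Units.rank; omega
  set b := basisUnitLattice K with hb
  set A0 : Matrix (Fin (Units.rank K)) (Fin (Units.rank K)) ℤ :=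
    LinearMap.toMatrixAlgEquiv b (Gam g) with hA0
  set T : Matrix (Fin (Units.rank K)) (Fin (Units.rank K)) (ZMod p) :=
    (Int.castRingHom (ZMod p)).mapMatrix A0 with hT
  have hA0pow : ∀ j : ℕ, A0 ^ j = LinearMap.toMatrix b b (Gam (g ^ j)) := by
    intro j
    rw [hA0, ← map_pow, ← Gam_pow]; rfl
  have hTpow : ∀ j : ℕ, T ^ j = (Int.castRingHom (ZMod p)).mapMatrix (A0 ^ j) := by
    intro j; rw [hT, map_pow]
  have hTm : T ^ m = 1 := by
    have h1 : Gam (g ^ m) = LinearMap.id := by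
      refine LinearMap.ext fun x => Subtype.ext ?_
      rw [coe_Gam, gam_eq_id (g ^ m) (fun w => (hfix m w).mpr dvd_rfl)]
      rfl
    rw [hTpow, hA0pow, h1, LinearMap.toMatrix_id, map_one]
  have htr : ∀ j, 0 < j → j < m → Matrix.trace (T ^ j) = -1 := by
    intro j hj0 hjm
    have h1 : ∀ w : InfinitePlace K, (g ^ j) • w ≠ w := by
      intro w hw
      have := (hfix j w).mp hw
      exact absurd (Nat.le_of_dvd hj0 this) (by omega)
    have h2 := trace_Gam (g ^ j)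
    rw [trace_gam_of_free (g ^ j) h1] at h2
    have h3 : LinearMap.trace ℤ (unitLattice K) (Gam (g ^ j)) = -1 := by exact_mod_cast h2
    rw [LinearMap.trace_eq_matrix_trace ℤ b, ← hA0pow] at h3
    rw [hTpow]
    have h4 := (AddMonoidHom.map_trace (Int.castAddHom (ZMod p)) (A0 ^ j)).symm
    rw [h3] at h4
    simpa using h4
  -- the coordinate vectors
  obtain ⟨v, hv⟩ := hu
  obtain ⟨v', hv'⟩ := hu'
  have heig : ∀ (z w : (𝓞 K)ˣ), actU g z = z ^ n * w ^ p →
      T.mulVec (fun k => ((b.repr (lat z) k : ℤ) : ZMod p)) =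
        (n : ZMod p) • (fun k => ((b.repr (lat z) k : ℤ) : ZMod p)) := by
    intro z w hz
    have h1 : A0.mulVec (b.repr (lat z)) = b.repr (Gam g (lat z)) :=
      LinearMap.toMatrix_mulVec_repr b b (Gam g) (lat z)
    rw [Gam_lat, hz, lat_mul, lat_zpow, lat_pow] at h1
    funext k
    have h2 : A0.mulVec (fun k => b.repr (lat z) k) k =
        (b.repr (n • lat z + (p : ℤ) • lat w)) k := congrFun h1 k
    have h3 := RingHom.map_mulVec (Int.castRingHom (ZMod p)) A0 (fun k => b.repr (lat z) k) k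
    simp only [Function.comp_def, eq_intCast] at h3
    change ((Int.castRingHom (ZMod p)).mapMatrix A0).mulVec _ k = _
    rw [RingHom.mapMatrix_apply, ← h3, h2]
    simp
  have hx := heig u v hv
  have hy := heig u' v' hv'
  obtain ⟨c, c', hcc, hrel⟩ := eigen_dependent hmp hd T hTm htr (n : ZMod p) hn1 hn2 _ _ hx hy
  refine ⟨c.val, c'.val, ?_, ?_⟩
  · rintro ⟨h1, h2⟩
    have e1 : c = 0 := by
      have := (ZMod.natCast_eq_zero_iff c.val p).mpr h1
      rwa [ZMod.natCast_zmod_val] at this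
    have e2 : c' = 0 := by
      have := (ZMod.natCast_eq_zero_iff c'.val p).mpr h2
      rwa [ZMod.natCast_zmod_val] at this
    rcases hcc with h | h
    · exact h e1
    · exact h e2
  · -- divisibility of the combination by `p`
    have hdiv : ∀ k, (p : ℤ) ∣ (c.val : ℤ) * b.repr (lat u) k + (c'.val : ℤ) * b.repr (lat u') k := by
      intro k
      rw [← ZMod.intCast_zmod_eq_zero_iff_dvd]
      have := congrFun hrel k
      simp only [Pi.add_apply, Pi.smul_apply, smul_eq_mul, Pi.zero_apply] at this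
      push_cast
      simpa using this
    choose yZ hyZ using hdiv
    obtain ⟨w, hw⟩ := lat_surjective (b.equivFun.symm yZ)
    have hlat : (c.val : ℤ) • lat u + (c'.val : ℤ) • lat u' = (p : ℤ) • lat w := by
      apply b.equivFun.injective
      funext k
      rw [hw]
      simp only [map_add, map_smul, LinearEquiv.apply_symm_apply, Pi.add_apply, Pi.smul_apply,
        smul_eq_mul, Basis.equivFun_apply]
      exact hyZ k
    refine ⟨u ^ c.val * u' ^ c'.val * (w ^ p)⁻¹, ?_, w, ?_⟩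
    · rw [← lat_eq_zero_iff, lat_mul, lat_mul, lat_pow, lat_pow, ← zpow_natCast, ← zpow_neg,
        lat_zpow, hlat]
      simp
    · rw [inv_mul_cancel_right]

end Fermat.Agent.S14.H468

namespace Fermat.Agent.S14

open NumberField

namespace H468

section aux

variable {K : Type*} [Field K]

/-- If `a = b * c ^ p` in `K` with `a`, `b` units of `𝓞 K`, then `c` comes from a unit of `𝓞 K`. -/
lemma exists_unit_of_eq_mul_pow {p : ℕ} (hp : 0 < p) (a b : (𝓞 K)ˣ) (c : K)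
    (h : algebraMap (𝓞 K) K a = algebraMap (𝓞 K) K b * c ^ p) : ∃ v : (𝓞 K)ˣ, a = b * v ^ p := by
  have hc : c ^ p = algebraMap (𝓞 K) K ((b⁻¹ * a : (𝓞 K)ˣ) : 𝓞 K) := by
    have hbb : algebraMap (𝓞 K) K ((b⁻¹ : (𝓞 K)ˣ) : 𝓞 K) * algebraMap (𝓞 K) K (b : 𝓞 K) = 1 := by
      rw [← map_mul, ← Units.val_mul, inv_mul_cancel, Units.val_one, map_one]
    rw [Units.val_mul, map_mul, h, ← mul_assoc, hbb, one_mul]
  have hci : IsIntegral ℤ c :=
    IsIntegral.of_pow hp (hc ▸ RingOfIntegers.isIntegral_coe ((b⁻¹ * a : (𝓞 K)ˣ) : 𝓞 K))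
  let c' : 𝓞 K := ⟨c, hci⟩
  have hc'pow : c' ^ p = ((b⁻¹ * a : (𝓞 K)ˣ) : 𝓞 K) := by
    apply RingOfIntegers.coe_injective
    rw [← hc, map_pow]
    rfl
  have hu : IsUnit c' := (isUnit_pow_iff hp.ne').mp (hc'pow ▸ Units.isUnit _)
  refine ⟨hu.unit, ?_⟩
  apply Units.ext
  rw [Units.val_mul, Units.val_pow_eq_pow_val, IsUnit.unit_spec, hc'pow, ← Units.val_mul,
    mul_inv_cancel_left]

variable [NumberField K] {p : ℕ} [Fact p.Prime] [IsCyclotomicExtension {p} ℚ K]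

/-- The Galois group of `ℚ(ζ_p)/ℚ` is cyclic of order `p - 1`. -/
lemma exists_gen_gal (K : Type*) [Field K] [NumberField K] (p : ℕ) [Fact p.Prime]
    [IsCyclotomicExtension {p} ℚ K] :
    ∃ g : K ≃ₐ[ℚ] K, (∀ σ : K ≃ₐ[ℚ] K, σ ∈ Subgroup.zpowers g) ∧ orderOf g = p - 1 := by
  have hp : p.Prime := Fact.out
  have : NeZero p := ⟨hp.ne_zero⟩
  have hirr : Irreducible (Polynomial.cyclotomic p ℚ) :=
    Polynomial.cyclotomic.irreducible_rat hp.pos
  let e : (K ≃ₐ[ℚ] K) ≃* (ZMod p)ˣ := IsCyclotomicExtension.autEquivPow K hirr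
  have : IsCyclic (K ≃ₐ[ℚ] K) := isCyclic_of_surjective e.symm e.symm.surjective
  obtain ⟨g, hg⟩ := IsCyclic.exists_generator (α := K ≃ₐ[ℚ] K)
  refine ⟨g, hg, ?_⟩
  rw [orderOf_eq_card_of_forall_mem_zpowers hg, Nat.card_congr e.toEquiv,
    Nat.card_eq_fintype_card, ZMod.card_units]

/-- An automorphism of `ℚ(ζ_p)` fixing `ζ_p` is trivial. -/
lemma algEquiv_eq_one_of_apply {ζ : K} (hζ : IsPrimitiveRoot ζ p) (σ : K ≃ₐ[ℚ] K)
    (h : σ ζ = ζ) : σ = 1 := by
  have hp : p.Prime := Fact.out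
  have : NeZero p := ⟨hp.ne_zero⟩
  apply AlgEquiv.coe_toAlgHom_injective
  apply (hζ.powerBasis ℚ).algHom_ext
  simpa using h

/-- Every infinite place of `ℚ(ζ_p)`, `p ≥ 3`, has a stabilizer of order two. -/
lemma card_stabilizer_eq_two (h3 : 2 < p) (w : InfinitePlace K) :
    Nat.card (MulAction.stabilizer (K ≃ₐ[ℚ] K) w) = 2 := by
  have hp : p.Prime := Fact.out
  have : NeZero p := ⟨hp.ne_zero⟩
  have : IsGalois ℚ K := IsCyclotomicExtension.isGalois {p} ℚ K
  have : IsTotallyComplex K := IsCyclotomicExtension.Rat.isTotallyComplex K h3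
  rw [← InfinitePlace.not_isUnramified_iff_card_stabilizer_eq_two,
    InfinitePlace.not_isUnramified_iff]
  exact ⟨IsTotallyComplex.isComplex w, IsTotallyReal.isReal _⟩

/-- A generator `g` of `Gal(ℚ(ζ_p)/ℚ)` permutes the infinite places cyclically. -/
lemma pow_smul_eq_iff (h3 : 2 < p) (g : K ≃ₐ[ℚ] K)
    (hg : ∀ σ : K ≃ₐ[ℚ] K, σ ∈ Subgroup.zpowers g) (hord : orderOf g = p - 1)
    (j : ℕ) (w : InfinitePlace K) : (g ^ j) • w = w ↔ (p - 1) / 2 ∣ j := by
  have hp : p.Prime := Fact.out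
  obtain ⟨m, hm⟩ : ∃ m, p - 1 = 2 * m := by
    rcases hp.eq_two_or_odd' with h | h
    · omega
    · obtain ⟨q, hq⟩ := h
      exact ⟨q, by omega⟩
  have hm2 : (p - 1) / 2 = m := by omega
  rw [hm2]
  have hcard := card_stabilizer_eq_two h3 w
  set H := MulAction.stabilizer (K ≃ₐ[ℚ] K) w with hH
  have hsq : ∀ σ : K ≃ₐ[ℚ] K, σ ∈ H → σ ^ 2 = 1 := by
    intro σ hσ
    have h1 : (⟨σ, hσ⟩ : H) ^ Nat.card H = 1 := pow_card_eq_one'
    rw [hcard] at h1
    exact congrArg Subtype.val h1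
  have hgm2 : (g ^ m) ^ 2 = 1 := by
    rw [← pow_mul, mul_comm, ← hm, ← hord, pow_orderOf_eq_one]
  -- `g ^ m` lies in the stabilizer
  have hgm : g ^ m ∈ H := by
    have hne : ∃ τ ∈ H, τ ≠ 1 := by
      by_contra hcon
      push Not at hcon
      have : H = ⊥ := (Subgroup.eq_bot_iff_forall H).mpr hcon
      rw [this] at hcard
      simp at hcard
    obtain ⟨τ, hτH, hτ1⟩ := hne
    obtain ⟨i, hi⟩ := Subgroup.mem_zpowers_iff.mp (hg τ)
    have h1 : g ^ (i * 2) = 1 := by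
      rw [zpow_mul, hi]
      exact_mod_cast hsq τ hτH
    have h2 : ((orderOf g : ℕ) : ℤ) ∣ i * 2 := orderOf_dvd_iff_zpow_eq_one.mpr h1
    rw [hord, hm] at h2
    have h3' : (m : ℤ) ∣ i := by
      have : ((2 * m : ℕ) : ℤ) = (m : ℤ) * 2 := by push_cast; ring
      rw [this] at h2
      exact Int.dvd_of_mul_dvd_mul_right (by norm_num) h2
    obtain ⟨e, rfl⟩ := h3'
    have h4 : τ = (g ^ m) ^ e := by
      rw [← hi, zpow_mul, zpow_natCast]
    rcases Int.even_or_odd' e with ⟨f, rfl | rfl⟩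
    · exfalso
      apply hτ1
      rw [h4, zpow_mul, zpow_ofNat, hgm2, one_zpow]
    · have : τ = g ^ m := by
        rw [h4, zpow_add, zpow_mul, zpow_ofNat, hgm2, one_zpow, one_mul, zpow_one]
      rw [← this]
      exact hτH
  constructor
  · intro h
    have h1 : (g ^ j) ^ 2 = 1 := hsq _ (MulAction.mem_stabilizer_iff.mpr h)
    rw [← pow_mul] at h1
    have h2 := orderOf_dvd_of_pow_eq_one h1
    rw [hord, hm, mul_comm] at h2
    exact Nat.dvd_of_mul_dvd_mul_right (by norm_num) h2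
  · rintro ⟨q, rfl⟩
    rw [pow_mul]
    exact MulAction.mem_stabilizer_iff.mp (H.pow_mem hgm q)

end aux

end H468

/-- **W6d** the `ω²`-eigenspace of `E/E^p` is at most one-dimensional. -/
theorem unit_eigen_dependent {p : ℕ} [Fact p.Prime] (h5 : 5 ≤ p) {K : Type*} [Field K]
    [NumberField K] [IsCyclotomicExtension {p} ℚ K] {ζ : K} (hζ : IsPrimitiveRoot ζ p)
    (u₁ u₂ : (𝓞 K)ˣ) (h₁ : EigenSq p ζ ((u₁ : 𝓞 K) : K)) (h₂ : EigenSq p ζ ((u₂ : 𝓞 K) : K)) :
    ∃ (a b : ℕ) (v : (𝓞 K)ˣ), ¬ (p ∣ a ∧ p ∣ b) ∧ u₁ ^ a * u₂ ^ b = v ^ p := by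
  have hp : p.Prime := Fact.out
  have : NeZero p := ⟨hp.ne_zero⟩
  have hodd : Odd p := hp.odd_of_ne_two (by omega)
  obtain ⟨g, hg, hord⟩ := H468.exists_gen_gal K p
  -- the exponent `k` with `g ζ = ζ ^ k`
  have hgζ : IsPrimitiveRoot (g ζ) p := hζ.map_of_injective g.injective
  obtain ⟨k, -, hk⟩ := hζ.eq_pow_of_pow_eq_one hgζ.pow_eq_one
  have hk0 : (k : ZMod p) ≠ 0 := by
    intro h
    rw [ZMod.natCast_eq_zero_iff] at h
    obtain ⟨q, rfl⟩ := h
    rw [pow_mul, hζ.pow_eq_one, one_pow] at hk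
    exact hgζ.ne_one hp.one_lt hk.symm
  have hk2 : ((k : ZMod p)) ^ 2 ≠ 1 := by
    intro h
    have h1 : ((k ^ 2 : ℕ) : ZMod p) = ((1 : ℕ) : ZMod p) := by push_cast; exact h
    rw [ZMod.natCast_eq_natCast_iff'] at h1
    have h2 : (g ^ 2) ζ = ζ := by
      rw [pow_two, AlgEquiv.mul_apply, ← hk, map_pow, ← hk, ← pow_mul, ← pow_two,
        pow_eq_pow_mod _ hζ.pow_eq_one, h1, Nat.mod_eq_of_lt hp.one_lt, pow_one]
    have h3 := H468.algEquiv_eq_one_of_apply hζ (g ^ 2) h2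
    have h4 := orderOf_dvd_of_pow_eq_one h3
    rw [hord] at h4
    have := Nat.le_of_dvd (by norm_num) h4
    omega
  have hk1 : (k : ZMod p) ≠ 1 := by
    intro h
    apply hk2
    rw [h, one_pow]
  -- the eigen relations as unit relations
  have hu : ∀ u : (𝓞 K)ˣ, EigenSq p ζ ((u : 𝓞 K) : K) →
      ∃ v : (𝓞 K)ˣ, H468.actU g u = u ^ ((k ^ 2 : ℕ) : ℤ) * v ^ p := by
    intro u h
    obtain ⟨c, hc⟩ := h g k hk.symm
    rw [zpow_natCast]
    refine H468.exists_unit_of_eq_mul_pow hp.pos (H468.actU g u) (u ^ (k ^ 2)) c ?_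
    rw [Units.val_pow_eq_pow_val, map_pow]
    exact hc
  have hcard : Fintype.card (InfinitePlace K) = (p - 1) / 2 := by
    rw [InfinitePlace.card_eq_nrRealPlaces_add_nrComplexPlaces,
      IsCyclotomicExtension.Rat.nrRealPlaces_eq_zero K (by omega : 2 < p), zero_add,
      IsCyclotomicExtension.Rat.nrComplexPlaces_eq_totient_div_two p K, Nat.totient_prime hp]
  have hn1 : (((k ^ 2 : ℕ) : ℤ) : ZMod p) ^ ((p - 1) / 2) = 1 := by
    push_cast
    rw [← pow_mul, Nat.mul_div_cancel' (hp.even_sub_one (by omega)).two_dvd]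
    exact ZMod.pow_card_sub_one_eq_one hk0
  have hn2 : (((k ^ 2 : ℕ) : ℤ) : ZMod p) ≠ 1 := by
    push_cast
    exact hk2
  obtain ⟨i, j, hij, t, ht, v, hrel⟩ := H468.exists_rel_of_eigen g ((p - 1) / 2)
    (fun j w => H468.pow_smul_eq_iff (by omega) g hg hord j w) hcard p (by omega)
    ((k ^ 2 : ℕ) : ℤ) hn1 hn2 u₁ u₂ (hu u₁ h₁) (hu u₂ h₂)
  -- the torsion element is `(-ζ) ^ r`
  have htK : IsOfFinOrder (algebraMap (𝓞 K) K (t : 𝓞 K)) := by
    have h1 : IsOfFinOrder t := (CommGroup.mem_torsion _).mp ht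
    obtain ⟨n, hn0, hn⟩ := isOfFinOrder_iff_pow_eq_one.mp h1
    refine isOfFinOrder_iff_pow_eq_one.mpr ⟨n, hn0, ?_⟩
    rw [← map_pow, ← Units.val_pow_eq_pow_val, hn, Units.val_one, map_one]
  obtain ⟨r, hr⟩ := hζ.exists_neg_pow_of_isOfFinOrder hodd htK
  have hrelK : algebraMap (𝓞 K) K u₁ ^ i * algebraMap (𝓞 K) K u₂ ^ j =
      (-ζ) ^ r * algebraMap (𝓞 K) K v ^ p := by
    have := congrArg (fun x : (𝓞 K)ˣ => algebraMap (𝓞 K) K (x : 𝓞 K)) hrel
    simp only [Units.val_mul, Units.val_pow_eq_pow_val, map_mul, map_pow] at this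
    rw [this, hr]
  -- apply `g`
  obtain ⟨c₁, hc₁⟩ := h₁ g k hk.symm
  obtain ⟨c₂, hc₂⟩ := h₂ g k hk.symm
  have hc₁' : g (algebraMap (𝓞 K) K u₁) = algebraMap (𝓞 K) K u₁ ^ (k ^ 2) * c₁ ^ p := hc₁
  have hc₂' : g (algebraMap (𝓞 K) K u₂) = algebraMap (𝓞 K) K u₂ ^ (k ^ 2) * c₂ ^ p := hc₂
  have hgrel := congrArg g hrelK
  simp only [map_mul, map_pow, map_neg] at hgrel
  rw [hc₁', hc₂', ← hk] at hgrel
  set V : K := algebraMap (𝓞 K) K v with hV
  set G : K := g V with hG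
  set D : K := V ^ (k ^ 2) * c₁ ^ i * c₂ ^ j with hD
  have hV0 : V ≠ 0 := by
    rw [hV]
    exact RingOfIntegers.coe_ne_zero_iff.mpr v.ne_zero
  have hG0 : G ≠ 0 := by
    rw [hG]
    exact (map_ne_zero g).mpr hV0
  have hζ0 : ζ ≠ 0 := hζ.ne_zero hp.ne_zero
  have hneg : ∀ e : ℕ, (-(ζ ^ e)) ^ (2 * p) = 1 := by
    intro e
    rw [pow_mul, neg_sq]
    calc ((ζ ^ e) ^ 2) ^ p = (ζ ^ p) ^ (2 * e) := by ring
      _ = 1 := by rw [hζ.pow_eq_one, one_pow]
  have hnegζ : (-ζ) ^ (2 * p) = 1 := by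
    have := hneg 1
    rwa [pow_one] at this
  have key : (-ζ) ^ (r * k ^ 2) * D ^ p = (-ζ ^ k) ^ r * G ^ p := by
    rw [← hgrel, hD]
    calc (-ζ) ^ (r * k ^ 2) * (V ^ k ^ 2 * c₁ ^ i * c₂ ^ j) ^ p
        = ((-ζ) ^ r * V ^ p) ^ (k ^ 2) * (c₁ ^ p) ^ i * (c₂ ^ p) ^ j := by ring
      _ = (algebraMap (𝓞 K) K u₁ ^ i * algebraMap (𝓞 K) K u₂ ^ j) ^ (k ^ 2) *
            (c₁ ^ p) ^ i * (c₂ ^ p) ^ j := by rw [hrelK]
      _ = _ := by ring
  -- `D / G` is a root of unity, hence `(D / G) ^ (2 p) = 1`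
  have hfin : IsOfFinOrder (D / G) := by
    refine isOfFinOrder_iff_pow_eq_one.mpr ⟨p * (2 * p), by positivity, ?_⟩
    have h1 : ((-ζ) ^ (r * k ^ 2) * D ^ p) ^ (2 * p) = ((-ζ ^ k) ^ r * G ^ p) ^ (2 * p) := by
      rw [key]
    have h2 : ((-ζ) ^ (r * k ^ 2) * D ^ p) ^ (2 * p) =
        ((-ζ) ^ (2 * p)) ^ (r * k ^ 2) * D ^ (p * (2 * p)) := by ring
    have h3 : ((-ζ ^ k) ^ r * G ^ p) ^ (2 * p) =
        ((-ζ ^ k) ^ (2 * p)) ^ r * G ^ (p * (2 * p)) := by ring
    rw [h2, h3, hnegζ, hneg k, one_pow, one_pow, one_mul, one_mul] at h1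
    rw [div_pow, h1, div_self (pow_ne_zero _ hG0)]
  obtain ⟨s, hs⟩ := hζ.exists_neg_pow_of_isOfFinOrder hodd hfin
  have hDG : D ^ (2 * p) = G ^ (2 * p) := by
    have : (D / G) ^ (2 * p) = 1 := by rw [hs, ← pow_mul, mul_comm, pow_mul, hnegζ, one_pow]
    rw [div_pow, div_eq_one_iff_eq (pow_ne_zero _ hG0)] at this
    exact this
  have h5 : ζ ^ (2 * r * k ^ 2) * D ^ (2 * p) = ζ ^ (2 * k * r) * G ^ (2 * p) := by
    have h1 : ((-ζ) ^ (r * k ^ 2) * D ^ p) ^ 2 = ((-ζ ^ k) ^ r * G ^ p) ^ 2 := by rw [key]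
    have h2 : ((-ζ) ^ (r * k ^ 2) * D ^ p) ^ 2 = ((-ζ) ^ 2) ^ (r * k ^ 2) * D ^ (2 * p) := by
      rw [mul_pow, ← pow_mul, ← pow_mul, mul_comm (r * k ^ 2) 2, mul_comm p 2, pow_mul (-ζ) 2]
    have h3 : ((-ζ ^ k) ^ r * G ^ p) ^ 2 = ((-ζ ^ k) ^ 2) ^ r * G ^ (2 * p) := by
      rw [mul_pow, ← pow_mul, ← pow_mul, mul_comm r 2, mul_comm p 2, pow_mul (-ζ ^ k) 2]
    rw [h2, h3, neg_sq, neg_sq] at h1
    calc ζ ^ (2 * r * k ^ 2) * D ^ (2 * p) = (ζ ^ 2) ^ (r * k ^ 2) * D ^ (2 * p) := by ring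
      _ = ((ζ ^ k) ^ 2) ^ r * G ^ (2 * p) := h1
      _ = _ := by ring
  rw [hDG] at h5
  have h6 : ζ ^ (2 * r * k ^ 2) = ζ ^ (2 * k * r) := mul_right_cancel₀ (pow_ne_zero _ hG0) h5
  have h7 := (hζ.isOfFinOrder hp.ne_zero).pow_inj_mod.mp h6
  rw [← hζ.eq_orderOf] at h7
  have h8 : ((2 * r * k ^ 2 : ℕ) : ZMod p) = ((2 * k * r : ℕ) : ZMod p) :=
    (ZMod.natCast_eq_natCast_iff' _ _ _).mpr h7
  push_cast at h8
  have h9 : (2 * (k : ZMod p) * ((k : ZMod p) - 1)) * (r : ZMod p) = 0 := by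
    linear_combination h8
  have h2ne : (2 : ZMod p) ≠ 0 := by
    intro h
    have h' : ((2 : ℕ) : ZMod p) = 0 := by exact_mod_cast h
    rw [ZMod.natCast_eq_zero_iff] at h'
    have := Nat.le_of_dvd (by norm_num) h'
    omega
  have hr0 : (r : ZMod p) = 0 := by
    rcases mul_eq_zero.mp h9 with h | h
    · rcases mul_eq_zero.mp h with h | h
      · rcases mul_eq_zero.mp h with h | h
        · exact absurd h h2ne
        · exact absurd h hk0
      · exact absurd (sub_eq_zero.mp h) hk1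
    · exact h
  rw [ZMod.natCast_eq_zero_iff] at hr0
  obtain ⟨q, rfl⟩ := hr0
  -- now `t = ((-1) ^ q) ^ p`
  refine ⟨i, j, (-1 : (𝓞 K)ˣ) ^ q * v, hij, ?_⟩
  rw [hrel, mul_pow]
  congr 1
  apply Units.ext
  apply RingOfIntegers.coe_injective
  rw [hr, pow_mul, hodd.neg_pow, hζ.pow_eq_one, ← pow_mul, mul_comm, pow_mul, hodd.neg_one_pow]
  simp

end Fermat.Agent.S14
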