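/-
S14 package W6e (helper4927): calculus of `LocalPow` (being a `p`-th power modulo `λ³` up to
`p`-th powers).
-/
import Fermat.Agent.S14.Defs

set_option autoImplicit false
set_option linter.unusedVariables false

namespace Fermat.Agent.S14

open NumberField

/-- Integral form of `LocalPow`: the numerator and denominator live in `𝓞 K` and the
non-divisibility is divisibility in `𝓞 K` by an integer `lam` with `(lam : K) = ζ - 1`. -/
theorem localPow_iff_int_W6e (p : ℕ) {K : Type*} [Field K] [NumberField K] (ζ : K)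
    (lam : 𝓞 K) (hlam : algebraMap (𝓞 K) K lam = ζ - 1) (A : K) :
    LocalPow p ζ A ↔ ∃ (y : K) (a b : 𝓞 K), y ≠ 0 ∧ ¬ lam ∣ b ∧
      (A * y ^ p - 1) * algebraMap (𝓞 K) K b = (ζ - 1) ^ 3 * algebraMap (𝓞 K) K a := by
  constructor
  · rintro ⟨y, a, b, hy, ha, hb, hndvd, heq⟩
    obtain ⟨a', rfl⟩ := (IsIntegralClosure.isIntegral_iff (A := 𝓞 K)).mp ha
    obtain ⟨b', rfl⟩ := (IsIntegralClosure.isIntegral_iff (A := 𝓞 K)).mp hb
    refine ⟨y, a', b', hy, ?_, heq⟩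
    rintro ⟨c, hc⟩
    apply hndvd
    refine ⟨algebraMap (𝓞 K) K c, RingOfIntegers.isIntegral_coe c, ?_⟩
    rw [hc, map_mul, hlam]
  · rintro ⟨y, a, b, hy, hndvd, heq⟩
    refine ⟨y, algebraMap (𝓞 K) K a, algebraMap (𝓞 K) K b, hy, RingOfIntegers.isIntegral_coe a,
      RingOfIntegers.isIntegral_coe b, ?_, heq⟩
    rintro ⟨b', hb', hbb'⟩
    apply hndvd
    obtain ⟨c, rfl⟩ := (IsIntegralClosure.isIntegral_iff (A := 𝓞 K)).mp hb'
    refine ⟨c, ?_⟩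
    apply RingOfIntegers.coe_injective
    rw [map_mul, hlam]
    exact hbb'

/-- **W6e** calculus of `LocalPow`: it only depends on the class modulo `p`-th powers … -/
theorem localPow_mul_pow_iff (p : ℕ) {K : Type*} [Field K] [NumberField K] (ζ : K) (A w : K)
    (hw : w ≠ 0) : LocalPow p ζ (A * w ^ p) ↔ LocalPow p ζ A := by
  constructor
  · rintro ⟨y, a, b, hy, ha, hb, hndvd, heq⟩
    refine ⟨w * y, a, b, mul_ne_zero hw hy, ha, hb, hndvd, ?_⟩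
    rw [← heq, mul_pow]
    ring
  · rintro ⟨y, a, b, hy, ha, hb, hndvd, heq⟩
    refine ⟨y / w, a, b, div_ne_zero hy hw, ha, hb, hndvd, ?_⟩
    rw [← heq, div_pow]
    have hwp : w ^ p ≠ 0 := pow_ne_zero _ hw
    congr 2
    field_simp

/-- … and is compatible with division (needs `λ = ζ - 1` prime, i.e. `ζ` a primitive `p`-th root
in the `p`-th cyclotomic field). -/
theorem localPow_of_mul {p : ℕ} [Fact p.Prime] (h3 : 3 ≤ p) {K : Type*} [Field K]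
    [NumberField K] [IsCyclotomicExtension {p} ℚ K] {ζ : K} (hζ : IsPrimitiveRoot ζ p) {A B : K}
    (hAB : LocalPow p ζ (A * B)) (hB : LocalPow p ζ B) : LocalPow p ζ A := by
  have hp : p.Prime := Fact.out
  have : NeZero p := ⟨hp.ne_zero⟩
  have hprime : Prime (hζ.toInteger - 1) := hζ.zeta_sub_one_prime'
  have hlam : algebraMap (𝓞 K) K (hζ.toInteger - 1) = ζ - 1 := by
    rw [map_sub, map_one]; rfl
  rw [localPow_iff_int_W6e p ζ _ hlam] at hAB hB ⊢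
  obtain ⟨y₁, a₁, b₁, hy₁, hb₁, h₁⟩ := hAB
  obtain ⟨y₂, a₂, b₂, hy₂, hb₂, h₂⟩ := hB
  have hc₂ : ¬ (hζ.toInteger - 1) ∣ b₂ + (hζ.toInteger - 1) ^ 3 * a₂ := by
    intro h
    apply hb₂
    have h' : (hζ.toInteger - 1) ∣ (hζ.toInteger - 1) ^ 3 * a₂ :=
      Dvd.dvd.mul_right (dvd_pow_self _ (by norm_num)) _
    exact (dvd_add_left h').mp h
  refine ⟨y₁ / y₂, a₁ * b₂ - b₁ * a₂, b₁ * (b₂ + (hζ.toInteger - 1) ^ 3 * a₂),
    div_ne_zero hy₁ hy₂, ?_, ?_⟩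
  · intro h
    rcases hprime.dvd_or_dvd h with h | h
    · exact hb₁ h
    · exact hc₂ h
  · have e1 : A * B * y₁ ^ p * algebraMap (𝓞 K) K b₁ =
        algebraMap (𝓞 K) K b₁ + (ζ - 1) ^ 3 * algebraMap (𝓞 K) K a₁ := by
      linear_combination h₁
    have e2 : B * y₂ ^ p * algebraMap (𝓞 K) K b₂ =
        algebraMap (𝓞 K) K b₂ + (ζ - 1) ^ 3 * algebraMap (𝓞 K) K a₂ := by
      linear_combination h₂
    have hy₂p : y₂ ^ p ≠ 0 := pow_ne_zero _ hy₂
    have e3 : A * (y₁ ^ p / y₂ ^ p) * (algebraMap (𝓞 K) K b₁ *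
        (algebraMap (𝓞 K) K b₂ + (ζ - 1) ^ 3 * algebraMap (𝓞 K) K a₂)) =
        (algebraMap (𝓞 K) K b₁ + (ζ - 1) ^ 3 * algebraMap (𝓞 K) K a₁) * algebraMap (𝓞 K) K b₂ := by
      rw [← e2, ← e1]
      field_simp
    rw [div_pow, map_mul, map_add, map_mul, map_pow, hlam, map_sub, map_mul, map_mul]
    generalize algebraMap (𝓞 K) K a₁ = α₁ at h₁ e1 e3 ⊢
    generalize algebraMap (𝓞 K) K a₂ = α₂ at h₂ e2 e3 ⊢
    generalize algebraMap (𝓞 K) K b₁ = β₁ at h₁ e1 e3 ⊢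
    generalize algebraMap (𝓞 K) K b₂ = β₂ at h₂ e2 e3 ⊢
    linear_combination e3

theorem LocalPow.pow {p : ℕ} [Fact p.Prime] (h3 : 3 ≤ p) {K : Type*} [Field K]
    [NumberField K] [IsCyclotomicExtension {p} ℚ K] {ζ : K} (hζ : IsPrimitiveRoot ζ p) {A : K}
    (hA : LocalPow p ζ A) (n : ℕ) : LocalPow p ζ (A ^ n) := by
  have hp : p.Prime := Fact.out
  have : NeZero p := ⟨hp.ne_zero⟩
  have hprime : Prime (hζ.toInteger - 1) := hζ.zeta_sub_one_prime'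
  have hlam : algebraMap (𝓞 K) K (hζ.toInteger - 1) = ζ - 1 := by
    rw [map_sub, map_one]; rfl
  rw [localPow_iff_int_W6e p ζ _ hlam] at hA ⊢
  obtain ⟨y, a, b, hy, hb, h⟩ := hA
  refine ⟨y ^ n, a * ∑ i ∈ Finset.range n, (b + (hζ.toInteger - 1) ^ 3 * a) ^ i * b ^ (n - 1 - i),
    b ^ n, pow_ne_zero _ hy, fun hdvd => hb (hprime.dvd_of_dvd_pow hdvd), ?_⟩
  have e1 : A * y ^ p * algebraMap (𝓞 K) K b =
      algebraMap (𝓞 K) K b + (ζ - 1) ^ 3 * algebraMap (𝓞 K) K a := by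
    linear_combination h
  have e2 : (A ^ n * (y ^ n) ^ p - 1) * algebraMap (𝓞 K) K (b ^ n) =
      (algebraMap (𝓞 K) K b + (ζ - 1) ^ 3 * algebraMap (𝓞 K) K a) ^ n -
        (algebraMap (𝓞 K) K b) ^ n := by
    rw [← e1, map_pow]
    ring
  rw [e2, ← geom_sum₂_mul, map_mul, map_sum]
  have e3 : ∀ i ∈ Finset.range n,
      (algebraMap (𝓞 K) K) ((b + (hζ.toInteger - 1) ^ 3 * a) ^ i * b ^ (n - 1 - i)) =
        (algebraMap (𝓞 K) K b + (ζ - 1) ^ 3 * algebraMap (𝓞 K) K a) ^ i *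
          (algebraMap (𝓞 K) K b) ^ (n - 1 - i) := by
    intro i _
    rw [map_mul, map_pow, map_pow, map_add, map_mul, map_pow, hlam]
  rw [Finset.sum_congr rfl e3]
  ring

end Fermat.Agent.S14
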