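/-
S14, package W7a (helper7987): existence of good primes outside a proper subgroup of the class
group, as a consequence of the interface statements W5c, W5d, W5e, W5f, W6a, W6c of the skeleton
(`Fermat/Agent/S14/Skeleton.lean` of helper494).  The dependencies are taken as hypotheses, stated
verbatim as in the skeleton, so that this file only imports `Defs`.
-/
import Fermat.Agent.S14.Defs

set_option autoImplicit false

namespace Fermat.Agent.S14

open ExtCitation NumberField IsDedekindDomain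
open scoped nonZeroDivisors

/-- If `x ^ p = η` in `K` then `η ^ 1` is trivially a local `p`-th power. -/
theorem W7a_localPow_of_eq_pow {p : ℕ} [Fact p.Prime] {K : Type*} [Field K]
    [NumberField K] [IsCyclotomicExtension {p} ℚ K] {ζ : K} (hζ : IsPrimitiveRoot ζ p)
    {A x : K} (hA : A ≠ 0) (hx : x ^ p = A) : LocalPow p ζ (A ^ 1) := by
  have hp : p.Prime := Fact.out
  have hx0 : x ≠ 0 := by
    rintro rfl
    rw [zero_pow hp.ne_zero] at hx
    exact hA hx.symm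
  refine ⟨x⁻¹, 0, 1, inv_ne_zero hx0, isIntegral_zero, isIntegral_one, ?_, ?_⟩
  · rintro ⟨b', hb', h1⟩
    have hprime : Prime (hζ.toInteger - 1) := hζ.zeta_sub_one_prime'
    apply hprime.not_isUnit
    obtain ⟨b'', rfl⟩ : ∃ b'' : 𝓞 K, (b'' : K) = b' := ⟨⟨b', hb'⟩, rfl⟩
    refine IsUnit.of_mul_eq_one b'' ?_
    apply FaithfulSMul.algebraMap_injective (𝓞 K) K
    rw [map_mul, map_sub, map_one]
    exact h1.symm
  · rw [pow_one, inv_pow, ← hx, mul_inv_cancel₀ (pow_ne_zero p hx0)]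
    simp

/-- **W7a** (conditional form).  Existence of good primes outside any proper subgroup of the class
group, from the interface statements W5c, W5d, W5e, W5f, W6a, W6c. -/
theorem exists_good_prime_of {p : ℕ} [Fact p.Prime] (h5 : 5 ≤ p) {K : Type*} [Field K]
    [NumberField K] [IsCyclotomicExtension {p} ℚ K] {ζ : K} (hζ : IsPrimitiveRoot ζ p)
    (hW5c : ∃ c C : ℝ, 0 < c ∧ ∀ s : ℝ, 1 < s → s ≤ 2 →
      c ≤ (s - 1) * idealZeta K s ∧ (s - 1) * idealZeta K s ≤ C)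
    (hW5d : ∀ U : Subgroup (ClassGroup (𝓞 K)), U ≠ ⊤ →
      ∃ B : ℝ, ∀ s : ℝ, 1 < s → s ≤ 2 → ∀ M : ℝ,
        (∀ S : Finset (HeightOneSpectrum (𝓞 K)),
          (∀ v ∈ S, ClassGroup.mk0 ⟨v.asIdeal, mem_nonZeroDivisors_of_ne_zero v.ne_bot⟩ ∉ U) →
          ∑ v ∈ S, (Ideal.absNorm v.asIdeal : ℝ) ^ (-s) ≤ M) →
        idealZeta K s ≤ B * Real.exp (3 * M))
    (hW5e : ∀ u : 𝓞 K, (¬ ∃ x : K, x ^ p = (u : K)) →
      ∃ C : ℝ, ∀ s : ℝ, 1 < s → s ≤ 2 → ∀ S : Finset (HeightOneSpectrum (𝓞 K)),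
        (∀ v ∈ S, (p : 𝓞 K) ∉ v.asIdeal ∧ u ∉ v.asIdeal ∧ ∃ x : 𝓞 K, x ^ p - u ∈ v.asIdeal) →
        ∑ v ∈ S, (Ideal.absNorm v.asIdeal : ℝ) ^ (-s) ≤ (1 / p) * Real.log (1 / (s - 1)) + C)
    (hW5f : ∃ C : ℝ, ∀ s : ℝ, 1 < s → ∀ S : Finset (HeightOneSpectrum (𝓞 K)),
      (∀ v ∈ S, ¬ (Ideal.absNorm v.asIdeal).Prime) →
      ∑ v ∈ S, (Ideal.absNorm v.asIdeal : ℝ) ^ (-s) ≤ C)
    (hW6a : IsUnit (etaInt hζ))
    (hW6c : ∀ j : ℕ, LocalPow p ζ (etaK p ζ ^ j) → p ∣ j)
    (U : Subgroup (ClassGroup (𝓞 K))) (hU : U ≠ ⊤) :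
    ∃ 𝔩 : (Ideal (𝓞 K))⁰, (𝔩 : Ideal (𝓞 K)).IsPrime ∧
      (Ideal.absNorm (𝔩 : Ideal (𝓞 K))).Prime ∧ (p : 𝓞 K) ∉ (𝔩 : Ideal (𝓞 K)) ∧
      (¬ ∃ x : 𝓞 K, x ^ p - etaInt hζ ∈ (𝔩 : Ideal (𝓞 K))) ∧ ClassGroup.mk0 𝔩 ∉ U := by
  classical
  have hp : p.Prime := Fact.out
  have hp0 : (0 : ℝ) < p := by exact_mod_cast hp.pos
  by_contra hcon
  push Not at hcon
  -- `η` is not a `p`-th power in `K`
  have hη0 : (etaInt hζ : K) ≠ 0 := by
    intro h0
    have : etaInt hζ = 0 := by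
      apply RingOfIntegers.ext
      simpa using h0
    exact hW6a.ne_zero this
  have hηpow : ¬ ∃ x : K, x ^ p = (etaInt hζ : K) := by
    rintro ⟨x, hx⟩
    have hloc : LocalPow p ζ ((etaInt hζ : K) ^ 1) := W7a_localPow_of_eq_pow hζ hη0 hx
    rw [coe_etaInt] at hloc
    have := hW6c 1 hloc
    have h1 : p ≤ 1 := Nat.le_of_dvd one_pos this
    omega
  obtain ⟨c, _C0, hc, hzeta⟩ := hW5c
  obtain ⟨B, hB⟩ := hW5d U hU
  obtain ⟨Ce, hCe⟩ := hW5e (etaInt hζ) hηpow
  obtain ⟨Cf, hCf⟩ := hW5f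
  -- the finitely many primes over `p`
  have hpne : (Ideal.span {(p : 𝓞 K)} : Ideal (𝓞 K)) ≠ 0 := by
    rw [Ne, Ideal.zero_eq_bot, Ideal.span_singleton_eq_bot]
    exact_mod_cast hp.ne_zero
  have hfin : {v : HeightOneSpectrum (𝓞 K) | v.asIdeal ∣ Ideal.span {(p : 𝓞 K)}}.Finite :=
    Ideal.finite_factors hpne
  set Pp : Finset (HeightOneSpectrum (𝓞 K)) := hfin.toFinset with hPp
  set Cp : ℝ := (Pp.card : ℝ) with hCp
  have hterm_le_one : ∀ (s : ℝ), 1 < s → ∀ v : HeightOneSpectrum (𝓞 K),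
      (Ideal.absNorm v.asIdeal : ℝ) ^ (-s) ≤ 1 := by
    intro s hs v
    have h1 : (1 : ℝ) ≤ (Ideal.absNorm v.asIdeal : ℝ) := by
      have : 0 < Ideal.absNorm v.asIdeal :=
        Nat.pos_of_ne_zero (fun h => v.ne_bot (Ideal.absNorm_eq_zero_iff.mp h))
      exact_mod_cast this
    exact Real.rpow_le_one_of_one_le_of_nonpos h1 (by linarith)
  have hterm_nonneg : ∀ (s : ℝ) (v : HeightOneSpectrum (𝓞 K)),
      0 ≤ (Ideal.absNorm v.asIdeal : ℝ) ^ (-s) := fun s v => by positivity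
  -- the key bound on finite sums over primes with class outside `U`
  have hM : ∀ s : ℝ, 1 < s → s ≤ 2 → ∀ S : Finset (HeightOneSpectrum (𝓞 K)),
      (∀ v ∈ S, ClassGroup.mk0 ⟨v.asIdeal, mem_nonZeroDivisors_of_ne_zero v.ne_bot⟩ ∉ U) →
      ∑ v ∈ S, (Ideal.absNorm v.asIdeal : ℝ) ^ (-s) ≤
        (1 / p) * Real.log (1 / (s - 1)) + (Ce + Cf + Cp) := by
    intro s hs hs2 S hS
    set f : HeightOneSpectrum (𝓞 K) → ℝ := fun v => (Ideal.absNorm v.asIdeal : ℝ) ^ (-s) with hf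
    -- split off the primes of non-prime norm
    have h1 := Finset.sum_filter_add_sum_filter_not S
      (fun v : HeightOneSpectrum (𝓞 K) => (Ideal.absNorm v.asIdeal).Prime) f
    -- split the primes of prime norm into those over `p` and the others
    have h2 := Finset.sum_filter_add_sum_filter_not
      (S.filter (fun v : HeightOneSpectrum (𝓞 K) => (Ideal.absNorm v.asIdeal).Prime))
      (fun v : HeightOneSpectrum (𝓞 K) => (p : 𝓞 K) ∈ v.asIdeal) f
    have b1 : ∑ v ∈ S.filter (fun v : HeightOneSpectrum (𝓞 K) =>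
        ¬ (Ideal.absNorm v.asIdeal).Prime), f v ≤ Cf := by
      apply hCf s hs
      intro v hv
      exact (Finset.mem_filter.mp hv).2
    have b2 : ∑ v ∈ (S.filter (fun v : HeightOneSpectrum (𝓞 K) =>
        (Ideal.absNorm v.asIdeal).Prime)).filter
          (fun v : HeightOneSpectrum (𝓞 K) => (p : 𝓞 K) ∈ v.asIdeal), f v ≤ Cp := by
      have hsub : (S.filter (fun v : HeightOneSpectrum (𝓞 K) =>
          (Ideal.absNorm v.asIdeal).Prime)).filter
            (fun v : HeightOneSpectrum (𝓞 K) => (p : 𝓞 K) ∈ v.asIdeal) ⊆ Pp := by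
        intro v hv
        rw [hPp, Set.Finite.mem_toFinset, Set.mem_ofPred_eq, Ideal.dvd_span_singleton]
        exact (Finset.mem_filter.mp hv).2
      calc _ ≤ ∑ v ∈ Pp, f v :=
            Finset.sum_le_sum_of_subset_of_nonneg hsub (fun v _ _ => hterm_nonneg s v)
        _ ≤ ∑ _v ∈ Pp, (1 : ℝ) := Finset.sum_le_sum (fun v _ => hterm_le_one s hs v)
        _ = Cp := by simp [hCp]
    have b3 : ∑ v ∈ (S.filter (fun v : HeightOneSpectrum (𝓞 K) =>
        (Ideal.absNorm v.asIdeal).Prime)).filter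
          (fun v : HeightOneSpectrum (𝓞 K) => ¬ (p : 𝓞 K) ∈ v.asIdeal), f v ≤
        (1 / p) * Real.log (1 / (s - 1)) + Ce := by
      apply hCe s hs hs2
      intro v hv
      obtain ⟨hv1, hvp⟩ := Finset.mem_filter.mp hv
      obtain ⟨hvS, hvprime⟩ := Finset.mem_filter.mp hv1
      refine ⟨hvp, ?_, ?_⟩
      · intro hmem
        exact v.isPrime.ne_top (Ideal.eq_top_of_isUnit_mem _ hmem hW6a)
      · by_contra hno
        exact hS v hvS
          (hcon ⟨v.asIdeal, mem_nonZeroDivisors_of_ne_zero v.ne_bot⟩ v.isPrime hvprime hvp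
            (fun x hx => hno ⟨x, hx⟩))
    calc ∑ v ∈ S, f v
        = (∑ v ∈ (S.filter (fun v : HeightOneSpectrum (𝓞 K) =>
            (Ideal.absNorm v.asIdeal).Prime)).filter
              (fun v : HeightOneSpectrum (𝓞 K) => (p : 𝓞 K) ∈ v.asIdeal), f v +
          ∑ v ∈ (S.filter (fun v : HeightOneSpectrum (𝓞 K) =>
            (Ideal.absNorm v.asIdeal).Prime)).filter
              (fun v : HeightOneSpectrum (𝓞 K) => ¬ (p : 𝓞 K) ∈ v.asIdeal), f v) +
          ∑ v ∈ S.filter (fun v : HeightOneSpectrum (𝓞 K) =>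
            ¬ (Ideal.absNorm v.asIdeal).Prime), f v := by rw [h2, h1]
      _ ≤ (Cp + ((1 / p) * Real.log (1 / (s - 1)) + Ce)) + Cf := by gcongr
      _ = (1 / p) * Real.log (1 / (s - 1)) + (Ce + Cf + Cp) := by ring
  -- choose `s = 1 + exp (-L)` with `L` large
  set Ct : ℝ := Ce + Cf + Cp with hCt
  set θ : ℝ := 1 - 3 / p with hθ
  have hθpos : 0 < θ := by
    have h5' : (5 : ℝ) ≤ p := by exact_mod_cast h5
    have : (3 : ℝ) / p < 1 := by
      rw [div_lt_one hp0]; linarith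
    rw [hθ]; linarith
  set E : ℝ := |B| * Real.exp (3 * Ct) + 1 with hE
  have hEpos : 0 < E := by positivity
  set L : ℝ := max 0 (Real.log (E / c) / θ) + 1 with hL
  have hL0 : 0 < L := by
    have : (0 : ℝ) ≤ max 0 (Real.log (E / c) / θ) := le_max_left _ _
    linarith
  have hLθ : Real.log (E / c) < L * θ := by
    have h1 : Real.log (E / c) / θ ≤ max 0 (Real.log (E / c) / θ) := le_max_right _ _
    have h2 : Real.log (E / c) / θ < L := by linarith
    exact (div_lt_iff₀ hθpos).mp h2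
  set t : ℝ := Real.exp (-L) with ht
  have ht0 : 0 < t := Real.exp_pos _
  have ht1 : t ≤ 1 := by
    rw [ht, Real.exp_le_one_iff]; linarith
  have hs1 : (1 : ℝ) < 1 + t := by linarith
  have hs2 : 1 + t ≤ 2 := by linarith
  have hzc := (hzeta (1 + t) hs1 hs2).1
  have hZ := hB (1 + t) hs1 hs2 ((1 / p) * Real.log (1 / (1 + t - 1)) + Ct)
    (fun S hS => hM (1 + t) hs1 hs2 S hS)
  have hlog : Real.log (1 / (1 + t - 1)) = L := by
    rw [add_sub_cancel_left, one_div, Real.log_inv, ht, Real.log_exp, neg_neg]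
  rw [hlog] at hZ
  have hexp : Real.exp (3 * ((1 / p) * L + Ct)) = Real.exp (3 * Ct) * Real.exp (3 / p * L) := by
    rw [← Real.exp_add]; congr 1; ring
  have hkey : (1 + t - 1) * idealZeta K (1 + t) ≤ t * (|B| * Real.exp (3 * Ct) * Real.exp (3 / p * L)) := by
    rw [add_sub_cancel_left]
    apply mul_le_mul_of_nonneg_left _ ht0.le
    calc idealZeta K (1 + t) ≤ B * Real.exp (3 * ((1 / p) * L + Ct)) := hZ
      _ ≤ |B| * Real.exp (3 * ((1 / p) * L + Ct)) :=
        mul_le_mul_of_nonneg_right (le_abs_self B) (Real.exp_pos _).le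
      _ = |B| * Real.exp (3 * Ct) * Real.exp (3 / p * L) := by rw [hexp]; ring
  have hprod : t * Real.exp (3 / p * L) = Real.exp (-(L * θ)) := by
    rw [ht, ← Real.exp_add]; congr 1; rw [hθ]; ring
  have hsmall : Real.exp (-(L * θ)) < c / E := by
    have h1 : Real.exp (-(L * θ)) < Real.exp (-Real.log (E / c)) := by
      apply Real.exp_lt_exp.mpr; linarith
    have h2 : Real.exp (-Real.log (E / c)) = c / E := by
      rw [Real.exp_neg, Real.exp_log (div_pos hEpos hc), inv_div]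
    rw [h2] at h1; exact h1
  have hfinal : c < c := by
    calc c ≤ (1 + t - 1) * idealZeta K (1 + t) := hzc
      _ ≤ t * (|B| * Real.exp (3 * Ct) * Real.exp (3 / p * L)) := hkey
      _ = (|B| * Real.exp (3 * Ct)) * (t * Real.exp (3 / p * L)) := by ring
      _ = (|B| * Real.exp (3 * Ct)) * Real.exp (-(L * θ)) := by rw [hprod]
      _ ≤ E * Real.exp (-(L * θ)) := by
          apply mul_le_mul_of_nonneg_right _ (Real.exp_pos _).le
          rw [hE]; linarith
      _ < E * (c / E) := mul_lt_mul_of_pos_left hsmall hEpos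
      _ = c := by field_simp
  exact lt_irrefl c hfinal

end Fermat.Agent.S14
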