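/-
S14 package W7b (helper8084): the `ω²`-part of `Cl(K)[p]` vanishes, given Thaine's relation (W4)
and the existence of good primes (W7a) as hypotheses.  Statement of `principal_of_pow_eigen`
is the one of helper494's skeleton (commit 7b5b7b067).
-/
import Fermat.Agent.S14.Defs
import Fermat.Prelude.Def_ClassGroup_GaloisAction

set_option autoImplicit false

namespace Fermat.Agent.S14

open NumberField
open scoped nonZeroDivisors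

namespace W7b8084

section general

/-- `n`-th roots of ideals of a Dedekind domain are unique. -/
theorem ideal_pow_left_inj {R : Type*} [CommRing R] [IsDedekindDomain R] {n : ℕ} (hn : n ≠ 0)
    {X Y : Ideal R} (h : X ^ n = Y ^ n) : X = Y := by
  have h1 : X ∣ Y := (UniqueFactorizationMonoid.pow_dvd_pow_iff_dvd hn).mp (dvd_of_eq h)
  have h2 : Y ∣ X := (UniqueFactorizationMonoid.pow_dvd_pow_iff_dvd hn).mp (dvd_of_eq h.symm)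
  exact le_antisymm (Ideal.le_of_dvd h2) (Ideal.le_of_dvd h1)

/-- In a finite commutative group an element killed by `p` which is a `p^i`-th power for every
`i` is trivial. -/
theorem eq_one_of_forall_pow {G : Type*} [CommGroup G] [Finite G] {p : ℕ} (hp : p.Prime) (y : G)
    (hy : y ^ p = 1) (h : ∀ i : ℕ, ∃ z : G, y = z ^ (p ^ i)) : y = 1 := by
  have hcard : Nat.card G ≠ 0 := Nat.card_pos.ne'
  obtain ⟨a, m, hm, hcm⟩ := Nat.exists_eq_pow_mul_and_not_dvd hcard p hp.ne_one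
  obtain ⟨z, hz⟩ := h a
  have h1 : y ^ m = 1 := by
    rw [hz, ← pow_mul, ← hcm]
    exact pow_card_eq_one'
  have h2 : y ^ (Nat.gcd p m) = 1 := pow_gcd_eq_one.mpr ⟨hy, h1⟩
  have h3 : Nat.gcd p m = 1 := (Nat.Prime.coprime_iff_not_dvd hp).mpr hm
  rwa [h3, pow_one] at h2

end general

section cyclo

variable {p : ℕ} [Fact p.Prime] {K : Type*} [Field K] [NumberField K]

/-- The action of `σ ∈ Gal(K/ℚ)` on the class group. -/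
noncomputable def act (σ : K ≃ₐ[ℚ] K) : ClassGroup (𝓞 K) ≃* ClassGroup (𝓞 K) :=
  ClassGroup.mulEquiv (galRestrictionDatum ℤ ℚ K (𝓞 K) σ)

theorem act_mk0 (σ : K ≃ₐ[ℚ] K) (P : (Ideal (𝓞 K))⁰) :
    act σ (ClassGroup.mk0 P) =
      ClassGroup.mk0 (Ideal.mapNonZero (galRestrictionDatum ℤ ℚ K (𝓞 K) σ) P) :=
  ClassGroup.mulEquiv_mk0 _ P

theorem coe_mapNonZero (σ : K ≃ₐ[ℚ] K) (P : (Ideal (𝓞 K))⁰) :
    ((Ideal.mapNonZero (galRestrictionDatum ℤ ℚ K (𝓞 K) σ) P : (Ideal (𝓞 K))⁰) : Ideal (𝓞 K)) =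
      (P : Ideal (𝓞 K)).map (galRestrict ℤ ℚ K (𝓞 K) σ) := rfl

/-- Thaine's operator `ε₂ = ∑_σ m_σ σ` on the class group. -/
noncomputable def eps2 {ζ : K} (hζ : IsPrimitiveRoot ζ p) :
    ClassGroup (𝓞 K) →* ClassGroup (𝓞 K) :=
  ∏ σ : K ≃ₐ[ℚ] K, (act σ).toMonoidHom ^ expInvSq hζ σ

theorem eps2_apply {ζ : K} (hζ : IsPrimitiveRoot ζ p) (c : ClassGroup (𝓞 K)) :
    eps2 hζ c = ∏ σ : K ≃ₐ[ℚ] K, (act σ c) ^ expInvSq hζ σ := by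
  simp [eps2]

/-- From the ideal relation of W4 to a relation in the class group. -/
theorem eps2_mk0_of_relation {ζ : K} (hζ : IsPrimitiveRoot ζ p) (𝔩 : (Ideal (𝓞 K))⁰)
    (h : ∃ (J : Ideal (𝓞 K)) (δ : 𝓞 K), δ ≠ 0 ∧
      (∏ σ : K ≃ₐ[ℚ] K, ((𝔩 : Ideal (𝓞 K)).map (galRestrict ℤ ℚ K (𝓞 K) σ)) ^ expInvSq hζ σ) *
        J ^ p = Ideal.span {δ}) :
    ∃ d : ClassGroup (𝓞 K), eps2 hζ (ClassGroup.mk0 𝔩) = d ^ p := by
  have hp0 : p ≠ 0 := (Fact.out : p.Prime).ne_zero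
  obtain ⟨J, δ, hδ, hJ⟩ := h
  have hJ0 : J ≠ ⊥ := by
    rintro rfl
    rw [← Ideal.zero_eq_bot, zero_pow hp0, mul_zero] at hJ
    exact hδ (Ideal.span_singleton_eq_bot.mp hJ.symm)
  let J0 : (Ideal (𝓞 K))⁰ := ⟨J, mem_nonZeroDivisors_of_ne_zero hJ0⟩
  let P : (Ideal (𝓞 K))⁰ :=
    (∏ σ : K ≃ₐ[ℚ] K,
      (Ideal.mapNonZero (galRestrictionDatum ℤ ℚ K (𝓞 K) σ) 𝔩) ^ expInvSq hζ σ) * J0 ^ p
  have hP : (P : Ideal (𝓞 K)) = Ideal.span {δ} := by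
    rw [← hJ]
    simp only [P, J0, Submonoid.coe_mul, Submonoid.coe_finsetProd, SubmonoidClass.coe_pow,
      coe_mapNonZero]
  have h1 : ClassGroup.mk0 P = 1 := (ClassGroup.mk0_eq_one_iff P.2).mpr ⟨δ, hP⟩
  have h2 : ClassGroup.mk0 P = eps2 hζ (ClassGroup.mk0 𝔩) * (ClassGroup.mk0 J0) ^ p := by
    simp only [P, map_mul, map_prod, map_pow, eps2_apply, act_mk0]
  refine ⟨(ClassGroup.mk0 J0)⁻¹, ?_⟩
  rw [inv_pow, eq_inv_iff_mul_eq_one, ← h2, h1]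

/-- W4 + W7a ⟹ `ε₂ Cl ⊆ Cl^p`. -/
theorem eps2_mem_pow {ζ : K} (hζ : IsPrimitiveRoot ζ p)
    (hThaine : ∀ (𝔩 : Ideal (𝓞 K)) [𝔩.IsPrime], (Ideal.absNorm 𝔩).Prime → (p : 𝓞 K) ∉ 𝔩 →
      (¬ ∃ x : 𝓞 K, x ^ p - etaInt hζ ∈ 𝔩) →
      ∃ (J : Ideal (𝓞 K)) (δ : 𝓞 K), δ ≠ 0 ∧
        (∏ σ : K ≃ₐ[ℚ] K, (𝔩.map (galRestrict ℤ ℚ K (𝓞 K) σ)) ^ expInvSq hζ σ) * J ^ p =
          Ideal.span {δ})
    (hGood : ∀ U : Subgroup (ClassGroup (𝓞 K)), U ≠ ⊤ →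
      ∃ 𝔩 : (Ideal (𝓞 K))⁰, (𝔩 : Ideal (𝓞 K)).IsPrime ∧
        (Ideal.absNorm (𝔩 : Ideal (𝓞 K))).Prime ∧ (p : 𝓞 K) ∉ (𝔩 : Ideal (𝓞 K)) ∧
        (¬ ∃ x : 𝓞 K, x ^ p - etaInt hζ ∈ (𝔩 : Ideal (𝓞 K))) ∧ ClassGroup.mk0 𝔩 ∉ U)
    (c : ClassGroup (𝓞 K)) : ∃ d : ClassGroup (𝓞 K), eps2 hζ c = d ^ p := by
  let U : Subgroup (ClassGroup (𝓞 K)) :=
    (powMonoidHom p : ClassGroup (𝓞 K) →* ClassGroup (𝓞 K)).range.comap (eps2 hζ)
  have hU : U = ⊤ := by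
    by_contra hne
    obtain ⟨𝔩, hprime, hnorm, hpl, hgood, hnot⟩ := hGood U hne
    have := hprime
    obtain ⟨d, hd⟩ := eps2_mk0_of_relation hζ 𝔩 (hThaine (𝔩 : Ideal (𝓞 K)) hnorm hpl hgood)
    exact hnot (Subgroup.mem_comap.mpr ⟨d, by rw [powMonoidHom_apply, hd]⟩)
  have hc : c ∈ U := hU ▸ Subgroup.mem_top c
  obtain ⟨d, hd⟩ := Subgroup.mem_comap.mp hc
  exact ⟨d, by rw [← hd, powMonoidHom_apply]⟩

/-- `Gal(K/ℚ)` has `p - 1` elements. -/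
theorem card_gal [IsCyclotomicExtension {p} ℚ K] : Fintype.card (K ≃ₐ[ℚ] K) = p - 1 := by
  have : NeZero p := ⟨(Fact.out : p.Prime).ne_zero⟩
  have : IsGalois ℚ K := IsCyclotomicExtension.isGalois ({p} : Set ℕ) ℚ K
  rw [← Nat.card_eq_fintype_card, IsGalois.card_aut_eq_finrank,
    IsCyclotomicExtension.Rat.finrank p K, Nat.totient_prime Fact.out]

/-- `∑_σ χ(σ)² m_σ ≡ -1 mod p`. -/
theorem sum_exp_add_one_dvd [IsCyclotomicExtension {p} ℚ K] {ζ : K} (hζ : IsPrimitiveRoot ζ p) :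
    p ∣ (∑ σ : K ≃ₐ[ℚ] K,
      (((hζ.autToPow ℚ σ : (ZMod p)ˣ) : ZMod p).val) ^ 2 * expInvSq hζ σ) + 1 := by
  have hp : p.Prime := Fact.out
  have : NeZero p := ⟨hp.ne_zero⟩
  rw [← ZMod.natCast_eq_zero_iff]
  push_cast
  have h1 : ∀ σ : K ≃ₐ[ℚ] K,
      ((((hζ.autToPow ℚ σ : (ZMod p)ˣ) : ZMod p).val : ℕ) : ZMod p) ^ 2 *
        ((expInvSq hζ σ : ℕ) : ZMod p) = 1 := by
    intro σ
    rw [expInvSq, ZMod.natCast_zmod_val, ZMod.natCast_zmod_val, ← mul_pow, ← Units.val_mul,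
      mul_inv_cancel, Units.val_one, one_pow]
  rw [Finset.sum_congr rfl (fun σ _ => h1 σ), Finset.sum_const, Finset.card_univ, card_gal (p := p),
    nsmul_eq_mul, mul_one, Nat.cast_sub hp.one_le]
  simp

/-- The class of an ideal whose `p`-th power is generated by an `ω²`-eigenvector is an
`ω²`-eigenvector in the class group. -/
theorem act_class_of_eigen (I₀ : (Ideal (𝓞 K))⁰) (α : 𝓞 K) (hα : α ≠ 0)
    (hI₀ : (I₀ : Ideal (𝓞 K)) ^ p = Ideal.span {α}) (σ : K ≃ₐ[ℚ] K) (k : ℕ)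
    (h : ∃ c : K, σ (algebraMap (𝓞 K) K α) = (algebraMap (𝓞 K) K α) ^ (k ^ 2) * c ^ p) :
    act σ (ClassGroup.mk0 I₀) = (ClassGroup.mk0 I₀) ^ (k ^ 2) := by
  have hp0 : p ≠ 0 := (Fact.out : p.Prime).ne_zero
  obtain ⟨c, hc⟩ := h
  obtain ⟨u, v, hv, rfl⟩ := IsFractionRing.div_surjective (A := 𝓞 K) c
  have hv0 : v ≠ 0 := nonZeroDivisors.ne_zero hv
  have hv' : algebraMap (𝓞 K) K v ≠ 0 := by
    simpa using hv0
  have key : galRestrict ℤ ℚ K (𝓞 K) σ α * v ^ p = α ^ (k ^ 2) * u ^ p := by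
    apply FaithfulSMul.algebraMap_injective (𝓞 K) K
    rw [map_mul, map_mul, map_pow, map_pow, map_pow, algebraMap_galRestrict_apply, hc, div_pow,
      mul_assoc, div_mul_cancel₀ _ (pow_ne_zero p hv')]
  have hu0 : u ≠ 0 := by
    rintro rfl
    rw [zero_pow hp0, mul_zero] at key
    rcases mul_eq_zero.mp key with h | h
    · exact hα ((map_eq_zero_iff _ (galRestrict ℤ ℚ K (𝓞 K) σ).injective).mp h)
    · exact hv0 (pow_eq_zero_iff hp0 |>.mp h)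
  have h1 : ((I₀ : Ideal (𝓞 K)).map (galRestrict ℤ ℚ K (𝓞 K) σ) * Ideal.span {v}) ^ p =
      ((I₀ : Ideal (𝓞 K)) ^ (k ^ 2) * Ideal.span {u}) ^ p := by
    rw [mul_pow, mul_pow, ← Ideal.map_pow, hI₀, Ideal.map_span, Set.image_singleton,
      ← pow_mul, mul_comm (k ^ 2) p, pow_mul, hI₀, Ideal.span_singleton_pow,
      Ideal.span_singleton_pow, Ideal.span_singleton_pow, Ideal.span_singleton_mul_span_singleton,
      Ideal.span_singleton_mul_span_singleton, key]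
  have h2 := ideal_pow_left_inj hp0 h1
  let V : (Ideal (𝓞 K))⁰ :=
    ⟨Ideal.span {v}, mem_nonZeroDivisors_of_ne_zero (by simpa using hv0)⟩
  let U : (Ideal (𝓞 K))⁰ :=
    ⟨Ideal.span {u}, mem_nonZeroDivisors_of_ne_zero (by simpa using hu0)⟩
  have h3 : Ideal.mapNonZero (galRestrictionDatum ℤ ℚ K (𝓞 K) σ) I₀ * V = I₀ ^ (k ^ 2) * U :=
    Subtype.ext (by
      simp only [Submonoid.coe_mul, SubmonoidClass.coe_pow, coe_mapNonZero, V, U]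
      exact h2)
  have h4 := congrArg ClassGroup.mk0 h3
  rw [map_mul, map_mul, map_pow, ← act_mk0, (ClassGroup.mk0_eq_one_iff V.2).mpr ⟨v, rfl⟩,
    (ClassGroup.mk0_eq_one_iff U.2).mpr ⟨u, rfl⟩, mul_one, mul_one] at h4
  exact h4

omit [Fact (Nat.Prime p)] in
/-- Replace a fractional ideal by an integral one. -/
theorem exists_integral_model (I : FractionalIdeal (𝓞 K)⁰ K) (A : K) (hA : A ≠ 0)
    (hI : FractionalIdeal.spanSingleton (𝓞 K)⁰ A = I ^ p) :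
    ∃ (a : 𝓞 K) (I₀ : Ideal (𝓞 K)) (α : 𝓞 K), a ≠ 0 ∧ α ≠ 0 ∧
      I = FractionalIdeal.spanSingleton (𝓞 K)⁰ (algebraMap (𝓞 K) K a)⁻¹ * I₀ ∧
      algebraMap (𝓞 K) K α = (algebraMap (𝓞 K) K a) ^ p * A ∧ I₀ ^ p = Ideal.span {α} := by
  obtain ⟨a, I₀, ha, hII₀⟩ := FractionalIdeal.exists_eq_spanSingleton_mul I
  have ha' : algebraMap (𝓞 K) K a ≠ 0 := by
    simpa using ha
  have h1 : (I₀ : FractionalIdeal (𝓞 K)⁰ K) =
      FractionalIdeal.spanSingleton (𝓞 K)⁰ (algebraMap (𝓞 K) K a) * I := by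
    rw [hII₀, ← mul_assoc, FractionalIdeal.spanSingleton_mul_spanSingleton, mul_inv_cancel₀ ha',
      FractionalIdeal.spanSingleton_one, one_mul]
  have h2 : ((I₀ ^ p : Ideal (𝓞 K)) : FractionalIdeal (𝓞 K)⁰ K) =
      FractionalIdeal.spanSingleton (𝓞 K)⁰ ((algebraMap (𝓞 K) K a) ^ p * A) := by
    rw [FractionalIdeal.coeIdeal_pow, h1, mul_pow, ← hI, FractionalIdeal.spanSingleton_pow,
      FractionalIdeal.spanSingleton_mul_spanSingleton]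
  have h3 : (algebraMap (𝓞 K) K a) ^ p * A ∈
      ((I₀ ^ p : Ideal (𝓞 K)) : FractionalIdeal (𝓞 K)⁰ K) := by
    rw [h2]
    exact FractionalIdeal.mem_spanSingleton_self _ _
  obtain ⟨α, -, hα⟩ := (FractionalIdeal.mem_coeIdeal _).mp h3
  refine ⟨a, I₀, α, ha, ?_, hII₀, hα, ?_⟩
  · rintro rfl
    rw [map_zero] at hα
    exact (mul_ne_zero (pow_ne_zero p ha') hA) hα.symm
  · have h4 : ((I₀ ^ p : Ideal (𝓞 K)) : FractionalIdeal (𝓞 K)⁰ K) =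
        ((Ideal.span {α} : Ideal (𝓞 K)) : FractionalIdeal (𝓞 K)⁰ K) := by
      rw [h2, ← hα, FractionalIdeal.coeIdeal_span_singleton]
    exact FractionalIdeal.coeIdeal_injective h4

/-- **W7b** with W4 (`thaine_relation`) and W7a (`exists_good_prime`) as hypotheses. -/
theorem principal_of_pow_eigen_of [IsCyclotomicExtension {p} ℚ K] {ζ : K}
    (hζ : IsPrimitiveRoot ζ p)
    (hThaine : ∀ (𝔩 : Ideal (𝓞 K)) [𝔩.IsPrime], (Ideal.absNorm 𝔩).Prime → (p : 𝓞 K) ∉ 𝔩 →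
      (¬ ∃ x : 𝓞 K, x ^ p - etaInt hζ ∈ 𝔩) →
      ∃ (J : Ideal (𝓞 K)) (δ : 𝓞 K), δ ≠ 0 ∧
        (∏ σ : K ≃ₐ[ℚ] K, (𝔩.map (galRestrict ℤ ℚ K (𝓞 K) σ)) ^ expInvSq hζ σ) * J ^ p =
          Ideal.span {δ})
    (hGood : ∀ U : Subgroup (ClassGroup (𝓞 K)), U ≠ ⊤ →
      ∃ 𝔩 : (Ideal (𝓞 K))⁰, (𝔩 : Ideal (𝓞 K)).IsPrime ∧
        (Ideal.absNorm (𝔩 : Ideal (𝓞 K))).Prime ∧ (p : 𝓞 K) ∉ (𝔩 : Ideal (𝓞 K)) ∧
        (¬ ∃ x : 𝓞 K, x ^ p - etaInt hζ ∈ (𝔩 : Ideal (𝓞 K))) ∧ ClassGroup.mk0 𝔩 ∉ U)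
    (I : FractionalIdeal (𝓞 K)⁰ K) (A : K) (hA : A ≠ 0)
    (hI : FractionalIdeal.spanSingleton (𝓞 K)⁰ A = I ^ p) (heig : EigenSq p ζ A) :
    ∃ a₀ : K, I = FractionalIdeal.spanSingleton (𝓞 K)⁰ a₀ := by
  have hp : p.Prime := Fact.out
  have hp0 : p ≠ 0 := hp.ne_zero
  have : NeZero p := ⟨hp0⟩
  obtain ⟨a, I₀, α, ha, hα0, hII₀, hα, hI₀⟩ := exists_integral_model I A hA hI
  have ha' : algebraMap (𝓞 K) K a ≠ 0 := by
    simpa using ha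
  have hI₀0 : I₀ ≠ ⊥ := by
    rintro rfl
    rw [← Ideal.zero_eq_bot, zero_pow hp0] at hI₀
    exact hα0 (Ideal.span_singleton_eq_bot.mp hI₀.symm)
  let I₀' : (Ideal (𝓞 K))⁰ := ⟨I₀, mem_nonZeroDivisors_of_ne_zero hI₀0⟩
  have hI₀' : (I₀' : Ideal (𝓞 K)) ^ p = Ideal.span {α} := hI₀
  set y := ClassGroup.mk0 I₀' with hy
  have hyp : y ^ p = 1 := by
    rw [hy, ← map_pow]
    exact (ClassGroup.mk0_eq_one_iff (I₀' ^ p).2).mpr
      ⟨α, by rw [SubmonoidClass.coe_pow]; exact hI₀⟩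
  have heigα : ∀ (σ : K ≃ₐ[ℚ] K) (k : ℕ), σ ζ = ζ ^ k →
      ∃ c : K, σ (algebraMap (𝓞 K) K α) = (algebraMap (𝓞 K) K α) ^ (k ^ 2) * c ^ p := by
    intro σ k hk
    obtain ⟨c, hc⟩ := heig σ k hk
    refine ⟨σ (algebraMap (𝓞 K) K a) * c / (algebraMap (𝓞 K) K a) ^ (k ^ 2), ?_⟩
    have hne : (algebraMap (𝓞 K) K a) ^ (k ^ 2) ≠ 0 := pow_ne_zero _ ha'
    rw [hα, map_mul, map_pow, hc, div_pow, mul_pow ((algebraMap (𝓞 K) K a) ^ p) A,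
      ← pow_mul, mul_comm p (k ^ 2), pow_mul (algebraMap (𝓞 K) K a) (k ^ 2) p,
      mul_pow (σ (algebraMap (𝓞 K) K a)) c]
    field_simp
  have hact : ∀ σ : K ≃ₐ[ℚ] K,
      act σ y = y ^ ((((hζ.autToPow ℚ σ : (ZMod p)ˣ) : ZMod p).val) ^ 2) := fun σ =>
    act_class_of_eigen I₀' α hα0 hI₀' σ _ (heigα σ _ (hζ.autToPow_spec ℚ σ).symm)
  have hE : eps2 hζ y * y = 1 := by
    rw [eps2_apply]
    simp_rw [hact, ← pow_mul]
    rw [Finset.prod_pow_eq_pow_sum, ← pow_succ]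
    obtain ⟨t, ht⟩ := sum_exp_add_one_dvd hζ
    rw [ht, pow_mul, hyp, one_pow]
  have hall : ∀ i : ℕ, ∃ z, y = z ^ (p ^ i) := by
    intro i
    induction i with
    | zero => exact ⟨y, by simp⟩
    | succ i ih =>
      obtain ⟨z, hz⟩ := ih
      obtain ⟨d, hd⟩ := eps2_mem_pow hζ hThaine hGood z
      refine ⟨d⁻¹, ?_⟩
      have h6 : eps2 hζ y = d ^ (p ^ (i + 1)) := by
        rw [hz, map_pow, hd, ← pow_mul, pow_succ']
      rw [inv_pow, ← h6]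
      exact eq_inv_of_mul_eq_one_right hE
  have hy1 : y = 1 := eq_one_of_forall_pow hp y hyp hall
  obtain ⟨g, hg⟩ := (ClassGroup.mk0_eq_one_iff I₀'.2).mp hy1
  have hg' : I₀ = Ideal.span {g} := hg
  refine ⟨(algebraMap (𝓞 K) K a)⁻¹ * algebraMap (𝓞 K) K g, ?_⟩
  rw [hII₀, ← FractionalIdeal.spanSingleton_mul_spanSingleton,
    ← FractionalIdeal.coeIdeal_span_singleton, hg']

end cyclo

end W7b8084

end Fermat.Agent.S14
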