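/-
S14 package W7c (helper5411): a unit which is an `ω²`-eigenvector modulo `p`-th powers and locally
a `p`-th power at `λ` is a `p`-th power.  Glue of W6a (`isUnit_etaInt`), W6b (`etaK_eigenSq`),
W6c (`dvd_of_localPow_etaK_pow`), W6d (`unit_eigen_dependent`) and W6e (`LocalPow.pow`), which are
taken as explicit hypotheses, so this file only depends on `Defs.lean`.
-/
import Fermat.Agent.S14.Defs

set_option autoImplicit false

namespace Fermat.Agent.S14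

open NumberField
open scoped nonZeroDivisors

/-- `LocalPow` only depends on the class modulo `p`-th powers (self-contained). -/
theorem W7c.localPow_of_mul_pow (p : ℕ) {K : Type*} [Field K] [NumberField K] (ζ : K) (A w : K)
    (hw : w ≠ 0) (h : LocalPow p ζ (A * w ^ p)) : LocalPow p ζ A := by
  obtain ⟨y, a, b, hy, ha, hb, hnd, heq⟩ := h
  refine ⟨w * y, a, b, mul_ne_zero hw hy, ha, hb, hnd, ?_⟩
  rw [← heq]
  congr 2
  rw [mul_pow, mul_assoc]

/-- In a commutative group, an element whose `a`-th power is a `p`-th power, with `a` prime to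
`p`, is a `p`-th power. -/
theorem W7c.exists_eq_pow_of_coprime {G : Type*} [CommGroup G] {a p : ℕ} (h : Nat.Coprime a p)
    (u w : G) (hw : u ^ a = w ^ p) : ∃ v : G, u = v ^ p := by
  refine ⟨w ^ (Nat.gcdA a p) * u ^ (Nat.gcdB a p), ?_⟩
  have h1 : (1 : ℤ) = a * Nat.gcdA a p + p * Nat.gcdB a p := by
    have := Nat.gcd_eq_gcd_ab a p
    rw [h] at this
    exact_mod_cast this
  calc u = u ^ (1 : ℤ) := (zpow_one u).symm
    _ = u ^ ((a : ℤ) * Nat.gcdA a p + p * Nat.gcdB a p) := by rw [← h1]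
    _ = (u ^ a) ^ (Nat.gcdA a p) * (u ^ (Nat.gcdB a p)) ^ p := by
        rw [zpow_add, zpow_mul, zpow_natCast, mul_comm (p : ℤ), zpow_mul, zpow_natCast]
    _ = (w ^ (Nat.gcdA a p) * u ^ (Nat.gcdB a p)) ^ p := by
        rw [hw, mul_pow, ← zpow_natCast (w ^ Nat.gcdA a p) p, ← zpow_mul, ← zpow_natCast w p,
          ← zpow_mul, mul_comm (p : ℤ)]

/-- **W7c**, with W6a–W6e as hypotheses. -/
theorem unit_isPow_of_eigen_local_of {p : ℕ} [Fact p.Prime] {K : Type*} [Field K] [NumberField K]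
    {ζ : K} (hζ : IsPrimitiveRoot ζ p)
    (hW6a : IsUnit (etaInt hζ))
    (hW6b : EigenSq p ζ (etaK p ζ))
    (hW6c : ∀ j : ℕ, LocalPow p ζ (etaK p ζ ^ j) → p ∣ j)
    (hW6d : ∀ u₁ u₂ : (𝓞 K)ˣ, EigenSq p ζ ((u₁ : 𝓞 K) : K) → EigenSq p ζ ((u₂ : 𝓞 K) : K) →
      ∃ (a b : ℕ) (v : (𝓞 K)ˣ), ¬ (p ∣ a ∧ p ∣ b) ∧ u₁ ^ a * u₂ ^ b = v ^ p)
    (hW6e : ∀ A : K, LocalPow p ζ A → ∀ n : ℕ, LocalPow p ζ (A ^ n))
    (u : (𝓞 K)ˣ) (heig : EigenSq p ζ ((u : 𝓞 K) : K)) (hloc : LocalPow p ζ ((u : 𝓞 K) : K)) :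
    ∃ v : (𝓞 K)ˣ, u = v ^ p := by
  have hp : p.Prime := Fact.out
  -- `η` as a unit
  obtain ⟨η, hη⟩ := hW6a
  have hηK : ((η : 𝓞 K) : K) = etaK p ζ := by rw [hη, coe_etaInt]
  obtain ⟨a, b, v, hab, hv⟩ := hW6d u η heig (by rw [hηK]; exact hW6b)
  -- the relation in `K`
  have hvK : ((u : 𝓞 K) : K) ^ a * etaK p ζ ^ b = ((v : 𝓞 K) : K) ^ p := by
    have h1 := congrArg (fun x : (𝓞 K)ˣ => ((x : 𝓞 K) : K)) hv
    simp only [Units.val_mul, Units.val_pow_eq_pow_val, map_mul, map_pow] at h1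
    have hηK' : algebraMap (𝓞 K) K (η : 𝓞 K) = etaK p ζ := hηK
    rw [hηK'] at h1
    exact h1
  have hη0 : etaK p ζ ≠ 0 := by
    rw [← hηK]
    exact_mod_cast η.ne_zero
  have hv0 : ((v : 𝓞 K) : K) ≠ 0 := by exact_mod_cast v.ne_zero
  -- `u ^ a = η ^ (b (p - 1)) * (v / η ^ b) ^ p`
  have h2 : ((u : 𝓞 K) : K) ^ a = etaK p ζ ^ (b * (p - 1)) * (((v : 𝓞 K) : K) / etaK p ζ ^ b) ^ p := by
    have h3 : ((u : 𝓞 K) : K) ^ a = ((v : 𝓞 K) : K) ^ p / etaK p ζ ^ b :=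
      eq_div_of_mul_eq (pow_ne_zero b hη0) hvK
    rw [h3, div_pow, ← pow_mul]
    have h4 : b * p = b * (p - 1) + b := by
      have : p = (p - 1) + 1 := (Nat.sub_add_cancel hp.one_le).symm
      conv_lhs => rw [this]
      ring
    rw [h4, pow_add]
    field_simp
  have h5 : LocalPow p ζ (etaK p ζ ^ (b * (p - 1))) := by
    apply W7c.localPow_of_mul_pow p ζ _ (((v : 𝓞 K) : K) / etaK p ζ ^ b)
      (div_ne_zero hv0 (pow_ne_zero b hη0))
    rw [← h2]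
    exact hW6e _ hloc a
  have h6 : p ∣ b := by
    have h7 := hW6c _ h5
    rcases (Nat.Prime.dvd_mul hp).mp h7 with h8 | h8
    · exact h8
    · exfalso
      have h9 : p ≤ p - 1 := Nat.le_of_dvd (Nat.sub_pos_of_lt hp.one_lt) h8
      have := hp.one_le
      omega
  have ha : ¬ p ∣ a := fun h => hab ⟨h, h6⟩
  obtain ⟨b', rfl⟩ := h6
  have hcop : Nat.Coprime a p := (Nat.Coprime.symm ((Nat.Prime.coprime_iff_not_dvd hp).mpr ha))
  apply W7c.exists_eq_pow_of_coprime hcop u (v * (η⁻¹) ^ b')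
  rw [mul_pow, ← hv, ← pow_mul, inv_pow, mul_comm b' p]
  rw [mul_assoc, mul_inv_cancel, mul_one]

end Fermat.Agent.S14
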