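/-
S14 package W7d (helper5411): arithmetic core for `p ≥ 5`, glue of W7b (`principal_of_pow_eigen`)
and W7c (`unit_isPow_of_eigen_local`).  The two inputs are taken as explicit hypotheses, so this
file only depends on `Defs.lean`.
-/
import Fermat.Agent.S14.Defs

set_option autoImplicit false

namespace Fermat.Agent.S14

open NumberField
open scoped nonZeroDivisors

/-- `LocalPow` only depends on the class modulo `p`-th powers (one direction, self-contained). -/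
theorem W7d.localPow_mul_pow (p : ℕ) {K : Type*} [Field K] [NumberField K] (ζ : K) (A w : K)
    (hw : w ≠ 0) (h : LocalPow p ζ A) : LocalPow p ζ (A * w ^ p) := by
  obtain ⟨y, a, b, hy, ha, hb, hnd, heq⟩ := h
  refine ⟨y / w, a, b, div_ne_zero hy hw, ha, hb, hnd, ?_⟩
  rw [← heq]
  congr 2
  rw [div_pow, mul_assoc, mul_div_cancel₀ _ (pow_ne_zero p hw)]

/-- **W7d**, with W7b and W7c as hypotheses: a singular element `A` (an `ω²`-eigenvector modulo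
`p`-th powers, generating the `p`-th power of an ideal, locally a `p`-th power at `λ`) is a `p`-th
power. -/
theorem isPow_of_isSingular_of {p : ℕ} [Fact p.Prime] {K : Type*} [Field K] [NumberField K] {ζ : K}
    (hW7b : ∀ (I : FractionalIdeal (𝓞 K)⁰ K) (A : K), A ≠ 0 →
      FractionalIdeal.spanSingleton (𝓞 K)⁰ A = I ^ p → EigenSq p ζ A →
      ∃ a₀ : K, I = FractionalIdeal.spanSingleton (𝓞 K)⁰ a₀)
    (hW7c : ∀ u : (𝓞 K)ˣ, EigenSq p ζ ((u : 𝓞 K) : K) → LocalPow p ζ ((u : 𝓞 K) : K) →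
      ∃ v : (𝓞 K)ˣ, u = v ^ p)
    {A : K} (hA : IsSingular p ζ A) : ∃ c : K, A = c ^ p := by
  have hp0 : p ≠ 0 := (Fact.out : p.Prime).ne_zero
  obtain ⟨I, hI⟩ := hA.pow_ideal
  obtain ⟨a₀, ha₀⟩ := hW7b I A hA.ne_zero hI hA.eigen
  rw [ha₀, FractionalIdeal.spanSingleton_pow] at hI
  obtain ⟨u, hu⟩ := FractionalIdeal.spanSingleton_eq_spanSingleton.mp hI.symm
  -- `hu : u • a₀ ^ p = A`
  have hu' : ((u : 𝓞 K) : K) * a₀ ^ p = A := by
    rw [← hu]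
    rfl
  have ha₀0 : a₀ ≠ 0 := by
    intro h0
    exact hA.ne_zero (by rw [← hu', h0, zero_pow hp0, mul_zero])
  have hueq : ((u : 𝓞 K) : K) = A * (a₀⁻¹) ^ p := by
    rw [← hu', inv_pow, mul_assoc, mul_inv_cancel₀ (pow_ne_zero p ha₀0), mul_one]
  have heig : EigenSq p ζ ((u : 𝓞 K) : K) := by
    intro σ k hσ
    obtain ⟨c, hc⟩ := hA.eigen σ k hσ
    refine ⟨a₀ ^ (k ^ 2) * c / σ a₀, ?_⟩
    have hσa : σ a₀ ≠ 0 := by
      intro h0
      exact ha₀0 (by simpa using h0)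
    rw [hueq, map_mul, map_pow, map_inv₀, hc]
    have e : (a₀⁻¹ ^ p) ^ (k ^ 2) * (a₀ ^ (k ^ 2)) ^ p = 1 := by
      rw [← pow_mul, ← pow_mul, mul_comm p, ← mul_pow, inv_mul_cancel₀ ha₀0, one_pow]
    calc A ^ k ^ 2 * c ^ p * (σ a₀)⁻¹ ^ p
        = A ^ k ^ 2 * c ^ p * (σ a₀)⁻¹ ^ p * ((a₀⁻¹ ^ p) ^ (k ^ 2) * (a₀ ^ (k ^ 2)) ^ p) := by
          rw [e, mul_one]
      _ = (A * a₀⁻¹ ^ p) ^ k ^ 2 * (a₀ ^ k ^ 2 * c / σ a₀) ^ p := by
          rw [mul_pow, div_pow, mul_pow, div_eq_mul_inv, ← inv_pow]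
          ring
  have hloc : LocalPow p ζ ((u : 𝓞 K) : K) := by
    rw [hueq]
    exact W7d.localPow_mul_pow p ζ A a₀⁻¹ (inv_ne_zero ha₀0) hA.localPow
  obtain ⟨v, hv⟩ := hW7c u heig hloc
  refine ⟨((v : 𝓞 K) : K) * a₀, ?_⟩
  rw [← hu', hv, mul_pow]
  rfl

end Fermat.Agent.S14
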