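/-
S14 package W7e (helper5471): arithmetic core for `p = 3`.
`ℤ[ζ₃]` is a PID with units `±ζ^j`; a singular element is a cube.
-/
import Fermat.Agent.S14.Defs

set_option autoImplicit false

namespace Fermat.Agent.S14

open NumberField
open scoped nonZeroDivisors

namespace W7e

/-- There is an automorphism of `ℚ(ζ₃)` sending `ζ` to `ζ²`. -/
theorem exists_conj {K : Type*} [Field K] [NumberField K] [IsCyclotomicExtension {3} ℚ K]
    {ζ : K} (hζ : IsPrimitiveRoot ζ 3) : ∃ σ : K ≃ₐ[ℚ] K, σ ζ = ζ ^ 2 := by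
  refine ⟨(IsCyclotomicExtension.Rat.galEquivZMod 3 K).symm (-1), ?_⟩
  rw [IsCyclotomicExtension.Rat.galEquivZMod_apply_of_pow_eq 3 K _ hζ.pow_eq_one,
    MulEquiv.apply_symm_apply]
  rfl

/-- Every unit of `ℤ[ζ₃]` is of the form `ζ^j · w³` in `K`. -/
theorem unit_eq_zeta_pow_mul_cube {K : Type*} [Field K] [NumberField K]
    [IsCyclotomicExtension {3} ℚ K] {ζ : K} (hζ : IsPrimitiveRoot ζ 3) (u : (𝓞 K)ˣ) :
    ∃ (j : ℕ) (w : K), ((u : 𝓞 K) : K) = ζ ^ j * w ^ 3 := by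
  have hmem := IsCyclotomicExtension.Rat.Three.Units.mem hζ u
  have hη : (((IsPrimitiveRoot.isUnit (hζ.toInteger_isPrimitiveRoot) (by decide)).unit :
      (𝓞 K)ˣ) : 𝓞 K) = hζ.toInteger := rfl
  have hcoe : algebraMap (𝓞 K) K hζ.toInteger = ζ := rfl
  simp only [List.mem_cons, List.not_mem_nil, or_false] at hmem
  rcases hmem with h | h | h | h | h | h
  · exact ⟨0, 1, by rw [h]; simp⟩
  · exact ⟨0, -1, by rw [h]; simp; norm_num⟩
  · exact ⟨1, 1, by rw [h, hη]; simpa using hcoe⟩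
  · refine ⟨1, -1, ?_⟩
    rw [h, Units.val_neg, hη]
    have : algebraMap (𝓞 K) K (-hζ.toInteger) = ζ ^ 1 * (-1) ^ 3 := by
      rw [map_neg, hcoe]; ring
    exact this
  · refine ⟨2, 1, ?_⟩
    rw [h, Units.val_pow_eq_pow_val, hη]
    have : algebraMap (𝓞 K) K (hζ.toInteger ^ 2) = ζ ^ 2 * 1 ^ 3 := by
      rw [map_pow, hcoe]; ring
    exact this
  · refine ⟨2, -1, ?_⟩
    rw [h, Units.val_neg, Units.val_pow_eq_pow_val, hη]
    have : algebraMap (𝓞 K) K (-hζ.toInteger ^ 2) = ζ ^ 2 * (-1) ^ 3 := by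
      rw [map_neg, map_pow, hcoe]; ring
    exact this

end W7e

/-- **W7e** arithmetic core for `p = 3` (`ℤ[ζ₃]` is a PID with units `±ζ^j`). -/
theorem isPow_of_isSingular_three {K : Type*} [Field K]
    [NumberField K] [IsCyclotomicExtension {3} ℚ K] {ζ : K} (hζ : IsPrimitiveRoot ζ 3) {A : K}
    (hA : IsSingular 3 ζ A) : ∃ c : K, A = c ^ 3 := by
  have : IsPrincipalIdealRing (𝓞 K) := IsCyclotomicExtension.Rat.three_pid K
  obtain ⟨I, hI⟩ := hA.pow_ideal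
  -- `I` is principal
  have hIp : I = FractionalIdeal.spanSingleton (𝓞 K)⁰
      (Submodule.IsPrincipal.generator (I : Submodule (𝓞 K) K)) :=
    FractionalIdeal.eq_spanSingleton_of_principal I
  set a₀ : K := Submodule.IsPrincipal.generator (I : Submodule (𝓞 K) K) with ha₀
  rw [hIp, FractionalIdeal.spanSingleton_pow] at hI
  -- `A = u • a₀³` for a unit `u`
  obtain ⟨u, hu⟩ := (FractionalIdeal.spanSingleton_eq_spanSingleton (S := (𝓞 K)⁰)).mp hI.symm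
  have hAu : A = ((u : 𝓞 K) : K) * a₀ ^ 3 := by
    rw [← hu]; rfl
  obtain ⟨j, w, hw⟩ := W7e.unit_eq_zeta_pow_mul_cube hζ u
  -- `A = ζ^j * b³`
  set b : K := w * a₀ with hb
  have hAb : A = ζ ^ j * b ^ 3 := by
    rw [hAu, hw, hb]; ring
  have hb0 : b ≠ 0 := by
    intro h0
    apply hA.ne_zero
    rw [hAb, h0]; simp
  have hζ0 : ζ ≠ 0 := hζ.ne_zero (by decide)
  -- use the eigen-property for the conjugation `ζ ↦ ζ²`
  obtain ⟨σ, hσ⟩ := W7e.exists_conj hζ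
  obtain ⟨c, hc⟩ := hA.eigen σ 2 hσ
  have hσb : σ b ≠ 0 := by
    simpa using hb0
  have hζ3 : ζ ^ 3 = 1 := hζ.pow_eq_one
  -- `ζ^j` is a cube
  have hcube : ζ ^ j = (ζ ^ j * b ^ 4 * c / σ b) ^ 3 := by
    have h1 : σ A = (ζ ^ 2) ^ j * (σ b) ^ 3 := by
      rw [hAb, map_mul, map_pow, map_pow, hσ]
    have h2 : (ζ ^ 2) ^ j * (σ b) ^ 3 = (ζ ^ j * b ^ 3) ^ (2 ^ 2) * c ^ 3 := by
      rw [← h1, hc, hAb]
    have h3 : (ζ ^ j) ^ 3 = 1 := by
      rw [← pow_mul, mul_comm, pow_mul, hζ3, one_pow]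
    rw [div_pow, eq_div_iff (pow_ne_zero 3 hσb)]
    have h4 : (ζ ^ j * b ^ 4 * c) ^ 3 = (ζ ^ j) ^ 3 * ((ζ ^ j * b ^ 3) ^ (2 ^ 2) * c ^ 3) / (ζ ^ j) ^ 4 := by
      field_simp
      ring
    rw [h4, ← h2, h3]
    have h5 : (ζ ^ j) ^ 4 = ζ ^ j := by
      calc (ζ ^ j) ^ 4 = (ζ ^ j) ^ 3 * ζ ^ j := by ring
        _ = ζ ^ j := by rw [h3, one_mul]
    rw [h5, one_mul, eq_div_iff (pow_ne_zero j hζ0)]
    ring
  exact ⟨ζ ^ j * b ^ 4 * c / σ b * b, by rw [mul_pow, ← hcube, hAb]⟩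

end Fermat.Agent.S14
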