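/-
S14 assembly (integration by helper5411) on the skeleton of helper494 (commit 7b5b7b067):
`extVanishingCts` from the work packages W1 … W7e (all sorry-free; providers in `BOARD_S14.md`).
-/
import Fermat.Agent.S14.Defs
import Fermat.Agent.S14.W1
import Fermat.Agent.S14.W2a
import Fermat.Agent.S14.W2b
import Fermat.Agent.S14.W2c
import Fermat.Agent.S14.W3a
import Fermat.Agent.S14.W3b
import Fermat.Agent.S14.W4
import Fermat.Agent.S14.W5a
import Fermat.Agent.S14.W5b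
import Fermat.Agent.S14.W5c
import Fermat.Agent.S14.W5d
import Fermat.Agent.S14.W5e
import Fermat.Agent.S14.W5f
import Fermat.Agent.S14.W6a
import Fermat.Agent.S14.W6b
import Fermat.Agent.S14.W6c
import Fermat.Agent.S14.W6d
import Fermat.Agent.S14.W6e
import Fermat.Agent.S14.W7a
import Fermat.Agent.S14.W7b
import Fermat.Agent.S14.W7c
import Fermat.Agent.S14.W7d
import Fermat.Agent.S14.W7e

set_option autoImplicit false

namespace Fermat.Agent.S14

open ExtCitation NumberField IsDedekindDomain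
open scoped nonZeroDivisors

/-- **W5d** -/
theorem sieve_bound (F : Type*) [Field F] [NumberField F] (U : Subgroup (ClassGroup (𝓞 F)))
    (hU : U ≠ ⊤) :
    ∃ B : ℝ, ∀ s : ℝ, 1 < s → s ≤ 2 → ∀ M : ℝ,
      (∀ S : Finset (HeightOneSpectrum (𝓞 F)),
        (∀ v ∈ S, ClassGroup.mk0 ⟨v.asIdeal, mem_nonZeroDivisors_of_ne_zero v.ne_bot⟩ ∉ U) →
        ∑ v ∈ S, (Ideal.absNorm v.asIdeal : ℝ) ^ (-s) ≤ M) →
      idealZeta F s ≤ B * Real.exp (3 * M) :=
  W5d.sieve_bound_of F (partialZeta_sub_bounded F) (fun _ hs => summable_absNorm_rpow F hs) U hU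

/-- **W7a** -/
theorem exists_good_prime {p : ℕ} [Fact p.Prime] (h5 : 5 ≤ p) {K : Type*} [Field K]
    [NumberField K] [IsCyclotomicExtension {p} ℚ K] {ζ : K} (hζ : IsPrimitiveRoot ζ p)
    (U : Subgroup (ClassGroup (𝓞 K))) (hU : U ≠ ⊤) :
    ∃ 𝔩 : (Ideal (𝓞 K))⁰, (𝔩 : Ideal (𝓞 K)).IsPrime ∧
      (Ideal.absNorm (𝔩 : Ideal (𝓞 K))).Prime ∧ (p : 𝓞 K) ∉ (𝔩 : Ideal (𝓞 K)) ∧
      (¬ ∃ x : 𝓞 K, x ^ p - etaInt hζ ∈ (𝔩 : Ideal (𝓞 K))) ∧ ClassGroup.mk0 𝔩 ∉ U :=
  exists_good_prime_of h5 hζ (idealZeta_bounds K) (fun U hU => sieve_bound K U hU)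
    (fun u hu => sum_split_primes_le (by omega) hζ u hu) (sum_higher_degree_primes_le K)
    (isUnit_etaInt (by omega) hζ) (fun _ h => dvd_of_localPow_etaK_pow h5 hζ h) U hU

/-- **W7c** -/
theorem unit_isPow_of_eigen_local {p : ℕ} [Fact p.Prime] (h5 : 5 ≤ p) {K : Type*} [Field K]
    [NumberField K] [IsCyclotomicExtension {p} ℚ K] {ζ : K} (hζ : IsPrimitiveRoot ζ p)
    (u : (𝓞 K)ˣ) (heig : EigenSq p ζ ((u : 𝓞 K) : K)) (hloc : LocalPow p ζ ((u : 𝓞 K) : K)) :
    ∃ v : (𝓞 K)ˣ, u = v ^ p :=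
  unit_isPow_of_eigen_local_of hζ (isUnit_etaInt (by omega) hζ) (etaK_eigenSq (by omega) hζ)
    (fun _ h => dvd_of_localPow_etaK_pow h5 hζ h)
    (fun u₁ u₂ h₁ h₂ => unit_eigen_dependent h5 hζ u₁ u₂ h₁ h₂)
    (fun _ hA n => LocalPow.pow (by omega) hζ hA n) u heig hloc

/-- **KEY**: the cocycle of an admissible extension vanishes on `G_K = ker χ`. -/
theorem cocycle_vanish {p : ℕ} [Fact p.Prime] (h3 : 3 ≤ p)
    {b : GQ → ZMod p} (hb : IsExtCocycle p b) : ∀ σ : GQ, cycloChar p σ = 1 → b σ = 0 := by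
  by_contra hcon
  push Not at hcon
  obtain ⟨σ₁, hσ₁, hbσ₁⟩ := hcon
  have hne : ∃ σ : GQ, cycloChar p σ = 1 ∧ b σ ≠ 0 := ⟨σ₁, hσ₁, hbσ₁⟩
  obtain ⟨α, hα⟩ := exists_kummerGen hb hne
  have hsing : IsSingular p (zetaK p) (⟨α ^ p, hα.pow_mem⟩ : Kp p) :=
    { ne_zero := by
        intro h0
        have : α ^ p = 0 := congrArg Subtype.val h0
        exact hα.ne_zero (pow_eq_zero_iff (Fact.out : p.Prime).ne_zero |>.mp this)
      eigen := kummerGen_eigen hb hα
      pow_ideal := kummerGen_pow_ideal h3 hb hα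
      localPow := kummerGen_localPow h3 hb hα }
  apply kummerGen_not_pow hb hne hα
  rcases Nat.lt_or_ge p 5 with h | h5
  · have hp : p.Prime := Fact.out
    have h3' : p = 3 := by
      interval_cases p
      · rfl
      · exact absurd hp (by decide)
    subst h3'
    exact isPow_of_isSingular_three (zetaK_spec 3) hsing
  · exact isPow_of_isSingular_of
      (fun I A hA hI he => W7b8084.principal_of_pow_eigen_of (zetaK_spec p)
        (fun 𝔩 _ h1 h2 h3 => thaine_relation h5 (zetaK_spec p) 𝔩 h1 h2 h3)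
        (fun U hU => exists_good_prime h5 (zetaK_spec p) U hU) I A hA hI he)
      (fun u he hl => unit_isPow_of_eigen_local h5 (zetaK_spec p) u he hl) hsing

/-- S14. -/
theorem extVanishingCts {p : ℕ} [Fact p.Prime] (h3 : 3 ≤ p) :
    ExtVanishingCts p := by
  intro V _ _ _ _ C hadm
  obtain ⟨b, hb, hsplit⟩ := exists_cocycle p V C hadm
  exact hsplit (cocycle_vanish h3 hb)

end Fermat.Agent.S14
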