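import Fermat.Agent.S14.W5c

set_option autoImplicit false

namespace Fermat.Agent.S14

open NumberField
open scoped nonZeroDivisors

/-- **W5b** summability of `∑ N𝔞^{-s}` for `s > 1`. -/
theorem summable_absNorm_rpow (F : Type*) [Field F] [NumberField F] {s : ℝ} (hs : 1 < s) :
    Summable fun I : (Ideal (𝓞 F))⁰ => (Ideal.absNorm (I : Ideal (𝓞 F)) : ℝ) ^ (-s) :=
  (W5c.summable_and_tsum F hs).1

end Fermat.Agent.S14
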